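import Fermat.Agent.LT.Geometric.Band
import Fermat.Agent.LT.Kernel.Periodic
import Mathlib.GroupTheory.GroupAction.Defs

/-!
# Mean zero along the unipotent fibres

If a finite sum of unipotent translates of `h` vanishes, with translations in the part `e • A_f`
cut out by a `σ`-fixed idempotent, then a hyperbolic twisted term sums to zero over every orbit of
that part.
-/

set_option autoImplicit false

noncomputable section

open scoped Matrix

namespace Fermat.Agent.LT.Geometric

variable {F : Type*} [Field F] [NumberField F]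

/-- The inverse of `unip u` is `unip (-u)`. -/
theorem unip_neg {R : Type*} [CommRing R] (u : R) : (unip (-u) : GL (Fin 2) R) = (unip u)⁻¹ :=
  AddChar.map_neg_eq_inv _ u

/-- The translations in the part cut out by `e`. -/
def lineGroup (e : FinAdele F) : Subgroup (GLFin F) where
  carrier := {g | ∃ u : FinAdele F, e * u = u ∧ g = unip u}
  one_mem' := ⟨0, mul_zero e, (AddChar.map_zero_eq_one _).symm⟩
  mul_mem' := by
    rintro _ _ ⟨u, hu, rfl⟩ ⟨u', hu', rfl⟩
    exact ⟨u + u', by rw [mul_add, hu, hu'], (unip_add u u').symm⟩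
  inv_mem' := by
    rintro _ ⟨u, hu, rfl⟩
    exact ⟨-u, (mul_neg e u).trans (congrArg Neg.neg hu), (AddChar.map_neg_eq_inv _ u).symm⟩

/-- The class of a coset under the translations. -/
def lineClass (e : FinAdele F) {U : Level F} (c : GLFin F ⧸ U.toSubgroup) :
    MulAction.orbitRel.Quotient (lineGroup e) (GLFin F ⧸ U.toSubgroup) :=
  Quotient.mk _ c

/-- Translating by `-u` undoes translating by `u`. -/
theorem unip_neg_smul {U : Level F} (u : FinAdele F) (c : GLFin F ⧸ U.toSubgroup) :
    unip (-u) • unip u • c = c := by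
  rw [unip_neg, inv_smul_smul]

/-- Translations in `e` keep the class of a coset. -/
theorem lineClass_smul (e : FinAdele F) {U : Level F} {u : FinAdele F} (hu : e * u = u)
    (c : GLFin F ⧸ U.toSubgroup) : lineClass e (unip u • c) = lineClass e c :=
  Quotient.sound (MulAction.mem_orbit c (⟨unip u, u, hu, rfl⟩ : lineGroup e))

/-- The cusp condition along the part cut out by `e`. -/
def HasCuspConditionAt {U : Level F} (h : HeckeFn U) (e : FinAdele F) : Prop :=
  ∀ g : GLFin F, ∃ S : Finset (FinAdele F), S.Nonempty ∧ (∀ s ∈ S, e * s = s) ∧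
    ∀ c : GLFin F, ∑ s ∈ S, h.toFun (g⁻¹ * unip s * c) = 0

/-- The cusp condition along `e` implies the cusp condition. -/
theorem HasCuspConditionAt.hasCuspCondition {U : Level F} {h : HeckeFn U} {e : FinAdele F}
    (hc : HasCuspConditionAt h e) : Kernel.HasCuspCondition h := fun g => by
  obtain ⟨S, hS, -, hsum⟩ := hc g
  exact ⟨S, hS, hsum⟩

/-- A summable function killed by a finite average of permutations of its domain has total
zero. -/
theorem tsum_eq_zero_of_average {O ι : Type*} (S : Finset ι) (hS : S.Nonempty) (e : ι → O ≃ O)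
    (f : O → ℂ) (hf : Summable f) (h : ∀ o, ∑ i ∈ S, f (e i o) = 0) : ∑' o, f o = 0 := by
  have h1 : ∑' o, ∑ i ∈ S, f (e i o) = ∑ i ∈ S, ∑' o, f (e i o) :=
    Summable.tsum_finsetSum fun i _ => (e i).summable_iff.mpr hf
  simp only [h, tsum_zero, fun i => (e i).tsum_eq f, Finset.sum_const, nsmul_eq_mul] at h1
  exact (mul_eq_zero.mp h1.symm).resolve_left (Nat.cast_ne_zero.mpr hS.card_ne_zero)

variable {U : Level F} (σ : F ≃+* F)

/-- The torus scales translations. -/
theorem dia_mul_unip {R : Type*} [CommRing R] (a : Rˣ) (u : R) :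
    (dia a : GL (Fin 2) R) * unip u = unip ((a : R) * u) * dia a := by
  ext i j
  fin_cases i <;> fin_cases j <;> simp [dia, Matrix.mul_apply, Fin.sum_univ_two]

omit [NumberField F] in
/-- A field map sends translations to translations. -/
theorem glFinMap_unip (f : F →+* F) (u : FinAdele F) :
    glFinMap f (unip u) = unip (finMap f u) := by
  ext i j
  fin_cases i <;> fin_cases j <;> simp [glFinMap]

omit [NumberField F] in
/-- `b σ u - u = s` is solved inside the part cut out by a fixed idempotent. -/
theorem exists_line_solution (hσ : σ ^ 3 = 1) {e : FinAdele F}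
    (he : finMap (σ : F →+* F) e = e) (b : Fˣ) (hb : (b : F) * σ b * σ (σ b) ≠ 1) {s : FinAdele F}
    (hs : e * s = s) : ∃ u : FinAdele F, e * u = u ∧
      finIncl F (b : F) * finMap (σ : F →+* F) u - u = s := by
  have hz : (b : F) * σ b * σ (σ b) - 1 ≠ 0 := sub_ne_zero.mpr hb
  set z : F := ((b : F) * σ b * σ (σ b) - 1)⁻¹ with hzdef
  have hσ3 : ∀ x : F, σ (σ (σ x)) = x := fun x => by
    have := DFunLike.congr_fun hσ x
    rwa [pow_succ, pow_succ, pow_one, RingAut.mul_apply, RingAut.mul_apply,
      RingAut.one_apply] at this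
  set m := finMap (σ : F →+* F) with hm
  have hm3 : m (m (m s)) = s := by
    clear hs
    induction s using TensorProduct.induction_on with
    | zero => simp
    | tmul a x => simp [hm, finMap_tmul, hσ3]
    | add x y hx hy => simp only [map_add, hx, hy]
  have hmI : ∀ x : F, m (finIncl F x) = finIncl F (σ x) := fun x => finMap_finIncl _ x
  have hzfix : σ z = z := by
    rw [hzdef, map_inv₀, map_sub, map_one, map_mul, map_mul, hσ3,
      show σ (b : F) * σ (σ (b : F)) * (b : F) = (b : F) * σ b * σ (σ b) by ring]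
  set B : FinAdele F := finIncl F (b : F) with hB
  have h1 : e * m s = m s := by rw [← he, ← map_mul, hs]
  have h2 : e * m (m s) = m (m s) := by rw [← he, ← map_mul, h1]
  refine ⟨finIncl F z * (s + B * m s + B * finIncl F (σ b) * m (m s)), ?_, ?_⟩
  · linear_combination (finIncl F z) * hs + (finIncl F z * B) * h1 +
      (finIncl F z * B * finIncl F (σ b)) * h2
  · have e2 : finIncl F z * (B * finIncl F (σ b) * finIncl F (σ (σ b)) - 1) = 1 := by
      rw [hB, ← map_mul, ← map_mul, ← map_one (finIncl F), ← map_sub, ← map_mul,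
        show z * ((b : F) * σ b * σ (σ b) - 1) = 1 from inv_mul_cancel₀ hz]
    simp only [map_mul, map_add, hmI, hzfix, hB, hm3]
    simp only [hB] at e2
    linear_combination s * e2

/-- Translating `c` by `u` turns the pair `(c, δ σ c)` into a line. -/
theorem kernel_line (hU : ∀ g ∈ U.toSubgroup, glFinMap (σ : F →+* F) g ∈ U.toSubgroup)
    (h : HeckeFn U) (b : Fˣ) (g : GLFin F) (w u : FinAdele F) :
    h.kernel (unip u • unip w • (QuotientGroup.mk g : GLFin F ⧸ U.toSubgroup))
        (glIncl F (dia b) • galFin σ U hU (unip u • unip w • QuotientGroup.mk g)) =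
      h.toFun (g⁻¹ * unip (finIncl F (b : F) * finMap (σ : F →+* F) u - u) *
        (unip (finIncl F (b : F) * finMap (σ : F →+* F) w - w) *
          dia (Units.map (finIncl F).toMonoidHom b) * glFinMap (σ : F →+* F) g)) := by
  have hdia : glIncl F (dia b) = dia (Units.map (finIncl F).toMonoidHom b) := by
    ext i j; fin_cases i <;> fin_cases j <;> simp [glIncl, dia]
  rw [smul_smul (unip u) (unip w), ← unip_add, MulAction.Quotient.smul_mk, smul_eq_mul, galFin_mk,
    MulAction.Quotient.smul_mk, smul_eq_mul, HeckeFn.kernel_mk, map_mul, glFinMap_unip, hdia,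
    _root_.mul_inv_rev, ← mul_assoc (dia _), dia_mul_unip, ← unip_neg]
  congr 1
  simp only [← mul_assoc]
  congr 2
  rw [mul_assoc g⁻¹, mul_assoc g⁻¹, ← unip_add, ← unip_add]
  congr 2
  simp only [map_add, RingHom.toMonoidHom_eq_coe, Units.coe_map, MonoidHom.coe_coe]
  ring

/-- **The hyperbolic term has mean zero along the lines.** -/
theorem term_fibre_zero (hσ : σ ^ 3 = 1)
    (hU : ∀ g ∈ U.toSubgroup, glFinMap (σ : F →+* F) g ∈ U.toSubgroup)
    (h : HeckeFn U) {e : FinAdele F} (hc : HasCuspConditionAt h e)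
    (he : finMap (σ : F →+* F) e = e) (b : Fˣ) (hb : (b : F) * σ b * σ (σ b) ≠ 1)
    (D : MulAction.orbitRel.Quotient (lineGroup e) (GLFin F ⧸ U.toSubgroup))
    (hsum : Summable fun c : {c // lineClass e c = D} =>
      h.kernel c.1 (glIncl F (dia b) • galFin σ U hU c.1)) :
    HasSum (fun c : {c // lineClass e c = D} =>
      h.kernel c.1 (glIncl F (dia b) • galFin σ U hU c.1)) 0 := by
  obtain ⟨c₀, rfl⟩ := Quotient.exists_rep D
  obtain ⟨g, rfl⟩ := QuotientGroup.mk_surjective c₀
  obtain ⟨S, hS, hSe, hzero⟩ := hc g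
  choose sol hsol_e hsol_eq using fun s : S => exists_line_solution σ hσ he b hb (hSe s.1 s.2)
  let perm : S → {c // lineClass e c = lineClass e (QuotientGroup.mk g : GLFin F ⧸ U.toSubgroup)} ≃
      {c // lineClass e c = lineClass e (QuotientGroup.mk g : GLFin F ⧸ U.toSubgroup)} := fun s =>
    { toFun := fun c => ⟨unip (sol s) • c.1, (lineClass_smul e (hsol_e s) c.1).trans c.2⟩
      invFun := fun c => ⟨unip (-sol s) • c.1,
        (lineClass_smul e ((mul_neg e _).trans (congrArg Neg.neg (hsol_e s))) c.1).trans c.2⟩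
      left_inv := fun c => Subtype.ext (unip_neg_smul _ _)
      right_inv := fun c => Subtype.ext (by
        have := unip_neg_smul (-sol s) c.1
        rwa [neg_neg] at this) }
  refine (tsum_eq_zero_of_average S.attach (Finset.attach_nonempty_iff.mpr hS) perm _ hsum
    fun c => ?_) ▸ hsum.hasSum
  obtain ⟨c, hc'⟩ := c
  obtain ⟨⟨_, w, hw, rfl⟩, rfl⟩ := Quotient.exact hc'
  set M := unip (finIncl F (b : F) * finMap (σ : F →+* F) w - w) *
    dia (Units.map (finIncl F).toMonoidHom b) * glFinMap (σ : F →+* F) g with hM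
  refine Eq.trans (Eq.trans (Finset.sum_congr rfl fun s _ => ?_)
    (Finset.sum_attach S fun s => h.toFun (g⁻¹ * unip s * M))) (hzero M)
  refine (kernel_line σ hU h b g w (sol s)).trans ?_
  rw [hsol_eq s]

end Fermat.Agent.LT.Geometric
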