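import Fermat.Agent.LT.Geometric.ArchMajorant
import Fermat.Agent.LT.Descent.RadialMatch

/-!
# Radial tests as coordinate kernels

A radial test upstairs is a product over the three coordinates above the place, and the matched
test downstairs is the threefold convolution of the factors, as `match_term` requires.
-/

set_option autoImplicit false

noncomputable section

open MeasureTheory
open NumberField (InfinitePlace)

namespace Fermat.Agent.LT.Geometric

open Fermat.Agent.LT.Spectral (LipKernel)
open Fermat.Agent.LT.Descent (RadialMatch)

variable {K L : Type*} [Field K] [NumberField K] [Field L] [NumberField L] {ι : K →+* L}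
  {σ : L ≃+* L} {φ₀ : L →+* ℂ}

/-- The three factors of a radial test. -/
def radialFactor (l : LipKernel L) (p : Fin 3 → InfinitePlace L) (i : Fin 3) (A B : H3) : ℂ :=
  (l.profile (p i) (H3.cdist A B) : ℂ)

omit [NumberField K] in
/-- A radial factor is invariant under simultaneous translation. -/
theorem radialFactor_smul (l : LipKernel L) (p : Fin 3 → InfinitePlace L) (i : Fin 3)
    (g : GL (Fin 2) ℂ) (A B : H3) :
    radialFactor l p i (g • A) (g • B) = radialFactor l p i A B := by
  rw [radialFactor, radialFactor, H3.cdist_smul]

omit [NumberField K] in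
/-- The test upstairs. -/
theorem pointKer_eq_coordKernel (h : IsCubic ι σ)
    (hemb : ∀ v : InfinitePlace K, v.embedding = φ₀.comp ι)
    (hcomplex : ¬ NumberField.ComplexEmbedding.IsReal (φ₀.comp ι))
    {p : Fin 3 → InfinitePlace L} (hp : ∀ i, p i = placeOver φ₀ σ i) (l : LipKernel L)
    (P Q : InfinitePlace L → H3) :
    l.pointKer.toFun P Q = coordKernel φ₀ σ (radialFactor l p) P Q := by
  have hone : ∀ v : InfinitePlace K, v = InfinitePlace.mk (φ₀.comp ι) := fun v => by
    rw [← hemb v, InfinitePlace.mk_embedding]
  show (l.weight P Q : ℂ) = _
  rw [coordKernel, RadialKernel.weight, Complex.ofReal_prod,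
    ← (bijective_placeOver h hcomplex hone).prod_comp]
  refine Finset.prod_congr rfl fun i _ => ?_
  rw [radialFactor, hp i, cdist_atEmb]
  rfl

/-- The matched test downstairs. -/
theorem pointKer_eq_tripleKernel [Unique (InfinitePlace K)] {p : Fin 3 → InfinitePlace L}
    {v : InfinitePlace K} {l : LipKernel L} {m : LipKernel K} (hr : RadialMatch p v l m)
    (P Q : InfinitePlace K → H3) :
    m.pointKer.toFun P Q = tripleKernel H3.vol (radialFactor l p) (P default) (Q default) := by
  obtain rfl : v = default := Unique.eq_default v
  show (m.weight P Q : ℂ) = _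
  rw [hr.weight_eq]
  simp only [tripleKernel, radialFactor, ← Complex.ofReal_mul, integral_complex_ofReal]

end Fermat.Agent.LT.Geometric

end
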