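import Fermat.Agent.LT.Geometric.HyperbolicClass
import Fermat.Agent.LT.Geometric.RadialBridge

/-!
# The comparison class by class from the four kinds of classes

Classes without an eigenvalue agree exactly; the split regular, the unipotent and the central class
agree in the limit of the cutoffs.
-/

set_option autoImplicit false

noncomputable section

open MeasureTheory Filter Topology
open scoped ENNReal NNReal NumberField
open NumberField (InfinitePlace IsTotallyComplex)

namespace Fermat.Agent.LT.Geometric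

open PlaceMatching

variable {K L : Type*} [Field K] [NumberField K] [Field L] [NumberField L] (ι : K →+* L)
  {σ : L ≃+* L} {UL : Level L} {UK : Level K}

/-- The difference of the cut-off integrals of a class. -/
def classDiff (hU : ∀ g ∈ UL.toSubgroup, glFinMap (σ : L →+* L) g ∈ UL.toSubgroup)
    (wL : PartitionOfUnity UL) (wK : PartitionOfUnity UK) (k : Kernel.PointKer L) (h : HeckeFn UL)
    (k' : Kernel.PointKer K) (h' : HeckeFn UK) (R : Finset (GLFin L)) (R' : Finset (GLFin K))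
    (γ : PGLIndex K) (n : ℕ) : ℂ :=
  ∫ x, (wL.weight x * cutoff UL R (n : ℝ) x) •
      ∑' d : normClass ι σ (ConjClasses.mk γ), term σ hU k h d x ∂yVol UL -
    ∫ y, (wK.weight y * cutoff UK R' (n : ℝ) y) •
      ∑' c : baseClass (ConjClasses.mk γ),
        term (RingEquiv.refl K) (refl_stable UK) k' h' c y ∂yVol UK

/-- For large sets of representatives the classes satisfying `P` agree in the limit. -/
def ClassesTend (hU : ∀ g ∈ UL.toSubgroup, glFinMap (σ : L →+* L) g ∈ UL.toSubgroup)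
    (wL : PartitionOfUnity UL) (wK : PartitionOfUnity UK) (k : Kernel.PointKer L) (h : HeckeFn UL)
    (k' : Kernel.PointKer K) (h' : HeckeFn UK) (P : PGLIndex K → Prop) : Prop :=
  ∃ (RL : Finset (GLFin L)) (RK : Finset (GLFin K)), ∀ R R', RL ⊆ R → RK ⊆ R' →
    ∀ (γ : PGLIndex K) (δ : Twisted (pglAut σ)), δ.norm = pglBase ι γ → P γ →
      Tendsto (classDiff ι hU wL wK k h k' h' R R' γ) atTop (𝓝 0)

variable {ι} {hU : ∀ g ∈ UL.toSubgroup, glFinMap (σ : L →+* L) g ∈ UL.toSubgroup}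
  {wL : PartitionOfUnity UL} {wK : PartitionOfUnity UK} {k : Kernel.PointKer L} {h : HeckeFn UL}
  {k' : Kernel.PointKer K} {h' : HeckeFn UK}

/-- The cusp field from the split regular, the unipotent and the central classes. -/
theorem classwiseTotals_of_kinds
    (hell : ∀ (γ : PGLIndex K) (δ : Twisted (pglAut σ)), δ.norm = pglBase ι γ →
      ¬ HasEigenvalue γ →
        ∫ x, wL.weight x • ∑' d : normClass ι σ (ConjClasses.mk γ), term σ hU k h d x ∂yVol UL =
          ∫ y, wK.weight y • ∑' c : baseClass (ConjClasses.mk γ),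
            term (RingEquiv.refl K) (refl_stable UK) k' h' c y ∂yVol UK)
    (hsplit : ClassesTend ι hU wL wK k h k' h'
      fun γ => HasEigenvalue γ ∧ γ ≠ 1 ∧ classInv γ ≠ 4)
    (hunip : ClassesTend ι hU wL wK k h k' h' fun γ => γ ≠ 1 ∧ classInv γ = 4)
    (hone : ClassesTend ι hU wL wK k h k' h' fun γ => γ = 1) :
    ClasswiseTotals ι hU wL wK k h k' h' where
  elliptic := hell
  cusp := by
    classical
    obtain ⟨A, A', hA⟩ := hsplit
    obtain ⟨B, B', hB⟩ := hunip
    obtain ⟨C, C', hC⟩ := hone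
    refine ⟨A ∪ B ∪ C, A' ∪ B' ∪ C', fun R R' hR hR' γ δ hδ he => ?_⟩
    simp only [Finset.union_subset_iff] at hR hR'
    rcases eq_or_ne γ 1 with h1 | h1
    · exact hC R R' hR.2 hR'.2 γ δ hδ h1
    rcases eq_or_ne (classInv γ) 4 with h4 | h4
    · exact hB R R' hR.1.2 hR'.1.2 γ δ hδ ⟨h1, h4⟩
    · exact hA R R' hR.1.1 hR'.1.1 γ δ hδ ⟨he, h1, h4⟩

end Fermat.Agent.LT.Geometric

namespace Fermat.Agent.LT.Geometric

open PlaceMatching

variable {K L : Type*} [Field K] [NumberField K] [Field L] [NumberField L] {ι : K →+* L}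
  {σ : L ≃+* L} [IsTotallyComplex K] [IsTotallyComplex L] [Unique (InfinitePlace K)]
  {φ₀ : L →+* ℂ} {I : Ideal (𝓞 L)} {J : Ideal (𝓞 K)}
  {hI : ∃ N : ℕ, 0 < N ∧ (N : 𝓞 L) ∈ I} {hJ : ∃ N : ℕ, 0 < N ∧ (N : 𝓞 K) ∈ J}
  (hm : LevelsMatch ι σ I J) (hc : IsCubic ι σ) (s : PlaceSection ι)

variable (φ₀) in
/-- The band of every `diag(b,1)` tends to zero against one partition of the torus. -/
def DiagBandsTend (q : Kernel.PointKer L) (h : HeckeFn (Level.ofIdeal L I hI))
    (hJ : ∃ N : ℕ, 0 < N ∧ (N : 𝓞 K) ∈ J) : Prop :=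
  ∀ (a : Kˣ) (b : Lˣ), (a : K) ≠ 1 → ι (a : K) = (b : L) * σ b * σ (σ b) →
    ∀ T : Transfer hm hc s (dia b) (dia a),
      ∃ u : GLFin K ⧸ (Level.ofIdeal K J hJ).toSubgroup → ℝ≥0,
        (∀ c, HasSum (fun t : Kˣ => u (glIncl K (dia t) • c)) 1) ∧
        ∀ R R', CoversReps (Level.ofIdeal L I hI) R → CoversReps (Level.ofIdeal K J hJ) R' →
          (∀ t : ℝ, Integrable (diagBand φ₀ hm hc s T q h u R R' t)
            (yVol (Level.ofIdeal L I hI))) →
          Tendsto (fun n : ℕ => ∫ z, diagBand φ₀ hm hc s T q h u R R' n z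
            ∂yVol (Level.ofIdeal L I hI)) atTop (𝓝 0)

/-- **Matched tests agree class by class**, given the bands of the split, unipotent and central
classes. -/
theorem classwiseTotals_of_matched
    (hemb : ∀ v : InfinitePlace K, v.embedding = φ₀.comp ι)
    (hcomplex : ¬ NumberField.ComplexEmbedding.IsReal (φ₀.comp ι))
    {k : Fin 3 → KerFam J} {kL : KerFam I} (hk : Compatible hm hc s k kL)
    {wL : PartitionOfUnity (Level.ofIdeal L I hI)} (hwL : Measurable wL.weight)
    {wK : PartitionOfUnity (Level.ofIdeal K J hJ)} (hwK : Measurable wK.weight)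
    {q : Kernel.PointKer L} {qK : Kernel.PointKer K}
    {κ : Fin 3 → H3 → H3 → ℂ} (hinv : ∀ i (g : GL (Fin 2) ℂ) P Q, κ i (g • P) (g • Q) = κ i P Q)
    (hq : ∀ P Q, q.toFun P Q = coordKernel φ₀ σ κ P Q)
    (hqK : ∀ P Q, qK.toFun P Q = tripleKernel H3.vol κ (P default) (Q default))
    (hband : DiagBandsTend φ₀ hm hc s q (kL.hecke hI) hJ)
    (hunip : ClassesTend ι (hm.stable hc) wL wK q (kL.hecke hI) qK
      ((k 0).hecke hJ * (k 1).hecke hJ * (k 2).hecke hJ) fun γ => γ ≠ 1 ∧ classInv γ = 4)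
    (hone : ClassesTend ι (hm.stable hc) wL wK q (kL.hecke hI) qK
      ((k 0).hecke hJ * (k 1).hecke hJ * (k 2).hecke hJ) fun γ => γ = 1) :
    ClasswiseTotals ι (hm.stable hc) wL wK q (kL.hecke hI) qK
      ((k 0).hecke hJ * (k 1).hecke hJ * (k 2).hecke hJ) := by
  obtain ⟨RL, RK, hsplit⟩ := exists_reps_hyperbolic_class hm hc s hemb hcomplex hk wL hwL wK hwK
    hinv hq hqK hband
  exact classwiseTotals_of_kinds
    (fun γ δ hδ hγ => elliptic_class_eq hm hc s hemb hcomplex hk wL hwL wK hwK hinv hq hqK hδ hγ)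
    ⟨RL, RK, fun R R' hR hR' γ δ hδ h => hsplit R R' hR hR' γ δ hδ h.1 h.2.1 h.2.2⟩ hunip hone

end Fermat.Agent.LT.Geometric

end
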