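import Fermat.Agent.LT.Kernel.Entries
import Fermat.Agent.LT.Setup.Level
import Mathlib.Algebra.Group.Conj
import Mathlib.LinearAlgebra.Matrix.Charpoly.Coeff

/-!
# The invariant `tr² / det` of a class of `PGL₂`

It determines a nonscalar class unless it vanishes; among classes with vanishing invariant at
most one is split. Hence only finitely many classes with an eigenvalue in the field have their
invariant in a given finite set.
-/

set_option autoImplicit false

noncomputable section

open Matrix

namespace Fermat.Agent.LT.Geometric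

variable {F : Type*} [Field F] [NumberField F]

/-- `tr² / det`, well defined on `PGL₂`. -/
def classInv (c : PGLIndex F) : F :=
  Kernel.adjVec c ((0, 0), (0, 0)) + 2 * Kernel.adjVec c ((0, 0), (1, 1)) +
    Kernel.adjVec c ((1, 1), (1, 1))

/-- The class invariant of a matrix is `tr² / det`. -/
theorem classInv_mk (γ : GL (Fin 2) F) :
    classInv (QuotientGroup.mk γ : PGLIndex F) = γ.val.trace ^ 2 / γ.val.det := by
  simp only [classInv, Kernel.adjVec_mk, Kernel.adjEntry, Matrix.trace_fin_two]
  ring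

/-- A class with an eigenvalue in `F`: not elliptic. -/
def HasEigenvalue (c : PGLIndex F) : Prop :=
  ∃ (m : GL (Fin 2) F) (r : F), QuotientGroup.mk m = c ∧
    r ^ 2 - m.val.trace * r + m.val.det = 0

omit [NumberField F] in
/-- The eigenvalue condition on a representative: a rational root of the characteristic polynomial.
-/
theorem hasEigenvalue_iff (m : GL (Fin 2) F) :
    HasEigenvalue (QuotientGroup.mk m : PGLIndex F) ↔
      ∃ r : F, r ^ 2 - m.val.trace * r + m.val.det = 0 := by
  refine ⟨?_, fun ⟨r, hr⟩ => ⟨m, r, rfl, hr⟩⟩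
  rintro ⟨n, r, hn, hr⟩
  obtain ⟨a, ha⟩ := QuotientGroup.eq.mp hn
  have hm : m = scalarGlobal F a * n := by rw [scalarGlobal_comm, ha, mul_inv_cancel_left]
  refine ⟨a * r, ?_⟩
  rw [hm, Kernel.scalarGlobal_mul_val, Matrix.trace_smul, Matrix.det_smul, smul_eq_mul,
    Fintype.card_fin]
  linear_combination ((a : F) ^ 2) * hr

omit [NumberField F] in
/-- Having an eigenvalue is invariant under conjugation. -/
theorem HasEigenvalue.conj {c : PGLIndex F} (h : HasEigenvalue c) (g : PGLIndex F) :
    HasEigenvalue (g * c * g⁻¹) := by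
  obtain ⟨m, r, rfl, hr⟩ := h
  induction g using QuotientGroup.induction_on with | H x => ?_
  rw [← QuotientGroup.mk_inv, ← QuotientGroup.mk_mul, ← QuotientGroup.mk_mul, hasEigenvalue_iff]
  exact ⟨r, by rw [Units.val_mul, Units.val_mul, Matrix.det_units_conj, Matrix.trace_units_conj,
    hr]⟩

omit [NumberField F] in
theorem mk_eq_one_of_scalar {m : GL (Fin 2) F} {a : F} (h : m.val = a • 1) :
    (QuotientGroup.mk m : PGLIndex F) = 1 := by
  rw [QuotientGroup.eq_one_iff]
  have ha : a ≠ 0 := fun ha => Kernel.det_val_ne_zero m (by simp [h, ha])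
  exact ⟨Units.mk0 a ha, Units.ext (by rw [scalarGlobal_val, Units.val_mk0, h])⟩

omit [NumberField F] in
/-- A nonscalar matrix is conjugate to the companion matrix of its characteristic polynomial. -/
theorem exists_companion {m : GL (Fin 2) F} (hm : (QuotientGroup.mk m : PGLIndex F) ≠ 1) :
    ∃ P : GL (Fin 2) F,
      m.val * P.val = P.val * !![0, -m.val.det; 1, m.val.trace] := by
  obtain ⟨v, hv⟩ : ∃ v : Fin 2 → F,
      v 0 * (m.val *ᵥ v) 1 - v 1 * (m.val *ᵥ v) 0 ≠ 0 := by
    by_contra hcon
    push Not at hcon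
    have h1 := hcon ![1, 0]
    have h2 := hcon ![0, 1]
    have h3 := hcon ![1, 1]
    simp [Matrix.mulVec, dotProduct, Fin.sum_univ_two] at h1 h2 h3
    refine hm (mk_eq_one_of_scalar (a := m.val 0 0) ?_)
    ext i j
    fin_cases i <;> fin_cases j <;> simp [h1, h2]
    linear_combination h3 - h1 + h2
  let A : Matrix (Fin 2) (Fin 2) F :=
    !![v 0, (m.val *ᵥ v) 0; v 1, (m.val *ᵥ v) 1]
  have hA : A.det ≠ 0 := by
    simp only [A, Matrix.det_fin_two_of]
    intro h0
    exact hv (by linear_combination h0)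
  refine ⟨Matrix.GeneralLinearGroup.mkOfDetNeZero A hA, ?_⟩
  show m.val * A = A * _
  ext i j
  fin_cases i <;> fin_cases j <;>
    simp [A, Matrix.mul_apply, Matrix.mulVec, dotProduct, Fin.sum_univ_two,
      Matrix.det_fin_two, Matrix.trace_fin_two] <;> ring

omit [NumberField F] in
theorem isConj_of_trace_det {m m' : GL (Fin 2) F} (hm : (QuotientGroup.mk m : PGLIndex F) ≠ 1)
    (hm' : (QuotientGroup.mk m' : PGLIndex F) ≠ 1) (ht : m.val.trace = m'.val.trace)
    (hd : m.val.det = m'.val.det) :
    IsConj (QuotientGroup.mk m : PGLIndex F) (QuotientGroup.mk m') := by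
  obtain ⟨P, hP⟩ := exists_companion hm
  obtain ⟨Q, hQ⟩ := exists_companion hm'
  refine isConj_iff.mpr ⟨QuotientGroup.mk (Q * P⁻¹), ?_⟩
  rw [← QuotientGroup.mk_inv, ← QuotientGroup.mk_mul, ← QuotientGroup.mk_mul]
  refine congrArg _ (Units.ext ?_)
  have h1 : !![0, -m.val.det; 1, m.val.trace] = P⁻¹.val * (m.val * P.val) := by
    rw [hP, Units.inv_mul_cancel_left]
  have h2 : m'.val = Q.val * !![0, -m'.val.det; 1, m'.val.trace] * Q⁻¹.val := by
    rw [← hQ, mul_assoc, ← Units.val_mul, mul_inv_cancel, Units.val_one, mul_one]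
  rw [h2, ← ht, ← hd, h1]
  simp only [_root_.mul_inv_rev, inv_inv, Units.val_mul, mul_assoc]

omit [NumberField F] in
theorem isConj_of_rescale {m m' : GL (Fin 2) F} (hm : (QuotientGroup.mk m : PGLIndex F) ≠ 1)
    (hm' : (QuotientGroup.mk m' : PGLIndex F) ≠ 1) {a : F} (ha : a ≠ 0)
    (ht : m.val.trace = a * m'.val.trace) (hd : m.val.det = a ^ 2 * m'.val.det) :
    IsConj (QuotientGroup.mk m : PGLIndex F) (QuotientGroup.mk m') := by
  have hq : (QuotientGroup.mk m' : PGLIndex F) =
      QuotientGroup.mk (scalarGlobal F (Units.mk0 a ha) * m') := by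
    rw [QuotientGroup.eq, scalarGlobal_comm, inv_mul_cancel_left]
    exact ⟨_, rfl⟩
  rw [hq] at hm' ⊢
  refine isConj_of_trace_det hm hm' ?_ ?_
  · rw [Kernel.scalarGlobal_mul_val, Matrix.trace_smul, Units.val_mk0, smul_eq_mul, ht]
  · rw [Kernel.scalarGlobal_mul_val, Matrix.det_smul, Units.val_mk0, Fintype.card_fin, hd]

/-- Nonscalar classes with equal invariant are conjugate if it is nonzero or both are split. -/
theorem isConj_of_classInv_eq {c c' : PGLIndex F} (hc : c ≠ 1) (hc' : c' ≠ 1)
    (h : classInv c = classInv c')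
    (h0 : classInv c ≠ 0 ∨ HasEigenvalue c ∧ HasEigenvalue c') : IsConj c c' := by
  induction c using QuotientGroup.induction_on with | H m => ?_
  induction c' using QuotientGroup.induction_on with | H m' => ?_
  rw [classInv_mk, classInv_mk] at h
  rw [classInv_mk] at h0
  have hd := Kernel.det_val_ne_zero m
  have hd' := Kernel.det_val_ne_zero m'
  rw [div_eq_div_iff hd hd'] at h
  rcases eq_or_ne m.val.trace 0 with ht | ht
  · obtain ⟨h1, h2⟩ := h0.resolve_left (by simp [ht])
    have ht' : m'.val.trace = 0 := by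
      rw [ht, zero_pow two_ne_zero, zero_mul, zero_eq_mul] at h
      exact pow_eq_zero_iff two_ne_zero |>.mp (h.resolve_right hd)
    obtain ⟨r, hr⟩ := (hasEigenvalue_iff m).mp h1
    obtain ⟨r', hr'⟩ := (hasEigenvalue_iff m').mp h2
    rw [ht, zero_mul, sub_zero] at hr
    rw [ht', zero_mul, sub_zero] at hr'
    have hr0 : r ≠ 0 := fun e => hd (by simpa [e] using hr)
    have hr0' : r' ≠ 0 := fun e => hd' (by simpa [e] using hr')
    refine isConj_of_rescale hc hc' (a := r / r') (div_ne_zero hr0 hr0') (by simp [ht, ht']) ?_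
    rw [eq_neg_of_add_eq_zero_right hr, eq_neg_of_add_eq_zero_right hr']
    field_simp
  · have ht' : m'.val.trace ≠ 0 := fun e => by
      rw [e, zero_pow two_ne_zero, zero_mul] at h
      exact ht (pow_eq_zero_iff two_ne_zero |>.mp ((mul_eq_zero.mp h).resolve_right hd'))
    refine isConj_of_rescale hc hc' (a := m.val.trace / m'.val.trace) (div_ne_zero ht ht')
      (by field_simp) ?_
    field_simp
    linear_combination -h

/-- Finitely many classes with an eigenvalue have their invariant in a finite set. -/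
theorem finite_conjClasses {T : Set F} (hT : T.Finite) :
    (ConjClasses.mk '' {c : PGLIndex F | classInv c ∈ T ∧
      (classInv c ≠ 0 ∨ HasEigenvalue c)}).Finite := by
  classical
  have hfin : (ConjClasses.mk '' {c : PGLIndex F | classInv c ∈ T ∧
      (classInv c ≠ 0 ∨ HasEigenvalue c) ∧ c ≠ 1}).Finite := by
    choose rep hrep using fun t : {t : F // ∃ c : PGLIndex F, classInv c = t ∧
      (t ≠ 0 ∨ HasEigenvalue c) ∧ c ≠ 1} => t.2
    refine ((hT.preimage Subtype.val_injective.injOn).image fun t =>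
      ConjClasses.mk (rep t)).subset ?_
    rintro _ ⟨c, ⟨hcT, hc, hc1⟩, rfl⟩
    refine ⟨⟨classInv c, c, rfl, hc, hc1⟩, hcT, ConjClasses.mk_eq_mk_iff_isConj.mpr ?_⟩
    obtain ⟨h1, h2, h3⟩ := hrep ⟨classInv c, c, rfl, hc, hc1⟩
    refine isConj_of_classInv_eq h3 hc1 h1 ?_
    rw [h1]
    exact h2.elim Or.inl fun e => hc.imp id fun e' => ⟨e, e'⟩
  refine (hfin.insert (ConjClasses.mk 1)).subset ?_
  rintro _ ⟨c, ⟨hcT, hc⟩, rfl⟩
  rcases eq_or_ne c 1 with rfl | h1
  · exact Set.mem_insert _ _
  · exact Set.mem_insert_of_mem _ ⟨c, ⟨hcT, hc, h1⟩, rfl⟩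

end Fermat.Agent.LT.Geometric
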