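import Fermat.Agent.LT.Geometric.NormClasses
import Mathlib.GroupTheory.Subgroup.Centralizer
import Mathlib.GroupTheory.GroupAction.Defs

/-!
# Normalised representatives of twisted classes

Every twisted class contains a `δ` with rational norm `γ` commuting with the whole centraliser of
`γ`; its stabiliser is the centraliser of `γ` in `PGL₂(K)`.
-/

set_option autoImplicit false

noncomputable section

open scoped Matrix

namespace Fermat.Agent.LT.Geometric

open CubicDescent

variable {K L : Type*} [Field K] [NumberField K] [Field L] [NumberField L] {ι : K →+* L}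
  {σ : L ≃+* L}

variable (ι) in
/-- `δ` has norm `γ` and commutes with the centraliser of `γ`. -/
structure IsNormalised (δ : Twisted (pglAut σ)) (γ : PGLIndex K) : Prop where
  norm_eq : δ.norm = pglBase ι γ
  commute : ∀ g : PGLIndex L, Commute g (pglBase ι γ) → Commute g δ.val

omit [NumberField L] in
theorem isScalarMat_map {K : Type*} [Field K] (ι : K →+* L) {A : Matrix (Fin 2) (Fin 2) K} :
    IsScalarMat (A.map ι) ↔ ∃ a : K, A = a • 1 := by
  constructor
  · rintro ⟨a, ha⟩
    refine ⟨A 0 0, ?_⟩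
    ext i j
    have h00 := congrFun (congrFun ha 0) 0
    have hij := congrFun (congrFun ha i) j
    refine ι.injective ?_
    fin_cases i <;> fin_cases j <;> simp_all
  · rintro ⟨a, rfl⟩
    exact ⟨ι a, by ext i j; fin_cases i <;> fin_cases j <;> simp⟩

omit [NumberField L] in
/-- A scalar matrix is trivial in `PGL₂`. -/
theorem pgl_mk_eq_one_of_scalar {x : GL (Fin 2) L} (hx : IsScalarMat x.val) :
    (QuotientGroup.mk x : PGLIndex L) = 1 := by
  obtain ⟨a, ha⟩ := hx
  have ha0 : a ≠ 0 := by
    rintro rfl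
    simpa [ha] using ((Matrix.isUnit_iff_isUnit_det _).mp x.isUnit).ne_zero
  rw [← QuotientGroup.mk_one, eq_comm, pgl_mk_eq_iff]
  exact ⟨Units.mk0 a ha0, Units.ext (by
    ext i j; fin_cases i <;> fin_cases j <;> simp [ha, scalarUnit])⟩

variable (h : IsCubic ι σ)
include h

/-- Rational elements conjugate over `L` are conjugate over `K`. -/
theorem IsCubic.exists_base_conj {γ γ' : PGLIndex K} {g : PGLIndex L}
    (hg : g * pglBase ι γ * g⁻¹ = pglBase ι γ') : ∃ g₀ : PGLIndex K, g₀ * γ * g₀⁻¹ = γ' := by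
  revert hg
  induction γ using QuotientGroup.induction_on with | H m => ?_
  induction γ' using QuotientGroup.induction_on with | H m' => ?_
  induction g using QuotientGroup.induction_on with | H x => ?_
  intro hg
  rw [pglBase_mk, pglBase_mk, ← QuotientGroup.mk_mul, ← QuotientGroup.mk_inv,
    ← QuotientGroup.mk_mul, eq_comm, pgl_mk_eq_iff] at hg
  obtain ⟨c, hc⟩ := hg
  set M := Matching.baseUnit ι m with hM
  set M' := Matching.baseUnit ι m' with hM'
  have hval : x.val * M.val * (x⁻¹).val = (c : L) • M'.val := by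
    rw [← Units.val_mul, ← Units.val_mul, hc, Units.val_mul]
    ext i j
    fin_cases i <;> fin_cases j <;> simp [scalarUnit, Matrix.mul_apply, Fin.sum_univ_two]
  have hdet : M.val.det = (c : L) ^ 2 * M'.val.det := by
    rw [← Matrix.det_units_conj x M.val, hval, Matrix.det_smul]; simp
  have hfixd : ∀ n : GL (Fin 2) K, σ (Matching.baseUnit ι n).val.det =
      (Matching.baseUnit ι n).val.det := fun n =>
    (h.fixed _).mpr ⟨n.val.det, RingHom.map_det ι n.val⟩
  have hd' : M'.val.det ≠ 0 := ((Matrix.isUnit_iff_isUnit_det _).mp M'.isUnit).ne_zero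
  have hσc : σ (c : L) = c := fixed_of_sq_fixed h.pow (by
    have := congrArg σ hdet
    rw [map_mul, map_pow, hM, hM', hfixd, hfixd, ← hM, ← hM', hdet] at this
    exact (mul_right_cancel₀ hd' this).symm)
  obtain ⟨c₀, hc₀⟩ := (h.fixed _).mp hσc
  set B : Matrix (Fin 2) (Fin 2) K := c₀ • m'.val with hB
  have hBmap : B.map ι = x.val * M.val * (x⁻¹).val := by
    rw [hval, ← hc₀, hB]; ext i j; simp [hM']
  have htr : B.trace = m.val.trace := ι.injective (by
    rw [show ι B.trace = (B.map ι).trace by simp [Matrix.trace_fin_two], hBmap,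
      Matrix.trace_units_conj]
    simp [hM, Matrix.trace_fin_two])
  have hde : B.det = m.val.det := ι.injective (by
    rw [RingHom.map_det, RingHom.mapMatrix_apply, hBmap, Matrix.det_units_conj, RingHom.map_det]
    rfl)
  by_cases hs : ∃ a : K, m.val = a • 1
  · obtain ⟨a, ha⟩ := hs
    refine ⟨1, ?_⟩
    rw [one_mul, inv_one, mul_one]
    refine h.pglBase_injective ?_
    rw [pglBase_mk, pglBase_mk, ← hM, ← hM', pgl_mk_eq_iff]
    refine ⟨c⁻¹, ?_⟩
    rw [map_inv, eq_inv_mul_iff_mul_eq, ← hc]
    have hMx : x * M = M * x := Units.ext (by simp [hM, ha, Matrix.map_smul'])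
    rw [hMx, mul_inv_cancel_right]
  · have hA : ∀ a : K, m.val ≠ a • 1 := fun a ha => hs ⟨a, ha⟩
    have hB' : ∀ a : K, B ≠ a • 1 := fun a ha => by
      refine hs ((isScalarMat_map ι).mp ⟨ι a, ?_⟩)
      have : x.val * M.val * (x⁻¹).val = ι a • 1 := by
        rw [← hBmap, ha]; ext i j; fin_cases i <;> fin_cases j <;> simp
      calc m.val.map ι = M.val := rfl
        _ = (x⁻¹).val * (x.val * M.val * (x⁻¹).val) * x.val := by simp [mul_assoc]
        _ = ι a • 1 := by rw [this]; simp
    obtain ⟨P, hP, hPe⟩ := exists_conj_companionTwo m.val hA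
    obtain ⟨Q, hQ, hQe⟩ := exists_conj_companionTwo B hB'
    rw [htr, hde] at hQe
    obtain ⟨P, rfl⟩ := (Matrix.isUnit_iff_isUnit_det P).mpr (isUnit_iff_ne_zero.mpr hP)
    obtain ⟨Q, rfl⟩ := (Matrix.isUnit_iff_isUnit_det Q).mpr (isUnit_iff_ne_zero.mpr hQ)
    refine ⟨QuotientGroup.mk (Q * P⁻¹), ?_⟩
    have hc0 : c₀ ≠ 0 := by
      rintro rfl
      exact c.ne_zero (by rw [← hc₀, map_zero])
    rw [← QuotientGroup.mk_mul, ← QuotientGroup.mk_inv, ← QuotientGroup.mk_mul, eq_comm,
      pgl_mk_eq_iff]
    refine ⟨Units.mk0 c₀ hc0, ?_⟩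
    rw [_root_.mul_inv_rev, inv_inv]
    refine Units.ext ?_
    calc (Q * P⁻¹ * m * (P * Q⁻¹) : GL (Fin 2) K).val
        = Q.val * ((P⁻¹).val * (m.val * P.val)) * (Q⁻¹).val := by simp [mul_assoc]
      _ = Q.val * companionTwo m.val.trace m.val.det * (Q⁻¹).val := by
          rw [hPe, Units.inv_mul_cancel_left]
      _ = B := by rw [← hQe, Units.mul_inv_cancel_right]
      _ = _ := by ext i j; fin_cases i <;> fin_cases j <;>
            simp [hB, scalarUnit, Matrix.mul_apply, Fin.sum_univ_two]

omit [NumberField K] in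
/-- The stabiliser of a normalised representative. -/
theorem IsCubic.stabilizer_eq {δ : Twisted (pglAut σ)} {γ : PGLIndex K}
    (hn : IsNormalised ι δ γ) :
    MulAction.stabilizer (PGLIndex L) δ = (Subgroup.centralizer {γ}).map (pglBase ι) := by
  ext g
  rw [MulAction.mem_stabilizer_iff, Subgroup.mem_map]
  constructor
  · intro hg
    have hN := Twisted.norm_smul (pglAut_iterate h.pow) g δ
    rw [hg, hn.norm_eq] at hN
    have hc : Commute g (pglBase ι γ) := mul_inv_eq_iff_eq_mul.mp hN.symm
    have hv := congrArg Twisted.val hg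
    rw [Twisted.val_smul, (hn.commute g hc).eq, mul_assoc, mul_eq_left, mul_inv_eq_one] at hv
    obtain ⟨g₀, rfl⟩ := h.exists_base_of_fixed hv.symm
    refine ⟨g₀, Subgroup.mem_centralizer_singleton_iff.mpr ?_, rfl⟩
    exact h.pglBase_injective (by rw [map_mul, map_mul, hc.eq])
  · rintro ⟨g₀, hg₀, rfl⟩
    have hc : Commute (pglBase ι g₀) (pglBase ι γ) := by
      show _ = _
      rw [← map_mul, ← map_mul, Subgroup.mem_centralizer_singleton_iff.mp hg₀]
    refine Twisted.ext ?_
    rw [Twisted.val_smul, h.pglAut_base, (hn.commute _ hc).eq, mul_inv_cancel_right]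

/-- Every twisted class has a normalised representative. -/
theorem IsCubic.exists_normalised (δ : Twisted (pglAut σ)) :
    ∃ (g : PGLIndex L) (γ : PGLIndex K), IsNormalised ι (g • δ) γ := by
  obtain ⟨z, hz⟩ := QuotientGroup.mk_surjective (δ.val)
  obtain ⟨x, N, hN, hx⟩ := exists_rational_norm σ h.pow z
  obtain ⟨m, rfl⟩ := Matching.exists_baseUnit_eq h.fixed hN
  set z' := x⁻¹ * z * glMap σ x with hz'
  have hδ : ((QuotientGroup.mk x : PGLIndex L)⁻¹ • δ).val = QuotientGroup.mk z' := by
    rw [Twisted.val_smul, ← hz, map_inv, inv_inv, pglAut_mk, ← QuotientGroup.mk_inv,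
      ← QuotientGroup.mk_mul, ← QuotientGroup.mk_mul]
  have hper : ∀ y : GL (Fin 2) L, (⇑(glMap σ))^[3] y = y := fun y => by
    ext : 1; rw [glMap_iterate, h.pow]; ext; simp
  have hnorm : twistedNorm (glMap σ) z' 3 = Matching.baseUnit ι m := by
    have h3 := hper x
    simp only [Function.iterate_succ, Function.iterate_zero, Function.comp_apply, id_eq] at h3
    rw [show Matching.baseUnit ι m = x⁻¹ * twistedNorm (glMap σ) z 3 * x by
      rw [mul_assoc, hx, inv_mul_cancel_left]]
    simp only [hz', twistedNorm, map_mul, map_inv, map_one, mul_one, h3]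
    group
  have hnm : ((QuotientGroup.mk x : PGLIndex L)⁻¹ • δ).norm =
      pglBase ι (QuotientGroup.mk m) := by
    rw [pglBase_mk, ← hnorm, ← norm_mk]
    exact congrArg Twisted.norm (Twisted.ext hδ)
  by_cases hs : IsScalarMat (Matching.baseUnit ι m).val
  · have h1 : (Twisted.mk (pglAut σ) (1 : PGLIndex L)).norm = pglBase ι (QuotientGroup.mk m) := by
      rw [pglBase_mk, pgl_mk_eq_one_of_scalar hs, Twisted.norm_eq]
      simp [Twisted.val, Twisted.mk]
    obtain ⟨g, hg⟩ := h.exists_smul_eq hnm h1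
    exact ⟨g * (QuotientGroup.mk x)⁻¹, QuotientGroup.mk m, by rw [mul_smul, hg]; exact
      ⟨h1, fun _ _ => Commute.one_right _⟩⟩
  by_cases ht : m.val.trace = 0
  · have hsq : (pglBase ι (QuotientGroup.mk m)) * pglBase ι (QuotientGroup.mk m) = 1 := by
      rw [pglBase_mk, ← QuotientGroup.mk_mul]
      refine pgl_mk_eq_one_of_scalar ⟨-(Matching.baseUnit ι m).val.det, ?_⟩
      rw [Units.val_mul, Matching.mul_self_eq_fin_two,
        show (Matching.baseUnit ι m).val.trace = 0 by
          have := congrArg ι ht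
          simpa [Matrix.trace_fin_two] using this,
        zero_smul, add_zero]
    have h1 : (Twisted.mk (pglAut σ) (pglBase ι (QuotientGroup.mk m))).norm =
        pglBase ι (QuotientGroup.mk m) := by
      rw [Twisted.norm_eq]
      simp only [Twisted.val, Twisted.mk, h.pglAut_base, hsq, mul_one]
    obtain ⟨g, hg⟩ := h.exists_smul_eq hnm h1
    exact ⟨g * (QuotientGroup.mk x)⁻¹, QuotientGroup.mk m, by rw [mul_smul, hg]; exact
      ⟨h1, fun _ hc => hc⟩⟩
  refine ⟨_, QuotientGroup.mk m, hnm, fun g hg => ?_⟩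
  rw [hδ]
  induction g using QuotientGroup.induction_on with | H y => ?_
  rw [pglBase_mk, Commute, SemiconjBy, ← QuotientGroup.mk_mul, ← QuotientGroup.mk_mul, eq_comm,
    pgl_mk_eq_iff] at hg
  obtain ⟨c, hc⟩ := hg
  set M := Matching.baseUnit ι m with hM
  have hconj : y.val * M.val * (y⁻¹).val = (c : L) • M.val := by
    rw [← Units.val_mul, ← Units.val_mul, hc, ← mul_assoc, mul_inv_cancel_right, Units.val_mul]
    ext i j
    fin_cases i <;> fin_cases j <;> simp [scalarUnit, Matrix.mul_apply, Fin.sum_univ_two]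
  have hc1 : c = 1 := by
    have htr := congrArg Matrix.trace hconj
    rw [Matrix.trace_units_conj, Matrix.trace_smul, smul_eq_mul] at htr
    have hne : M.val.trace ≠ 0 := fun h0 => ht (ι.injective (by
      rw [map_zero, ← h0]; simp [hM, Matrix.trace_fin_two]))
    exact Units.ext (mul_eq_right₀ hne |>.mp htr.symm)
  rw [hc1, map_one, one_mul] at hc
  have hz'c : z' * M = M * z' := by
    have := twistedNorm_commute (hper z') (by rw [hnorm, hM, Matching.glMap_baseUnit h.fixed])
    rwa [hnorm] at this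
  show _ = _
  rw [← QuotientGroup.mk_mul, ← QuotientGroup.mk_mul]
  exact congrArg _ (Units.ext (commute_of_commute_nonscalar hs
    (congrArg Units.val hc).symm (congrArg Units.val hz'c).symm))

end Fermat.Agent.LT.Geometric
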