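import Fermat.Agent.LT.Geometric.Torus
import Fermat.Agent.LT.Geometric.NormalForm
import Fermat.Agent.LT.Geometric.ClassInvariant

/-!
# Representatives of split regular classes

A class with an eigenvalue, different from `1` and the unipotent classes, is that of some
`diag(a,1)`
with `a ≠ 1`; a normalised twisted index over it is some `diag(b,1)`; the centraliser is the torus,
with the Weyl element adjoined when `a = -1`, and inherits a partition from one of the torus.
-/

set_option autoImplicit false

noncomputable section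

open scoped NNReal Matrix
open NumberField (InfinitePlace)

namespace Fermat.Agent.LT.Geometric

open CubicDescent

variable {F : Type*} [Field F] [NumberField F]

theorem classInv_dia (a : Fˣ) :
    classInv (QuotientGroup.mk (dia a) : PGLIndex F) = ((a : F) + 1) ^ 2 / a := by
  rw [classInv_mk]
  simp [dia, Matrix.trace_fin_two, Matrix.det_fin_two]

omit [NumberField F] in
theorem hasEigenvalue_dia (a : Fˣ) : HasEigenvalue (QuotientGroup.mk (dia a) : PGLIndex F) :=
  (hasEigenvalue_iff _).mpr ⟨1, by simp [dia, Matrix.trace_fin_two, Matrix.det_fin_two]⟩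

omit [NumberField F] in
theorem torus_ne_one {a : Fˣ} (ha : (a : F) ≠ 1) : torus F a ≠ 1 := fun h => ha (by
  rw [← map_one (torus F)] at h
  rw [torus_injective h, Units.val_one])

/-- A split regular class is that of a diagonal matrix. -/
theorem exists_dia_conj {γ : PGLIndex F} (he : HasEigenvalue γ) (h1 : γ ≠ 1)
    (h4 : classInv γ ≠ 4) : ∃ a : Fˣ, (a : F) ≠ 1 ∧ IsConj γ (torus F a) := by
  induction γ using QuotientGroup.induction_on with | H m => ?_
  obtain ⟨r, hr⟩ := (hasEigenvalue_iff m).mp he
  set t := m.val.trace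
  set d := m.val.det
  have hd : d ≠ 0 := Kernel.det_val_ne_zero m
  have hr0 : r ≠ 0 := fun e => hd (by simpa [e] using hr)
  have hr1 : t - r ≠ 0 := fun e => hd (by linear_combination hr + r * e)
  refine ⟨Units.mk0 (r / (t - r)) (div_ne_zero hr0 hr1), fun e => ?_, ?_⟩
  · rw [Units.val_mk0, div_eq_one_iff_eq hr1] at e
    refine h4 ?_
    rw [classInv_mk, div_eq_iff hd]
    linear_combination (-4) * hr + (2 * r - t) * e
  · refine isConj_of_classInv_eq h1 (torus_ne_one fun e => ?_) ?_
      (Or.inr ⟨he, hasEigenvalue_dia _⟩)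
    · rw [Units.val_mk0, div_eq_one_iff_eq hr1] at e
      refine h4 ?_
      rw [classInv_mk, div_eq_iff hd]
      linear_combination (-4) * hr + (2 * r - t) * e
    · rw [classInv_mk, torus_apply, classInv_dia, Units.val_mk0]
      have hd' : d = r * (t - r) := by linear_combination hr
      show t ^ 2 / d = _
      rw [hd']
      field_simp
      ring

omit [NumberField F] in
/-- An element commuting with a regular diagonal one lies in the torus, or in its Weyl translate
when the two eigenvalues are opposite. -/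
theorem torus_commute {a : Fˣ} (ha : (a : F) ≠ 1) {z : PGLIndex F}
    (h : Commute z (torus F a)) :
    z ∈ (torus F).range ∨
      ((a : F) = -1 ∧ z * QuotientGroup.mk (weyl F) ∈ (torus F).range) := by
  induction z using QuotientGroup.induction_on with | H g => ?_
  rw [torus_apply, Commute, SemiconjBy, ← QuotientGroup.mk_mul, ← QuotientGroup.mk_mul,
    pgl_mk_eq_iff] at h
  obtain ⟨c, hc⟩ := h
  have e : ∀ i j, (dia a * g).val i j = (c : F) * (g * dia a).val i j := fun i j => by
    rw [hc]
    fin_cases i <;> fin_cases j <;> simp [scalarUnit, Matrix.mul_apply, Fin.sum_univ_two]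
  have e00 := e 0 0
  have e01 := e 0 1
  have e10 := e 1 0
  have e11 := e 1 1
  simp [dia, Matrix.mul_apply, Fin.sum_univ_two] at e00 e01 e10 e11
  have hdet := Kernel.det_val_ne_zero g
  rw [Matrix.det_fin_two] at hdet
  have key : ∀ (u v : F) (g' : GL (Fin 2) F) (hu : u ≠ 0) (hv : v ≠ 0),
      g'.val = !![u, 0; 0, v] → (QuotientGroup.mk g' : PGLIndex F) ∈ (torus F).range := by
    intro u v g' hu hv hg
    refine ⟨Units.mk0 (u / v) (div_ne_zero hu hv), ?_⟩
    rw [torus_apply, pgl_mk_eq_iff]
    refine ⟨Units.mk0 v hv, Units.ext ?_⟩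
    rw [hg]
    ext i j
    fin_cases i <;> fin_cases j <;>
      simp [scalarUnit, dia, Matrix.mul_apply, Fin.sum_univ_two]
    field_simp
  by_cases hc1 : (c : F) = 1
  · left
    rw [hc1, one_mul] at e10
    have h01 : g.val 0 1 = 0 := e01.resolve_left fun e => ha (e.trans hc1)
    have h10 : g.val 1 0 = 0 :=
      (mul_eq_zero.mp (show ((a : F) - 1) * g.val 1 0 = 0 by linear_combination -e10)).resolve_left
        (sub_ne_zero.mpr ha)
    rw [h01, h10, mul_zero, sub_zero, mul_ne_zero_iff] at hdet
    refine key _ _ g hdet.1 hdet.2 ?_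
    ext i j; fin_cases i <;> fin_cases j <;> simp [h01, h10]
  · right
    have h00 : g.val 0 0 = 0 :=
      (mul_eq_zero.mp (show ((c : F) - 1) * ((a : F) * g.val 0 0) = 0 by
        linear_combination -e00)).resolve_left (sub_ne_zero.mpr hc1) |> fun h' =>
        (mul_eq_zero.mp h').resolve_left a.ne_zero
    have h11 : g.val 1 1 = 0 :=
      (mul_eq_zero.mp (show ((c : F) - 1) * g.val 1 1 = 0 by
        linear_combination -e11)).resolve_left (sub_ne_zero.mpr hc1)
    rw [h00, h11, mul_zero, zero_sub, neg_ne_zero, mul_ne_zero_iff] at hdet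
    have hca : (c : F) = a := (e01.resolve_right hdet.1).symm
    have hca' : (1 : F) = c * a := mul_right_cancel₀ hdet.2 (by linear_combination e10)
    rw [hca] at hca'
    have ha2 : (a : F) = -1 :=
      ((mul_self_eq_one_iff.mp hca'.symm).resolve_left ha)
    refine ⟨ha2, ?_⟩
    rw [← QuotientGroup.mk_mul]
    refine key _ _ _ hdet.1 hdet.2 ?_
    ext i j
    fin_cases i <;> fin_cases j <;>
      simp [weyl, h00, h11, Matrix.mul_apply, Fin.sum_univ_two]

omit [NumberField F] in
theorem weyl_mul_weyl_pgl :
    (QuotientGroup.mk (weyl F) : PGLIndex F) * QuotientGroup.mk (weyl F) = 1 := by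
  rw [← QuotientGroup.mk_mul, weyl_mul_weyl, QuotientGroup.mk_one]

omit [NumberField F] in
theorem torus_weyl_ne (s t : Fˣ) :
    torus F s ≠ torus F t * QuotientGroup.mk (weyl F) := by
  rw [torus_apply, torus_apply, ← QuotientGroup.mk_mul, Ne, pgl_mk_eq_iff]
  rintro ⟨c, hc⟩
  have h := congrArg (fun g : GL (Fin 2) F => g.val 1 1) hc
  simp [weyl, dia, scalarUnit, Matrix.mul_apply, Fin.sum_univ_two] at h
  exact c.ne_zero h.symm

omit [NumberField F] in
theorem torus_neg_one_commute_weyl {a : Fˣ} (ha : (a : F) = -1) :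
    Commute (QuotientGroup.mk (weyl F) : PGLIndex F) (torus F a) := by
  rw [torus_apply, Commute, SemiconjBy, ← QuotientGroup.mk_mul, ← QuotientGroup.mk_mul,
    pgl_mk_eq_iff]
  refine ⟨-1, ?_⟩
  ext i j
  fin_cases i <;> fin_cases j <;>
    simp [weyl, dia, scalarUnit, Matrix.mul_apply, Fin.sum_univ_two, ha]

omit [NumberField F] in
/-- The centraliser of `diag(a,1)` is the torus for `a ≠ ± 1`. -/
theorem centralizer_torus {a : Fˣ} (ha : (a : F) ≠ 1) (ha' : (a : F) ≠ -1) :
    Subgroup.centralizer {torus F a} = (torus F).range := by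
  ext z
  rw [Subgroup.mem_centralizer_singleton_iff]
  refine ⟨fun h => (torus_commute ha h).resolve_right fun e => ha' e.1, ?_⟩
  rintro ⟨t, rfl⟩
  rw [← map_mul, ← map_mul, mul_comm]

variable {U : Level F}

open Classical in
/-- The weight for the centraliser: halved when the Weyl element belongs to it. -/
def centWeight (a : Fˣ) (u : GLFin F ⧸ U.toSubgroup → ℝ≥0) (c : GLFin F ⧸ U.toSubgroup) : ℝ≥0 :=
  if (a : F) = -1 then u c / 2 else u c

/-- A partition of the torus gives one of the centraliser. -/
theorem isPartition_centWeight [NumberField.IsTotallyComplex F] {a : Fˣ} (ha : (a : F) ≠ 1)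
    {u : GLFin F ⧸ U.toSubgroup → ℝ≥0}
    (hu : ∀ c, HasSum (fun t : Fˣ => u (glIncl F (dia t) • c)) 1) :
    IsPartition (Subgroup.centralizer ({torus F a} : Set (PGLIndex F))) Set.univ
      fun y : Y U => centWeight a u y.2 := by
  by_cases ha' : (a : F) = -1
  swap
  · have hw : (fun y : Y U => centWeight a u y.2) = fun y : Y U => u y.2 := by
      funext y; simp [centWeight, ha']
    rw [hw, centralizer_torus ha ha']
    exact isPartition_of_hasSum hu
  refine ⟨measurable_weight_snd _, fun y _ => ?_⟩
  let f : Fˣ ⊕ Fˣ → Subgroup.centralizer ({torus F a} : Set (PGLIndex F)) := Sum.elim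
    (fun t => ⟨torus F t, Subgroup.mem_centralizer_singleton_iff.mpr (by
      rw [← map_mul, ← map_mul, mul_comm])⟩)
    (fun t => ⟨torus F t * QuotientGroup.mk (weyl F), Subgroup.mem_centralizer_singleton_iff.mpr
      (by
        rw [mul_assoc, (torus_neg_one_commute_weyl ha').eq, ← mul_assoc, ← map_mul, mul_comm t,
          map_mul, mul_assoc])⟩)
  have hf : Function.Bijective f := by
    refine ⟨?_, ?_⟩
    · rintro (s | s) (t | t) e <;> simp only [f, Sum.elim_inl, Sum.elim_inr, Subtype.mk.injEq] at e
      · rw [torus_injective e]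
      · exact absurd e (torus_weyl_ne s t)
      · exact absurd e.symm (torus_weyl_ne t s)
      · rw [torus_injective (mul_right_cancel e)]
    · rintro ⟨z, hz⟩
      rcases torus_commute ha (Subgroup.mem_centralizer_singleton_iff.mp hz) with
        ⟨t, rfl⟩ | ⟨-, t, ht⟩
      · exact ⟨Sum.inl t, rfl⟩
      · refine ⟨Sum.inr t, Subtype.ext ?_⟩
        show torus F t * _ = z
        rw [ht, mul_assoc, weyl_mul_weyl_pgl, mul_one]
  refine (Equiv.ofBijective f hf).hasSum_iff.mp ?_
  have h1 := (hu y.2).div_const 2
  have h2 := (hu (glIncl F (weyl F) • y.2)).div_const 2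
  rw [show (1 : ℝ≥0) = 1 / 2 + 1 / 2 from (add_halves 1).symm]
  refine HasSum.sum ?_ ?_
  · refine h1.congr_fun fun t => ?_
    show centWeight a u (torus F t • y).2 = _
    rw [centWeight, if_pos ha', torus_apply, pgl_mk_smul, smul_snd]
  · refine h2.congr_fun fun t => ?_
    show centWeight a u ((torus F t * QuotientGroup.mk (weyl F)) • y).2 = _
    rw [centWeight, if_pos ha', mul_smul, torus_apply, pgl_mk_smul, pgl_mk_smul, smul_snd,
      smul_snd]

variable {K L : Type*} [Field K] [NumberField K] [Field L] [NumberField L] {ι : K →+* L}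
  {σ : L ≃+* L}

omit [NumberField K] [NumberField L] in
/-- Normalised indices are stable under rational conjugation. -/
theorem IsNormalised.conj_base (hc : IsCubic ι σ) {δ : Twisted (pglAut σ)} {γ : PGLIndex K}
    (hn : IsNormalised ι δ γ) (h : PGLIndex K) :
    IsNormalised ι (pglBase ι h • δ) (h * γ * h⁻¹) := by
  have hv : (pglBase ι h • δ).val = pglBase ι h * δ.val * (pglBase ι h)⁻¹ := by
    rw [Twisted.val_smul, hc.pglAut_base]
  refine ⟨by rw [Twisted.norm_smul (pglAut_iterate hc.pow), hn.norm_eq, map_mul, map_mul, map_inv],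
    fun g hg => ?_⟩
  rw [hv]
  rw [map_mul, map_mul, map_inv] at hg
  set H := pglBase ι h
  have h1 : Commute (H⁻¹ * g * H) (pglBase ι γ) := by
    have e : pglBase ι γ = H⁻¹ * (H * pglBase ι γ * H⁻¹) * H := by group
    have hg' := hg.eq
    show _ = _
    rw [e]
    generalize H * pglBase ι γ * H⁻¹ = A at hg' ⊢
    calc H⁻¹ * g * H * (H⁻¹ * A * H) = H⁻¹ * (g * A) * H := by group
      _ = H⁻¹ * (A * g) * H := by rw [hg']
      _ = _ := by group
  have h2 := (hn.commute _ h1).eq
  show _ = _
  calc g * (H * δ.val * H⁻¹) = H * (H⁻¹ * g * H * δ.val) * H⁻¹ := by group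
    _ = H * (δ.val * (H⁻¹ * g * H)) * H⁻¹ := by rw [h2]
    _ = _ := by group

omit [NumberField K] [NumberField L] in
theorem pglBase_torus (a : Kˣ) :
    pglBase ι (torus K a) = torus L (Units.map ι.toMonoidHom a) := by
  rw [torus_apply, torus_apply, pglBase_mk]
  congr 1
  ext i j
  fin_cases i <;> fin_cases j <;> simp [dia, Matching.baseUnit]

omit [NumberField L] in
theorem pglAut_torus (b : Lˣ) :
    pglAut σ (torus L b) = torus L (Units.map σ.toRingHom.toMonoidHom b) := by
  rw [torus_apply, torus_apply, pglAut_mk]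
  congr 1
  ext i j
  fin_cases i <;> fin_cases j <;> simp [dia]

omit [NumberField K] in
/-- A normalised index over `diag(a,1)` is `diag(b,1)` with `a` the norm of `b`. -/
theorem IsNormalised.exists_dia {a : Kˣ}
    {δ : Twisted (pglAut σ)} (hn : IsNormalised ι δ (torus K a)) :
    ∃ b : Lˣ, δ = Twisted.mk (pglAut σ) (torus L b) ∧
      ι (a : K) = (b : L) * σ b * σ (σ b) := by
  have h2 : ((2 : L) ≠ 1) ∧ ((2 : L) ≠ -1) :=
    ⟨by norm_num, fun e => by have : (3 : L) = 0 := by linear_combination e
                              exact three_ne_zero this⟩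
  have hcomm : Commute (torus L (Units.mk0 2 two_ne_zero)) (pglBase ι (torus K a)) := by
    rw [pglBase_torus]
    exact (Commute.all _ _).map (torus L)
  obtain ⟨b, hb⟩ : ∃ b, torus L b = δ.val :=
    (torus_commute (a := Units.mk0 (2 : L) two_ne_zero) h2.1
      (hn.commute _ hcomm).symm).resolve_right
      fun e => h2.2 e.1
  refine ⟨b, Twisted.ext hb.symm, ?_⟩
  have h3 := hn.norm_eq
  rw [Twisted.norm_eq, ← hb, pglBase_torus, pglAut_torus, pglAut_torus, ← map_mul, ← map_mul] at h3
  have h4 := congrArg Units.val (torus_injective h3)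
  simpa [mul_assoc] using h4.symm

end Fermat.Agent.LT.Geometric

end
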