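import Fermat.Agent.LT.Geometric.ClassInvariant
import Fermat.Agent.LT.Kernel.AutSum
import Fermat.Agent.LT.Galois

/-!
# The invariant of an element nearly fixing a point, and its twisted version

A field automorphism acts on the archimedean part compatibly with composition and distances; a
product of three elements, each moving a point by a bounded amount, has bounded invariant.
-/

set_option autoImplicit false

noncomputable section

open Matrix
open scoped NumberField ComplexConjugate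
open NumberField (InfinitePlace)

namespace Fermat.Agent.LT.Geometric

/-- Complex conjugation is an isometry of `ℍ³`. -/
theorem cdist_conjPoint (P Q : H3) :
    H3.cdist (H3.conjPoint P) (H3.conjPoint Q) = H3.cdist P Q := by
  show ((P.matᵀ⁻¹ * Q.matᵀ).trace).re / 2 = ((P.mat⁻¹ * Q.mat).trace).re / 2
  rw [← Matrix.transpose_nonsing_inv, ← Matrix.transpose_mul, Matrix.trace_transpose,
    Matrix.trace_mul_comm]

variable {F : Type*} [Field F] [NumberField F]

omit [NumberField F] in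
/-- The Galois action permutes the places isometrically. -/
theorem cdist_galInf (σ : F ≃+* F) (P Q : InfinitePlace F → H3) (w : InfinitePlace F) :
    H3.cdist (galInf σ P w) (galInf σ Q w) =
      H3.cdist (P (w.comap (σ : F →+* F))) (Q (w.comap (σ : F →+* F))) := by
  unfold galInf
  split_ifs
  · rfl
  · exact cdist_conjPoint _ _

omit [NumberField F] in
/-- The identity automorphism acts trivially on the archimedean points. -/
theorem galInf_refl (P : InfinitePlace F → H3) : galInf (RingEquiv.refl F) P = P := by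
  funext w
  unfold galInf
  have h : w.comap ((RingEquiv.refl F : F ≃+* F) : F →+* F) = w := InfinitePlace.comap_id w
  rw [h]
  exact if_pos (RingHom.ext fun _ => rfl)

omit [NumberField F] in
/-- The Galois action on the archimedean points composes contravariantly. -/
theorem galInf_trans (σ τ : F ≃+* F) (P : InfinitePlace F → H3) :
    galInf σ (galInf τ P) = galInf (τ.trans σ) P := by
  funext w
  have hco : w.comap ((τ.trans σ : F ≃+* F) : F →+* F) =
      (w.comap (σ : F →+* F)).comap (τ : F →+* F) := by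
    rw [← InfinitePlace.comap_comp]; rfl
  have hρ : w.embedding.comp ((τ.trans σ : F ≃+* F) : F →+* F) =
      (w.embedding.comp (σ : F →+* F)).comp (τ : F →+* F) := rfl
  have hcc : ∀ f : F →+* ℂ, (starRingEnd ℂ).comp ((starRingEnd ℂ).comp f) = f := fun f =>
    RingHom.ext fun x => Complex.conj_conj _
  set w' := w.comap (σ : F →+* F) with hw'
  set w'' := w'.comap (τ : F →+* F) with hw''
  unfold galInf
  rw [← hw', hco, ← hw'', hρ]
  by_cases h1 : w.embedding.comp (σ : F →+* F) = w'.embedding <;>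
    by_cases h2 : w'.embedding.comp (τ : F →+* F) = w''.embedding
  · rw [if_pos h1, if_pos h2, if_pos (by rw [h1, h2])]
  · rw [if_pos h1, if_neg h2, if_neg (by rw [h1]; exact h2)]
  · rw [if_neg h1, if_pos h2]
    have e := embedding_comap_of_ne σ w h1
    rw [← hw'] at e
    rw [if_neg]
    intro h
    refine h1 ?_
    rw [e]
    have : (starRingEnd ℂ).comp w''.embedding = w''.embedding := by
      rw [← h2, ← RingHom.comp_assoc, ← e, h, h2]
    ext x
    have hx := RingHom.congr_fun this (τ.symm x)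
    rw [RingHom.comp_apply, ← RingHom.congr_fun h2 (τ.symm x)] at hx
    simpa using hx
  · rw [if_neg h1, if_neg h2, if_pos, H3.conjPoint_conjPoint]
    have e := embedding_comap_of_ne σ w h1
    have e' := embedding_comap_of_ne τ w' h2
    rw [← hw'] at e
    rw [← hw''] at e'
    rw [e, RingHom.comp_assoc, e', hcc]

/-- The sum of the squared absolute values of the entries. -/
def frobSq (g : Matrix (Fin 2) (Fin 2) ℂ) : ℝ :=
  ‖g 0 0‖ ^ 2 + ‖g 0 1‖ ^ 2 + ‖g 1 0‖ ^ 2 + ‖g 1 1‖ ^ 2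

theorem frobSq_nonneg (g : Matrix (Fin 2) (Fin 2) ℂ) : 0 ≤ frobSq g := by
  unfold frobSq; positivity

theorem frobSq_mul (A B : Matrix (Fin 2) (Fin 2) ℂ) :
    frobSq (A * B) ≤ frobSq A * frobSq B := by
  have key : ∀ a b c d : ℂ, ‖a * c + b * d‖ ^ 2 ≤
      (‖a‖ ^ 2 + ‖b‖ ^ 2) * (‖c‖ ^ 2 + ‖d‖ ^ 2) := fun a b c d => by
    have h := norm_add_le (a * c) (b * d)
    rw [norm_mul, norm_mul] at h
    nlinarith [norm_nonneg (a * c + b * d), sq_nonneg (‖a‖ * ‖d‖ - ‖b‖ * ‖c‖)]
  simp only [frobSq, Matrix.mul_apply, Fin.sum_univ_two]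
  nlinarith [key (A 0 0) (A 0 1) (B 0 0) (B 1 0), key (A 0 0) (A 0 1) (B 0 1) (B 1 1),
    key (A 1 0) (A 1 1) (B 0 0) (B 1 0), key (A 1 0) (A 1 1) (B 0 1) (B 1 1)]

theorem norm_trace_sq_le (g : Matrix (Fin 2) (Fin 2) ℂ) : ‖g.trace‖ ^ 2 ≤ 2 * frobSq g := by
  rw [Matrix.trace_fin_two]
  have h := norm_add_le (g 0 0) (g 1 1)
  unfold frobSq
  nlinarith [norm_nonneg (g 0 0 + g 1 1), sq_nonneg (‖g 0 0‖ - ‖g 1 1‖),
    sq_nonneg ‖g 0 1‖, sq_nonneg ‖g 1 0‖]

/-- The element carrying one point near another, in the coordinates of the points. -/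
theorem frobSq_le_of_cdist {R : ℝ} {P Q : H3} {g : GL (Fin 2) ℂ}
    (h : H3.cdist P (g • Q) ≤ R) :
    frobSq ((Kernel.toGL P)⁻¹ * g * Kernel.toGL Q : GL (Fin 2) ℂ).val ≤
      2 * R * ‖((Kernel.toGL P)⁻¹ * g * Kernel.toGL Q : GL (Fin 2) ℂ).val.det‖ := by
  set G := (Kernel.toGL P)⁻¹ * g * Kernel.toGL Q
  have h1 : H3.cdist H3.origin (G • H3.origin) ≤ R := by
    rw [← H3.cdist_smul (Kernel.toGL P), ← mul_smul,
      show Kernel.toGL P * G = g * Kernel.toGL Q by simp only [G]; group, mul_smul,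
      Kernel.toGL_smul_origin, Kernel.toGL_smul_origin]
    exact h
  rw [Kernel.cdist_origin_smul, div_le_iff₀ (mul_pos two_pos (H3.norm_det_pos G))] at h1
  rw [frobSq]
  linarith

/-- One element nearly fixing a point. -/
theorem norm_classInv_le {R : ℝ} {P : H3} {g : GL (Fin 2) ℂ}
    (h : H3.cdist P (g • P) ≤ R) : ‖g.val.trace‖ ^ 2 / ‖g.val.det‖ ≤ 4 * R := by
  have h1 := frobSq_le_of_cdist h
  set G := (Kernel.toGL P)⁻¹ * g * Kernel.toGL P with hG
  have ht : G.val.trace = g.val.trace := by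
    rw [hG, Units.val_mul, Units.val_mul, Matrix.trace_units_conj']
  have hd : G.val.det = g.val.det := by
    rw [hG, Units.val_mul, Units.val_mul, Matrix.det_units_conj']
  have h2 := norm_trace_sq_le G.val
  rw [ht] at h2
  rw [hd] at h1
  rw [div_le_iff₀ (H3.norm_det_pos g)]
  linarith

theorem frobSq_three_le {R : ℝ} (hR : 0 ≤ R) {A B C : GL (Fin 2) ℂ}
    (e1 : frobSq A.val ≤ 2 * R * ‖A.val.det‖) (e2 : frobSq B.val ≤ 2 * R * ‖B.val.det‖)
    (e3 : frobSq C.val ≤ 2 * R * ‖C.val.det‖) :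
    frobSq (A * B * C).val ≤ (2 * R) ^ 3 * ‖(A * B * C).val.det‖ := by
  simp only [Units.val_mul, Matrix.det_mul, norm_mul]
  have h2R : 0 ≤ 2 * R := mul_nonneg zero_le_two hR
  have k1 : frobSq A.val * frobSq B.val ≤ (2 * R * ‖A.val.det‖) * (2 * R * ‖B.val.det‖) :=
    mul_le_mul e1 e2 (frobSq_nonneg _) (mul_nonneg h2R (norm_nonneg _))
  have k2 : frobSq A.val * frobSq B.val * frobSq C.val ≤
      (2 * R * ‖A.val.det‖) * (2 * R * ‖B.val.det‖) * (2 * R * ‖C.val.det‖) :=
    mul_le_mul k1 e3 (frobSq_nonneg _)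
      (mul_nonneg (mul_nonneg h2R (norm_nonneg _)) (mul_nonneg h2R (norm_nonneg _)))
  have k3 : frobSq (A.val * B.val * C.val) ≤ frobSq A.val * frobSq B.val * frobSq C.val :=
    (frobSq_mul _ _).trans (mul_le_mul_of_nonneg_right (frobSq_mul _ _) (frobSq_nonneg _))
  linarith [show (2 * R * ‖A.val.det‖) * (2 * R * ‖B.val.det‖) * (2 * R * ‖C.val.det‖) =
    (2 * R) ^ 3 * (‖A.val.det‖ * ‖B.val.det‖ * ‖C.val.det‖) by ring]

/-- Three elements moving three points cyclically near one another. -/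
theorem norm_classInv_three_le {R : ℝ} {P₀ P₁ P₂ : H3} {g₁ g₂ g₃ : GL (Fin 2) ℂ}
    (h1 : H3.cdist P₀ (g₁ • P₁) ≤ R) (h2 : H3.cdist P₁ (g₂ • P₂) ≤ R)
    (h3 : H3.cdist P₂ (g₃ • P₀) ≤ R) :
    ‖(g₁ * g₂ * g₃).val.trace‖ ^ 2 / ‖(g₁ * g₂ * g₃).val.det‖ ≤ 2 * (2 * R) ^ 3 := by
  have e1 := frobSq_le_of_cdist h1
  have e2 := frobSq_le_of_cdist h2
  have e3 := frobSq_le_of_cdist h3
  set A := (Kernel.toGL P₀)⁻¹ * g₁ * Kernel.toGL P₁ with hA
  set B := (Kernel.toGL P₁)⁻¹ * g₂ * Kernel.toGL P₂ with hB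
  set C := (Kernel.toGL P₂)⁻¹ * g₃ * Kernel.toGL P₀ with hC
  have hprod : A * B * C = (Kernel.toGL P₀)⁻¹ * (g₁ * g₂ * g₃) * Kernel.toGL P₀ := by
    rw [hA, hB, hC]; group
  have ht : (A * B * C).val.trace = (g₁ * g₂ * g₃).val.trace := by
    rw [hprod, Units.val_mul, Units.val_mul _ (g₁ * g₂ * g₃), Matrix.trace_units_conj']
  have hd : (A * B * C).val.det = (g₁ * g₂ * g₃).val.det := by
    rw [hprod, Units.val_mul, Units.val_mul _ (g₁ * g₂ * g₃), Matrix.det_units_conj']
  have hn := norm_trace_sq_le (A * B * C).val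
  rw [ht] at hn
  have hR : 0 ≤ R := zero_le_one.trans ((H3.one_le_cdist _ _).trans h1)
  have hm : frobSq (A * B * C).val ≤ (2 * R) ^ 3 * ‖(g₁ * g₂ * g₃).val.det‖ := by
    rw [← hd]
    exact frobSq_three_le hR e1 e2 e3
  rw [div_le_iff₀ (H3.norm_det_pos _)]
  linarith

/-- The absolute value of `tr² / det` at a place, read from the embedded matrix. -/
theorem place_classInv (γ : GL (Fin 2) F) (w : InfinitePlace F) :
    w (classInv (QuotientGroup.mk γ : PGLIndex F)) =
      ‖(glEmb F w γ).val.trace‖ ^ 2 / ‖(glEmb F w γ).val.det‖ := by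
  rw [classInv_mk, ← InfinitePlace.norm_embedding_eq, map_div₀, norm_div, map_pow, norm_pow,
    RingHom.map_det]
  congr 3
  simp [glEmb, Matrix.trace_fin_two]

end Fermat.Agent.LT.Geometric
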