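import Fermat.Agent.LT.Geometric.DenBound
import Fermat.Agent.LT.Geometric.ArchBound
import Fermat.Agent.LT.Geometric.NormalForm

/-!
# Finitely many classes meet the support of a test kernel

On the support of a point kernel and a Hecke function the invariant `tr² / det` lies in a finite
set; for the twisted kernel this holds for the invariant of the norm. Hence only finitely many
central, unipotent and split semisimple classes contribute.
-/

set_option autoImplicit false

noncomputable section

open Matrix
open scoped NumberField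
open NumberField (InfinitePlace)

namespace Fermat.Agent.LT.Geometric

variable {F : Type*} [Field F] [NumberField F] {U : Level F}

/-- **The invariant is finitely valued on the support.** -/
theorem exists_finite_classInv (k : Kernel.PointKer F) (h : HeckeFn U) :
    ∃ T : Set F, T.Finite ∧ ∀ (x : Y U) (c : PGLIndex F),
      Kernel.pairKer k h x (c • x) ≠ 0 → classInv c ∈ T := by
  obtain ⟨M, hM, hden⟩ := exists_adjDen_support h
  refine ⟨_, Kernel.finite_boundedDen F hM (4 * k.radius), fun x c hne => ?_⟩
  induction c using QuotientGroup.induction_on with | H γ => ?_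
  obtain ⟨g, hg⟩ := QuotientGroup.mk_surjective x.2
  replace hne : k.toFun x.1 ((γ • x).1) * h.kernel x.2 (γ • x).2 ≠ 0 := hne
  obtain ⟨h1, h2⟩ := mul_ne_zero_iff.mp hne
  refine ⟨boundedDen_classInv (x := g) (hden _ ?_), fun w => ?_⟩
  · rw [smul_snd, ← hg] at h2
    rw [mul_assoc]
    exact h2
  · rw [place_classInv]
    exact norm_classInv_le (P := x.1 w) (k.cdist_le h1 w)

omit [NumberField F] in
theorem glFinMap_iterate (σ : F ≃+* F) (hσ : ∀ a, σ (σ (σ a)) = a) (g : GLFin F) :
    glFinMap (σ : F →+* F) (glFinMap (σ : F →+* F) (glFinMap (σ : F →+* F) g)) = g := by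
  have hx : ∀ x : FinAdele F,
      finMap (σ : F →+* F) (finMap (σ : F →+* F) (finMap (σ : F →+* F) x)) = x := fun x => by
    induction x using TensorProduct.induction_on with
    | zero => simp
    | tmul a z => simp [hσ]
    | add x y hx hy => simp only [map_add, hx, hy]
  ext i j
  exact hx _

omit [NumberField F] in
theorem galInf_iterate (σ : F ≃+* F) (hσ : ∀ a, σ (σ (σ a)) = a)
    (P : InfinitePlace F → H3) : galInf σ (galInf σ (galInf σ P)) = P := by
  rw [galInf_trans, galInf_trans,
    show σ.trans (σ.trans σ) = RingEquiv.refl F from RingEquiv.ext hσ, galInf_refl]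

/-- **The twisted case**: the invariant of the norm is finitely valued on the support. -/
theorem exists_finite_classInv_twisted (σ : F ≃+* F) (hσ : ∀ a, σ (σ (σ a)) = a)
    (hU : ∀ g ∈ U.toSubgroup, glFinMap (σ : F →+* F) g ∈ U.toSubgroup)
    (k : Kernel.PointKer F) (h : HeckeFn U) :
    ∃ T : Set F, T.Finite ∧ ∀ (x : Y U) (δ : PGLIndex F),
      Kernel.pairKer k h x (δ • galY σ U hU x) ≠ 0 →
        classInv (Twisted.mk (pglAut σ) δ).norm ∈ T := by
  obtain ⟨M, hM, hden⟩ := exists_adjDen_support h
  refine ⟨_, Kernel.finite_boundedDen F (Nat.mul_pos (Nat.mul_pos hM hM) hM)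
    (2 * (2 * k.radius) ^ 3), fun x δ hne => ?_⟩
  induction δ using QuotientGroup.induction_on with | H d => ?_
  set s : GL (Fin 2) F →* GL (Fin 2) F := Matrix.GeneralLinearGroup.map (σ : F →+* F) with hs
  have hnorm : (Twisted.mk (pglAut σ) (QuotientGroup.mk d : PGLIndex F)).norm =
      QuotientGroup.mk (d * s d * s (s d)) := by
    rw [Twisted.norm_eq, mul_assoc d]
    rfl
  rw [hnorm]
  obtain ⟨g, hg⟩ := QuotientGroup.mk_surjective x.2
  replace hne : k.toFun x.1 ((d • galY σ U hU x).1) * h.kernel x.2 (d • galY σ U hU x).2 ≠ 0 :=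
    hne
  obtain ⟨h1, h2⟩ := mul_ne_zero_iff.mp hne
  refine ⟨boundedDen_classInv (x := g) ?_, fun w => ?_⟩
  · rw [smul_snd, show (galY σ U hU x).2 = galFin σ U hU x.2 from rfl, ← hg, galFin_mk] at h2
    set σg := glFinMap (σ : F →+* F) with hσg
    have hX := hden _ h2
    have e := (hX.mul (hX.glFinMap (σ : F →+* F))).mul
      ((hX.glFinMap (σ : F →+* F)).glFinMap (σ : F →+* F))
    refine (?_ : g⁻¹ * glIncl F (d * s d * s (s d)) * g = _) ▸ e
    rw [← hσg]
    simp only [smul_eq_mul, map_mul, map_inv, hs, ← glFinMap_glIncl, ← hσg]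
    have h3 : σg (σg (σg g)) = g := glFinMap_iterate σ hσ g
    rw [h3]
    group
  · rw [place_classInv, map_mul, map_mul]
    set P0 := x.1 with hP0
    set P1 := galInf σ P0 with hP1
    set P2 := galInf σ P1 with hP2
    have r0 : ∀ v, H3.cdist (P0 v) (glEmb F v d • P1 v) ≤ k.radius := fun v => k.cdist_le h1 v
    have r1 : ∀ v, H3.cdist (P1 v) (glEmb F v (s d) • P2 v) ≤ k.radius := fun v => by
      rw [hP2, hs, ← galInf_smul σ d P1 v, hP1, cdist_galInf]
      exact r0 _
    have r2 : ∀ v, H3.cdist (P2 v) (glEmb F v (s (s d)) • P0 v) ≤ k.radius := fun v => by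
      have h3 : galInf σ P2 = P0 := galInf_iterate σ hσ P0
      rw [← h3, hs, ← galInf_smul σ _ P2 v, hP2, cdist_galInf]
      exact r1 _
    exact norm_classInv_three_le (r0 w) (r1 w) (r2 w)

/-- The invariant commutes with extension of scalars. -/
theorem classInv_pglBase {K : Type*} [Field K] [NumberField K] (ι : K →+* F) (γ : PGLIndex K) :
    classInv (pglBase ι γ) = ι (classInv γ) := by
  induction γ using QuotientGroup.induction_on with | H m => ?_
  rw [pglBase_mk, classInv_mk, classInv_mk, map_div₀, map_pow, RingHom.map_det]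
  congr 2
  exact (AddMonoidHom.map_trace ι.toAddMonoidHom m.val).symm

/-- Finitely many classes that are not elliptic meet the support. -/
theorem finite_classes_meeting (k : Kernel.PointKer F) (h : HeckeFn U) :
    (ConjClasses.mk '' {c : PGLIndex F | (classInv c ≠ 0 ∨ HasEigenvalue c) ∧
      ∃ x : Y U, Kernel.pairKer k h x (c • x) ≠ 0}).Finite := by
  obtain ⟨T, hT, hsupp⟩ := exists_finite_classInv k h
  refine (finite_conjClasses hT).subset (Set.image_mono ?_)
  rintro c ⟨hc, x, hx⟩
  exact ⟨hsupp x c hx, hc⟩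

/-- Finitely many rational classes that are not elliptic are norms meeting the twisted support. -/
theorem finite_classes_meeting_twisted {K : Type*} [Field K] [NumberField K] {ι : K →+* F}
    (σ : F ≃+* F) (hσ : ∀ a, σ (σ (σ a)) = a)
    (hU : ∀ g ∈ U.toSubgroup, glFinMap (σ : F →+* F) g ∈ U.toSubgroup)
    (k : Kernel.PointKer F) (h : HeckeFn U) :
    (ConjClasses.mk '' {γ : PGLIndex K | (classInv γ ≠ 0 ∨ HasEigenvalue γ) ∧
      ∃ δ : Twisted (pglAut σ), IsNormalised ι δ γ ∧
        ∃ x : Y U, Kernel.pairKer k h x (δ.val • galY σ U hU x) ≠ 0}).Finite := by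
  obtain ⟨T, hT, hsupp⟩ := exists_finite_classInv_twisted σ hσ hU k h
  refine (finite_conjClasses (hT.preimage ι.injective.injOn)).subset (Set.image_mono ?_)
  rintro γ ⟨hγ, δ, hδ, x, hx⟩
  refine ⟨?_, hγ⟩
  rw [Set.mem_preimage, ← classInv_pglBase ι, ← hδ.norm_eq]
  exact hsupp x δ.val hx

end Fermat.Agent.LT.Geometric
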