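import Mathlib.MeasureTheory.Group.Action
import Mathlib.MeasureTheory.Integral.Bochner.Basic
import Mathlib.MeasureTheory.Integral.DominatedConvergence

/-!
# Partitions of unity for a countable group acting on a measure space

Integrals over a quotient are integrals against a partition of unity. For an invariant integrand
the result does not depend on the partition.
-/

set_option autoImplicit false

noncomputable section

open MeasureTheory
open scoped ENNReal NNReal

namespace Fermat.Agent.LT.Geometric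

/-- `w` is a partition of unity for `G` on the invariant set `s`. -/
structure IsPartition (G : Type*) {X : Type*} [Group G] [MeasurableSpace X] [MulAction G X]
    (s : Set X) (w : X → ℝ≥0) : Prop where
  measurable : Measurable w
  hasSum : ∀ x ∈ s, HasSum (fun g : G => w (g • x)) 1

variable {G X : Type*} [Group G] [Countable G] [MeasurableSpace X] [MulAction G X]
  [MeasurableConstSMul G X] {μ : Measure X} [SMulInvariantMeasure G X μ]

omit [Countable G] in
/-- Translating the variable keeps the lower integral. -/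
theorem lintegral_smul_eq (g : G) (f : X → ℝ≥0∞) :
    ∫⁻ x, f (g • x) ∂μ = ∫⁻ x, f x ∂μ :=
  (measurePreserving_smul g μ).lintegral_comp_emb (MeasurableEquiv.smul g).measurableEmbedding f

omit [Countable G] in
/-- Translating the variable keeps the integral. -/
theorem integral_smul_eq' {E : Type*} [NormedAddCommGroup E] [NormedSpace ℝ E] (g : G)
    (f : X → E) : ∫ x, f (g • x) ∂μ = ∫ x, f x ∂μ :=
  (measurePreserving_smul g μ).integral_comp (MeasurableEquiv.smul g).measurableEmbedding f

omit [Countable G] [MeasurableConstSMul G X] in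
/-- A partition of unity sums to one, in `ℝ≥0∞`. -/
theorem IsPartition.enn_tsum {s : Set X} {w : X → ℝ≥0} (hw : IsPartition G s w) {x : X}
    (hx : x ∈ s) : ∑' g : G, (w (g • x) : ℝ≥0∞) = 1 := by
  rw [← ENNReal.coe_tsum (hw.hasSum x hx).summable, (hw.hasSum x hx).tsum_eq, ENNReal.coe_one]

/-- The weighted integral of a nonnegative invariant function does not depend on the partition. -/
theorem lintegral_partition_eq {s : Set X}
    {w w' : X → ℝ≥0} (hw : IsPartition G s w) (hw' : IsPartition G s w')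
    {Φ : X → ℝ≥0∞} (hΦm : Measurable Φ) (hΦ : ∀ (g : G) (x : X), Φ (g • x) = Φ x)
    (hsupp : ∀ x, x ∉ s → Φ x = 0) :
    ∫⁻ x, (w x : ℝ≥0∞) * Φ x ∂μ = ∫⁻ x, (w' x : ℝ≥0∞) * Φ x ∂μ := by
  have key : ∀ (a b : X → ℝ≥0), IsPartition G s b →
      ∀ x, (a x : ℝ≥0∞) * Φ x = ∑' g : G, (a x : ℝ≥0∞) * b (g • x) * Φ x := fun a b hb x => by
    by_cases hx : x ∈ s
    · rw [ENNReal.tsum_mul_right, ENNReal.tsum_mul_left, hb.enn_tsum hx, mul_one]
    · simp [hsupp x hx]
  have hm : ∀ (a b : X → ℝ≥0), Measurable a → Measurable b → ∀ g : G,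
      Measurable fun x => (a x : ℝ≥0∞) * b (g • x) * Φ x := fun a b ha hb g =>
    (ha.coe_nnreal_ennreal.mul
      (hb.comp (measurable_const_smul g)).coe_nnreal_ennreal).mul hΦm
  simp only [key w w' hw', key w' w hw]
  rw [lintegral_tsum fun g => (hm w w' hw.measurable hw'.measurable g).aemeasurable,
    lintegral_tsum fun g => (hm w' w hw'.measurable hw.measurable g).aemeasurable,
    ← Equiv.tsum_eq (Equiv.inv G) fun g => ∫⁻ x, (w' x : ℝ≥0∞) * w (g • x) * Φ x ∂μ]
  refine tsum_congr fun g => ?_
  simp only [Equiv.inv_apply]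
  rw [← lintegral_smul_eq (μ := μ) g fun x => (w' x : ℝ≥0∞) * w (g⁻¹ • x) * Φ x]
  refine lintegral_congr fun x => ?_
  rw [inv_smul_smul, hΦ]
  ring

variable {E : Type*} [NormedAddCommGroup E] [NormedSpace ℝ E]

omit [Countable G] [MeasurableConstSMul G X] [SMulInvariantMeasure G X μ] in
/-- The extended norm of a nonnegative real multiple. -/
theorem enorm_smul_nnreal (c : ℝ≥0) (e : E) : ‖(c : ℝ) • e‖ₑ = (c : ℝ≥0∞) * ‖e‖ₑ := by
  rw [enorm_smul, Real.enorm_of_nonneg c.coe_nonneg, ENNReal.ofReal_coe_nnreal]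

/-- Integrability against a partition does not depend on the partition. -/
theorem integrable_partition_iff {s : Set X}
    {w w' : X → ℝ≥0} (hw : IsPartition G s w) (hw' : IsPartition G s w')
    {Φ : X → E} (hΦm : StronglyMeasurable Φ) (hΦ : ∀ (g : G) (x : X), Φ (g • x) = Φ x)
    (hsupp : ∀ x, x ∉ s → Φ x = 0) :
    Integrable (fun x => (w x : ℝ) • Φ x) μ ↔ Integrable (fun x => (w' x : ℝ) • Φ x) μ := by
  have hmeas : ∀ a : X → ℝ≥0, Measurable a → StronglyMeasurable fun x => (a x : ℝ) • Φ x :=
    fun a ha => ha.coe_nnreal_real.stronglyMeasurable.smul hΦm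
  have heq := lintegral_partition_eq (μ := μ) hw hw' (Φ := fun x => ‖Φ x‖ₑ)
    hΦm.enorm (fun g x => by rw [hΦ]) (fun x hx => by rw [hsupp x hx, enorm_zero])
  constructor <;> intro h <;>
    refine ⟨(hmeas _ (by first | exact hw'.measurable | exact hw.measurable)).aestronglyMeasurable,
      ?_⟩ <;>
    simp only [hasFiniteIntegral_iff_enorm, enorm_smul_nnreal]
  · rw [← heq]; simpa [hasFiniteIntegral_iff_enorm, enorm_smul_nnreal] using h.2
  · rw [heq]; simpa [hasFiniteIntegral_iff_enorm, enorm_smul_nnreal] using h.2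

/-- The weighted integral of an invariant function does not depend on the partition. -/
theorem integral_partition_eq [CompleteSpace E] {s : Set X}
    {w w' : X → ℝ≥0} (hw : IsPartition G s w) (hw' : IsPartition G s w')
    {Φ : X → E} (hΦm : StronglyMeasurable Φ) (hΦ : ∀ (g : G) (x : X), Φ (g • x) = Φ x)
    (hsupp : ∀ x, x ∉ s → Φ x = 0) (hint : Integrable (fun x => (w x : ℝ) • Φ x) μ) :
    ∫ x, (w x : ℝ) • Φ x ∂μ = ∫ x, (w' x : ℝ) • Φ x ∂μ := by
  have hint' := (integrable_partition_iff hw hw' hΦm hΦ hsupp).mp hint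
  have key : ∀ (a b : X → ℝ≥0), IsPartition G s b →
      ∀ x, (a x : ℝ) • Φ x = ∑' g : G, ((a x : ℝ) * b (g • x)) • Φ x := fun a b hb x => by
    by_cases hx : x ∈ s
    · have h := ((NNReal.hasSum_coe.mpr (hb.hasSum x hx)).mul_left (a x : ℝ)).smul_const (Φ x)
      rw [h.tsum_eq, NNReal.coe_one, mul_one]
    · simp [hsupp x hx]
  have hm : ∀ (a b : X → ℝ≥0), Measurable a → Measurable b → ∀ g : G,
      StronglyMeasurable fun x => ((a x : ℝ) * b (g • x)) • Φ x := fun a b ha hb g =>
    (ha.coe_nnreal_real.mul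
      (hb.comp (measurable_const_smul g)).coe_nnreal_real).stronglyMeasurable.smul hΦm
  have hfin : ∀ (a b : X → ℝ≥0), Measurable a → IsPartition G s b →
      Integrable (fun x => (a x : ℝ) • Φ x) μ →
      (∑' g : G, ∫⁻ x, ‖((a x : ℝ) * b (g • x)) • Φ x‖ₑ ∂μ) ≠ ∞ := fun a b ha hb hi => by
    rw [← lintegral_tsum fun g => (hm a b ha hb.measurable g).enorm.aemeasurable]
    refine ne_top_of_le_ne_top hi.2.ne (lintegral_mono fun x => ?_)
    simp only [← NNReal.coe_mul, enorm_smul_nnreal, ENNReal.coe_mul]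
    by_cases hx : x ∈ s
    · rw [ENNReal.tsum_mul_right, ENNReal.tsum_mul_left, hb.enn_tsum hx, mul_one]
    · simp [hsupp x hx]
  simp only [key w w' hw', key w' w hw]
  rw [integral_tsum (fun g => (hm w w' hw.measurable hw'.measurable g).aestronglyMeasurable)
      (hfin w w' hw.measurable hw' hint),
    integral_tsum (fun g => (hm w' w hw'.measurable hw.measurable g).aestronglyMeasurable)
      (hfin w' w hw'.measurable hw hint'),
    ← Equiv.tsum_eq (Equiv.inv G) fun g => ∫ x, ((w' x : ℝ) * w (g • x)) • Φ x ∂μ]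
  refine tsum_congr fun g => ?_
  simp only [Equiv.inv_apply]
  rw [← integral_smul_eq' (μ := μ) g fun x => ((w' x : ℝ) * w (g⁻¹ • x)) • Φ x]
  refine integral_congr_ae (Filter.Eventually.of_forall fun x => ?_)
  simp only [inv_smul_smul, hΦ, mul_comm (w x : ℝ)]

end Fermat.Agent.LT.Geometric
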