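import Fermat.Agent.LT.Geometric.Cusp
import Fermat.Agent.LT.Geometric.Finiteness
import Fermat.Agent.LT.Geometric.Partition
import Fermat.Agent.LT.Reduction.Public

/-!
# The cut-off sum of the terms is integrable

On a truncated Siegel set only finitely many terms do not vanish and the values are bounded, so the
cut-off sum is integrable over the quotient; for elements with elliptic norm no cutoff is needed.
-/

set_option autoImplicit false

noncomputable section

open MeasureTheory
open scoped ENNReal NNReal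
open NumberField (InfinitePlace)

namespace Fermat.Agent.LT.Geometric

variable {F : Type*} [Field F] [NumberField F] {U : Level F}

omit [NumberField F] in
/-- The Galois action on the archimedean points is continuous. -/
theorem continuous_galInf (σ : F ≃+* F) : Continuous (galInf σ) := by
  refine continuous_pi fun w => ?_
  unfold galInf
  by_cases h : w.embedding.comp (σ : F →+* F) = (w.comap (σ : F →+* F)).embedding
  · simp only [if_pos h]
    exact continuous_apply _
  · simp only [if_neg h]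
    exact continuous_conjPoint.comp (continuous_apply _)

/-- The finite kernel of a Hecke function is bounded. -/
theorem exists_kernel_bound (h : HeckeFn U) :
    ∃ C : ℝ, 0 ≤ C ∧ ∀ a b, ‖h.kernel a b‖ ≤ C := by
  classical
  set S := h.finite_support.toFinset
  refine ⟨∑ q ∈ S, ‖h.toFun q.out‖, Finset.sum_nonneg fun _ _ => norm_nonneg _, fun a b => ?_⟩
  induction a using QuotientGroup.induction_on with | H a => ?_
  induction b using QuotientGroup.induction_on with | H b => ?_
  rw [HeckeFn.kernel_mk]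
  set g := a⁻¹ * b
  by_cases hg : h.toFun g = 0
  · rw [hg, norm_zero]
    exact Finset.sum_nonneg fun _ _ => norm_nonneg _
  set q : GLFin F ⧸ U.toSubgroup := QuotientGroup.mk g
  have hu : g⁻¹ * q.out ∈ U.toSubgroup :=
    QuotientGroup.eq.mp (QuotientGroup.out_eq' q).symm
  have : h.toFun q.out = h.toFun g := by
    rw [← h.right_inv' g _ hu, mul_inv_cancel_left]
  rw [← this]
  exact Finset.single_le_sum (f := fun p : GLFin F ⧸ U.toSubgroup => ‖h.toFun p.out‖)
    (fun _ _ => norm_nonneg _) (h.finite_support.mem_toFinset.mpr ⟨g, hg, rfl⟩)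

variable (σ : F ≃+* F) (hU : ∀ g ∈ U.toSubgroup, glFinMap (σ : F →+* F) g ∈ U.toSubgroup)
  (k : Kernel.PointKer F) (h : HeckeFn U)

theorem tsum_term_smul (g : PGLIndex F) (x : Y U) :
    ∑' δ, ‖term σ hU k h δ (g • x)‖ₑ = ∑' δ, ‖term σ hU k h δ x‖ₑ := by
  rw [← (MulAction.toPerm g).tsum_eq fun δ : Twisted (pglAut σ) => ‖term σ hU k h δ (g • x)‖ₑ]
  exact tsum_congr fun δ => by rw [MulAction.toPerm_apply, term_smul]

/-- The terms are bounded and finitely many of them do not vanish on a truncated Siegel set. -/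
theorem exists_bound_truncated (R : Finset (GLFin F)) (A B : ℝ) {b : ℝ} (hb : 0 < b) (T : ℝ) :
    ∃ C : ℝ≥0∞, C ≠ ∞ ∧ ∀ x ∈ Reduction.siegel U R A B b, Reduction.height x ≤ T →
      ∑' δ, ‖term σ hU k h δ x‖ₑ ≤ C := by
  classical
  set n := Fintype.card (InfinitePlace F)
  set up := T / b ^ (n - 1) with hup
  set N : Set (InfinitePlace F → H3) := Set.univ.pi fun _ =>
    (fun p : ℂ × ℝ => H3.pt p.1 p.2) '' (Metric.closedBall 0 A ×ˢ Set.Icc b up) with hN
  have hNc : IsCompact N := isCompact_univ_pi fun _ =>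
    ((isCompact_closedBall _ _).prod isCompact_Icc).image_of_continuousOn
      (H3.continuousOn_pt.mono fun p hp => hb.trans_le hp.2.1)
  have hN'c : IsCompact (galInf σ '' N) := hNc.image (continuous_galInf σ)
  choose Γ hΓ using fun r : GLFin F => Kernel.exists_finset_support k h hNc hN'c
    (QuotientGroup.mk r) (galFin σ U hU (QuotientGroup.mk r))
  obtain ⟨Ch, hCh, hker⟩ := exists_kernel_bound h
  set D : Finset (Twisted (pglAut σ)) := (R.biUnion Γ).image (Twisted.mk (pglAut σ))
  refine ⟨(D.card : ℝ≥0∞) * ENNReal.ofReal (k.bound * Ch),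
    ENNReal.mul_ne_top (ENNReal.natCast_ne_top _) ENNReal.ofReal_ne_top, fun x hx hT => ?_⟩
  obtain ⟨hc, r, hr, hxr⟩ := hx
  have hmem : x.1 ∈ N := fun w _ => by
    refine ⟨(H3.zc (x.1 w), H3.tc (x.1 w)), ⟨?_, (hc w).1, ?_⟩, H3.pt_coord _⟩
    · simpa using (hc w).2.1
    · rw [hup, le_div_iff₀ (pow_pos hb _)]
      refine le_trans ?_ hT
      rw [Reduction.height, ← Finset.mul_prod_erase _ _ (Finset.mem_univ w)]
      refine mul_le_mul_of_nonneg_left ?_ (H3.tc_pos _).le
      simp only [n]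
      rw [← Finset.card_univ, ← Finset.card_erase_of_mem (Finset.mem_univ w), ← Finset.prod_const]
      exact Finset.prod_le_prod (fun _ _ => hb.le) fun w' _ => (hc w').1
  have hzero : ∀ δ ∉ D, ‖term σ hU k h δ x‖ₑ = 0 := by
    intro δ hδ
    have hδ' : δ.val ∉ Γ r := fun hd => hδ (Finset.mem_image.mpr
      ⟨δ.val, Finset.mem_biUnion.mpr ⟨r, hr, hd⟩, rfl⟩)
    have h0 := hΓ r x.1 hmem (galInf σ x.1) ⟨x.1, hmem, rfl⟩ δ.val hδ'
    obtain ⟨P, c⟩ := x
    subst hxr
    rw [show term σ hU k h δ (P, QuotientGroup.mk r) = 0 from h0, enorm_zero]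
  rw [tsum_eq_sum hzero]
  refine (Finset.sum_le_card_nsmul D _ _ fun δ _ => ?_).trans_eq (nsmul_eq_mul _ _)
  rw [← ofReal_norm]
  refine ENNReal.ofReal_le_ofReal ?_
  rw [term, norm_mul]
  exact mul_le_mul (k.norm_le _ _) (hker _ _) (norm_nonneg _) k.bound_nonneg

variable [NumberField.IsTotallyComplex F]

/-- **The cut-off sum is integrable over the quotient.** -/
theorem lintegral_cutoff_term_ne_top {ω : Y U → ℝ≥0}
    (hω : IsPartition (PGLIndex F) Set.univ ω) {R R' : Finset (GLFin F)} (hR : R ⊆ R') {A B b : ℝ}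
    (hb : 0 < b)
    (hcov : ∀ y : Y U, ∃ γ : GL (Fin 2) F, γ • y ∈ Reduction.siegel U R A B b) (T : ℝ) :
    ∫⁻ x, ((ω x * cutoff U R' T x : ℝ≥0) : ℝ≥0∞) * ∑' δ, ‖term σ hU k h δ x‖ₑ ∂yVol U ≠ ∞ := by
  classical
  have : Countable (PGLIndex F) := Reduction.countable_pglIndex
  have : Countable (Twisted (pglAut σ)) := Reduction.countable_pglIndex (F := F)
  have : MeasurableConstSMul (PGLIndex F) (Y U) :=
    ⟨fun c => (measurePreserving_pglSmul U c).measurable⟩
  have : SMulInvariantMeasure (PGLIndex F) (Y U) (yVol U) :=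
    ⟨fun c _ hs => (measurePreserving_pglSmul U c).measure_preimage hs.nullMeasurableSet⟩
  set S := Reduction.siegel U R A B b with hS
  have hSm : MeasurableSet S := Reduction.measurableSet_siegel R A B b
  have hfin : ∀ y, (Reduction.translates S y).Finite := fun y =>
    Reduction.finite_siegel_translates U R A B b hb y
  set P := Reduction.partitionOfSet S hfin hcov
  set ω' : Y U → ℝ≥0 := fun x => (P.weight x).toNNReal
  have hω' : IsPartition (PGLIndex F) Set.univ ω' :=
    ⟨(Reduction.measurable_weight hSm hfin).real_toNNReal, fun x _ => NNReal.hasSum_coe.mp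
      (by simpa [ω', Real.coe_toNNReal _ (P.nonneg _)] using P.hasSum_pgl x)⟩
  set Φ : Y U → ℝ≥0∞ := fun x => (cutoff U R' T x : ℝ≥0∞) * ∑' δ, ‖term σ hU k h δ x‖ₑ
  have hΦm : Measurable Φ := measurable_cutoff.coe_nnreal_ennreal.mul
    (Measurable.tsum fun δ => (measurable_term σ hU k h δ).enorm)
  have hΦ : ∀ (g : PGLIndex F) (x : Y U), Φ (g • x) = Φ x := fun g x => by
    simp only [Φ, cutoff_pgl_smul, tsum_term_smul]
  simp only [ENNReal.coe_mul, mul_assoc]
  change ∫⁻ x, (ω x : ℝ≥0∞) * Φ x ∂yVol U ≠ ∞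
  rw [lintegral_partition_eq hω hω' hΦm hΦ fun x hx => absurd trivial hx]
  obtain ⟨C, hC, hbd⟩ := exists_bound_truncated σ hU k h R A B hb T
  refine ne_top_of_le_ne_top ?_ (lintegral_mono (g := S.indicator fun _ => C) fun x => ?_)
  · rw [lintegral_indicator_const hSm]
    exact ENNReal.mul_ne_top hC (Reduction.yVol_siegel_lt_top U R A B hb).ne
  by_cases hx : x ∈ S
  swap
  · simp [ω', P, Reduction.weight, hx]
  rw [Set.indicator_of_mem hx]
  refine (mul_le_of_le_one_left' ?_).trans ?_
  · exact ENNReal.coe_le_one_iff.mpr (Real.toNNReal_le_one.mpr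
      ((Reduction.weight_le_indicator hfin x).trans
        (Set.indicator_le_self' (fun _ _ => zero_le_one) x)))
  by_cases hh : IsHigh R' T x
  · simp [Φ, cutoff, hh]
  refine (mul_le_of_le_one_left' (ENNReal.coe_le_one_iff.mpr (cutoff_le_one U R' T x))).trans
    (hbd x hx ?_)
  by_contra hlt
  obtain ⟨r, hr, hxr⟩ := hx.2
  exact hh ⟨1, by rw [one_smul]; exact ⟨r, hR hr, hxr⟩, by rw [one_smul]; exact not_le.mp hlt⟩

omit [NumberField.IsTotallyComplex F] in
/-- Finitely many terms are nonzero at a point. -/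
theorem finite_support_term (x : Y U) :
    (Function.support fun δ => term σ hU k h δ x).Finite :=
  Kernel.finite_support_pairKer k h x (galY σ U hU x)

variable (U) in
/-- A finite set of representatives for every larger one of which the cut-off sums are
integrable over the quotient against every partition of unity. -/
theorem exists_reps_cutoff_finite :
    ∃ R₀ : Finset (GLFin F), CoversReps U R₀ ∧ ∀ R, R₀ ⊆ R →
      ∀ (σ : F ≃+* F) (hU : ∀ g ∈ U.toSubgroup, glFinMap (σ : F →+* F) g ∈ U.toSubgroup)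
        (k : Kernel.PointKer F) (h : HeckeFn U) (w : PartitionOfUnity U), Measurable w.weight →
        ∀ T : ℝ, ∫⁻ y, ENNReal.ofReal (w.weight y) *
          ((cutoff U R T y : ℝ≥0∞) * ∑' δ, ‖term σ hU k h δ y‖ₑ) ∂yVol U ≠ ∞ := by
  obtain ⟨R₀, A, B, b, hb, hcov⟩ := Reduction.exists_siegel U
  refine ⟨R₀, fun y => ?_, fun R hR σ hU k h w hw T => ?_⟩
  · obtain ⟨γ, -, hγ⟩ := hcov y
    exact ⟨γ, hγ⟩
  have hω : IsPartition (PGLIndex F) Set.univ fun y : Y U => (w.weight y).toNNReal :=
    ⟨hw.real_toNNReal, fun x _ => NNReal.hasSum_coe.mp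
      (by simpa [Real.coe_toNNReal _ (w.nonneg _)] using w.hasSum_pgl x)⟩
  have := lintegral_cutoff_term_ne_top σ hU k h hω hR hb hcov T
  simpa [mul_assoc, ENNReal.ofReal] using this

omit [NumberField F] [NumberField.IsTotallyComplex F] in
/-- An element with a conjugate that is upper triangular has an eigenvalue. -/
theorem hasEigenvalue_of_upper {γ N : GL (Fin 2) F} (hu : Reduction.IsUpper (γ * N * γ⁻¹)) :
    HasEigenvalue (QuotientGroup.mk N : PGLIndex F) := by
  rw [hasEigenvalue_iff]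
  set M := γ * N * γ⁻¹ with hM
  refine ⟨M.val 0 0, ?_⟩
  have ht : N.val.trace = M.val.trace := by
    rw [hM, Units.val_mul, Units.val_mul, Matrix.trace_units_conj]
  have hd : N.val.det = M.val.det := by
    rw [hM, Units.val_mul, Units.val_mul, Matrix.det_units_conj]
  rw [ht, hd, Matrix.trace_fin_two, Matrix.det_fin_two, show M.val 1 0 = 0 from hu]
  ring

/-- High in a cusp only terms with split norm survive. -/
theorem exists_term_eq_zero_of_elliptic (hσ : σ ^ 3 = 1) (R : Finset (GLFin F)) :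
    ∃ T₀ : ℝ, ∀ T, T₀ ≤ T → ∀ (δ : Twisted (pglAut σ)), ¬HasEigenvalue δ.norm → ∀ x : Y U,
      IsHigh R T x → term σ hU k h δ x = 0 := by
  obtain ⟨T₀, h₀⟩ := exists_fixed_of_high U σ hU k h hσ R
  refine ⟨T₀, fun T hT δ hδ x ⟨γ, hγ, hlt⟩ => by_contra fun hne => hδ ?_⟩
  obtain ⟨N, hN, hu⟩ := h₀ δ x γ hne hγ (hT.trans_lt hlt)
  rw [← hN]
  exact hasEigenvalue_of_upper hu

/-- For elliptic norms no cutoff is needed. -/
theorem exists_cutoff_elliptic (hσ : σ ^ 3 = 1) (R : Finset (GLFin F)) :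
    ∃ T₀ : ℝ, ∀ T, T₀ ≤ T → ∀ (δ : Twisted (pglAut σ)), ¬HasEigenvalue δ.norm → ∀ x : Y U,
      (cutoff U R T x : ℝ) • term σ hU k h δ x = term σ hU k h δ x := by
  obtain ⟨T₀, h₀⟩ := exists_term_eq_zero_of_elliptic σ hU k h hσ R
  refine ⟨T₀, fun T hT δ hδ x => ?_⟩
  by_cases hx : IsHigh R T x
  · rw [h₀ T hT δ hδ x hx, smul_zero]
  · simp [cutoff, hx]

/-- **The sum over elliptic norms is integrable over the quotient.** -/
theorem lintegral_elliptic_ne_top (hσ : σ ^ 3 = 1) {ω : Y U → ℝ≥0}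
    (hω : IsPartition (PGLIndex F) Set.univ ω) :
    ∫⁻ x, (ω x : ℝ≥0∞) * ∑' δ : {δ : Twisted (pglAut σ) // ¬HasEigenvalue δ.norm},
      ‖term σ hU k h δ x‖ₑ ∂yVol U ≠ ∞ := by
  obtain ⟨R, A, B, b, hb, hcov⟩ := Reduction.exists_siegel U
  obtain ⟨T₀, h₀⟩ := exists_term_eq_zero_of_elliptic σ hU k h hσ R
  refine ne_top_of_le_ne_top
    (lintegral_cutoff_term_ne_top σ hU k h hω (Finset.Subset.refl R) hb hcov T₀)
    (lintegral_mono fun x => ?_)
  rw [ENNReal.coe_mul, mul_assoc]
  refine mul_le_mul_right ?_ _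
  by_cases hx : IsHigh R T₀ x
  · rw [show (∑' δ : {δ : Twisted (pglAut σ) // ¬HasEigenvalue δ.norm},
      ‖term σ hU k h δ x‖ₑ) = 0 from ENNReal.tsum_eq_zero.mpr fun δ => by
        rw [h₀ T₀ le_rfl δ.1 δ.2 x hx, enorm_zero]]
    exact bot_le
  · rw [show cutoff U R T₀ x = 1 by simp [cutoff, hx], ENNReal.coe_one, one_mul]
    exact ENNReal.tsum_comp_le_tsum_of_injective Subtype.val_injective _

section Untwisted

omit [NumberField.IsTotallyComplex F]

omit [NumberField F] in
theorem glFinMap_refl (g : GLFin F) : glFinMap ((RingEquiv.refl F : F ≃+* F) : F →+* F) g = g := by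
  have hx : ∀ x : FinAdele F, finMap ((RingEquiv.refl F : F ≃+* F) : F →+* F) x = x := fun x => by
    induction x using TensorProduct.induction_on with
    | zero => simp
    | tmul a z => simp
    | add x y hx hy => simp only [map_add, hx, hy]
  ext i j
  exact hx _

variable (U) in
/-- Every level is stable under the identity automorphism. -/
theorem refl_stable : ∀ g ∈ U.toSubgroup,
    glFinMap ((RingEquiv.refl F : F ≃+* F) : F →+* F) g ∈ U.toSubgroup := fun g hg => by
  rwa [glFinMap_refl]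

theorem galY_refl (x : Y U) : galY (RingEquiv.refl F) U (refl_stable U) x = x := by
  refine Prod.ext (galInf_refl x.1) ?_
  obtain ⟨g, hg⟩ := QuotientGroup.mk_surjective x.2
  show galFin _ U (refl_stable U) x.2 = x.2
  rw [← hg, galFin_mk, glFinMap_refl]

/-- For the identity automorphism a twisted term is the pair kernel. -/
theorem term_refl (c : PGLIndex F) (x : Y U) :
    term (RingEquiv.refl F) (refl_stable U) k h (Twisted.mk _ c) x =
      Kernel.pairKer k h x (c • x) := by
  show k.toFun x.1 (c • galY _ U (refl_stable U) x).1 *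
    h.kernel x.2 (c • galY _ U (refl_stable U) x).2 = _
  rw [galY_refl]
  rfl

variable [NumberField.IsTotallyComplex F]

/-- The untwisted cut-off sum is integrable over the quotient. -/
theorem lintegral_cutoff_pairKer_ne_top {ω : Y U → ℝ≥0}
    (hω : IsPartition (PGLIndex F) Set.univ ω) {R R' : Finset (GLFin F)} (hR : R ⊆ R') {A B b : ℝ}
    (hb : 0 < b)
    (hcov : ∀ y : Y U, ∃ γ : GL (Fin 2) F, γ • y ∈ Reduction.siegel U R A B b) (T : ℝ) :
    ∫⁻ x, ((ω x * cutoff U R' T x : ℝ≥0) : ℝ≥0∞) *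
      ∑' c : PGLIndex F, ‖Kernel.pairKer k h x (c • x)‖ₑ ∂yVol U ≠ ∞ := by
  simp only [← term_refl k h]
  exact lintegral_cutoff_term_ne_top (RingEquiv.refl F) (refl_stable U) k h hω hR hb hcov T

/-- High in a cusp only elements with an eigenvalue contribute. -/
theorem exists_pairKer_eq_zero_of_elliptic (R : Finset (GLFin F)) :
    ∃ T₀ : ℝ, ∀ T, T₀ ≤ T → ∀ (c : PGLIndex F), ¬HasEigenvalue c → ∀ x : Y U,
      IsHigh R T x → Kernel.pairKer k h x (c • x) = 0 := by
  obtain ⟨T₀, h₀⟩ :=
    exists_twistedUpper_of_high U (RingEquiv.refl F) (refl_stable U) k h R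
  refine ⟨T₀, fun T hT c hc x ⟨γ, hγ, hlt⟩ => by_contra fun hne => hc ?_⟩
  obtain ⟨dm, hdm, hu⟩ :=
    h₀ (Twisted.mk _ c) x γ (by rwa [term_refl k h]) hγ (hT.trans_lt hlt)
  rw [show c = QuotientGroup.mk dm from hdm.symm]
  refine hasEigenvalue_of_upper (γ := γ) ?_
  rwa [show CubicDescent.glMap (RingEquiv.refl F) γ = γ from Units.ext (by ext i j; rfl)] at hu

/-- The untwisted sum over elliptic elements is integrable over the quotient. -/
theorem lintegral_elliptic_pairKer_ne_top {ω : Y U → ℝ≥0}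
    (hω : IsPartition (PGLIndex F) Set.univ ω) :
    ∫⁻ x, (ω x : ℝ≥0∞) * ∑' c : {c : PGLIndex F // ¬HasEigenvalue c},
      ‖Kernel.pairKer k h x (c.1 • x)‖ₑ ∂yVol U ≠ ∞ := by
  obtain ⟨R, A, B, b, hb, hcov⟩ := Reduction.exists_siegel U
  obtain ⟨T₀, h₀⟩ := exists_pairKer_eq_zero_of_elliptic k h R
  refine ne_top_of_le_ne_top
    (lintegral_cutoff_pairKer_ne_top k h hω (Finset.Subset.refl R) hb hcov T₀)
    (lintegral_mono fun x => ?_)
  rw [ENNReal.coe_mul, mul_assoc]
  refine mul_le_mul_right ?_ _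
  by_cases hx : IsHigh R T₀ x
  · rw [show (∑' c : {c : PGLIndex F // ¬HasEigenvalue c},
      ‖Kernel.pairKer k h x (c.1 • x)‖ₑ) = 0 from ENNReal.tsum_eq_zero.mpr fun c => by
        rw [h₀ T₀ le_rfl c.1 c.2 x hx, enorm_zero]]
    exact bot_le
  · rw [show cutoff U R T₀ x = 1 by simp [cutoff, hx], ENNReal.coe_one, one_mul]
    exact ENNReal.tsum_comp_le_tsum_of_injective Subtype.val_injective
      fun c => ‖Kernel.pairKer k h x (c • x)‖ₑ

end Untwisted

variable {K L : Type*} [Field K] [NumberField K] [Field L] [NumberField L] {ι : K →+* L}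
  {τ : L ≃+* L}

/-- Over a cubic extension an element gains no eigenvalue. -/
theorem IsCubic.hasEigenvalue_base_iff (hc : IsCubic ι τ) (γ : PGLIndex K) :
    HasEigenvalue (pglBase ι γ) ↔ HasEigenvalue γ := by
  induction γ using QuotientGroup.induction_on with | H m => ?_
  rw [pglBase_mk, hasEigenvalue_iff, hasEigenvalue_iff]
  have ht : (Matching.baseUnit ι m).val.trace = ι m.val.trace :=
    (AddMonoidHom.map_trace ι.toAddMonoidHom m.val).symm
  have hd : (Matching.baseUnit ι m).val.det = ι m.val.det := (RingHom.map_det ι m.val).symm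
  rw [ht, hd]
  constructor
  · rintro ⟨r, hr⟩
    have hfix : ∀ a, τ (ι a) = ι a := fun a => (hc.fixed _).mpr ⟨a, rfl⟩
    have hr' : τ r ^ 2 - ι m.val.trace * τ r + ι m.val.det = 0 := by
      simpa [hfix] using congrArg τ hr
    have h3 : τ (τ (τ r)) = r := by
      simpa [pow_succ, RingAut.mul_apply] using RingEquiv.congr_fun hc.pow r
    have hτr : τ r = r := by
      have hprod : (τ r - r) * (τ r + r - ι m.val.trace) = 0 := by linear_combination hr' - hr
      rcases mul_eq_zero.mp hprod with he | he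
      · exact sub_eq_zero.mp he
      · have h2 : τ (τ r) = r := by
          have he' := congrArg τ (eq_sub_of_add_eq (sub_eq_zero.mp he))
          rw [map_sub, hfix] at he'
          rw [he', eq_sub_of_add_eq (sub_eq_zero.mp he)]
          ring
        rwa [h2] at h3
    obtain ⟨s, rfl⟩ := (hc.fixed r).mp hτr
    refine ⟨s, ι.injective ?_⟩
    simpa using hr
  · rintro ⟨r, hr⟩
    exact ⟨ι r, by simpa using congrArg ι hr⟩

end Fermat.Agent.LT.Geometric
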