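import Fermat.Agent.LT.Geometric.Main
import Fermat.Agent.LT.Geometric.CutoffFinite

/-!
# One class as a band integral

For large sets of representatives the difference of the cut-off integrals of a matched class is
its band integral, for every piece.
-/

set_option autoImplicit false

noncomputable section

open MeasureTheory
open scoped ENNReal NNReal

namespace Fermat.Agent.LT.Geometric

universe uD

variable {F K : Type*} [Field F] [NumberField F] [Field K] [NumberField K] {UL : Level F}
  {UK : Level K} [NumberField.IsTotallyComplex F] [NumberField.IsTotallyComplex K]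

omit [NumberField.IsTotallyComplex F] in
/-- A partition of unity as a partition for the rational group. -/
theorem isPartition_weight (w : PartitionOfUnity UL) (hw : Measurable w.weight) :
    IsPartition (PGLIndex F) Set.univ fun y : Y UL => (w.weight y).toNNReal :=
  ⟨hw.real_toNNReal, fun x _ => NNReal.hasSum_coe.mp
    (by simpa [Real.coe_toNNReal _ (w.nonneg _)] using w.hasSum_pgl x)⟩

variable (UL UK) in
/-- **The difference of the cut-off integrals of a class is its band integral.** -/
theorem exists_reps_pieceBand :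
    ∃ (RL : Finset (GLFin F)) (RK : Finset (GLFin K)), CoversReps UL RL ∧ CoversReps UK RK ∧
      ∀ R R', RL ⊆ R → RK ⊆ R' → ∀ (σ : F ≃+* F)
        (hU : ∀ g ∈ UL.toSubgroup, glFinMap (σ : F →+* F) g ∈ UL.toSubgroup)
        (wL : PartitionOfUnity UL) (_ : Measurable wL.weight) (wK : PartitionOfUnity UK)
        (_ : Measurable wK.weight) (k : Kernel.PointKer F) (h : HeckeFn UL)
        (k' : Kernel.PointKer K) (h' : HeckeFn UK) (kM : Kernel.PointKer K) (hM : HeckeFn UK)
        {D : Type uD} [Countable D] (PL : Piece (PGLIndex F) (Y UL) (Twisted (pglAut σ)) D)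
        (PK : Piece (PGLIndex K) (Y UK) (Twisted (pglAut (RingEquiv.refl K))) D)
        (m : PieceMatch (yVol UL) (yVol UK) PL PK (term σ hU k h)
          (term (RingEquiv.refl K) (refl_stable UK) k' h')
          (term (RingEquiv.refl K) (refl_stable UK) kM hM)) (T : ℝ),
        Integrable (fun x => ((m.w (m.π x) : ℝ) * ((cutoff UL R T x : ℝ) -
            cutoff UK R' T (m.π x))) • ∑' d, term σ hU k h (PL.j d) x) (yVol UL) ∧
        ∫ x, (wL.weight x * cutoff UL R T x) • ∑' δ : PL.C, term σ hU k h δ x ∂yVol UL -
            ∫ y, (wK.weight y * cutoff UK R' T y) •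
              ∑' c : PK.C, term (RingEquiv.refl K) (refl_stable UK) k' h' c y ∂yVol UK =
          ∫ x, ((m.w (m.π x) : ℝ) * ((cutoff UL R T x : ℝ) - cutoff UK R' T (m.π x))) •
            ∑' d, term σ hU k h (PL.j d) x ∂yVol UL := by
  obtain ⟨RL, hRL, hfinL⟩ := exists_reps_cutoff_finite UL
  obtain ⟨RK, hRK, hfinK⟩ := exists_reps_cutoff_finite UK
  refine ⟨RL, RK, hRL, hRK, fun R R' hR hR' σ hU wL hwL wK hwK k h k' h' kM hM D _ PL PK m T => ?_⟩
  have : Countable (PGLIndex F) := Reduction.countable_pglIndex
  have : Countable (PGLIndex K) := Reduction.countable_pglIndex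
  have : MeasurableConstSMul (PGLIndex F) (Y UL) := ⟨measurable_pglSmul⟩
  have : MeasurableConstSMul (PGLIndex K) (Y UK) := ⟨measurable_pglSmul⟩
  have : SMulInvariantMeasure (PGLIndex F) (Y UL) (yVol UL) :=
    ⟨fun c _ hs => (measurePreserving_pglSmul UL c).measure_preimage hs.nullMeasurableSet⟩
  have : SMulInvariantMeasure (PGLIndex K) (Y UK) (yVol UK) :=
    ⟨fun c _ hs => (measurePreserving_pglSmul UK c).measure_preimage hs.nullMeasurableSet⟩
  have hfinK' : ∀ (q : Kernel.PointKer K) (g : HeckeFn UK),
      ∫⁻ y, ((wK.weight y).toNNReal : ℝ≥0∞) * ((cutoff UK R' T y : ℝ≥0∞) *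
        ∑' c : PK.C, ‖term (RingEquiv.refl K) (refl_stable UK) q g c y‖ₑ) ∂yVol UK ≠ ∞ :=
    fun q g => ne_top_of_le_ne_top (hfinK R' hR' _ (refl_stable UK) q g wK hwK T)
      (lintegral_mono fun y => mul_le_mul_right (mul_le_mul_right
        (ENNReal.tsum_comp_le_tsum_of_injective Subtype.val_injective _) _) _)
  obtain ⟨h1, h2, h3⟩ := piece_difference (μ := yVol UL) (ν := yVol UK)
    (term_smul σ hU k h) (term_smul _ _ k' h') (term_smul _ _ kM hM)
    (fun δ => measurable_term σ hU k h δ) (fun δ => measurable_term _ _ k' h' δ)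
    (fun δ => measurable_term _ _ kM hM δ)
    (isPartition_weight wL hwL) (isPartition_weight wK hwK)
    (measurable_cutoff (R := R) (T := T)) cutoff_pgl_smul
    (measurable_cutoff (R := R') (T := T)) cutoff_pgl_smul
    (fun x => summable_of_hasFiniteSupport
      ((finite_support_term σ hU k h x).preimage Subtype.val_injective.injOn))
    (fun y => summable_of_hasFiniteSupport
      ((finite_support_term (RingEquiv.refl K) (refl_stable UK) k' h' y).preimage
        Subtype.val_injective.injOn))
    (ne_top_of_le_ne_top (hfinL R hR σ hU k h wL hwL T)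
      (lintegral_mono fun x => mul_le_mul_right (mul_le_mul_right
        (ENNReal.tsum_comp_le_tsum_of_injective Subtype.val_injective _) _) _))
    (hfinK' k' h') (hfinK' kM hM) m
  refine ⟨(h1.sub h2).congr (Filter.Eventually.of_forall fun x => ?_), ?_⟩
  · simp only [Pi.sub_apply, NNReal.coe_mul, ← sub_smul, mul_sub]
  · simpa only [NNReal.coe_mul, Real.coe_toNNReal _ (wL.nonneg _),
      Real.coe_toNNReal _ (wK.nonneg _)] using h3

end Fermat.Agent.LT.Geometric

end
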