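import Fermat.Agent.LT.Geometric.EllipticClass
import Fermat.Agent.LT.Geometric.HyperbolicRep
import Fermat.Agent.LT.Geometric.PieceBand

/-!
# The comparison of one split regular class

A class of norms with an eigenvalue, different from `1` and the unipotent classes, has a
representative `diag(b,1)` over `diag(a,1)`; the difference of the two cut-off integrals is a band
integral, so it tends to zero when the band of `diag(b,1)` against one partition of the torus does.
-/

set_option autoImplicit false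

noncomputable section

open MeasureTheory Filter Topology
open scoped ENNReal NNReal NumberField
open NumberField (InfinitePlace IsTotallyComplex)

namespace Fermat.Agent.LT.Geometric

open CubicDescent PlaceMatching

variable {K L : Type*} [Field K] [NumberField K] [Field L] [NumberField L]

theorem CoversReps.mono {U : Level L} {R R' : Finset (GLFin L)} (h : CoversReps U R)
    (hR : R ⊆ R') : CoversReps U R' := fun y => by
  obtain ⟨g, r, hr, e⟩ := h y
  exact ⟨g, r, hR hr, e⟩

variable {ι : K →+* L} {σ : L ≃+* L}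

omit [NumberField K] [NumberField L] in
/-- The norm of `diag(b,1)`. -/
theorem twistedNorm_dia {a : Kˣ} {b : Lˣ} (h : ι (a : K) = (b : L) * σ b * σ (σ b)) :
    twistedNorm (glMap σ) (dia b) 3 = Matching.baseUnit ι (dia a) := by
  simp only [twistedNorm, map_mul, map_one, mul_one]
  ext i j
  fin_cases i <;> fin_cases j <;>
    simp [dia, Matching.baseUnit, Matrix.mul_apply, Fin.sum_univ_two, h, mul_assoc]

variable [IsTotallyComplex K] [IsTotallyComplex L] {φ₀ : L →+* ℂ} {I : Ideal (𝓞 L)}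
  {J : Ideal (𝓞 K)} {hI : ∃ N : ℕ, 0 < N ∧ (N : 𝓞 L) ∈ I} {hJ : ∃ N : ℕ, 0 < N ∧ (N : 𝓞 K) ∈ J}
  (hm : LevelsMatch ι σ I J) (hc : IsCubic ι σ) (s : PlaceSection ι)
  (hemb : ∀ v : InfinitePlace K, v.embedding = φ₀.comp ι) [Unique (InfinitePlace K)]
  (hcomplex : ¬ NumberField.ComplexEmbedding.IsReal (φ₀.comp ι))

variable (φ₀) in
/-- The band integrand of `diag(b,1)` against a weight on cosets. -/
def diagBand {b : Lˣ} {a : Kˣ} (T : Transfer hm hc s (dia b) (dia a))
    (q : Kernel.PointKer L) (h : HeckeFn (Level.ofIdeal L I hI))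
    (u : GLFin K ⧸ (Level.ofIdeal K J hJ).toSubgroup → ℝ≥0) (R : Finset (GLFin L))
    (R' : Finset (GLFin K)) (t : ℝ) (z : Y (Level.ofIdeal L I hI)) : ℂ :=
  ((u (T.piY φ₀ hI hJ z).2 : ℝ) * ((cutoff (Level.ofIdeal L I hI) R t z : ℝ) -
      cutoff (Level.ofIdeal K J hJ) R' t (T.piY φ₀ hI hJ z))) •
    term σ (hm.stable hc) q h (Twisted.mk (pglAut σ) (QuotientGroup.mk (dia b))) z

include hemb hcomplex

/-- **A split regular class.** -/
theorem exists_reps_hyperbolic_class {k : Fin 3 → KerFam J} {kL : KerFam I}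
    (hk : Compatible hm hc s k kL) (wL : PartitionOfUnity (Level.ofIdeal L I hI))
    (hwL : Measurable wL.weight) (wK : PartitionOfUnity (Level.ofIdeal K J hJ))
    (hwK : Measurable wK.weight) {q : Kernel.PointKer L} {qK : Kernel.PointKer K}
    {κ : Fin 3 → H3 → H3 → ℂ} (hinv : ∀ i (g : GL (Fin 2) ℂ) P Q, κ i (g • P) (g • Q) = κ i P Q)
    (hq : ∀ P Q, q.toFun P Q = coordKernel φ₀ σ κ P Q)
    (hqK : ∀ P Q, qK.toFun P Q = tripleKernel H3.vol κ (P default) (Q default))
    (hband : ∀ (a : Kˣ) (b : Lˣ), (a : K) ≠ 1 → ι (a : K) = (b : L) * σ b * σ (σ b) →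
      ∀ T : Transfer hm hc s (dia b) (dia a),
      ∃ u : GLFin K ⧸ (Level.ofIdeal K J hJ).toSubgroup → ℝ≥0,
        (∀ c, HasSum (fun t : Kˣ => u (glIncl K (dia t) • c)) 1) ∧
        ∀ R R', CoversReps (Level.ofIdeal L I hI) R → CoversReps (Level.ofIdeal K J hJ) R' →
          (∀ t : ℝ, Integrable (diagBand φ₀ hm hc s T q (kL.hecke hI) u R R' t)
            (yVol (Level.ofIdeal L I hI))) →
          Tendsto (fun n : ℕ => ∫ z, diagBand φ₀ hm hc s T q (kL.hecke hI) u R R' n z
            ∂yVol (Level.ofIdeal L I hI)) atTop (𝓝 0)) :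
    ∃ (RL : Finset (GLFin L)) (RK : Finset (GLFin K)), ∀ R R', RL ⊆ R → RK ⊆ R' →
      ∀ (γ : PGLIndex K) (δ : Twisted (pglAut σ)), δ.norm = pglBase ι γ → HasEigenvalue γ →
        γ ≠ 1 → classInv γ ≠ 4 →
        Tendsto (fun n : ℕ =>
          ∫ x, (wL.weight x * cutoff (Level.ofIdeal L I hI) R (n : ℝ) x) •
              ∑' d : normClass ι σ (ConjClasses.mk γ),
                term σ (hm.stable hc) q (kL.hecke hI) d x ∂yVol (Level.ofIdeal L I hI) -
            ∫ y, (wK.weight y * cutoff (Level.ofIdeal K J hJ) R' (n : ℝ) y) •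
              ∑' c : baseClass (ConjClasses.mk γ),
                term (RingEquiv.refl K) (refl_stable _) qK
                  ((k 0).hecke hJ * (k 1).hecke hJ * (k 2).hecke hJ) c y
              ∂yVol (Level.ofIdeal K J hJ)) atTop (𝓝 0) := by
  classical
  obtain ⟨RL, RK, hRL, hRK, hpiece⟩ :=
    exists_reps_pieceBand (Level.ofIdeal L I hI) (Level.ofIdeal K J hJ)
  refine ⟨RL, RK, fun R R' hR hR' γ δ hδ he h1 h4 => ?_⟩
  obtain ⟨a, ha, hconj⟩ := exists_dia_conj he h1 h4
  -- the representative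
  obtain ⟨g, γ', hn⟩ := hc.exists_normalised δ
  have hγγ : ConjClasses.mk γ' = ConjClasses.mk γ := by_contra fun e =>
    Set.disjoint_left.mp (normClass_disjoint hc e)
      (show δ ∈ normClass ι σ (ConjClasses.mk γ') from
        ⟨γ', rfl, g, by rw [← Twisted.norm_smul (pglAut_iterate hc.pow), hn.norm_eq]⟩)
      (mem_normClass_self hδ)
  obtain ⟨h, hh⟩ := isConj_iff.mp ((ConjClasses.mk_eq_mk_iff_isConj.mp hγγ).trans hconj)
  have hn₂ : IsNormalised ι (pglBase ι h • g • δ) (torus K a) := hh ▸ hn.conj_base hc h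
  obtain ⟨b, hb, hab⟩ := hn₂.exists_dia
  rw [hb] at hn₂
  have hN := twistedNorm_dia (σ := σ) hab
  obtain ⟨T⟩ := exists_transferData hm hc s hI hN hn₂ (x := dia b) (m := dia a) rfl rfl
  obtain ⟨u, hu, hlim⟩ := hband a b ha hab T
  have hw : IsPartition (MulAction.stabilizer (PGLIndex K)
      (Twisted.mk (pglAut (RingEquiv.refl K)) (QuotientGroup.mk (dia a) : PGLIndex K))) Set.univ
      fun y : Y (Level.ofIdeal K J hJ) => centWeight a u y.2 := by
    rw [stabilizer_refl]
    exact isPartition_centWeight ha hu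
  let M := T.pieceMatch (hI := hI) (hJ := hJ) hemb hN hcomplex q hinv hq hqK hk hn₂ hw
  have hCL : normClass ι σ (ConjClasses.mk γ) =
      MulAction.orbit (PGLIndex L) (Twisted.mk (pglAut σ) (QuotientGroup.mk (dia b))) := by
    rw [show ConjClasses.mk γ = ConjClasses.mk (torus K a) from
      ConjClasses.mk_eq_mk_iff_isConj.mpr hconj]
    exact normClass_eq_orbit hc hn₂.norm_eq
  have hCK : baseClass (ConjClasses.mk γ) = MulAction.orbit (PGLIndex K)
      (Twisted.mk (pglAut (RingEquiv.refl K)) (QuotientGroup.mk (dia a) : PGLIndex K)) := by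
    rw [show ConjClasses.mk γ = ConjClasses.mk (torus K a) from
      ConjClasses.mk_eq_mk_iff_isConj.mpr hconj]
    exact baseClass_eq_orbit _
  -- the scale between the two weights
  obtain ⟨κ₀, hκ₀, hcw⟩ : ∃ κ₀ : ℝ, κ₀ ≠ 0 ∧ ∀ c, (centWeight a u c : ℝ) = κ₀ * (u c : ℝ) := by
    by_cases ha' : (a : K) = -1
    · exact ⟨1 / 2, by norm_num, fun c => by rw [centWeight, if_pos ha']; push_cast; ring⟩
    · exact ⟨1, one_ne_zero, fun c => by rw [centWeight, if_neg ha', one_mul]⟩
  have hscale : ∀ (t : ℝ) z, ((M.w (M.π z) : ℝ) * ((cutoff (Level.ofIdeal L I hI) R t z : ℝ) -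
      cutoff (Level.ofIdeal K J hJ) R' t (M.π z))) • ∑' d : PUnit.{1},
        term σ (hm.stable hc) q (kL.hecke hI)
          ((orbitPiece (G := PGLIndex L) (X := Y (Level.ofIdeal L I hI))
            (Twisted.mk (pglAut σ) (QuotientGroup.mk (dia b)))).j d) z =
      κ₀ • diagBand φ₀ hm hc s T q (kL.hecke hI) u R R' t z := fun t z => by
    rw [tsum_fintype, Finset.univ_unique, Finset.sum_singleton, diagBand, smul_smul,
      ← mul_assoc, ← hcw]
    rfl
  have hP : ∀ t : ℝ, _ := fun t => hpiece R R' hR hR' σ (hm.stable hc) wL hwL wK hwK q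
    (kL.hecke hI) qK _ (archMajorant K q) _ _ _ M t
  have hint : ∀ t : ℝ, Integrable (diagBand φ₀ hm hc s T q (kL.hecke hI) u R R' t)
      (yVol (Level.ofIdeal L I hI)) := fun t => by
    have h := (hP t).1
    simp only [hscale] at h
    exact (integrable_smul_iff hκ₀ _).mp h
  have hl := (hlim R R' (hRL.mono hR) (hRK.mono hR') hint).const_smul κ₀
  rw [smul_zero] at hl
  refine hl.congr fun n => ?_
  have h := (hP n).2
  simp only [hscale, integral_smul] at h
  rw [hCL, hCK]
  exact h.symm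

end Fermat.Agent.LT.Geometric

end
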