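import Fermat.Agent.LT.Geometric.ArchMajorant
import Fermat.Agent.LT.Geometric.CutoffFinite
import Fermat.Agent.LT.PlaceMatching.Fibre

/-!
# Matching the terms of a class and of its norm

For a representative with rational norm and a transfer, the twisted term over `L` pushes forward
along `z ↦ (archProj z, proj z)` to the term over `K` of the matched test, and is dominated by a
positive majorant. For a normalised representative this is the matching data of the class, once a
partition for the centraliser is given.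
-/

set_option autoImplicit false

noncomputable section

open MeasureTheory
open scoped ENNReal NNReal
open NumberField (InfinitePlace RingOfIntegers)

namespace Fermat.Agent.LT.Geometric

open CubicDescent PlaceMatching
open scoped NumberField

/-- One index as a class. -/
def orbitPiece {G X Δ : Type*} [Group G] [MulAction G X] [MulAction G Δ] (δ : Δ) :
    Piece G X Δ PUnit.{1} where
  Z := MulAction.stabilizer G δ
  j _ := δ
  inj _ _ _ := rfl
  C := MulAction.orbit G δ
  isClass :=
    { mem_iff := fun δ' => by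
        simp only [Set.mem_range, exists_const, MulAction.mem_orbit_iff]
        exact ⟨fun ⟨g, hg⟩ => ⟨g, by rw [← hg, inv_smul_smul]⟩,
          fun ⟨g, hg⟩ => ⟨g, by rw [hg, smul_inv_smul]⟩⟩
      stable := by
        rintro z hz _ ⟨u, rfl⟩
        exact ⟨u, (MulAction.mem_stabilizer_iff.mp hz).symm⟩
      mem_of_smul := by
        rintro g _ ⟨u, rfl⟩ ⟨u', hg⟩
        exact MulAction.mem_stabilizer_iff.mpr hg.symm }

variable {K L : Type*} [Field K] [NumberField K] [Field L] [NumberField L] {ι : K →+* L}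
  {σ : L ≃+* L}

/-- A term in coordinates. -/
theorem term_mk {U : Level L} (hU : ∀ g ∈ U.toSubgroup, glFinMap (σ : L →+* L) g ∈ U.toSubgroup)
    (q : Kernel.PointKer L) (h : HeckeFn U) (x : GL (Fin 2) L) (z : Y U) :
    term σ hU q h (Twisted.mk _ (QuotientGroup.mk x)) z =
      q.toFun z.1 (fun w => glEmb L w x • galInf σ z.1 w) *
        h.kernel z.2 (glIncl L x • galFin σ U hU z.2) :=
  rfl

/-- An untwisted term in coordinates. -/
theorem term_refl_mk {V : Level K} (q : Kernel.PointKer K) (h : HeckeFn V) (m : GL (Fin 2) K)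
    (y : Y V) :
    term (RingEquiv.refl K) (refl_stable V) q h (Twisted.mk _ (QuotientGroup.mk m)) y =
      q.toFun y.1 (fun v => glEmb K v m • y.1 v) * h.kernel y.2 (glIncl K m • y.2) := by
  rw [term_refl]
  rfl

omit [NumberField K] in
/-- For the identity automorphism the twisted stabiliser is the centraliser. -/
theorem stabilizer_refl (γ : PGLIndex K) :
    MulAction.stabilizer (PGLIndex K) (Twisted.mk (pglAut (RingEquiv.refl K)) γ) =
      Subgroup.centralizer {γ} := by
  have hid : ∀ g : PGLIndex K, pglAut (RingEquiv.refl K) g = g := fun g => by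
    induction g using QuotientGroup.induction_on with | H y => rfl
  ext g
  rw [MulAction.mem_stabilizer_iff, Subgroup.mem_centralizer_singleton_iff]
  constructor
  · intro hg
    have hv := congrArg Twisted.val hg
    rw [Twisted.val_smul, hid] at hv
    exact (mul_inv_eq_iff_eq_mul.mp hv)
  · intro hg
    refine Twisted.ext ?_
    rw [Twisted.val_smul, hid]
    exact mul_inv_eq_iff_eq_mul.mpr hg

/-- The stabiliser of a normalised representative is that of its norm. -/
def stabilizerEquiv (hc : IsCubic ι σ) {δ : Twisted (pglAut σ)} {γ : PGLIndex K}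
    (hn : IsNormalised ι δ γ) :
    MulAction.stabilizer (PGLIndex L) δ ≃*
      MulAction.stabilizer (PGLIndex K) (Twisted.mk (pglAut (RingEquiv.refl K)) γ) :=
  ((MulEquiv.subgroupCongr (stabilizer_refl γ)).trans
    ((Subgroup.equivMapOfInjective _ (pglBase ι) hc.pglBase_injective).trans
      (MulEquiv.subgroupCongr (hc.stabilizer_eq hn)).symm)).symm

omit [NumberField K] in
theorem pglBase_stabilizerEquiv (hc : IsCubic ι σ) {δ : Twisted (pglAut σ)} {γ : PGLIndex K}
    (hn : IsNormalised ι δ γ) (z : MulAction.stabilizer (PGLIndex L) δ) :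
    pglBase ι (stabilizerEquiv hc hn z : PGLIndex K) = (z : PGLIndex L) := by
  obtain ⟨w, rfl⟩ := (stabilizerEquiv hc hn).symm.surjective z
  rw [MulEquiv.apply_symm_apply]
  rfl

omit [NumberField K] in
theorem commute_stabilizerEquiv (hc : IsCubic ι σ) {δ : Twisted (pglAut σ)} {γ : PGLIndex K}
    (hn : IsNormalised ι δ γ) (z : MulAction.stabilizer (PGLIndex L) δ) :
    Commute (stabilizerEquiv hc hn z : PGLIndex K) γ := by
  exact Subgroup.mem_centralizer_singleton_iff.mp
    ((stabilizer_refl γ).le (stabilizerEquiv hc hn z).2)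

end Fermat.Agent.LT.Geometric

namespace Fermat.Agent.LT.PlaceMatching

open CubicDescent Matching
open Fermat.Agent.LT.Geometric
open scoped NumberField

namespace Transfer

variable {K L : Type*} [Field K] [NumberField K] [Field L] [NumberField L] {ι : K →+* L}
  {σ : L ≃+* L} {φ₀ : L →+* ℂ} {I : Ideal (𝓞 L)} {J : Ideal (𝓞 K)}
  {hI : ∃ N : ℕ, 0 < N ∧ (N : 𝓞 L) ∈ I} {hJ : ∃ N : ℕ, 0 < N ∧ (N : 𝓞 K) ∈ J}
  {hm : LevelsMatch ι σ I J} {hc : IsCubic ι σ} {s : PlaceSection ι}
  {x : GL (Fin 2) L} {m : GL (Fin 2) K} (T : Transfer hm hc s x m)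

variable (φ₀ hI hJ) in
/-- The projection of the class. -/
def piY (z : Y (Level.ofIdeal L I hI)) : Y (Level.ofIdeal K J hJ) :=
  (archProj K φ₀ z.1, T.proj hJ z.2)

/-- The projection of the class is measurable. -/
theorem measurable_piY : Measurable (T.piY φ₀ hI hJ) := by
  have : DiscreteMeasurableSpace (GLFin L ⧸ (Level.ofIdeal L I hI).toSubgroup) :=
    ⟨fun s => s.to_countable.measurableSet⟩
  exact (measurable_archProj.comp measurable_fst).prodMk
    ((Measurable.of_discrete (f := fun c : KerFam.Cst hI => T.proj hJ c)).comp measurable_snd)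

variable (hemb : ∀ v : InfinitePlace K, v.embedding = φ₀.comp ι)

include hemb in
/-- Equivariance for the centraliser on the support. -/
theorem piY_smul {g : GL (Fin 2) K}
    (hg : Commute (QuotientGroup.mk g : PGLIndex K) (QuotientGroup.mk m))
    {z : Y (Level.ofIdeal L I hI)}
    (hz : OnSupport (hm := hm) (hc := hc) (s := s) (x := x) z.2) :
    T.piY φ₀ hI hJ (pglBase ι (QuotientGroup.mk g) • z) =
      (QuotientGroup.mk g : PGLIndex K) • T.piY φ₀ hI hJ z := by
  rw [pglBase_mk, pgl_mk_smul, pgl_mk_smul]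
  exact Prod.ext (archProj_smul hemb g z.1) (T.proj_smul hg hz)

variable {k : Fin 3 → KerFam J} {kL : KerFam I}

/-- A nonzero term lies on the support. -/
theorem onSupport_of_term_ne_zero (hk : Compatible hm hc s k kL) {q : Kernel.PointKer L}
    {z : Y (Level.ofIdeal L I hI)}
    (hz : term σ (hm.stable hc) q (kL.hecke hI) (Twisted.mk _ (QuotientGroup.mk x)) z ≠ 0) :
    OnSupport (hm := hm) (hc := hc) (s := s) (x := x) z.2 := by
  rw [term_mk, KerFam.hecke_kernel] at hz
  exact onSupport_of_ne_zero hk (right_ne_zero_of_mul hz)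

variable (hN : twistedNorm (glMap σ) x 3 = baseUnit ι m) [Unique (InfinitePlace K)]
  (hcomplex : ¬ NumberField.ComplexEmbedding.IsReal (φ₀.comp ι))

include hemb hN hcomplex

/-- **The twisted term pushes forward to the term of the norm.** -/
theorem match_term {q : Kernel.PointKer L} {qK : Kernel.PointKer K} {κ : Fin 3 → H3 → H3 → ℂ}
    (hinv : ∀ i (g : GL (Fin 2) ℂ) P Q, κ i (g • P) (g • Q) = κ i P Q)
    (hq : ∀ P Q, q.toFun P Q = coordKernel φ₀ σ κ P Q)
    (hqK : ∀ P Q, qK.toFun P Q = tripleKernel H3.vol κ (P default) (Q default))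
    (hk : Compatible hm hc s k kL) :
    Match (yVol (Level.ofIdeal L I hI)) (yVol (Level.ofIdeal K J hJ)) (T.piY φ₀ hI hJ)
      (term σ (hm.stable hc) q (kL.hecke hI) (Twisted.mk _ (QuotientGroup.mk x)))
      (term (RingEquiv.refl K) (refl_stable _) qK
        ((k 0).hecke hJ * (k 1).hecke hJ * (k 2).hecke hJ)
        (Twisted.mk _ (QuotientGroup.mk m))) := by
  have ha := match_arch (K := K) hc hemb hinv (d := x) (g := m) (a := 1)
    (by
      rw [← hN, map_one, one_mul]
      simp [twistedNorm, map_mul])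
    hcomplex
  have h := match_prod ha (πc := fun c : KerFam.Cst hI => T.proj hJ c)
    (kc := fun c => (kL.hecke hI).kernel c (twist hI hm hc x c))
    (kc' := fun d => ((k 0).hecke hJ * (k 1).hecke hJ * (k 2).hecke hJ).kernel d (glIncl K m • d))
    (fun d => T.hasSum_fibre hk hN d)
  intro Φ hΦ h₁ h₂
  simp only [term_refl_mk] at h₂ ⊢
  simp only [term_mk, hq, hqK, piY] at h₁ h₂ ⊢
  exact h Φ hΦ h₁ h₂

variable (q : Kernel.PointKer L)

/-- **The majorant of the twisted term.** -/
theorem matchLe_term (hk : Compatible hm hc s k kL) :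
    MatchLe (yVol (Level.ofIdeal L I hI)) (yVol (Level.ofIdeal K J hJ)) (T.piY φ₀ hI hJ)
      (fun z => ‖term σ (hm.stable hc) q (kL.hecke hI) (Twisted.mk _ (QuotientGroup.mk x)) z‖ₑ)
      (fun y => ‖term (RingEquiv.refl K) (refl_stable _) (archMajorant K q)
        ((k 0).abs.hecke hJ * (k 1).abs.hecke hJ * (k 2).abs.hecke hJ)
        (Twisted.mk _ (QuotientGroup.mk m)) y‖ₑ) := by
  intro Φ hΦ
  have : DiscreteMeasurableSpace (GLFin L ⧸ (Level.ofIdeal L I hI).toSubgroup) :=
    ⟨fun s => s.to_countable.measurableSet⟩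
  have hmL : Measurable fun z : Y (Level.ofIdeal L I hI) =>
      ‖term σ (hm.stable hc) q (kL.hecke hI) (Twisted.mk _ (QuotientGroup.mk x)) z‖ₑ *
        Φ (T.piY φ₀ hI hJ z) :=
    (measurable_term σ _ q _ _).enorm.mul (hΦ.comp T.measurable_piY)
  have hmK : Measurable fun y : Y (Level.ofIdeal K J hJ) =>
      ‖term (RingEquiv.refl K) (refl_stable _) (archMajorant K q)
        ((k 0).abs.hecke hJ * (k 1).abs.hecke hJ * (k 2).abs.hecke hJ)
        (Twisted.mk _ (QuotientGroup.mk m)) y‖ₑ * Φ y :=
    (measurable_term _ _ _ _ _).enorm.mul hΦ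
  rw [yVol, yVol, lintegral_prod_symm _ hmL.aemeasurable, lintegral_prod_symm _ hmK.aemeasurable,
    lintegral_count, lintegral_count,
    ← (Equiv.sigmaFiberEquiv fun c : KerFam.Cst hI => T.proj hJ c).tsum_eq, ENNReal.tsum_sigma']
  refine ENNReal.tsum_le_tsum fun d => ?_
  simp only [term_refl_mk]
  simp only [term_mk, enorm_mul]
  set E : ℝ≥0∞ := ∫⁻ Q, ‖(archMajorant K q).toFun Q (fun v => glEmb K v m • Q v)‖ₑ * Φ (Q, d)
    ∂infVol K
  have hqm : Measurable fun P : InfinitePlace L → H3 =>
      ‖q.toFun P (fun w => glEmb L w x • galInf σ P w)‖ₑ * Φ (archProj K φ₀ P, d) := by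
    have h1 : Measurable fun P : InfinitePlace L → H3 => fun w => glEmb L w x • galInf σ P w :=
      measurable_pi_lambda _ fun w => (measurable_const_smul _).comp ((measurable_pi_apply w).comp
        (continuous_galInf σ).measurable)
    exact ((q.continuous'.measurable.comp (measurable_id.prodMk h1)).enorm).mul
      (hΦ.comp (measurable_archProj.prodMk measurable_const))
  calc _ = ∑' c : {c : KerFam.Cst hI // T.proj hJ c = d},
        ‖(kL.hecke hI).kernel c.1 (twist hI hm hc x c.1)‖ₑ *
          ∫⁻ P, ‖q.toFun P (fun w => glEmb L w x • galInf σ P w)‖ₑ * Φ (archProj K φ₀ P, d)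
            ∂infVol L := by
        refine tsum_congr fun c => ?_
        rw [← lintegral_const_mul _ hqm]
        refine lintegral_congr fun P => ?_
        have e : (Equiv.sigmaFiberEquiv fun c : KerFam.Cst hI => T.proj hJ c) ⟨d, c⟩ = c.1 := rfl
        rw [e]
        show _ * _ * Φ (archProj K φ₀ P, T.proj hJ c.1) = _
        rw [c.2]
        ring
    _ ≤ ∑' c : {c : KerFam.Cst hI // T.proj hJ c = d},
        ‖(kL.hecke hI).kernel c.1 (twist hI hm hc x c.1)‖ₑ * E := by
        refine ENNReal.tsum_le_tsum fun c => mul_le_mul' le_rfl ?_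
        exact lintegral_arch_le hc hemb hcomplex hN q (fun Q => Φ (Q, d))
          (hΦ.comp (measurable_id.prodMk measurable_const))
    _ = ‖((k 0).abs.hecke hJ * (k 1).abs.hecke hJ * (k 2).abs.hecke hJ).kernel d
        (glIncl K m • d)‖ₑ * E := by
        rw [ENNReal.tsum_mul_right, T.enorm_fibre (hI := hI) hk hN d]
    _ ≤ _ := by
        refine (lintegral_const_mul_le _ _).trans (le_of_eq (lintegral_congr fun Q => ?_))
        ring

omit hcomplex in
/-- The majorant is nonzero at the projection of the support. -/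
theorem majorant_term_ne_zero (hk : Compatible hm hc s k kL) {z : Y (Level.ofIdeal L I hI)}
    (hz : term σ (hm.stable hc) q (kL.hecke hI) (Twisted.mk _ (QuotientGroup.mk x)) z ≠ 0) :
    term (RingEquiv.refl K) (refl_stable _) (archMajorant K q)
      ((k 0).abs.hecke hJ * (k 1).abs.hecke hJ * (k 2).abs.hecke hJ)
      (Twisted.mk _ (QuotientGroup.mk m)) (T.piY φ₀ hI hJ z) ≠ 0 := by
  rw [term_mk] at hz
  rw [term_refl_mk]
  exact mul_ne_zero (archMajorant_ne_zero hc hemb hN q (left_ne_zero_of_mul hz))
    (T.majorant_ne_zero hk hN (right_ne_zero_of_mul hz))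

/-- **The matching data of a class**, given a partition for the centraliser. -/
def pieceMatch {qK : Kernel.PointKer K} {κ : Fin 3 → H3 → H3 → ℂ}
    (hinv : ∀ i (g : GL (Fin 2) ℂ) P Q, κ i (g • P) (g • Q) = κ i P Q)
    (hq : ∀ P Q, q.toFun P Q = coordKernel φ₀ σ κ P Q)
    (hqK : ∀ P Q, qK.toFun P Q = tripleKernel H3.vol κ (P default) (Q default))
    (hk : Compatible hm hc s k kL)
    (hn : IsNormalised ι (Twisted.mk (pglAut σ) (QuotientGroup.mk x)) (QuotientGroup.mk m))
    {w : Y (Level.ofIdeal K J hJ) → ℝ≥0}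
    (hw : IsPartition (MulAction.stabilizer (PGLIndex K)
      (Twisted.mk (pglAut (RingEquiv.refl K)) (QuotientGroup.mk m : PGLIndex K))) Set.univ w) :
    PieceMatch (yVol (Level.ofIdeal L I hI)) (yVol (Level.ofIdeal K J hJ))
      (orbitPiece (G := PGLIndex L) (X := Y (Level.ofIdeal L I hI))
        (Twisted.mk (pglAut σ) (QuotientGroup.mk x)))
      (orbitPiece (G := PGLIndex K) (X := Y (Level.ofIdeal K J hJ))
        (Twisted.mk (pglAut (RingEquiv.refl K)) (QuotientGroup.mk m : PGLIndex K)))
      (term σ (hm.stable hc) q (kL.hecke hI))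
      (term (RingEquiv.refl K) (refl_stable _) qK
        ((k 0).hecke hJ * (k 1).hecke hJ * (k 2).hecke hJ))
      (term (RingEquiv.refl K) (refl_stable _) (archMajorant K q)
        ((k 0).abs.hecke hJ * (k 1).abs.hecke hJ * (k 2).abs.hecke hJ)) where
  s := {z | OnSupport (hm := hm) (hc := hc) (s := s) (x := x) z.2}
  supp _ hz _ := by
    by_contra h
    exact hz (onSupport_of_term_ne_zero hk h)
  π := T.piY φ₀ hI hJ
  measurable_π := T.measurable_piY
  e := stabilizerEquiv hc hn
  equivariant z p hp := by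
    obtain ⟨g, hg⟩ := QuotientGroup.mk_surjective (stabilizerEquiv hc hn z : PGLIndex K)
    show T.piY φ₀ hI hJ ((z : PGLIndex L) • p) =
      (stabilizerEquiv hc hn z : PGLIndex K) • T.piY φ₀ hI hJ p
    rw [← pglBase_stabilizerEquiv hc hn z, ← hg]
    exact T.piY_smul hemb (hg ▸ commute_stabilizerEquiv hc hn z) hp
  w := w
  isPartition := hw
  isMatch _ := T.match_term hemb hN hcomplex hinv hq hqK hk
  majorant _ := T.matchLe_term hemb hN hcomplex q hk

end Transfer

end Fermat.Agent.LT.PlaceMatching

end
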