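import Fermat.Agent.LT.Geometric.Cusp
import Fermat.Agent.LT.Whittaker.Defs

/-!
# The bands of the two cusps

The fixed cusps of an upper triangular norm; the top band depends on the finite part only through
its orbit under the adelic unipotent group; for a diagonal norm the cutoff is one minus two bands.
-/

set_option autoImplicit false

noncomputable section

open scoped Matrix
open NumberField (InfinitePlace)

namespace Fermat.Agent.LT.Geometric

variable {F : Type*} [Field F]

/-- The Weyl element. -/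
def weyl (F : Type*) [Field F] : GL (Fin 2) F where
  val := !![0, 1; 1, 0]
  inv := !![0, 1; 1, 0]
  val_inv := by ext i j; fin_cases i <;> fin_cases j <;> simp
  inv_val := by ext i j; fin_cases i <;> fin_cases j <;> simp

/-- The Weyl element is an involution. -/
theorem weyl_mul_weyl : weyl F * weyl F = 1 := Units.ext (weyl F).val_inv

theorem isUpper_mul_weyl_iff (γ : GL (Fin 2) F) :
    Reduction.IsUpper (γ * weyl F) ↔ γ.val 1 1 = 0 := by
  simp [Reduction.IsUpper, weyl, Matrix.mul_apply, Fin.sum_univ_two]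

omit [Field F] in
/-- `unip` turns sums into products. -/
theorem unip_add {R : Type*} [CommRing R] (x y : R) : unip (x + y) = unip x * unip y :=
  AddChar.map_add_eq_mul _ x y

/-- The bottom row of a conjugator making `N` upper triangular is an eigenvector. -/
theorem row_eigen_of_upper {γ N : GL (Fin 2) F} (h : Reduction.IsUpper (γ * N * γ⁻¹)) :
    ∃ c : F, ∀ j, γ.val 1 0 * N.val 0 j + γ.val 1 1 * N.val 1 j = c * γ.val 1 j := by
  set M := γ * N * γ⁻¹
  refine ⟨M.val 1 1, fun j => ?_⟩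
  have e : (M * γ).val 1 j = (γ * N).val 1 j := by
    rw [inv_mul_cancel_right]
  simp only [Units.val_mul, Matrix.mul_apply, Fin.sum_univ_two] at e
  rw [show M.val 1 0 = 0 from h, zero_mul, zero_add] at e
  exact e.symm

/-- The cusps fixed by a regular diagonal matrix. -/
theorem upper_or_weyl_of_diag {γ N : GL (Fin 2) F} (h : Reduction.IsUpper (γ * N * γ⁻¹))
    (h01 : N.val 0 1 = 0) (h10 : N.val 1 0 = 0) (hne : N.val 0 0 ≠ N.val 1 1) :
    Reduction.IsUpper γ ∨ Reduction.IsUpper (γ * weyl F) := by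
  obtain ⟨c, hc⟩ := row_eigen_of_upper h
  have h0 := hc 0
  have h1 := hc 1
  simp only [h01, h10, mul_zero, add_zero, zero_add] at h0 h1
  rw [isUpper_mul_weyl_iff]
  by_cases hu : γ.val 1 0 = 0
  · exact Or.inl hu
  right
  by_contra hd
  apply hne
  rw [mul_comm c] at h0 h1
  rw [mul_left_cancel₀ hu h0, mul_left_cancel₀ hd h1]

/-- The cusp fixed by a nontrivial unipotent. -/
theorem upper_of_unipotent {γ N : GL (Fin 2) F} (h : Reduction.IsUpper (γ * N * γ⁻¹))
    (h00 : N.val 0 0 = N.val 1 1) (h10 : N.val 1 0 = 0) (h01 : N.val 0 1 ≠ 0) :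
    Reduction.IsUpper γ := by
  obtain ⟨c, hc⟩ := row_eigen_of_upper h
  have h0 := hc 0
  have h1 := hc 1
  simp only [h10, mul_zero, add_zero] at h0
  show γ.val 1 0 = 0
  by_contra hu
  rw [mul_comm c] at h0
  rw [← mul_left_cancel₀ hu h0, h00, mul_comm (N.val 1 1)] at h1
  exact mul_ne_zero hu h01 (add_eq_right.mp h1)

variable [NumberField F] {U : Level F} {R : Finset (GLFin F)} {T : ℝ}

/-- Translating the finite part by an adelic unipotent does not change the top band. -/
theorem isHighTop_unip (P : InfinitePlace F → H3) (c : GLFin F ⧸ U.toSubgroup) (u : FinAdele F)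
    (h : IsHighTop R T ((P, c) : Y U)) : IsHighTop R T ((P, unip u • c) : Y U) := by
  obtain ⟨γ, hγ, ⟨r, hr, hrc⟩, hT⟩ := h
  obtain ⟨g, rfl⟩ := QuotientGroup.mk_surjective c
  obtain ⟨N, hN, hU⟩ := U.exists_principal
  obtain ⟨d, hd, hdi⟩ := Reduction.exists_denominator (fun p : Bool × Fin 2 × Fin 2 =>
    if p.1 then g.val p.2.1 p.2.2 else (g⁻¹).val p.2.1 p.2.2)
  obtain ⟨a, o, ho, rfl⟩ :=
    Reduction.exists_finIncl_add (N * (d * d)) (Nat.mul_pos hN (Nat.mul_pos hd hd)) u
  set z : FinAdele F := ((N * (d * d) : ℕ) : FinAdele F) * o with hz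
  have hfix : unip z • (QuotientGroup.mk g : GLFin F ⧸ U.toSubgroup) = QuotientGroup.mk g := by
    show (QuotientGroup.mk (unip z * g) : GLFin F ⧸ U.toSubgroup) = QuotientGroup.mk g
    refine (QuotientGroup.eq.mpr ?_).symm
    rw [← mul_assoc]
    refine hU _ fun i j => ?_
    set G : Matrix (Fin 2) (Fin 2) (FinAdele F) := g.val
    set G' : Matrix (Fin 2) (Fin 2) (FinAdele F) := (g⁻¹).val
    have hmem : ((d : FinAdele F) * G' i 0) * o * ((d : FinAdele F) * G 1 j) ∈ integralAdele F :=
      mul_mem (mul_mem (by simpa [G'] using hdi (false, i, 0)) ho)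
        (by simpa [G] using hdi (true, 1, j))
    refine ⟨_, hmem, _, neg_mem hmem, ?_, ?_⟩
    · have h1 : (G' * G) i j = (1 : Matrix (Fin 2) (Fin 2) (FinAdele F)) i j := by
        rw [← Units.val_mul, inv_mul_cancel, Units.val_one]
      rw [← h1]
      simp only [Units.val_mul, Matrix.mul_apply, Fin.sum_univ_two, hz]
      simp [G, G', Matrix.GeneralLinearGroup.upperRightHom_apply]
      ring
    · rw [show (g⁻¹ * unip z * g)⁻¹ = g⁻¹ * (unip z)⁻¹ * g by group,
        show (unip z)⁻¹ = unip (-z) from (AddChar.map_neg_eq_inv _ z).symm]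
      have h1 : (G' * G) i j = (1 : Matrix (Fin 2) (Fin 2) (FinAdele F)) i j := by
        rw [← Units.val_mul, inv_mul_cancel, Units.val_one]
      rw [← h1]
      simp only [Units.val_mul, Matrix.mul_apply, Fin.sum_univ_two, hz]
      simp [G, G', Matrix.GeneralLinearGroup.upperRightHom_apply]
      ring
  have hc : (unip (finIncl F a + z)) • (QuotientGroup.mk g : GLFin F ⧸ U.toSubgroup) =
      glIncl F (unip a) • QuotientGroup.mk g := by
    rw [unip_add, mul_smul, hfix]
    congr 1
    ext i j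
    fin_cases i <;> fin_cases j <;>
      simp [glIncl, Matrix.GeneralLinearGroup.upperRightHom_apply]
  have hua : Reduction.IsUpper (unip a : GL (Fin 2) F) := by
    simp [Reduction.IsUpper, Matrix.GeneralLinearGroup.upperRightHom_apply]
  have hsnd : ((γ * (unip a)⁻¹) • ((P, unip (finIncl F a + z) • QuotientGroup.mk g) : Y U)).2 =
      (γ • ((P, QuotientGroup.mk g) : Y U)).2 := by
    rw [smul_snd, smul_snd, hc, map_mul, map_inv, mul_smul, inv_smul_smul]
  refine ⟨γ * (unip a)⁻¹, hγ.mul hua.inv, ⟨r, hr, hsnd.trans hrc⟩, lt_of_lt_of_eq hT ?_⟩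
  refine Finset.prod_congr rfl fun w _ => ?_
  rw [Reduction.tc_smul_fst, Reduction.tc_smul_fst,
    show (γ * (unip a)⁻¹).val.det = γ.val.det by
      rw [Units.val_mul, Matrix.det_mul, ← AddChar.map_neg_eq_inv]
      simp [Matrix.det_fin_two, Matrix.GeneralLinearGroup.upperRightHom_apply],
    show (γ * (unip a)⁻¹).val 1 0 = 0 from hγ.mul hua.inv,
    show γ.val 1 0 = 0 from hγ,
    show (γ * (unip a)⁻¹).val 1 1 = γ.val 1 1 by
      rw [← AddChar.map_neg_eq_inv]
      simp [Matrix.mul_apply, Fin.sum_univ_two, Matrix.GeneralLinearGroup.upperRightHom_apply,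
        show γ.val 1 0 = 0 from hγ]]

/-- A high top is invariant under finite translations. -/
theorem isHighTop_unip_iff (P : InfinitePlace F → H3) (c : GLFin F ⧸ U.toSubgroup)
    (u : FinAdele F) : IsHighTop R T ((P, unip u • c) : Y U) ↔ IsHighTop R T ((P, c) : Y U) := by
  refine ⟨fun h => ?_, isHighTop_unip P c u⟩
  have := isHighTop_unip P _ (-u) h
  rwa [← mul_smul, ← AddChar.map_add_eq_mul, neg_add_cancel, AddChar.map_zero_eq_one,
    one_smul] at this

variable [NumberField.IsTotallyComplex F]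

/-- Where every high cusp is fixed by a regular diagonal matrix the cutoff is one minus the two
bands. -/
theorem exists_cutoff_diag (R : Finset (GLFin F)) :
    ∃ C : ℝ, ∀ T, C < T → ∀ (x : Y U) (N : GL (Fin 2) F),
      N.val 0 1 = 0 → N.val 1 0 = 0 → N.val 0 0 ≠ N.val 1 1 →
      (∀ γ : GL (Fin 2) F, InReps R (γ • x) → T < Reduction.height (γ • x) →
        Reduction.IsUpper (γ * N * γ⁻¹)) →
      (IsHigh R T x ↔ IsHighTop R T x ∨ IsHighTop R T (weyl F • x)) ∧
        ¬ (IsHighTop R T x ∧ IsHighTop R T (weyl F • x)) := by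
  obtain ⟨C, -, hup⟩ := Reduction.exists_upper_of_height U R
  refine ⟨C, fun T hT x N h01 h10 hne hfix => ⟨⟨?_, ?_⟩, ?_⟩⟩
  · rintro ⟨γ, hγ, hlt⟩
    rcases upper_or_weyl_of_diag (hfix γ hγ hlt) h01 h10 hne with hu | hu
    · exact Or.inl ⟨γ, hu, hγ, hlt⟩
    · refine Or.inr ⟨γ * weyl F, hu, ?_, ?_⟩ <;>
        rwa [mul_smul, ← mul_smul (weyl F), weyl_mul_weyl, one_smul]
  · rintro (⟨γ, -, hγ⟩ | ⟨γ, -, hγ⟩)
    · exact ⟨γ, hγ⟩
    · exact ⟨γ * weyl F, by rwa [mul_smul]⟩
  · rintro ⟨⟨γ, hu, hγ, hlt⟩, γ', hu', hγ', hlt'⟩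
    have e : γ' • weyl F • x = (γ' * weyl F * γ⁻¹) • γ • x := by
      rw [mul_smul, mul_smul, inv_smul_smul]
    have hU' := hup _ (γ • x) hγ (e ▸ hγ') (hT.trans hlt) (e ▸ hT.trans hlt')
    have hw : Reduction.IsUpper (γ'⁻¹ * (γ' * weyl F * γ⁻¹) * γ) := (hu'.inv.mul hU').mul hu
    simp [Reduction.IsUpper, mul_assoc, weyl] at hw

omit [NumberField F] [NumberField.IsTotallyComplex F] in
/-- Conjugates stay upper triangular after a change of scalar. -/
theorem upper_conj_of_mk_eq {γ N N' : GL (Fin 2) F}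
    (e : (QuotientGroup.mk N : PGLIndex F) = QuotientGroup.mk N')
    (h : Reduction.IsUpper (γ * N' * γ⁻¹)) : Reduction.IsUpper (γ * N * γ⁻¹) := by
  obtain ⟨a, rfl⟩ := pgl_mk_eq_iff.mp e
  rw [← mul_assoc γ, ← CubicDescent.scalarUnit_comm a γ, mul_assoc (CubicDescent.scalarUnit a),
    mul_assoc (CubicDescent.scalarUnit a)] at h
  have e' : ((CubicDescent.scalarUnit a) * (γ * N * γ⁻¹) : GL (Fin 2) F).val 1 0 =
      (a : F) * (γ * N * γ⁻¹).val 1 0 := Reduction.scalarGlobal_mul_apply a _ 1 0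
  exact (mul_eq_zero.mp (e'.symm.trans h)).resolve_left a.ne_zero

end Fermat.Agent.LT.Geometric
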