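import Fermat.Agent.LT.Geometric.UnipotentFibre
import Fermat.Agent.LT.Geometric.Band
import Fermat.Agent.LT.PlaceMatching.Fibre
import Fermat.Agent.LT.Descent.MatchedPairs

/-!
# The test side of the geometric comparison

`v₀` is the moved place of the type, `e` the idempotent of the places above it and `e₀` that of the
chosen one: `(σ, e, e₀)` is a split idempotent, the tests have the cusp condition at `e`, the
projection forgets translations in `e - e₀`, turns those in `e` into translations, and has finite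
fibres on the support of the twisted terms.
-/

set_option autoImplicit false

noncomputable section

open scoped NumberField Matrix

namespace Fermat.Agent.LT.Geometric

open Places Matching CubicDescent PlaceMatching CuspType Descent

variable {K L : Type*} [Field K] [NumberField K] [Field L] [NumberField L] {ι : K →+* L}
  {σ : L ≃+* L} {I : Ideal (𝓞 L)} {J : Ideal (𝓞 K)} {s : PlaceSection ι}

/-- (1) The idempotents over a moved place. -/
theorem cuspIdem_of_moved (hc : IsCubic ι σ) {v₀ : FinPlace K} (hv₀ : s.Moved σ v₀) :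
    CuspIdem σ (finExtend ι (idem v₀)) (idem (s.sec v₀)) where
  fixed := finMap_finExtend_fixed hc.fixed _
  sum_eq := by
    have h1 : finMap (σ : L →+* L) (idem (s.sec v₀)) = idem (s.pl σ v₀ 2) := by
      conv_lhs => rw [← s.pl_zero σ v₀, show (0 : Fin 3) = 2 + 1 from rfl, ← s.pl_succ hc v₀ 2]
      exact finMap_idem σ _
    have h2 : finMap (σ : L →+* L) (idem (s.pl σ v₀ 2)) = idem (s.pl σ v₀ 1) := by
      conv_lhs => rw [show (2 : Fin 3) = 1 + 1 from rfl, ← s.pl_succ hc v₀ 1]
      exact finMap_idem σ _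
    rw [h1, h2, ← s.pl_zero σ v₀]
    refine ext_toPlace fun u => ?_
    simp only [map_add]
    by_cases hu : comapPlace ι u = v₀
    · obtain ⟨i, hi⟩ := s.exists_pl_eq hc u
      rw [hu] at hi
      subst hi
      rw [toPlace_finExtend_idem hu]
      have hne : ∀ {i j : Fin 3}, i ≠ j → s.pl σ v₀ i ≠ s.pl σ v₀ j := fun h e =>
        h (s.pl_injective hc hv₀ e)
      fin_cases i
      · simp only [Fin.zero_eta]
        rw [toPlace_idem_same, toPlace_idem_ne (hne (by decide)), toPlace_idem_ne (hne (by decide)),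
          add_zero, add_zero]
      · simp only [Fin.mk_one]
        rw [toPlace_idem_same, toPlace_idem_ne (hne (by decide)), toPlace_idem_ne (hne (by decide)),
          zero_add, zero_add]
      · simp only [Fin.reduceFinMk]
        rw [toPlace_idem_same, toPlace_idem_ne (hne (by decide)), toPlace_idem_ne (hne (by decide)),
          zero_add, add_zero]
    · have hne : ∀ i, u ≠ s.pl σ v₀ i := fun i e => hu (by rw [e, s.pl_over hc v₀ i])
      rw [PlaceMatching.toPlace_finExtend (v := comapPlace ι u) rfl, toPlace_idem_ne hu, map_zero,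
        toPlace_idem_ne (hne 0), toPlace_idem_ne (hne 1), toPlace_idem_ne (hne 2), add_zero,
        add_zero]
  idem := idem_mul_idem _
  orth := by
    refine ext_toPlace fun u => ?_
    rw [map_mul, map_zero]
    rcases eq_or_ne u (s.sec v₀) with rfl | hu
    · rw [PlaceMatching.toPlace_finMap (σ := σ) (w' := comapPlace (σ : L →+* L) (s.sec v₀)) rfl,
        toPlace_idem_ne hv₀, map_zero, mul_zero]
    · rw [toPlace_idem_ne hu, zero_mul]

/-- The place of the type is moved. -/
theorem moved_of_mem_three {SK : ThreeSet K} (hm : LevelsMatch ι σ I J) {v : FinPlace K}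
    (hv : v ∈ SK.places) : s.Moved σ v := fun hfix => by
  refine hm.three (s.sec v) ?_ hfix
  have h3 : ((3 : ℕ) : 𝓞 K) ∈ v.asIdeal := three_mem SK ⟨v, hv⟩
  rw [← s.over v, mem_comapPlace, map_natCast] at h3
  simpa using h3

/-- (2) The members of the family have the cusp condition over the place of the type. -/
theorem hasCuspConditionAt_over {SK : ThreeSet K} {SL : ThreeSet L} {UL : Level L}
    (hover : ∀ w, w ∈ SL.places ↔ comapPlace ι w ∈ SK.places) {v₀ : FinPlace K}
    (hSK : SK.places = {v₀}) (hUL : IsTypeLevel SL UL) (ε : Fin 2) (hne : SL.places.Nonempty)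
    (m : goodMonoid UL SL) :
    HasCuspConditionAt ((cuspFamily hUL ε hne).fn m) (finExtend ι (idem v₀)) :=
  hasCuspConditionAt_cuspFamily_fn hUL ε hne (fun w hw => toPlace_finExtend_idem
    (Finset.mem_singleton.1 (hSK ▸ (hover w).1 hw))) m

variable {hI : ∃ N : ℕ, 0 < N ∧ (N : 𝓞 L) ∈ I} {hJ : ∃ N : ℕ, 0 < N ∧ (N : 𝓞 K) ∈ J}
  {hm : LevelsMatch ι σ I J} {hc : IsCubic ι σ} {x : GL (Fin 2) L} {m : GL (Fin 2) K}
  (T : Transfer hm hc s x m) {v₀ : FinPlace K}

/-- (3) Translations in `e - e₀` disappear. -/
theorem proj_unip_sub (hv₀ : s.Moved σ v₀) {u : FinAdele L}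
    (hu : (finExtend ι (idem v₀) - idem (s.sec v₀)) * u = u) (c : KerFam.Cst hI) :
    T.proj hJ (unip u • c) = T.proj hJ c := by
  have h0 : idem (s.sec v₀) * u = 0 :=
    CuspIdem.e₀_mul_of_mem (cuspIdem_of_moved hc hv₀) (sigma_three hc.pow) hu
  refine T.proj_unip_other (v₀ := v₀) ?_ h0 c
  rwa [sub_mul, h0, sub_zero] at hu

/-- (4) Translations in `e` act through translations of `K`. -/
theorem exists_proj_unip (hv₀ : s.Moved σ v₀) {u : FinAdele L}
    (hu : finExtend ι (idem v₀) * u = u) (c : KerFam.Cst hI) :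
    ∃ u₀ : FinAdele K, T.proj hJ (unip u • c) = unip u₀ • T.proj hJ c :=
  let ⟨u₀, _, h⟩ := T.proj_unip hv₀ hu
  ⟨u₀, h c⟩

theorem glPlace_glIncl_weyl {F : Type*} [Field F] [NumberField F] (v : FinPlace F) :
    (glPlace v (glIncl F (weyl F))).val = !![0, 1; 1, 0] := by
  ext i j
  fin_cases i <;> fin_cases j <;> simp [glPlace_apply, glIncl, weyl]

/-- (4') The same after the Weyl element. -/
theorem exists_proj_unip_weyl (hv₀ : s.Moved σ v₀) {u : FinAdele L}
    (hu : finExtend ι (idem v₀) * u = u) (c : KerFam.Cst hI) :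
    ∃ u₀ : FinAdele K,
      glIncl K (weyl K) • T.proj hJ (glIncl L (weyl L) • (unip u • c)) =
        unip u₀ • (glIncl K (weyl K) • T.proj hJ (glIncl L (weyl L) • c)) := by
  obtain ⟨a, ha⟩ := (placeMap_bijective_of_moved hc hv₀ (s.over v₀)).2 (toPlace (s.sec v₀) u)
  have hWL : glIncl L (weyl L) * glIncl L (weyl L) = 1 := by
    rw [← map_mul, weyl_mul_weyl, map_one]
  have hWK : glIncl K (weyl K) * glIncl K (weyl K) = 1 := by
    rw [← map_mul, weyl_mul_weyl, map_one]
  refine ⟨single v₀ a, ?_⟩
  rw [show glIncl L (weyl L) • (unip u • c) =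
      (glIncl L (weyl L) * unip u * glIncl L (weyl L)) • (glIncl L (weyl L) • c) by
    rw [smul_smul, smul_smul, mul_assoc _ (glIncl L (weyl L)) (glIncl L (weyl L)), hWL, mul_one]]
  rw [T.proj_smul_of_moved (g₀ := glIncl K (weyl K) * unip (single v₀ a) * glIncl K (weyl K))
    (fun v => ?_) (fun v hv => ?_) _, smul_smul, ← mul_assoc, ← mul_assoc, hWK, one_mul, mul_smul]
  · refine Units.ext ?_
    have h : toPlace (s.sec v) u = placeMap ι (s.over v) (toPlace v (single v₀ a)) := by
      rcases eq_or_ne v v₀ with rfl | hv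
      · rw [toPlace_single_same, ha]
      · rw [unip_support hu (by rw [s.over]; exact hv), toPlace_single_ne hv, map_zero]
    simp only [map_mul, Units.val_mul, glPlace_glIncl_weyl, PlaceMatching.glPlace_unip]
    ext i j
    fin_cases i <;> fin_cases j <;> simp [Matrix.mul_apply, Fin.sum_univ_two, h,
      glPlace_glIncl_weyl, baseUnit]
  · rw [map_mul, map_mul, PlaceMatching.glPlace_unip,
      toPlace_single_ne (fun e : v = v₀ => hv (e.symm ▸ hv₀)),
      show (unip (0 : v.adicCompletion K) : GL (Fin 2) _) = 1 from AddChar.map_zero_eq_one _,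
      mul_one, ← map_mul, hWK, map_one]

variable {k : Fin 3 → KerFam J} {kL : KerFam I}

/-- (5) Finitely many cosets of a fibre carry a term. -/
theorem finite_fibre_proj (hk : Compatible hm hc s k kL)
    (hN : twistedNorm (glMap σ) x 3 = baseUnit ι m) (d : KerFam.Cst hJ) :
    {c : KerFam.Cst hI | T.proj hJ c = d ∧
      (kL.hecke hI).kernel c (Transfer.twist hI hm hc x c) ≠ 0}.Finite := by
  classical
  choose lift hlift using fun p : KerFam.Cst hJ × KerFam.Cst hJ =>
    T.exists_coords (hI := hI) d p.1 p.2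
  set P := (((k 0).hecke hJ).row d).biUnion fun b₁ =>
    (((k 1).hecke hJ).row b₁).image fun b₂ => (b₁, b₂) with hP
  refine ((P.finite_toSet).image lift).subset fun c ⟨hcd, hne⟩ => ?_
  rw [KerFam.hecke_kernel] at hne
  obtain ⟨b₁, b₂, hco, hf⟩ :=
    Transfer.exists_coordsOf (hJ := hJ) T (Transfer.onSupport_of_ne_zero hk hne)
  rw [hcd] at hco
  have hf' : ∀ v, ¬ s.Moved σ v → comp v b₁ = comp v d ∧ comp v b₂ = comp v d ∧
      glPlace v (glIncl K m) • comp v d = comp v d := fun v hv => by
    rw [← hcd, T.comp_proj]; exact hf v hv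
  rw [hco.term_eq hk hN hf'] at hne
  simp only [ne_eq, mul_eq_zero, not_or] at hne
  refine ⟨(b₁, b₂), Finset.mem_coe.2 (Finset.mem_biUnion.mpr ⟨b₁, HeckeFn.mem_row.mpr ?_,
    Finset.mem_image.mpr ⟨b₂, HeckeFn.mem_row.mpr ?_, rfl⟩⟩), (hlift (b₁, b₂)).unique hco⟩
  · rw [KerFam.hecke_kernel]; exact hne.1.1
  · rw [KerFam.hecke_kernel]; exact hne.1.2

end Fermat.Agent.LT.Geometric

/-! ### The place of `EisField` over three -/

namespace Fermat.Agent.LT.Descent

open Places NumberField GaloisData

/-- `EisField` has one place over three. -/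
theorem eisThree_places_eq {v : FinPlace EisField} (hv : v ∈ eisThree.places) :
    eisThree.places = {v} := by
  refine Finset.eq_singleton_iff_unique_mem.2 ⟨hv, fun w hw => ?_⟩
  have := isCyclotomicExtension_eisField
  have hζ := IsCyclotomicExtension.zeta_spec 3 ℚ EisField
  have : Fact (Nat.Prime 3) := ⟨Nat.prime_three⟩
  set z : 𝓞 EisField := hζ.toInteger
  have key : ∀ u ∈ eisThree.places, u.asIdeal = Ideal.span {z - 1} := by
    intro u hu
    have h3 := mem_eisThree.1 hu
    have e : Ideal.absNorm (Ideal.span {z - 1}) = 3 := by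
      rw [Ideal.absNorm_span_singleton,
        show Algebra.norm ℤ (z - 1) = 3 from hζ.norm_toInteger_sub_one_of_prime_ne_two'
            (by norm_num)]
      rfl
    have hp : (Ideal.span {z - 1}).IsPrime :=
      Ideal.isPrime_of_irreducible_absNorm (by rw [e]; exact Nat.prime_three)
    have hz : (z - 1) ^ 2 = -3 * z := by
      refine RingOfIntegers.ext ?_
      have h1 : (IsCyclotomicExtension.zeta 3 ℚ EisField) ≠ 1 := hζ.ne_one (by norm_num)
      have h0 : (IsCyclotomicExtension.zeta 3 ℚ EisField - 1) *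
          ((IsCyclotomicExtension.zeta 3 ℚ EisField) ^ 2 +
            IsCyclotomicExtension.zeta 3 ℚ EisField + 1) = 0 := by
        linear_combination hζ.pow_eq_one
      have hcoe : (z : EisField) = IsCyclotomicExtension.zeta 3 ℚ EisField := rfl
      simp only [map_sub, map_mul, map_neg, map_pow, map_one, map_ofNat, hcoe]
      linear_combination (mul_eq_zero.mp h0).resolve_left (sub_ne_zero.mpr h1)
    have hmem : z - 1 ∈ u.asIdeal := u.isPrime.mem_of_pow_mem 2 (by
      rw [hz, neg_mul]
      exact neg_mem (u.asIdeal.mul_mem_right _ h3))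
    have hle : Ideal.span {z - 1} ≤ u.asIdeal := (Ideal.span_singleton_le_iff_mem _).2 hmem
    refine ((hp.isMaximal ?_).eq_of_le u.isPrime.ne_top hle).symm
    intro h
    rw [h, Ideal.absNorm_bot] at e
    omega
  exact IsDedekindDomain.HeightOneSpectrum.ext ((key w hw).trans (key v hv).symm)

end Fermat.Agent.LT.Descent

end
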