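import Fermat.Agent.LT.Geometric.HyperbolicBand
import Fermat.Agent.LT.Geometric.HyperbolicClass
import Fermat.Agent.LT.Geometric.TermMatch
import Fermat.Agent.LT.Geometric.TestFacts

/-!
# The band of a split regular class for matched tests

For compatible tests with the cusp condition over a moved place the band of `diag(b,1)` against
the torus weight that is constant on lines tends to zero.
-/

set_option autoImplicit false

noncomputable section

open MeasureTheory Filter Topology
open scoped NNReal NumberField
open NumberField (InfinitePlace IsTotallyComplex)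

namespace Fermat.Agent.LT.Geometric

open CubicDescent PlaceMatching Places

variable {K L : Type*} [Field K] [NumberField K] [Field L] [NumberField L] {ι : K →+* L}
  {σ : L ≃+* L} [IsTotallyComplex K] [IsTotallyComplex L] {φ₀ : L →+* ℂ} {I : Ideal (𝓞 L)}
  {J : Ideal (𝓞 K)} {hI : ∃ N : ℕ, 0 < N ∧ (N : 𝓞 L) ∈ I} {hJ : ∃ N : ℕ, 0 < N ∧ (N : 𝓞 K) ∈ J}
  {hm : LevelsMatch ι σ I J} {hc : IsCubic ι σ} {s : PlaceSection ι}
  (hemb : ∀ v : InfinitePlace K, v.embedding = φ₀.comp ι) [Unique (InfinitePlace K)]
  {k : Fin 3 → KerFam J} {kL : KerFam I} (hk : Compatible hm hc s k kL)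
  {v₀ : FinPlace K} (hv₀ : s.Moved σ v₀)
  (hcusp : HasCuspConditionAt (kL.hecke hI) (finExtend ι (idem v₀))) (q : Kernel.PointKer L)

omit [IsTotallyComplex K] [IsTotallyComplex L] in
include hemb hk hv₀ hcusp in
/-- The hypotheses of the band theorem hold for matched tests. -/
theorem diagBandHyp_of_transfer {a : Kˣ} {b : Lˣ} (ha : (a : K) ≠ 1)
    (hab : ι (a : K) = (b : L) * σ b * σ (σ b)) (T : Transfer hm hc s (dia b) (dia a)) :
    DiagBandHyp ι σ (hm.stable hc) φ₀ q (kL.hecke hI) (archMajorant K q)
      ((k 0).abs.hecke hJ * (k 1).abs.hecke hJ * (k 2).abs.hecke hJ) (fun c => T.proj hJ c)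
      (finExtend ι (idem v₀)) a b := by
  have hN := twistedNorm_dia (σ := σ) hab
  exact
    { norm := hab
      ne_one := ha
      fixed := (cuspIdem_of_moved hc hv₀).fixed
      cusp := hcusp
      line := fun x hx c => exists_proj_unip T hv₀ hx c
      line' := fun x hx c => exists_proj_unip_weyl T hv₀ hx c
      torusEquiv := fun t c hne => by
        have hs : Transfer.OnSupport (hm := hm) (hc := hc) (s := s) (x := dia b) c := by
          refine Transfer.onSupport_of_ne_zero hk ?_
          rw [← KerFam.hecke_kernel]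
          exact hne
        have hz : Commute (QuotientGroup.mk (dia t) : PGLIndex K) (QuotientGroup.mk (dia a)) :=
          (Commute.all t a).map (torus K)
        have e := T.proj_smul (hJ := hJ) hz hs
        rwa [show Matching.baseUnit ι (dia t) = dia (Units.map ι.toMonoidHom t) by
          ext i j; fin_cases i <;> fin_cases j <;> simp [dia, Matching.baseUnit]] at e
      supp := fun c hne => T.majorant_ne_zero hk hN hne
      fibre := fun d => finite_fibre_proj T hk hN d
      arch := fun P hP => archMajorant_ne_zero hc hemb hN q hP }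

include hemb hk hv₀ hcusp in
/-- **The band of a split regular class tends to zero.** -/
theorem exists_weight_diagBand_tendsto {a : Kˣ} {b : Lˣ} (ha : (a : K) ≠ 1)
    (hab : ι (a : K) = (b : L) * σ b * σ (σ b)) (T : Transfer hm hc s (dia b) (dia a)) :
    ∃ u : GLFin K ⧸ (Level.ofIdeal K J hJ).toSubgroup → ℝ≥0,
      (∀ c, HasSum (fun t : Kˣ => u (glIncl K (dia t) • c)) 1) ∧
      ∀ R R', CoversReps (Level.ofIdeal L I hI) R → CoversReps (Level.ofIdeal K J hJ) R' →
        (∀ t : ℝ, Integrable (diagBand φ₀ hm hc s T q (kL.hecke hI) u R R' t)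
          (yVol (Level.ofIdeal L I hI))) →
        Tendsto (fun n : ℕ => ∫ z, diagBand φ₀ hm hc s T q (kL.hecke hI) u R R' n z
          ∂yVol (Level.ofIdeal L I hI)) atTop (𝓝 0) := by
  refine ⟨torusWeight, hasSum_torusWeight, fun R R' _ _ hint => ?_⟩
  have hev := (diagBandHyp_of_transfer (hJ := hJ) hemb hk hv₀ hcusp q ha hab
      T).eventually_band_eq_zero
    hc hemb R R' (isPartition_of_hasSum (U := Level.ofIdeal K J hJ) hasSum_torusWeight)
  refine Tendsto.congr' ?_ tendsto_const_nhds
  filter_upwards [tendsto_natCast_atTop_atTop.eventually hev] with n hn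
  exact (hn (hint n)).symm

end Fermat.Agent.LT.Geometric
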