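import Fermat.Agent.LT.Geometric.NormClasses
import Fermat.Agent.LT.Galois
import Fermat.Agent.LT.Kernel.Test

/-!
# The terms of the twisted diagonal

`term σ k h δ x = k(x∞, (δ σ x)∞) h(x_f⁻¹ (δ σ x)_f)`, invariant under the twisted action.
-/

set_option autoImplicit false

noncomputable section

open MeasureTheory
open NumberField (InfinitePlace)

namespace Fermat.Agent.LT.Geometric

variable {F : Type*} [Field F] [NumberField F] {U : Level F} (σ : F ≃+* F)
  (hU : ∀ g ∈ U.toSubgroup, glFinMap (σ : F →+* F) g ∈ U.toSubgroup)

/-- The Galois action intertwines `g` with `σ(g)`. -/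
theorem galY_pgl_smul (g : PGLIndex F) (y : Y U) :
    galY σ U hU (g • y) = pglAut σ g • galY σ U hU y := by
  induction g using QuotientGroup.induction_on with
  | H x => exact galY_smul σ U hU x y

/-- Complex conjugation on `ℍ³` is continuous. -/
theorem continuous_conjPoint : Continuous H3.conjPoint :=
  continuous_induced_rng.mpr H3.continuous_mat.matrix_transpose

/-- Complex conjugation keeps the height. -/
theorem tc_conjPoint (P : H3) : H3.tc (H3.conjPoint P) = H3.tc P := rfl

/-- The Galois action on the space is measurable. -/
theorem measurable_galY : Measurable (galY σ U hU) := by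
  refine Measurable.prod (measurable_pi_lambda _ fun w => ?_)
    ((measurable_from_top (f := galFin σ U hU)).comp measurable_snd)
  unfold galY galInf
  by_cases h : w.embedding.comp (σ : F →+* F) = (w.comap (σ : F →+* F)).embedding
  · simp only [if_pos h]
    exact (measurable_pi_apply _).comp measurable_fst
  · simp only [if_neg h]
    exact continuous_conjPoint.measurable.comp ((measurable_pi_apply _).comp measurable_fst)

/-- The term of `δ`. -/
def term (k : Kernel.PointKer F) (h : HeckeFn U) (δ : Twisted (pglAut σ)) (x : Y U) : ℂ :=
  k.toFun x.1 (δ.val • galY σ U hU x).1 * h.kernel x.2 (δ.val • galY σ U hU x).2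

variable (k : Kernel.PointKer F) (h : HeckeFn U)

/-- A twisted term is equivariant under twisted conjugation. -/
theorem term_smul (g : PGLIndex F) (δ : Twisted (pglAut σ)) (x : Y U) :
    term σ hU k h (g • δ) (g • x) = term σ hU k h δ x := by
  have e : (g • δ).val • galY σ U hU (g • x) = g • (δ.val • galY σ U hU x) := by
    rw [Twisted.val_smul, galY_pgl_smul, ← mul_smul, inv_mul_cancel_right, mul_smul]
  rw [term, term, e]
  induction g using QuotientGroup.induction_on with
  | H γ =>
    simp only [pgl_mk_smul]
    congr 1
    · exact k.smul' (fun w => glEmb F w γ) x.1 (δ.val • galY σ U hU x).1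
    · exact h.kernel_smul (glIncl F γ) _ _

/-- The action of an element of `PGL₂(F)` is measurable. -/
theorem measurable_pglSmul (g : PGLIndex F) : Measurable fun y : Y U => g • y :=
  (measurePreserving_pglSmul U g).measurable

/-- A twisted term is measurable. -/
theorem measurable_term (δ : Twisted (pglAut σ)) : Measurable (term σ hU k h δ) := by
  have hm := (measurable_pglSmul (U := U) δ.val).comp (measurable_galY σ hU)
  refine Measurable.mul (k.continuous'.measurable.comp
    (measurable_fst.prodMk (measurable_fst.comp hm))) ?_
  have : DiscreteMeasurableSpace ((GLFin F ⧸ U.toSubgroup) × (GLFin F ⧸ U.toSubgroup)) :=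
    ⟨fun s => s.to_countable.measurableSet⟩
  exact (Measurable.of_discrete (f := fun p : (GLFin F ⧸ U.toSubgroup) × _ =>
    h.kernel p.1 p.2)).comp (measurable_snd.prodMk (measurable_snd.comp hm))

end Fermat.Agent.LT.Geometric
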