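import Fermat.Agent.LT.Geometric.ArchPlace
import Fermat.Agent.LT.Geometric.ArchBound
import Fermat.Agent.LT.Kernel.LineSum

/-!
# The unipotent bump at infinity

`bump k P β = k(P, n(β/3) σ P)` as a function of `β` in `K` has width and inverse Lipschitz
constant comparable to the height `t` of `P` over the place of `K`, and forces the three
coordinates of `P` to be within bounded distance of each other.
-/

set_option autoImplicit false

noncomputable section

open MeasureTheory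
open scoped ENNReal
open NumberField (InfinitePlace)

namespace Fermat.Agent.LT.Geometric

variable {F K : Type*} [Field F] [NumberField F] [Field K] [NumberField K]

omit [NumberField F] in
/-- A translation shifts the complex coordinate of `ℍ³` and keeps the height. -/
theorem map_unip_smul (φ : F →+* ℂ) (a : F) (Q : H3) :
    Matrix.GeneralLinearGroup.map φ (unip a) • Q = H3.pt (H3.zc Q + φ a) (H3.tc Q) := by
  conv_lhs => rw [← H3.pt_coord Q]
  rw [show Matrix.GeneralLinearGroup.map φ (unip a) = H3.affine 1 (φ a) one_ne_zero by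
    ext i j
    show φ ((unip a : GL (Fin 2) F).val i j) = _
    fin_cases i <;> fin_cases j <;> simp [H3.affine],
    H3.affine_smul _ _ _ _ (H3.tc_pos Q), norm_one, one_mul, one_mul]

omit [NumberField F] in
/-- The distance read in an embedding is the distance at its place. -/
theorem cdist_atEmb (φ : F →+* ℂ) (P Q : InfinitePlace F → H3) :
    H3.cdist (atEmb φ P) (atEmb φ Q) = H3.cdist (P (InfinitePlace.mk φ)) (Q (InfinitePlace.mk φ)) :=
      by
  unfold atEmb
  split_ifs
  · rfl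
  · exact cdist_conjPoint _ _

omit [NumberField F] in
theorem hdist_atEmb (φ : F →+* ℂ) (P Q : InfinitePlace F → H3) :
    Kernel.hdist (atEmb φ P) (atEmb φ Q) =
      Kernel.hdist (P (InfinitePlace.mk φ)) (Q (InfinitePlace.mk φ)) := by
  rw [Kernel.hdist, Kernel.hdist, cdist_atEmb]

/-- Comparable heights and displacements bound the distance. -/
theorem cdist_le_of_near {P Q : H3} {C : ℝ} (hC : 1 ≤ C) (h1 : H3.tc Q ≤ C * H3.tc P)
    (h2 : H3.tc P ≤ C * H3.tc Q) (h3 : ‖H3.zc P - H3.zc Q‖ ≤ C * H3.tc P) :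
    H3.cdist P Q ≤ 2 * C ^ 3 := by
  have hp := H3.tc_pos P
  have hq := H3.tc_pos Q
  rw [H3.cdist_eq, div_le_iff₀ (by positivity), Complex.normSq_eq_norm_sq]
  have h4 : ‖H3.zc P - H3.zc Q‖ ^ 2 ≤ (C * H3.tc P) ^ 2 :=
    pow_le_pow_left₀ (norm_nonneg _) h3 2
  have h5 : H3.tc Q ^ 2 ≤ (C * H3.tc P) ^ 2 := pow_le_pow_left₀ hq.le h1 2
  have h6 : H3.tc P ^ 2 ≤ (C * H3.tc P) ^ 2 :=
    pow_le_pow_left₀ hp.le (le_mul_of_one_le_left hp.le hC) 2
  have h7 : H3.tc P * H3.tc P ≤ H3.tc P * (C * H3.tc Q) := mul_le_mul_of_nonneg_left h2 hp.le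
  nlinarith [mul_le_mul_of_nonneg_left h7 (sq_nonneg C), mul_pos hp hq,
    mul_pos (mul_pos hp hq) (pow_pos (lt_of_lt_of_le one_pos hC) 3)]

variable {ι : K →+* F} {σ : F ≃+* F} {φ₀ : F →+* ℂ}

/-- The distance on `ℍ³` is measurable. -/
theorem measurable_cdist : Measurable fun p : H3 × H3 => H3.cdist p.1 p.2 :=
  H3.continuous_cdist.measurable

/-- The three coordinates are within distance `R` of the first. -/
def nearDiag (φ₀ : F →+* ℂ) (σ : F ≃+* F) (R : ℝ) : Set (InfinitePlace F → H3) :=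
  {P | ∀ i, H3.cdist (atEmb φ₀ P) (atEmb (embOver σ φ₀ i) P) ≤ R}

variable (ι σ) in
/-- The kernel of `n(β/3)` at infinity. -/
def bump (k : Kernel.PointKer F) (P : InfinitePlace F → H3) (β : K) : ℂ :=
  k.toFun P fun w => glEmb F w (unip (ι β / 3)) • galInf σ P w

variable (h : IsCubic ι σ) (hemb : ∀ v : InfinitePlace K, v.embedding = φ₀.comp ι)
  (hcomplex : ¬ NumberField.ComplexEmbedding.IsReal (φ₀.comp ι))

include h

omit [NumberField F] [NumberField K] in
/-- The second argument of the bump in coordinates. -/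
theorem atEmb_bump_arg (P : InfinitePlace F → H3) (β : K) (i : Fin 3) :
    atEmb (embOver σ φ₀ i) (fun w => glEmb F w (unip (ι β / 3)) • galInf σ P w) =
      H3.pt (H3.zc (atEmb (embOver σ φ₀ (i + 1)) P) + φ₀ (ι β) / 3)
        (H3.tc (atEmb (embOver σ φ₀ (i + 1)) P)) := by
  have e : (embOver σ φ₀ i).comp (σ : F →+* F) = embOver σ φ₀ (i + 1) := by
    fin_cases i
    · rfl
    · rfl
    · exact RingHom.ext fun x => congrArg φ₀ (cubic_apply_three h x)
  have e' : embOver σ φ₀ i (ι β) = φ₀ (ι β) := RingHom.congr_fun (embOver_comp h i) β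
  rw [atEmb_smul, atEmb_galInf, e, map_unip_smul, map_div₀, e', map_ofNat]

include hemb hcomplex

/-- **Width, Lipschitz constant and region of the bump.** -/
theorem exists_bump_data (k : Kernel.PointKer F) :
    ∃ A Lip R : ℝ, 0 ≤ A ∧ 0 ≤ Lip ∧ ∀ P : InfinitePlace F → H3,
      (∀ β, bump ι σ k P β ≠ 0 → P ∈ nearDiag φ₀ σ R) ∧
      (∀ β, bump ι σ k P β ≠ 0 → ∀ v : InfinitePlace K,
        ‖v.embedding β - 3 * (H3.zc (atEmb φ₀ P) - H3.zc (atEmb (embOver σ φ₀ 1) P))‖ ≤
          A * H3.tc (atEmb φ₀ P)) ∧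
      ∀ β β', ‖bump ι σ k P β - bump ι σ k P β'‖ ≤
        Lip * (∑ v : InfinitePlace K, v (β - β')) / H3.tc (atEmb φ₀ P) := by
  classical
  set ρ := 2 * k.radius with hρ
  have hρ1 : 1 ≤ ρ := by linarith [k.one_le_radius]
  have hρ0 : 0 ≤ ρ := by linarith
  refine ⟨3 * ρ, k.lip * (3 * ρ ^ 3), 2 * (10 * ρ ^ 3) ^ 3, by positivity,
    mul_nonneg k.lip_nonneg (by positivity), fun P => ?_⟩
  set z : Fin 3 → ℂ := fun i => H3.zc (atEmb (embOver σ φ₀ i) P) with hz
  set t : Fin 3 → ℝ := fun i => H3.tc (atEmb (embOver σ φ₀ i) P) with ht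
  have htp : ∀ i, 0 < t i := fun i => H3.tc_pos _
  have key : ∀ β, bump ι σ k P β ≠ 0 → ∀ i,
      t (i + 1) ≤ ρ * t i ∧ t i ≤ ρ * t (i + 1) ∧
        ‖z i - (z (i + 1) + φ₀ (ι β) / 3)‖ ≤ ρ * t i := by
    intro β hβ i
    have e := cdist_atEmb (embOver σ φ₀ i) P
      (fun w => glEmb F w (unip (ι β / 3)) • galInf σ P w)
    rw [atEmb_bump_arg h] at e
    have := Kernel.tc_le_of_cdist_le
      (e.trans_le (k.cdist_le hβ (InfinitePlace.mk (embOver σ φ₀ i))))
    rwa [H3.tc_pt _ (H3.tc_pos _), H3.zc_pt _ (H3.tc_pos _)] at this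
  have hchain : ∀ β, bump ι σ k P β ≠ 0 → ∀ i, t i ≤ ρ ^ 2 * t 0 ∧ t 0 ≤ ρ ^ 2 * t i := by
    intro β hβ i
    obtain ⟨a1, b1, -⟩ := key β hβ 0
    obtain ⟨a2, b2, -⟩ := key β hβ 1
    rw [show (0 : Fin 3) + 1 = 1 from rfl] at a1 b1
    rw [show (1 : Fin 3) + 1 = 2 from rfl] at a2 b2
    have h0 := (htp 0).le
    have h1 := (htp 1).le
    have h2 := (htp 2).le
    fin_cases i <;> simp only [Fin.zero_eta, Fin.mk_one, Fin.reduceFinMk] <;> constructor <;>
      nlinarith [mul_le_mul_of_nonneg_left a1 hρ0, mul_le_mul_of_nonneg_left b2 hρ0,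
        mul_le_mul_of_nonneg_left a2 hρ0, mul_le_mul_of_nonneg_left b1 hρ0]
  refine ⟨fun β hβ => ?_, fun β hβ v => ?_, fun β β' => ?_⟩
  · -- the region
    obtain ⟨-, -, c0⟩ := key β hβ 0
    obtain ⟨-, -, c1⟩ := key β hβ 1
    obtain ⟨-, -, c2⟩ := key β hβ 2
    rw [show (0 : Fin 3) + 1 = 1 from rfl] at c0
    rw [show (1 : Fin 3) + 1 = 2 from rfl] at c1
    rw [show (2 : Fin 3) + 1 = 0 from rfl] at c2
    set a := φ₀ (ι β) / 3 with ha
    set d0 := z 0 - (z 1 + a)
    set d1 := z 1 - (z 2 + a)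
    set d2 := z 2 - (z 0 + a)
    have hsum : a = -(d0 + d1 + d2) / 3 := by simp only [d0, d1, d2]; ring
    set M := ρ ^ 3 * t 0 with hM
    have hM0 : 0 ≤ M := mul_nonneg (by positivity) (htp 0).le
    have hb : ∀ i, ρ * t i ≤ M := fun i => by
      calc ρ * t i ≤ ρ * (ρ ^ 2 * t 0) := mul_le_mul_of_nonneg_left (hchain β hβ i).1 hρ0
        _ = M := by rw [hM]; ring
    have hn0 : ‖d0‖ ≤ M := c0.trans (hb 0)
    have hn1 : ‖d1‖ ≤ M := c1.trans (hb 1)
    have hn2 : ‖d2‖ ≤ M := c2.trans (hb 2)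
    have ha' : ‖a‖ ≤ M := by
      rw [hsum, norm_div, norm_neg, Complex.norm_ofNat]
      linarith [norm_add₃_le (a := d0) (b := d1) (c := d2)]
    have hzd : ∀ i, ‖z 0 - z i‖ ≤ 10 * ρ ^ 3 * t 0 := fun i => by
      have e1 : z 0 - z 1 = d0 + a := by simp only [d0]; ring
      have e2 : z 0 - z 2 = d0 + a + (d1 + a) := by simp only [d0, d1]; ring
      rw [show 10 * ρ ^ 3 * t 0 = 10 * M by rw [hM]; ring]
      fin_cases i <;> simp only [Fin.zero_eta, Fin.mk_one, Fin.reduceFinMk]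
      · rw [sub_self, norm_zero]; positivity
      · rw [e1]; linarith [norm_add_le d0 a]
      · rw [e2]; linarith [norm_add_le (d0 + a) (d1 + a), norm_add_le d0 a, norm_add_le d1 a]
    intro i
    have hρ2 : ρ ^ 2 ≤ 10 * ρ ^ 3 := by nlinarith [pow_nonneg hρ0 2]
    refine cdist_le_of_near (C := 10 * ρ ^ 3) (by nlinarith [one_le_pow₀ hρ1 (n := 3)]) ?_ ?_
      (hzd i)
    · exact (hchain β hβ i).1.trans (mul_le_mul_of_nonneg_right hρ2 (htp 0).le)
    · exact (hchain β hβ i).2.trans (mul_le_mul_of_nonneg_right hρ2 (htp i).le)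
  · obtain ⟨-, -, c0⟩ := key β hβ 0
    rw [show (0 : Fin 3) + 1 = 1 from rfl] at c0
    rw [hemb, RingHom.comp_apply]
    calc ‖φ₀ (ι β) - 3 * (z 0 - z 1)‖ = 3 * ‖z 0 - (z 1 + φ₀ (ι β) / 3)‖ := by
          rw [show φ₀ (ι β) - 3 * (z 0 - z 1) = (-3 : ℂ) * (z 0 - (z 1 + φ₀ (ι β) / 3)) by ring,
            norm_mul, norm_neg, Complex.norm_ofNat]
      _ ≤ 3 * (ρ * t 0) := mul_le_mul_of_nonneg_left c0 (by norm_num)
      _ = 3 * ρ * t 0 := by ring
  · wlog hne : bump ι σ k P β ≠ 0 generalizing β β'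
    · by_cases hne' : bump ι σ k P β' = 0
      · rw [not_not.mp hne, hne', sub_self, norm_zero]
        exact div_nonneg (mul_nonneg (mul_nonneg k.lip_nonneg (by positivity))
          (Finset.sum_nonneg fun v _ => apply_nonneg v _)) (htp 0).le
      · rw [norm_sub_rev]
        refine (this β' β hne').trans (le_of_eq ?_)
        congr 2
        refine Finset.sum_congr rfl fun v _ => ?_
        exact v.1.map_sub β' β
    have hone : ∀ v : InfinitePlace K, v = InfinitePlace.mk (φ₀.comp ι) := fun v => by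
      rw [← hemb v, InfinitePlace.mk_embedding]
    refine (k.norm_sub_le _ _ _).trans ?_
    rw [mul_assoc, mul_div_assoc]
    refine mul_le_mul_of_nonneg_left ?_ k.lip_nonneg
    rw [← (bijective_placeOver h hcomplex hone).sum_comp]
    obtain ⟨v₀⟩ : Nonempty (InfinitePlace K) := inferInstance
    have hD : ‖φ₀ (ι (β - β'))‖ ≤ ∑ v : InfinitePlace K, v (β - β') := by
      rw [← RingHom.comp_apply, ← hemb v₀, InfinitePlace.norm_embedding_eq]
      exact Finset.single_le_sum (f := fun v => v (β - β')) (fun v _ => apply_nonneg v _)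
        (Finset.mem_univ v₀)
    set S := ∑ v : InfinitePlace K, v (β - β')
    have hS : 0 ≤ S := (norm_nonneg _).trans hD
    have hterm : ∀ i, Kernel.hdist
        (glEmb F (placeOver φ₀ σ i) (unip (ι β / 3)) • galInf σ P (placeOver φ₀ σ i))
        (glEmb F (placeOver φ₀ σ i) (unip (ι β' / 3)) • galInf σ P (placeOver φ₀ σ i)) ≤
          ρ ^ 3 * S / t 0 := fun i => by
      have e := hdist_atEmb (embOver σ φ₀ i)
        (fun w => glEmb F w (unip (ι β / 3)) • galInf σ P w)
        (fun w => glEmb F w (unip (ι β' / 3)) • galInf σ P w)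
      rw [atEmb_bump_arg h, atEmb_bump_arg h] at e
      refine le_of_eq_of_le e.symm ?_
      rw [show H3.zc (atEmb (embOver σ φ₀ (i + 1)) P) + φ₀ (ι β') / 3 =
        H3.zc (atEmb (embOver σ φ₀ (i + 1)) P) + φ₀ (ι β) / 3 + φ₀ (ι (β' - β)) / 3 by
          rw [map_sub, map_sub]; ring]
      refine (Kernel.hdist_translate _ _ (H3.tc_pos _)).trans ?_
      rw [show ‖φ₀ (ι (β' - β)) / 3‖ = ‖φ₀ (ι (β - β'))‖ / 3 by
        rw [norm_div, Complex.norm_ofNat, ← neg_sub β, map_neg, map_neg, norm_neg]]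
      rw [div_le_div_iff₀ (H3.tc_pos _) (htp 0)]
      have h1 : t 0 ≤ ρ ^ 3 * t (i + 1) := by
        refine (hchain β hne i).2.trans ?_
        rw [pow_succ ρ 2, mul_assoc]
        exact mul_le_mul_of_nonneg_left ((key β hne i).2.1) (by positivity)
      calc ‖φ₀ (ι (β - β'))‖ / 3 * t 0 ≤ S * (ρ ^ 3 * t (i + 1)) :=
            mul_le_mul (by linarith [norm_nonneg (φ₀ (ι (β - β')))]) h1 (htp 0).le hS
        _ = _ := by ring
    calc ∑ i, Kernel.hdist _ _ ≤ ∑ _i : Fin 3, ρ ^ 3 * S / t 0 :=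
          Finset.sum_le_sum fun i _ => hterm i
      _ = 3 * ρ ^ 3 * S / H3.tc (atEmb φ₀ P) := by
          rw [Finset.sum_const, Finset.card_univ, Fintype.card_fin, nsmul_eq_mul]
          simp only [t, embOver, Matrix.cons_val_zero]
          push_cast
          ring

omit [NumberField K] in
/-- Integrating over the region costs a constant. -/
theorem exists_lintegral_nearDiag_le (R : ℝ) :
    ∃ C : ℝ≥0∞, C ≠ ∞ ∧ ∀ g : H3 → ℝ≥0∞, Measurable g →
      ∫⁻ P, (nearDiag φ₀ σ R).indicator (fun P => g (atEmb φ₀ P)) P ∂infVol F ≤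
        C * ∫⁻ Q, g Q ∂H3.vol := by
  have hone : ∀ v : InfinitePlace K, v = InfinitePlace.mk (φ₀.comp ι) := fun v => by
    rw [← hemb v, InfinitePlace.mk_embedding]
  obtain ⟨e, he, hep⟩ := exists_archEquiv h hcomplex hone
  set B : H3 → Set H3 := fun Q => {S | H3.cdist Q S ≤ R} with hB
  have hBm : ∀ Q, MeasurableSet (B Q) := fun Q =>
    (H3.isCompact_cdist_le Q R).isClosed.measurableSet
  have hvol : ∀ Q, H3.vol (B Q) = H3.vol (B H3.origin) := fun Q => by
    obtain ⟨g, hg⟩ := H3.exists_smul_eq H3.origin Q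
    rw [← (H3.measurePreserving_smul g).measure_preimage (hBm Q).nullMeasurableSet]
    congr 1
    ext S
    show H3.cdist Q (g • S) ≤ R ↔ _
    rw [← hg, H3.cdist_smul]
    rfl
  refine ⟨H3.vol (B H3.origin) * H3.vol (B H3.origin), ENNReal.mul_ne_top ?_ ?_, fun g hg => ?_⟩
  · exact (H3.isCompact_cdist_le _ R).measure_lt_top.ne
  · exact (H3.isCompact_cdist_le _ R).measure_lt_top.ne
  have hm : MeasurableSet {p : H3 × H3 × H3 | H3.cdist p.1 p.2.1 ≤ R ∧ H3.cdist p.1 p.2.2 ≤ R} :=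
    (measurableSet_le (measurable_cdist.comp
      (measurable_fst.prodMk (measurable_fst.comp measurable_snd))) measurable_const).inter
    (measurableSet_le (measurable_cdist.comp
      (measurable_fst.prodMk (measurable_snd.comp measurable_snd))) measurable_const)
  calc ∫⁻ P, (nearDiag φ₀ σ R).indicator (fun P => g (atEmb φ₀ P)) P ∂infVol F
      ≤ ∫⁻ P, ({p : H3 × H3 × H3 | H3.cdist p.1 p.2.1 ≤ R ∧ H3.cdist p.1 p.2.2 ≤ R}).indicator
          (fun p => g p.1) (e P) ∂infVol F := by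
        refine lintegral_mono fun P => ?_
        by_cases hP : P ∈ nearDiag φ₀ σ R
        · rw [Set.indicator_of_mem hP, Set.indicator_of_mem (by
            rw [he]; exact ⟨hP 1, hP 2⟩), he]
          exact le_rfl
        · rw [Set.indicator_of_notMem hP]; exact zero_le
    _ = ∫⁻ p, ({p : H3 × H3 × H3 | H3.cdist p.1 p.2.1 ≤ R ∧ H3.cdist p.1 p.2.2 ≤ R}).indicator
          (fun p => g p.1) p ∂H3.vol.prod (H3.vol.prod H3.vol) :=
        hep.lintegral_comp ((hg.comp measurable_fst).indicator hm)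
    _ = ∫⁻ Q, H3.vol (B H3.origin) * H3.vol (B H3.origin) * g Q ∂H3.vol := by
        refine (lintegral_prod _ (Measurable.aemeasurable
          ((hg.comp measurable_fst).indicator hm))).trans (lintegral_congr fun Q => ?_)
        have : (fun s : H3 × H3 =>
            ({p : H3 × H3 × H3 | H3.cdist p.1 p.2.1 ≤ R ∧ H3.cdist p.1 p.2.2 ≤ R}).indicator
              (fun p => g p.1) (Q, s)) = (B Q ×ˢ B Q).indicator fun _ => g Q := by
          funext s
          by_cases hs : s ∈ B Q ×ˢ B Q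
          · rw [Set.indicator_of_mem hs, Set.indicator_of_mem]
            exact hs
          · rw [Set.indicator_of_notMem hs, Set.indicator_of_notMem]
            exact hs
        simp only [Function.comp_def]
        rw [this, lintegral_indicator ((hBm Q).prod (hBm Q)), setLIntegral_const,
          Measure.prod_prod, hvol Q, mul_comm]
    _ = _ := lintegral_const_mul _ hg

end Fermat.Agent.LT.Geometric

end
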