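import Fermat.Agent.LT.Geometric.Unfold
import Fermat.Agent.LT.Geometric.UnipotentArch
import Fermat.Agent.LT.Geometric.Term
import Fermat.Agent.LT.Reduction.Volume
import Fermat.Agent.LT.Reduction.Partition

/-!
# Translates of a lattice of unipotents

The coset sum of a partition over a subgroup, against an invariant function, is bounded by the
integral over a set meeting every orbit of the subgroup. For a lattice of unipotents of a field
with one complex place this bounds `∫ (∑ w) t` over `t ≥ 1` by the integral over a box.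
-/

set_option autoImplicit false

noncomputable section

open MeasureTheory
open scoped ENNReal NNReal NumberField
open NumberField (InfinitePlace)

namespace Fermat.Agent.LT.Geometric

section Generic

variable {G X : Type*} [Group G] [Countable G] [MeasurableSpace X] [MulAction G X]
  [MeasurableConstSMul G X] {μ : Measure X} [SMulInvariantMeasure G X μ]

/-- The coset sum of a partition against an invariant function is bounded by the integral over
a set meeting the orbits. -/
theorem lintegral_coset_le (Γ : Subgroup G) {w : X → ℝ≥0} (hw : IsPartition G Set.univ w)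
    {Φ : X → ℝ≥0∞} (hΦm : Measurable Φ) (hΦ : ∀ g ∈ Γ, ∀ x : X, Φ (g • x) = Φ x)
    {B : Set X} (hB : MeasurableSet B) (hcov : ∀ x, Φ x ≠ 0 → ∃ g ∈ Γ, g • x ∈ B) :
    ∑' c : G ⧸ Γ, ∫⁻ x, (w (c.out • x) : ℝ≥0∞) * Φ x ∂μ ≤ ∫⁻ x, B.indicator Φ x ∂μ := by
  have := countable_coset Γ
  set W : G → X → ℝ≥0∞ := fun g x => (w (g • x) : ℝ≥0∞) * B.indicator Φ x with hW
  have hWm : ∀ g, Measurable (W g) := fun g =>
    (hw.measurable.comp (measurable_const_smul g)).coe_nnreal_ennreal.mul (hΦm.indicator hB)
  have h1 : ∀ (c : G) (x : X), (w (c • x) : ℝ≥0∞) * Φ x ≤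
      ∑' γ : Γ, (w (c • x) : ℝ≥0∞) * B.indicator Φ ((γ : G) • x) := fun c x => by
    by_cases hx : Φ x = 0
    · simp [hx]
    obtain ⟨g, hg, hgx⟩ := hcov x hx
    refine le_trans (le_of_eq ?_) (ENNReal.le_tsum ⟨g, hg⟩)
    rw [Set.indicator_of_mem hgx, hΦ g hg]
  calc ∑' c : G ⧸ Γ, ∫⁻ x, (w (c.out • x) : ℝ≥0∞) * Φ x ∂μ
      ≤ ∑' c : G ⧸ Γ, ∑' γ : Γ, ∫⁻ x, W (c.out * (γ : G)) x ∂μ := by
        refine ENNReal.tsum_le_tsum fun c => ?_
        refine (lintegral_mono (h1 c.out)).trans (le_of_eq ?_)
        rw [lintegral_tsum (f := fun (γ : Γ) x =>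
            (w (c.out • x) : ℝ≥0∞) * B.indicator Φ ((γ : G) • x)) fun γ : Γ =>
          ((hw.measurable.comp (measurable_const_smul c.out)).coe_nnreal_ennreal.mul
            ((hΦm.indicator hB).comp (measurable_const_smul (γ : G)))).aemeasurable,
          ← (Equiv.inv Γ).tsum_eq]
        refine tsum_congr fun γ => ?_
        rw [Equiv.inv_apply, ← lintegral_smul_eq (μ := μ) (γ : G)]
        refine lintegral_congr fun x => ?_
        simp [hW, mul_smul]
    _ = ∑' g : G, ∫⁻ x, W g x ∂μ :=
        ENNReal.tsum_prod'.symm.trans ((cosetProdEquiv Γ).tsum_eq fun g => ∫⁻ x, W g x ∂μ)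
    _ = ∫⁻ x, B.indicator Φ x ∂μ := by
        rw [← lintegral_tsum fun g => (hWm g).aemeasurable]
        refine lintegral_congr fun x => ?_
        rw [hW, ENNReal.tsum_mul_right, hw.enn_tsum (Set.mem_univ x), one_mul]

end Generic

variable {K : Type*} [Field K] [NumberField K] {V : Level K}

/-- The lower integral over `Y` is the sum over the cosets. -/
theorem lintegral_yVol {f : Y V → ℝ≥0∞} (hf : Measurable f) :
    ∫⁻ y, f y ∂yVol V = ∑' c, ∫⁻ P, f (P, c) ∂infVol K := by
  rw [yVol, lintegral_prod_symm _ hf.aemeasurable, lintegral_count]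

/-- The unipotents of a lattice inside a subgroup. -/
def latticeSub (Z : Subgroup (PGLIndex K)) (M : ℕ) : Subgroup Z where
  carrier := {z | ∃ u : 𝓞 K, (z : PGLIndex K) = QuotientGroup.mk (unip ((M : K) * (u : K)))}
  one_mem' := ⟨0, by simp [AddChar.map_zero_eq_one]⟩
  mul_mem' := by
    rintro a b ⟨u, hu⟩ ⟨u', hu'⟩
    refine ⟨u + u', ?_⟩
    rw [Subgroup.coe_mul, hu, hu', ← QuotientGroup.mk_mul, ← AddChar.map_add_eq_mul, ← mul_add]
    norm_cast
  inv_mem' := by
    rintro a ⟨u, hu⟩
    refine ⟨-u, ?_⟩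
    rw [Subgroup.coe_inv, hu, ← QuotientGroup.mk_inv, ← AddChar.map_neg_eq_inv, ← mul_neg]
    norm_cast

/-- The height where it is at least one. -/
def heightTail : H3 → ℝ≥0∞ := {Q | 1 ≤ H3.tc Q}.indicator fun Q => ENNReal.ofReal (H3.tc Q)

/-- The truncated height is measurable. -/
theorem measurable_heightTail : Measurable heightTail :=
  (ENNReal.measurable_ofReal.comp H3.continuous_tc.measurable).indicator
    (measurableSet_le measurable_const H3.continuous_tc.measurable)

/-- **The lattice bound.** -/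
theorem lintegral_lattice_ne_top [NumberField.IsTotallyComplex K] [Unique (InfinitePlace K)]
    {Z : Subgroup (PGLIndex K)} {w : Y V → ℝ≥0} (hw : IsPartition Z Set.univ w)
    (hunip : ∀ a : K, (QuotientGroup.mk (unip a) : PGLIndex K) ∈ Z) {M : ℕ} (hM : 0 < M)
    (d : GLFin K ⧸ V.toSubgroup)
    (hd : ∀ u : 𝓞 K, glIncl K (unip ((M : K) * (u : K))) • d = d) :
    ∑' c : Z ⧸ latticeSub Z M,
      ∫⁻ Q, (w (c.out • (((fun _ => Q), d) : Y V)) : ℝ≥0∞) * heightTail Q ∂H3.vol ≠ ∞ := by
  classical
  have : Countable (PGLIndex K) := Reduction.countable_pglIndex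
  have hsm : ∀ z : Z, MeasurePreserving (fun y : Y V => z • y) (yVol V) (yVol V) := fun z =>
    measurePreserving_pglSmul V (z : PGLIndex K)
  have : MeasurableConstSMul Z (Y V) := ⟨fun z => (hsm z).measurable⟩
  have : SMulInvariantMeasure Z (Y V) (yVol V) :=
    ⟨fun z _ hs => (hsm z).measure_preimage hs.nullMeasurableSet⟩
  have := countable_coset (latticeSub Z M)
  set v₀ : InfinitePlace K := default with hv₀
  obtain ⟨A, -, hA⟩ := Reduction.exists_translate (F := K) M hM
  let u := MeasurableEquiv.funUnique (InfinitePlace K) H3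
  have hu : MeasurePreserving u (infVol K) H3.vol := by
    unfold infVol; convert measurePreserving_funUnique H3.vol (InfinitePlace K)
  have hus : ∀ P : InfinitePlace K → H3, (fun _ => u P) = P := fun P =>
    funext fun v => by rw [Unique.eq_default v]; rfl
  set Φ : Y V → ℝ≥0∞ :=
    {y : Y V | y.2 = d}.indicator fun y => heightTail (y.1 v₀) with hΦ
  have hΦm : Measurable Φ :=
    (measurable_heightTail.comp ((measurable_pi_apply v₀).comp measurable_fst)).indicator
      (measurable_snd (measurableSet_singleton d))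
  set B : Set (Y V) := {y | ‖H3.zc (y.1 v₀)‖ ≤ A} with hB
  have hBm : MeasurableSet B := measurableSet_le
    ((H3.continuous_zc.measurable.comp ((measurable_pi_apply v₀).comp measurable_fst)).norm)
    measurable_const
  have hact : ∀ (a : K) (y : Y V), (QuotientGroup.mk (unip a) : PGLIndex K) • y =
      ((fun v => H3.pt (H3.zc (y.1 v) + v.embedding a) (H3.tc (y.1 v))),
        glIncl K (unip a) • y.2) := fun a y => by
    rw [pgl_mk_smul]
    exact Prod.ext (funext fun v => map_unip_smul v.embedding a (y.1 v)) rfl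
  have hinv : ∀ z ∈ latticeSub Z M, ∀ y : Y V, Φ (z • y) = Φ y := by
    rintro z ⟨b, hb⟩ y
    rw [show z • y = (z : PGLIndex K) • y from rfl, hb, hact]
    have hiff : glIncl K (unip ((M : K) * (b : K))) • y.2 = d ↔ y.2 = d :=
      ⟨fun h => MulAction.injective _ (h.trans (hd b).symm), fun h => by rw [h, hd b]⟩
    simp only [hΦ, Set.indicator_apply, Set.mem_ofPred_eq, hiff, heightTail,
      H3.tc_pt _ (H3.tc_pos _)]
  have hcov : ∀ y : Y V, Φ y ≠ 0 → ∃ z ∈ latticeSub Z M, z • y ∈ B := fun y _ => by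
    obtain ⟨b, hb⟩ := hA fun v => H3.zc (y.1 v)
    refine ⟨⟨_, hunip ((M : K) * (b : K))⟩, ⟨b, rfl⟩, ?_⟩
    rw [show ((⟨_, hunip ((M : K) * (b : K))⟩ : Z) • y) =
      (QuotientGroup.mk (unip ((M : K) * (b : K))) : PGLIndex K) • y from rfl, hact]
    show ‖H3.zc (H3.pt _ _)‖ ≤ A
    rw [H3.zc_pt _ (H3.tc_pos _), map_mul, map_natCast]
    exact hb v₀
  have hmeas : ∀ c : Z ⧸ latticeSub Z M, Measurable fun y : Y V => (w (c.out • y) : ℝ≥0∞) :=
    fun c => (hw.measurable.comp (measurable_const_smul c.out)).coe_nnreal_ennreal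
  refine ne_top_of_le_ne_top ?_ ((ENNReal.tsum_le_tsum fun c => ?_).trans
    (lintegral_coset_le (μ := yVol V) (latticeSub Z M) hw hΦm hinv hBm hcov))
  · rw [lintegral_yVol (hΦm.indicator hBm), tsum_eq_single d]
    · refine ne_top_of_le_ne_top ((Reduction.integrable_box_rpow (α := 1) one_lt_two A
        one_pos).lintegral_lt_top).ne ?_
      rw [← hu.lintegral_comp (((H3.continuous_tc.measurable.pow_const (1 : ℝ)).indicator
        (Reduction.measurableSet_box A 1)).ennreal_ofReal)]
      refine lintegral_mono fun P => ?_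
      by_cases h1 : ((P, d) : Y V) ∈ B ∧ 1 ≤ H3.tc (P v₀)
      · have h2 : u P ∈ Reduction.box A 1 := ⟨h1.1, h1.2⟩
        rw [Set.indicator_of_mem h1.1, Set.indicator_of_mem h2, hΦ,
          Set.indicator_of_mem (show ((P, d) : Y V) ∈ {y : Y V | y.2 = d} from rfl), heightTail,
          Set.indicator_of_mem (show P v₀ ∈ {Q : H3 | 1 ≤ H3.tc Q} from h1.2), Real.rpow_one]
        exact le_rfl
      · refine le_trans (le_of_eq ?_) zero_le
        rcases not_and_or.mp h1 with h | h
        · rw [Set.indicator_of_notMem h]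
        · simp [hΦ, heightTail, h, Set.indicator]
    · exact fun c hc => by simp [hΦ, hc, Set.indicator]
  · have hm : Measurable fun y : Y V => (w (c.out • y) : ℝ≥0∞) * Φ y := (hmeas c).mul hΦm
    rw [lintegral_yVol hm]
    refine le_trans (le_of_eq ?_) (ENNReal.le_tsum d)
    have hf : Measurable fun Q : H3 =>
        (w (c.out • (((fun _ => Q), d) : Y V)) : ℝ≥0∞) * heightTail Q :=
      ((hmeas c).comp ((measurable_pi_lambda _ fun _ => measurable_id).prodMk
        measurable_const)).mul measurable_heightTail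
    rw [← hu.lintegral_comp hf]
    refine lintegral_congr fun P => ?_
    simp only [hus, hΦ]
    rw [Set.indicator_of_mem (show ((P, d) : Y V) ∈ {y : Y V | y.2 = d} from rfl)]
    rfl

end Fermat.Agent.LT.Geometric

end
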