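import Fermat.Agent.LT.Geometric.UnipotentHigh
import Fermat.Agent.LT.Geometric.UnipotentLattice

/-!
# The band of the unipotent class

The band integral of the unipotent bundle against a partition for the upper triangular group of
the base field tends to zero: summed along the fibres of the translations in `e - e₀` it is
`O(t)`, and `t / t^3` is integrable at the cusp.
-/

set_option autoImplicit false

noncomputable section

open MeasureTheory Filter Topology
open scoped ENNReal NNReal NumberField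
open NumberField (InfinitePlace)

namespace Fermat.Agent.LT.Geometric

/-- A sum of nonnegative terms supported in the range of a map is at most the sum along it. -/
theorem tsum_le_tsum_comp {α β : Type*} {f : α → ℝ≥0∞} {φ : β → α}
    (h : ∀ a, f a ≠ 0 → a ∈ Set.range φ) : ∑' a, f a ≤ ∑' b, f (φ b) := by
  rw [← tsum_subtype_eq_of_support_subset (s := Set.range φ) h]
  calc ∑' a : Set.range φ, f a = ∑' a : Set.range φ, f (φ (Set.rangeSplitting φ a)) :=
        tsum_congr fun a => congrArg f (Set.apply_rangeSplitting φ a).symm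
    _ ≤ ∑' b, f (φ b) :=
        ENNReal.tsum_comp_le_tsum_of_injective (Set.rangeSplitting_injective φ) fun b => f (φ b)

variable {F K : Type*} [Field F] [NumberField F] [Field K] [NumberField K] {U : Level F}
  {V : Level K} {ι : K →+* F} {σ : F ≃+* F} {e e₀ : FinAdele F} {φ₀ : F →+* ℂ}
  (hU : ∀ g ∈ U.toSubgroup, glFinMap (σ : F →+* F) g ∈ U.toSubgroup)
  (k : Kernel.PointKer F) (h : HeckeFn U) (kK : Kernel.PointKer K) (hK : HeckeFn V)
  (pif : GLFin F ⧸ U.toSubgroup → GLFin K ⧸ V.toSubgroup)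

variable (φ₀) in
/-- The projection of a point. -/
def pairProj (x : Y U) : Y V := (archProj K φ₀ x.1, pif x.2)

/-- The projection of a point is measurable. -/
theorem measurable_pairProj : Measurable (pairProj φ₀ pif) :=
  (measurable_archProj.comp measurable_fst).prodMk (measurable_from_top.comp measurable_snd)

/-- Two cosets in one fibre of the translations in `e - e₀` differ by such a translation. -/
theorem exists_eq_unip_smul_of_lineClass {c c' : GLFin F ⧸ U.toSubgroup}
    (hcc : lineClass (e - e₀) c = lineClass (e - e₀) c') :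
    ∃ u, (e - e₀) * u = u ∧ c = unip u • c' := by
  obtain ⟨g', rfl⟩ := QuotientGroup.mk_surjective c'
  exact exists_translate_of_fibre hcc

/-- A translation-invariant projection is constant on the fibres. -/
theorem pif_eq_of_lineClass (hπp : ∀ (c : GLFin F ⧸ U.toSubgroup) (u : FinAdele F),
      (e - e₀) * u = u → pif (unip u • c) = pif c)
    {c c' : GLFin F ⧸ U.toSubgroup} (hcc : lineClass (e - e₀) c = lineClass (e - e₀) c') :
    pif c = pif c' := by
  obtain ⟨u, hu, rfl⟩ := exists_eq_unip_smul_of_lineClass hcc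
  exact hπp _ u hu

variable (ι) in
/-- For each coset some multiple of `𝓞 K` translates it, and its projection, to itself. -/
theorem exists_unip_lattice_fixed (j : GLFin F ⧸ U.toSubgroup) : ∃ M : ℕ, 0 < M ∧ ∀ u : 𝓞 K,
    glIncl F (Matching.baseUnit ι (unip ((M : K) * (u : K)))) • j = j ∧
      glIncl K (unip ((M : K) * (u : K))) • pif j = pif j := by
  obtain ⟨gj, rfl⟩ := QuotientGroup.mk_surjective j
  obtain ⟨g', hg'⟩ := QuotientGroup.mk_surjective (pif (QuotientGroup.mk gj))
  obtain ⟨N, hN, hNf⟩ := exists_unip_stab (U := U) gj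
  obtain ⟨N', hN', hNf'⟩ := exists_unip_stab (U := V) g'
  refine ⟨N * N', Nat.mul_pos hN hN', fun u => ⟨?_, ?_⟩⟩
  · have e3 : glIncl F (Matching.baseUnit ι (unip (((N * N' : ℕ) : K) * (u : K)))) =
        unip ((N : FinAdele F) * ((N' : FinAdele F) * finIncl F (ι (u : K)))) := by
      rw [show Matching.baseUnit ι (unip (((N * N' : ℕ) : K) * (u : K))) =
        unip (ι (((N * N' : ℕ) : K) * (u : K))) by
          ext i k; fin_cases i <;> fin_cases k <;> simp [Matching.baseUnit],
        Kernel.glIncl_unip]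
      congr 1
      simp [mul_assoc]
    rw [e3]
    exact hNf _ (mul_mem (natCast_mem _ N')
      (Reduction.finIncl_mem_of_isIntegral (NumberField.RingOfIntegers.mapRingHom ι u)))
  · have e3 : glIncl K (unip (((N * N' : ℕ) : K) * (u : K))) =
        unip ((N' : FinAdele K) * ((N : FinAdele K) * finIncl K (u : K))) := by
      rw [Kernel.glIncl_unip]
      congr 1
      simp only [Nat.cast_mul, map_mul, map_natCast]
      ring
    rw [e3, ← hg']
    exact hNf' _ (mul_mem (natCast_mem _ N) (Reduction.finIncl_mem_of_isIntegral u))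

/-- A coset `c` on which a term of the bundle is nonzero is the translate of one of finitely many
cosets `j` by an upper triangular matrix of `K`, which may be chosen among representatives modulo
the lattice fixing `j`; the projection follows along. -/
theorem exists_lattice_translate
    (hπB : ∀ (ξ : Kˣ) (x : Y U), term σ hU k h (unipDelta ι σ (ξ : K)) x ≠ 0 →
      ∀ g : GL (Fin 2) K, Reduction.IsUpper g →
        pif (glIncl F (Matching.baseUnit ι g) • x.2) = glIncl K g • pif x.2)
    {Cset : Finset (GLFin F ⧸ U.toSubgroup)}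
    (horb : ∀ (ξ : Kˣ) (x : Y U), term σ hU k h (unipDelta ι σ (ξ : K)) x ≠ 0 →
      ∃ g : GL (Fin 2) K, Reduction.IsUpper g ∧
        glIncl F (Matching.baseUnit ι g) • x.2 ∈ Cset)
    {Z : Subgroup (PGLIndex K)}
    (hZ : ∀ z, z ∈ Z ↔ ∃ g : GL (Fin 2) K, Reduction.IsUpper g ∧ QuotientGroup.mk g = z)
    {lift : Z → GL (Fin 2) K} (hlm : ∀ z : Z, QuotientGroup.mk (lift z) = (z : PGLIndex K))
    {M : (GLFin F ⧸ U.toSubgroup) → ℕ}
    (hM : ∀ j (u : 𝓞 K), glIncl F (Matching.baseUnit ι (unip ((M j : K) * (u : K)))) • j = j ∧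
      glIncl K (unip ((M j : K) * (u : K))) • pif j = pif j)
    {ξ : Kˣ} {x : Y U} (hne : term σ hU k h (unipDelta ι σ (ξ : K)) x ≠ 0) :
    ∃ j ∈ Cset, ∃ cl : Z ⧸ latticeSub Z (M j),
      glIncl F (Matching.baseUnit ι (lift cl.out)) • j = x.2 ∧
        glIncl K (lift cl.out) • pif j = pif x.2 := by
  obtain ⟨g, hg, hgC⟩ := horb ξ x hne
  refine ⟨_, hgC, ?_⟩
  set j := glIncl F (Matching.baseUnit ι g) • x.2 with hj
  let z₀ : Z := ⟨QuotientGroup.mk g⁻¹, (hZ _).mpr ⟨g⁻¹, hg.inv, rfl⟩⟩
  set cl : Z ⧸ latticeSub Z (M j) := QuotientGroup.mk z₀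
  obtain ⟨u, hu⟩ := QuotientGroup.eq.mp (QuotientGroup.out_eq' cl).symm
  have hmk : (QuotientGroup.mk (lift cl.out) : PGLIndex K) =
      QuotientGroup.mk (g⁻¹ * unip ((M j : K) * (u : K))) := by
    rw [hlm, QuotientGroup.mk_mul, ← hu]
    simp [z₀]
  refine ⟨cl, ?_, ?_⟩
  · have h1 : (Matching.baseUnit ι (lift cl.out)) • ((x.1, j) : Y U) =
        (Matching.baseUnit ι (g⁻¹ * unip ((M j : K) * (u : K)))) • ((x.1, j) : Y U) :=
      Reduction.smul_eq_of_mk_eq (by rw [← pglBase_mk, ← pglBase_mk, hmk]) _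
    refine (congrArg Prod.snd h1).trans ?_
    show glIncl F (Matching.baseUnit ι (g⁻¹ * _)) • j = x.2
    rw [map_mul, map_mul, mul_smul, (hM j u).1, hj, map_inv, map_inv, inv_smul_smul]
  · have h1 : lift cl.out • ((fun _ => x.1 (Classical.arbitrary _), pif j) : Y V) =
        (g⁻¹ * unip ((M j : K) * (u : K))) •
          ((fun _ => x.1 (Classical.arbitrary _), pif j) : Y V) :=
      Reduction.smul_eq_of_mk_eq hmk _
    refine (congrArg Prod.snd h1).trans ?_
    show glIncl K (g⁻¹ * _) • pif j = pif x.2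
    rw [map_mul, mul_smul, (hM j u).2, hj, hπB ξ x hne g hg, map_inv, inv_smul_smul]

/-- The chosen point of a fibre depends measurably on the fibre. -/
theorem measurable_fibrePoint
    [MeasurableSpace (MulAction.orbitRel.Quotient (lineGroup (e - e₀)) (GLFin F ⧸ U.toSubgroup))]
    [DiscreteMeasurableSpace
      (MulAction.orbitRel.Quotient (lineGroup (e - e₀)) (GLFin F ⧸ U.toSubgroup))] :
    Measurable fun q : (InfinitePlace F → H3) ×
      MulAction.orbitRel.Quotient (lineGroup (e - e₀)) (GLFin F ⧸ U.toSubgroup) =>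
      ((q.1, q.2.out) : Y U) :=
  measurable_fst.prodMk (Measurable.of_discrete.comp measurable_snd)

variable (e e₀ φ₀) in
/-- The fibres whose chosen point lies in a top higher than `T₀`, upstairs or downstairs. -/
def highFibres (R : Finset (GLFin F)) (R' : Finset (GLFin K)) (T₀ : ℝ) :
    Set ((InfinitePlace F → H3) ×
      MulAction.orbitRel.Quotient (lineGroup (e - e₀)) (GLFin F ⧸ U.toSubgroup)) :=
  {q | ∃ T : ℕ, T₀ < T ∧ (IsHighTop R (T : ℝ) ((q.1, q.2.out) : Y U) ∨
    IsHighTop R' (T : ℝ) (pairProj φ₀ pif ((q.1, q.2.out) : Y U)))}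

/-- The high fibres form a measurable set. -/
theorem measurableSet_highFibres
    [MeasurableSpace (MulAction.orbitRel.Quotient (lineGroup (e - e₀)) (GLFin F ⧸ U.toSubgroup))]
    [DiscreteMeasurableSpace
      (MulAction.orbitRel.Quotient (lineGroup (e - e₀)) (GLFin F ⧸ U.toSubgroup))]
    {R : Finset (GLFin F)} {R' : Finset (GLFin K)} {T₀ : ℝ} :
    MeasurableSet (highFibres e e₀ φ₀ pif R R' T₀) := by
  have hlift := measurable_fibrePoint (U := U) (e := e) (e₀ := e₀)
  simp only [highFibres, Set.ofPred_exists, Set.ofPred_and]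
  exact MeasurableSet.iUnion fun T => (MeasurableSet.const _).inter
    ((measurableSet_isHighTop.preimage hlift).union
      (measurableSet_isHighTop.preimage ((measurable_pairProj pif).comp hlift)))

/-- On the translate of a coset `j` by an upper triangular `l`, the weighted fibre sum over the
high fibres is dominated by the height along the band around the diagonal. -/
theorem indicator_highFibres_le (hc : IsCubic ι σ)
    (hemb : ∀ v : InfinitePlace K, v.embedding = φ₀.comp ι) {w : Y V → ℝ≥0}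
    {R : Finset (GLFin F)} {R' : Finset (GLFin K)} {j : GLFin F ⧸ U.toSubgroup} {C R₁ T₀ : ℝ}
    (hbd : ∀ P : InfinitePlace F → H3,
      (fibreSum (lineClass (e - e₀)) (unipSum ι hU k h) (P, lineClass (e - e₀) j) ≠ 0 →
        P ∈ nearDiag φ₀ σ R₁) ∧
      ∀ T : ℝ, T₀ < T →
        (IsHighTop R T ((P, j) : Y U) ∨ IsHighTop R' T (pairProj φ₀ pif ((P, j) : Y U))) →
        ‖fibreSum (lineClass (e - e₀)) (unipSum ι hU k h) (P, lineClass (e - e₀) j)‖ₑ ≤
          ENNReal.ofReal C * heightTail (atEmb φ₀ P))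
    {l : GL (Fin 2) K} (hl : Reduction.IsUpper l)
    {q : MulAction.orbitRel.Quotient (lineGroup (e - e₀)) (GLFin F ⧸ U.toSubgroup)}
    (hq : lineClass (e - e₀) (glIncl F (Matching.baseUnit ι l) • j) = q)
    (hlK : pif q.out = glIncl K l • pif j) (P : InfinitePlace F → H3) :
    (highFibres e e₀ φ₀ pif R R' T₀).indicator (fun q => (w (pairProj φ₀ pif
        ((q.1, q.2.out) : Y U)) : ℝ≥0∞) * ‖fibreSum (lineClass (e - e₀)) (unipSum ι hU k h) q‖ₑ)
      (fun v => glEmb F v (Matching.baseUnit ι l) • P v, q) ≤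
      ENNReal.ofReal C * (nearDiag φ₀ σ R₁).indicator (fun P =>
        (w ((QuotientGroup.mk l : PGLIndex K) • (((fun _ => atEmb φ₀ P), pif j) : Y V)) : ℝ≥0∞) *
          heightTail (atEmb φ₀ P)) P := by
  set p := lineClass (U := U) (e - e₀) with hp
  set G := fibreSum p (unipSum ι hU k h)
  set π := pairProj (V := V) φ₀ pif
  set P' : InfinitePlace F → H3 := fun v => glEmb F v (Matching.baseUnit ι l) • P v
  have hlu : Reduction.IsUpper (Matching.baseUnit ι l) := by
    show ι (l.val 1 0) = 0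
    rw [show l.val 1 0 = 0 from hl, map_zero]
  have eG : G (P', q) = G (P, p j) := by
    rw [← hq]
    exact fibreSum_unipSum_smul hU k h hc.fixed (show l.val 1 0 = 0 from hl) (e - e₀) P j
  by_cases hS' : (P', q) ∈ highFibres e e₀ φ₀ pif R R' T₀
  swap
  · simp [hS']
  by_cases hG0 : G (P', q) = 0
  · simp [hG0, Set.indicator]
  have hπq : π (P', q.out) = (QuotientGroup.mk l : PGLIndex K) •
      ((archProj K φ₀ P, pif j) : Y V) := by
    rw [pgl_mk_smul]
    exact Prod.ext (archProj_smul hemb l P) hlK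
  obtain ⟨T, hT, hhigh'⟩ := hS'
  have hhigh : IsHighTop R (T : ℝ) ((P, j) : Y U) ∨ IsHighTop R' (T : ℝ) (π (P, j)) := by
    refine hhigh'.imp (fun hh => ?_) fun hh => ?_
    · obtain ⟨u, -, hu⟩ := exists_eq_unip_smul_of_lineClass
        (e := e) (e₀ := e₀) ((q.out_eq : p q.out = q).trans hq.symm)
      rw [hu, isHighTop_unip_iff] at hh
      exact (isHighTop_smul_iff hlu ((P, j) : Y U)).mp hh
    · replace hh : IsHighTop R' (T : ℝ) (π (P', q.out)) := hh
      rw [hπq, pgl_mk_smul, isHighTop_smul_iff hl] at hh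
      exact hh
  rw [Set.indicator_of_mem (show (P', q) ∈ highFibres e e₀ φ₀ pif R R' T₀ from ⟨T, hT, hhigh'⟩),
    Set.indicator_of_mem ((hbd P).1 (eG ▸ hG0)), eG, hπq]
  calc (w ((QuotientGroup.mk l : PGLIndex K) • ((archProj K φ₀ P, pif j) : Y V)) : ℝ≥0∞) *
        ‖G (P, p j)‖ₑ
      ≤ (w ((QuotientGroup.mk l : PGLIndex K) • (((fun _ => atEmb φ₀ P), pif j) : Y V)) : ℝ≥0∞) *
          (ENNReal.ofReal C * heightTail (atEmb φ₀ P)) :=
        mul_le_mul_right ((hbd P).2 T hT hhigh) _
    _ = _ := mul_left_comm _ _ _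

variable [NumberField.IsTotallyComplex F] [NumberField.IsTotallyComplex K]
  [Unique (InfinitePlace K)]

/-- Over each coset the fibre sum is supported near the diagonal and, if the point lies in a high
top upstairs or downstairs, is bounded by a multiple of the height. -/
theorem exists_fibreSum_highTop_bound (hc : IsCubic ι σ)
    (hemb : ∀ v : InfinitePlace K, v.embedding = φ₀.comp ι)
    (hcomplex : ¬ NumberField.ComplexEmbedding.IsReal (φ₀.comp ι))
    (ci : CuspIdem σ e e₀) (hcusp : HasCuspConditionAt h e)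
    (R : Finset (GLFin F)) (R' : Finset (GLFin K)) (j : GLFin F ⧸ U.toSubgroup) :
    ∃ C R₁ Th : ℝ, 0 ≤ C ∧ ∀ P : InfinitePlace F → H3,
      (fibreSum (lineClass (e - e₀)) (unipSum ι hU k h) (P, lineClass (e - e₀) j) ≠ 0 →
        P ∈ nearDiag φ₀ σ R₁) ∧
      ∀ T : ℝ, Th ≤ T →
        (IsHighTop R T ((P, j) : Y U) ∨ IsHighTop R' T (pairProj φ₀ pif ((P, j) : Y U))) →
        ‖fibreSum (lineClass (e - e₀)) (unipSum ι hU k h) (P, lineClass (e - e₀) j)‖ₑ ≤
          ENNReal.ofReal C * heightTail (atEmb φ₀ P) := by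
  classical
  have hσ := cubic_apply_three hc
  have hone : ∀ v : InfinitePlace K, v = InfinitePlace.mk (φ₀.comp ι) := fun v => by
    rw [← hemb v, InfinitePlace.mk_embedding]
  set p := lineClass (U := U) (e - e₀) with hp
  set G := fibreSum p (unipSum ι hU k h)
  set π := pairProj (V := V) φ₀ pif
  obtain ⟨C, R₁, hC, hP⟩ := exists_fibreSum_bound hU k h hc.fixed hσ ci hc.pow hc hemb hcomplex
    hcusp j
  obtain ⟨gj, rfl⟩ := QuotientGroup.mk_surjective j
  obtain ⟨C₁, hC₁, hle⟩ := Reduction.exists_height_smul_le U (insert gj R)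
  obtain ⟨g', hg'⟩ := QuotientGroup.mk_surjective (pif (QuotientGroup.mk gj))
  obtain ⟨C₂, hC₂, hle'⟩ := Reduction.exists_height_smul_le V (insert g' R')
  refine ⟨C, R₁, max (C₁ * |2 * R₁| ^ 3) C₂, hC, fun P => ⟨fun hne => ((hP P).1 hne).1, ?_⟩⟩
  intro T hT hhigh
  by_cases hG0 : G (P, p (QuotientGroup.mk gj)) = 0
  · simp [hG0]
  set t := H3.tc (atEmb φ₀ P) with htdef
  have htp : 0 < t := H3.tc_pos _
  have ht : 1 ≤ t := by
    by_contra hlt
    push Not at hlt
    rcases hhigh with ⟨γ, hγ, ⟨r, hr, hrc⟩, hTlt⟩ | ⟨γ, hγ, ⟨r, hr, hrc⟩, hTlt⟩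
    · have h1 := (hle γ _ ⟨gj, Finset.mem_insert_self _ _, rfl⟩
        ⟨r, Finset.mem_insert_of_mem hr, hrc⟩).2 hγ
      have h2 := height_le_of_nearDiag hc hcomplex hone ((hP P).1 hG0).1
        (QuotientGroup.mk gj : GLFin F ⧸ U.toSubgroup)
      have h3 : (2 * R₁ * t) ^ 3 ≤ |2 * R₁| ^ 3 := by
        refine (le_abs_self _).trans ?_
        rw [abs_pow]
        refine pow_le_pow_left₀ (abs_nonneg _) ?_ 3
        rw [abs_mul, abs_of_pos htp]
        exact mul_le_of_le_one_right (abs_nonneg _) hlt.le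
      have h4 := mul_le_mul_of_nonneg_left (h2.trans h3) (zero_le_one.trans hC₁)
      linarith [le_max_left (C₁ * |2 * R₁| ^ 3) C₂]
    · have h1 := (hle' γ _ ⟨g', Finset.mem_insert_self _ _, hg'.symm⟩
        ⟨r, Finset.mem_insert_of_mem hr, hrc⟩).2 hγ
      rw [height_unique (pairProj φ₀ pif _)] at h1
      have h4 : C₂ * t ≤ C₂ := mul_le_of_le_one_right (zero_le_one.trans hC₂) hlt.le
      have e : H3.tc ((pairProj φ₀ pif ((P, QuotientGroup.mk gj) : Y U) : Y V).1 default) = t :=
        rfl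
      rw [e] at h1
      linarith [le_max_right (C₁ * |2 * R₁| ^ 3) C₂]
  have hb := (hP P).2 ht
  rw [finrank_eq_two (K := K), ← htdef, pow_one] at hb
  rw [heightTail, Set.indicator_of_mem (show atEmb φ₀ P ∈ {Q : H3 | 1 ≤ H3.tc Q} from ht),
    ← ofReal_norm, ← ENNReal.ofReal_mul hC]
  exact ENNReal.ofReal_le_ofReal hb

/-- **Above some height the fibre sums are integrable against the weight over the high
fibres.** -/
theorem exists_lintegral_highFibres_lt_top (hc : IsCubic ι σ)
    (hemb : ∀ v : InfinitePlace K, v.embedding = φ₀.comp ι)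
    (hcomplex : ¬ NumberField.ComplexEmbedding.IsReal (φ₀.comp ι))
    (ci : CuspIdem σ e e₀) (hcusp : HasCuspConditionAt h e)
    (hπp : ∀ (c : GLFin F ⧸ U.toSubgroup) (u : FinAdele F), (e - e₀) * u = u →
      pif (unip u • c) = pif c)
    (hπB : ∀ (ξ : Kˣ) (x : Y U), term σ hU k h (unipDelta ι σ (ξ : K)) x ≠ 0 →
      ∀ g : GL (Fin 2) K, Reduction.IsUpper g →
        pif (glIncl F (Matching.baseUnit ι g) • x.2) = glIncl K g • pif x.2)
    (horb : ∃ Cset : Finset (GLFin F ⧸ U.toSubgroup), ∀ (ξ : Kˣ) (x : Y U),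
      term σ hU k h (unipDelta ι σ (ξ : K)) x ≠ 0 →
        ∃ g : GL (Fin 2) K, Reduction.IsUpper g ∧
          glIncl F (Matching.baseUnit ι g) • x.2 ∈ Cset)
    {Z : Subgroup (PGLIndex K)}
    (hZ : ∀ z, z ∈ Z ↔ ∃ g : GL (Fin 2) K, Reduction.IsUpper g ∧ QuotientGroup.mk g = z)
    {w : Y V → ℝ≥0} (hw : IsPartition Z Set.univ w)
    (R : Finset (GLFin F)) (R' : Finset (GLFin K))
    [MeasurableSpace (MulAction.orbitRel.Quotient (lineGroup (e - e₀)) (GLFin F ⧸ U.toSubgroup))]
    [DiscreteMeasurableSpace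
      (MulAction.orbitRel.Quotient (lineGroup (e - e₀)) (GLFin F ⧸ U.toSubgroup))] :
    ∃ T₀ : ℝ, ∫⁻ q, (highFibres e e₀ φ₀ pif R R' T₀).indicator (fun q => (w (pairProj φ₀ pif
        ((q.1, q.2.out) : Y U)) : ℝ≥0∞) * ‖fibreSum (lineClass (e - e₀)) (unipSum ι hU k h) q‖ₑ) q
      ∂((infVol F).prod Measure.count) < ∞ := by
  classical
  have hσ := cubic_apply_three hc
  have : Countable (PGLIndex K) := Reduction.countable_pglIndex
  have : Countable (GLFin F ⧸ U.toSubgroup) := Reduction.countable_cosets U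
  obtain ⟨Cset, horb⟩ := horb
  set p := lineClass (U := U) (e - e₀) with hp
  set G := fibreSum p (unipSum ι hU k h)
  choose Cj Rj Tj hCj hjb using
    exists_fibreSum_highTop_bound hU k h pif hc hemb hcomplex ci hcusp R R'
  obtain ⟨T₀, hT₀⟩ := (Cset.image Tj).exists_le
  refine ⟨T₀, ?_⟩
  have hlift := measurable_fibrePoint (U := U) (e := e) (e₀ := e₀)
  set f := (highFibres e e₀ φ₀ pif R R' T₀).indicator fun q =>
    (w (pairProj φ₀ pif ((q.1, q.2.out) : Y U)) : ℝ≥0∞) * ‖G q‖ₑ with hf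
  have hfm : Measurable f :=
    ((hw.measurable.comp ((measurable_pairProj pif).comp hlift)).coe_nnreal_ennreal.mul
      (measurable_fibreSum (measurable_unipSum hU k h)).enorm).indicator
        (measurableSet_highFibres pif)
  rw [lintegral_prod_symm _ hfm.aemeasurable, lintegral_count]
  choose lift hlu hlm using fun z : Z => (hZ z).mp z.2
  choose Mj hMj hMfix using exists_unip_lattice_fixed ι pif
  let qj : ∀ j : GLFin F ⧸ U.toSubgroup, Z ⧸ latticeSub Z (Mj j) →
      MulAction.orbitRel.Quotient (lineGroup (e - e₀)) (GLFin F ⧸ U.toSubgroup) := fun j c =>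
    p (glIncl F (Matching.baseUnit ι (lift c.out)) • j)
  let I := (j : Cset) × {c : Z ⧸ latticeSub Z (Mj j.1) //
    pif (qj j.1 c).out = glIncl K (lift c.out) • pif j.1}
  refine lt_of_le_of_lt (tsum_le_tsum_comp (φ := fun i : I => qj i.1.1 i.2.1) ?_) ?_
  · intro q hq
    obtain ⟨P, hP⟩ : ∃ P, f (P, q) ≠ 0 := by
      by_contra hall
      push Not at hall
      exact hq (by simp [hall])
    have hGne : G (P, q) ≠ 0 := fun h0 => hP (by simp [hf, h0, Set.indicator])
    obtain ⟨C, R₁, -, hbound⟩ := exists_fibreSum_bound hU k h hc.fixed hσ ci hc.pow hc hemb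
      hcomplex hcusp q.out
    obtain ⟨-, c, ξ, hcq, hne⟩ :=
      (hbound P).1 (by rwa [← hp, show p q.out = q from q.out_eq])
    obtain ⟨j, hjC, cl, hF, hKs⟩ :=
      exists_lattice_translate hU k h pif hπB horb hZ hlm hMfix hne
    have hq' : qj j cl = q := (congrArg p hF).trans (hcq.trans q.out_eq)
    refine ⟨⟨⟨j, hjC⟩, cl, ?_⟩, hq'⟩
    show pif (qj j cl).out = _
    rw [hKs, hq']
    exact pif_eq_of_lineClass pif hπp hcq.symm
  rw [ENNReal.tsum_sigma', tsum_fintype]
  refine (ENNReal.sum_lt_top).mpr fun ⟨j, hjC⟩ _ => ?_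
  obtain ⟨Cn, hCn, hnear⟩ := exists_lintegral_nearDiag_le hc hemb hcomplex (Rj j)
  set Ψ : Z ⧸ latticeSub Z (Mj j) → H3 → ℝ≥0∞ := fun c Q =>
    (w (c.out • (((fun _ => Q), pif j) : Y V)) : ℝ≥0∞) * heightTail Q with hΨ
  have hΨm : ∀ c, Measurable (Ψ c) := fun c => by
    refine Measurable.mul ?_ measurable_heightTail
    have hm : Measurable fun y : Y V => c.out • y := measurable_pglSmul (c.out : PGLIndex K)
    exact (hw.measurable.comp (hm.comp ((measurable_pi_lambda _ fun _ => measurable_id).prodMk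
      measurable_const))).coe_nnreal_ennreal
  refine lt_of_le_of_lt (b := ∑' c, ENNReal.ofReal (Cj j) * (Cn * ∫⁻ Q, Ψ c Q ∂H3.vol)) ?_ ?_
  swap
  · rw [ENNReal.tsum_mul_left, ENNReal.tsum_mul_left]
    exact ENNReal.mul_lt_top ENNReal.ofReal_lt_top (ENNReal.mul_lt_top hCn.lt_top
      (lintegral_lattice_ne_top hw (fun a => (hZ _).mpr ⟨unip a,
        by simp [Reduction.IsUpper, Matrix.GeneralLinearGroup.upperRightHom_apply], rfl⟩)
        (hMj j) (pif j) fun u => (hMfix j u).2).lt_top)
  refine le_trans (ENNReal.tsum_le_tsum fun c => ?_) (ENNReal.tsum_comp_le_tsum_of_injective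
    Subtype.val_injective fun c => ENNReal.ofReal (Cj j) * (Cn * ∫⁻ Q, Ψ c Q ∂H3.vol))
  obtain ⟨c, hcK⟩ := c
  show ∫⁻ P, f (P, qj j c) ∂infVol F ≤ _
  rw [← (measurePreserving_infSmul (Matching.baseUnit ι (lift c.out))).lintegral_comp
    (f := fun P => f (P, qj j c)) (hfm.comp (measurable_id.prodMk measurable_const))]
  refine le_trans ?_ (mul_le_mul_right (hnear _ (hΨm c)) _)
  rw [← lintegral_const_mul' _ _ ENNReal.ofReal_ne_top]
  refine lintegral_mono fun P => ?_
  have hbd := fun P => (hjb j P).imp_right fun hb T (hT : T₀ < T) => hb T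
    ((hT₀ _ (Finset.mem_image_of_mem Tj hjC)).trans hT.le)
  have hle := indicator_highFibres_le (w := w) hU k h pif hc hemb hbd (hlu c.out) rfl hcK P
  rw [hlm c.out] at hle
  exact hle

/-- **The band of the unipotent class tends to zero.** -/
theorem tendsto_unipotentBand (hc : IsCubic ι σ)
    (hemb : ∀ v : InfinitePlace K, v.embedding = φ₀.comp ι)
    (hcomplex : ¬ NumberField.ComplexEmbedding.IsReal (φ₀.comp ι))
    (ci : CuspIdem σ e e₀) (hcusp : HasCuspConditionAt h e)
    (hπp : ∀ (c : GLFin F ⧸ U.toSubgroup) (u : FinAdele F), (e - e₀) * u = u →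
      pif (unip u • c) = pif c)
    (hπB : ∀ (ξ : Kˣ) (x : Y U), term σ hU k h (unipDelta ι σ (ξ : K)) x ≠ 0 →
      ∀ g : GL (Fin 2) K, Reduction.IsUpper g →
        pif (glIncl F (Matching.baseUnit ι g) • x.2) = glIncl K g • pif x.2)
    (hsuppK : ∀ (ξ : Kˣ) (x : Y U), term σ hU k h (unipDelta ι σ (ξ : K)) x ≠ 0 →
      term (RingEquiv.refl K) (refl_stable V) kK hK
        (Twisted.mk _ (QuotientGroup.mk (unip (ξ : K)))) (pairProj φ₀ pif x) ≠ 0)
    (horb : ∃ Cset : Finset (GLFin F ⧸ U.toSubgroup), ∀ (ξ : Kˣ) (x : Y U),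
      term σ hU k h (unipDelta ι σ (ξ : K)) x ≠ 0 →
        ∃ g : GL (Fin 2) K, Reduction.IsUpper g ∧
          glIncl F (Matching.baseUnit ι g) • x.2 ∈ Cset)
    {Z : Subgroup (PGLIndex K)}
    (hZ : ∀ z, z ∈ Z ↔ ∃ g : GL (Fin 2) K, Reduction.IsUpper g ∧ QuotientGroup.mk g = z)
    {w : Y V → ℝ≥0} (hw : IsPartition Z Set.univ w)
    {R : Finset (GLFin F)} (hR : CoversReps U R) {R' : Finset (GLFin K)} (hR' : CoversReps V R')
    (hint : ∀ T : ℕ, Integrable (fun x => ((w (pairProj φ₀ pif x) : ℝ) *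
      ((cutoff U R (T : ℝ) x : ℝ) - cutoff V R' (T : ℝ) (pairProj φ₀ pif x))) •
        unipSum ι hU k h x) (yVol U)) :
    Tendsto (fun T : ℕ => ∫ x, ((w (pairProj φ₀ pif x) : ℝ) *
      ((cutoff U R (T : ℝ) x : ℝ) - cutoff V R' (T : ℝ) (pairProj φ₀ pif x))) •
        unipSum ι hU k h x ∂yVol U) atTop (𝓝 0) := by
  classical
  have : Countable (GLFin F ⧸ U.toSubgroup) := Reduction.countable_cosets U
  set p := lineClass (U := U) (e - e₀) with hp
  let D := MulAction.orbitRel.Quotient (lineGroup (e - e₀)) (GLFin F ⧸ U.toSubgroup)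
  have : DiscreteMeasurableSpace D := ⟨fun _ => trivial⟩
  set ψ := unipSum ι hU k h with hψdef
  set π := pairProj (V := V) φ₀ pif
  have hπm : Measurable π := measurable_pairProj pif
  have hout : ∀ q : D, p q.out = q := fun q => q.out_eq
  obtain ⟨T₁, hT₁⟩ := exists_top_of_high_unip hc hU k h R
  obtain ⟨T₂, hT₂⟩ := exists_top_of_high_unip_refl kK hK R'
  obtain ⟨T₃, hT₃⟩ := exists_lintegral_highFibres_lt_top hU k h pif hc hemb hcomplex ci hcusp
    hπp hπB horb hZ hw R R'
  set T₀ := max (max T₁ T₂) T₃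
  -- the band
  set a : ℕ → (InfinitePlace F → H3) × D → ℝ := fun T =>
    {q | IsHighTop R (T : ℝ) ((q.1, q.2.out) : Y U)}.indicator fun _ => 1 with ha
  set c' : ℕ → (InfinitePlace F → H3) × D → ℝ := fun T =>
    {q | IsHighTop R' (T : ℝ) (π (q.1, q.2.out))}.indicator fun _ => 1 with hc'
  set b : ℕ → (InfinitePlace F → H3) × D → ℝ := fun T q =>
    if T₀ < T then c' T q - a T q else 0 with hb
  have hlift := measurable_fibrePoint (U := U) (e := e) (e₀ := e₀)
  have hmem : ∀ T, Measurable (a T) ∧ Measurable (c' T) := fun T =>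
    ⟨measurable_const.indicator (measurableSet_isHighTop.preimage hlift),
      measurable_const.indicator (measurableSet_isHighTop.preimage (hπm.comp hlift))⟩
  have hbm : ∀ T, Measurable (b T) := fun T => by
    by_cases hT : T₀ < T
    · simp only [hb, if_pos hT]; exact (hmem T).2.sub (hmem T).1
    · simp only [hb, if_neg hT]; exact measurable_const
  have hb1 : ∀ T q, |b T q| ≤ 1 := fun T q => by
    simp only [hb, ha, hc', Set.indicator_apply]
    split_ifs <;> norm_num
  set w' : (InfinitePlace F → H3) × D → ℝ := fun q => (w (π (q.1, q.2.out)) : ℝ) with hw'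
  have hwm : Measurable w' := (hw.measurable.comp (hπm.comp hlift)).coe_nnreal_real
  set S := highFibres e e₀ φ₀ pif R R' T₃
  -- the integrand
  have key : ∀ T : ℕ, T₀ < T → ∀ x : Y U,
      ((w (π x) : ℝ) * ((cutoff U R (T : ℝ) x : ℝ) - cutoff V R' (T : ℝ) (π x))) • ψ x =
        (w' (x.1, p x.2) * b T (x.1, p x.2)) • ψ x := fun T hT x => by
    by_cases hx : ψ x = 0
    · simp [hx]
    obtain ⟨ξ, hξ⟩ : ∃ ξ : Kˣ, term σ hU k h (unipDelta ι σ (ξ : K)) x ≠ 0 := by
      by_contra hall
      push Not at hall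
      exact hx ((tsum_congr hall).trans tsum_zero)
    congr 1
    have h1 := hT₁ T (((le_max_left _ _).trans (le_max_left _ _)).trans hT.le) ξ x hξ
    have h2 := hT₂ T (((le_max_right _ _).trans (le_max_left _ _)).trans hT.le) ξ _
      (hsuppK ξ x hξ)
    have e1 : π (x.1, (p x.2).out) = π x :=
      Prod.ext rfl (pif_eq_of_lineClass pif hπp (hout (p x.2)))
    have e2 : IsHighTop R (T : ℝ) ((x.1, (p x.2).out) : Y U) ↔ IsHighTop R (T : ℝ) x := by
      obtain ⟨u, -, hu⟩ :=
        exists_eq_unip_smul_of_lineClass (e := e) (e₀ := e₀) (hout (p x.2))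
      rw [hu]
      exact isHighTop_unip_iff x.1 x.2 u
    simp only [hw', hb, ha, hc', if_pos hT, e1, Set.indicator_apply, Set.mem_ofPred_eq, e2, cutoff,
      h1, h2]
    split_ifs <;> simp
  refine Tendsto.congr' ?_ (tendsto_band_fibre (A := InfinitePlace F → H3)
    (μ := infVol F) (p := p) (ψ := ψ) (measurable_unipSum hU k h) (w := w') hwm (S := S) (b := b)
    hbm hb1 ?_ ?_ ?_ ?_)
  · filter_upwards [(tendsto_natCast_atTop_atTop (R := ℝ)).eventually_gt_atTop T₀] with T hT
    exact integral_congr_ae (Eventually.of_forall fun x => (key T hT x).symm)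
  · refine Eventually.of_forall fun T q hq => by_contra fun h0 => hq ?_
    have hT : T₀ < T := by_contra fun hT => h0 (if_neg hT)
    refine ⟨T, (le_max_right _ _).trans_lt hT, by_contra fun hnone => h0 ?_⟩
    push Not at hnone
    have h1 : ¬ IsHighTop R (T : ℝ) ((q.1, q.2.out) : Y U) := hnone.1
    have h2 : ¬ IsHighTop R' (T : ℝ) (π (q.1, q.2.out)) := hnone.2
    simp [hb, ha, hc', h1, h2]
  · intro q
    refine tendsto_const_nhds.congr' ?_
    filter_upwards [(tendsto_cutoff_one hR ((q.1, q.2.out) : Y U)).eventually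
        (eventually_ne_nhds one_ne_zero),
      (tendsto_cutoff_one hR' (π (q.1, q.2.out))).eventually (eventually_ne_nhds one_ne_zero)]
      with T h1 h2
    have h1' : ¬ IsHighTop R (T : ℝ) ((q.1, q.2.out) : Y U) := fun hh =>
      h1 (by simp [cutoff, hh.isHigh])
    have h2' : ¬ IsHighTop R' (T : ℝ) (π (q.1, q.2.out)) := fun hh =>
      h2 (by simp [cutoff, hh.isHigh])
    simp [hb, ha, hc', h1', h2']
  · intro T
    by_cases hT : T₀ < T
    · exact (hint T).congr (Eventually.of_forall (key T hT))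
    · simp [hb, if_neg hT]
  -- integrability of the fibre sums over the high fibres
  refine ⟨((hwm.smul (measurable_fibreSum (measurable_unipSum hU k h))).indicator
    (measurableSet_highFibres pif)).aestronglyMeasurable, ?_⟩
  rw [hasFiniteIntegral_iff_enorm]
  refine lt_of_le_of_lt (le_of_eq (lintegral_congr fun q => ?_)) hT₃
  rw [enorm_indicator_eq_indicator_enorm]
  simp only [hw', enorm_smul_nnreal]
  rfl

end Fermat.Agent.LT.Geometric

end
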