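import Fermat.Agent.LT.Geometric.UnipotentBundle
import Fermat.Agent.LT.Reduction.Finite

/-!
# The cosets met by the unipotent bundle

Up to the upper triangular group of `K`, the finite part of a point at which some term of `n(ξ/3)`
does not vanish lies in a finite set of cosets.
-/

set_option autoImplicit false

noncomputable section

open scoped Matrix NumberField
open NumberField (InfinitePlace)

namespace Fermat.Agent.LT.Geometric

variable {F K : Type*} [Field F] [NumberField F] [Field K] [NumberField K] {U : Level F}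

/-- The matrix of `x ↦ a x + b`. -/
def upAffine {R : Type*} [Field R] (a b : R) (ha : a ≠ 0) : GL (Fin 2) R :=
  Matrix.GeneralLinearGroup.mkOfDetNeZero !![a, b; 0, 1] (by simpa [Matrix.det_fin_two] using ha)

omit [NumberField F] in
theorem upAffine_val {R : Type*} [Field R] (a b : R) (ha : a ≠ 0) :
    (upAffine a b ha).val = !![a, b; 0, 1] := rfl

omit [NumberField F] in
theorem upAffine_mul {R : Type*} [Field R] (a b c d : R) (ha : a ≠ 0) (hc : c ≠ 0) :
    upAffine a b ha * upAffine c d hc = upAffine (a * c) (a * d + b) (mul_ne_zero ha hc) := by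
  ext i j
  rw [Units.val_mul, upAffine_val, upAffine_val, upAffine_val]
  fin_cases i <;> fin_cases j <;> simp [Matrix.mul_apply, Fin.sum_univ_two]

omit [NumberField F] in
theorem upAffine_congr {R : Type*} [Field R] {a b c d : R} {ha : a ≠ 0} {hc : c ≠ 0} (h : a = c)
    (h' : b = d) : upAffine a b ha = upAffine c d hc := by
  subst h
  subst h'
  rfl

omit [NumberField F] in
theorem tc_glEmb_upAffine (w : InfinitePlace F) (a b : F) (ha : a ≠ 0) (P : H3) :
    H3.tc (glEmb F w (upAffine a b ha) • P) = w a * H3.tc P := by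
  have e : glEmb F w (upAffine a b ha) =
      H3.affine (w.embedding a) (w.embedding b) (by simpa using ha) := by
    ext i j
    rw [Reduction.glEmb_apply]
    fin_cases i <;> fin_cases j <;> simp [upAffine, H3.affine]
  have hp : 0 < w a * H3.tc P := mul_pos (InfinitePlace.pos_iff.mpr ha) (H3.tc_pos P)
  rw [e]
  conv_lhs => rw [← H3.pt_coord P, H3.affine_smul _ _ _ _ (H3.tc_pos P),
    InfinitePlace.norm_embedding_eq, H3.tc_pt _ hp]

omit [NumberField F] in
theorem tc_galInf_comap (σ : F ≃+* F) (P : InfinitePlace F → H3) (w : InfinitePlace F) :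
    H3.tc (galInf σ P w) = H3.tc (P (w.comap (σ : F →+* F))) := by
  unfold galInf
  split_ifs
  · rfl
  · exact tc_conjPoint _

variable [NumberField.IsTotallyComplex F]

omit [NumberField K] in
/-- Units balance the heights without moving a coset. -/
theorem exists_balance_affine (r : GLFin F) :
    ∃ B : ℝ, 1 ≤ B ∧ ∀ y : Y U, y.2 = QuotientGroup.mk r →
      ∃ (e : F) (he : e ≠ 0), (upAffine e 0 he • y).2 = QuotientGroup.mk r ∧
        ∀ w w', H3.tc ((upAffine e 0 he • y).1 w) ≤ B * H3.tc ((upAffine e 0 he • y).1 w') := by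
  obtain ⟨M, hM, hstab⟩ := Reduction.exists_stabilizer U r
  obtain ⟨Bu, hBu, hunit⟩ := Reduction.exists_unit_balance (F := F) M hM
  refine ⟨Real.exp (2 * Bu), Real.one_le_exp (by linarith), fun y hy => ?_⟩
  obtain ⟨ε, ⟨o, ho⟩, hbal⟩ := hunit fun w => Real.log (H3.tc (y.1 w))
  set e : F := ((ε : 𝓞 F) : F) with he
  have he' : e * ((↑ε⁻¹ : 𝓞 F) : F) = 1 := by rw [he, ← map_mul, Units.mul_inv, map_one]
  generalize he2 : ((↑ε⁻¹ : 𝓞 F) : F) = e' at he'
  have he0 : e ≠ 0 := left_ne_zero_of_mul_eq_one he'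
  have hoF : e = 1 + (M : F) * (o : F) := by
    rw [he, eq_add_of_sub_eq' ho]
    push_cast
    rfl
  have hinv : (upAffine e 0 he0)⁻¹ = upAffine e' 0 (right_ne_zero_of_mul_eq_one he') := by
    refine inv_eq_of_mul_eq_one_right ?_
    ext i j
    rw [upAffine_mul, upAffine_val]
    fin_cases i <;> fin_cases j <;> simp [he']
  have hint : ∀ i j, ∃ o : 𝓞 F, (upAffine e 0 he0).val i j =
      (1 : Matrix (Fin 2) (Fin 2) F) i j + (M : F) * (o : F) := by
    intro i j
    fin_cases i <;> fin_cases j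
    · exact ⟨o, by simp [upAffine_val, hoF]⟩
    all_goals exact ⟨0, by simp [upAffine_val]⟩
  have hint' : ∀ i j, ∃ o : 𝓞 F, ((upAffine e 0 he0)⁻¹).val i j =
      (1 : Matrix (Fin 2) (Fin 2) F) i j + (M : F) * (o : F) := by
    intro i j
    rw [hinv]
    fin_cases i <;> fin_cases j
    · refine ⟨-(↑ε⁻¹ * o), ?_⟩
      rw [show ((-(↑ε⁻¹ * o) : 𝓞 F) : F) = -(e' * (o : F)) by rw [← he2]; push_cast; rfl]
      have := he'
      rw [hoF] at this
      simp [upAffine_val]
      linear_combination this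
    all_goals exact ⟨0, by simp [upAffine_val]⟩
  refine ⟨e, he0, by rw [smul_snd, hy, hstab _ hint hint'], fun w w' => ?_⟩
  have hfst : ∀ v, H3.tc ((upAffine e 0 he0 • y).1 v) = v e * H3.tc (y.1 v) := fun v => by
    rw [smul_fst]; exact tc_glEmb_upAffine v e 0 he0 _
  have hpos : ∀ v : InfinitePlace F, 0 < v e * H3.tc (y.1 v) := fun v =>
    mul_pos (InfinitePlace.pos_iff.mpr he0) (H3.tc_pos _)
  have hlog : ∀ v : InfinitePlace F, Real.log (v e * H3.tc (y.1 v)) =
      Real.log (H3.tc (y.1 v)) + Real.log (v e) := fun v => by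
    rw [Real.log_mul (InfinitePlace.pos_iff.mpr he0).ne' (H3.tc_pos _).ne', add_comm]
  rw [hfst, hfst, ← Real.log_le_log_iff (hpos w) (mul_pos (Real.exp_pos _) (hpos w')),
    Real.log_mul (Real.exp_pos _).ne' (hpos w').ne', Real.log_exp, hlog, hlog]
  have h1 := abs_le.mp (hbal w)
  have h2 := abs_le.mp (hbal w')
  linarith

omit [NumberField K] in
/-- An affine translate has balanced heights and its finite part among finitely many. -/
theorem exists_affine_reps (U : Level F) :
    ∃ (R : Finset (GLFin F)) (B : ℝ), 1 ≤ B ∧ ∀ y : Y U, ∃ (a b : F) (ha : a ≠ 0),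
      (∃ r ∈ R, (upAffine a b ha • y).2 = QuotientGroup.mk r) ∧
        ∀ w w', H3.tc ((upAffine a b ha • y).1 w) ≤ B * H3.tc ((upAffine a b ha • y).1 w') := by
  obtain ⟨R, hR⟩ := Reduction.exists_finite_reps U
  choose B hB hbal using fun r : GLFin F => exists_balance_affine (U := U) r
  have hB0 : ∀ r ∈ R, 0 ≤ B r := fun r _ => zero_le_one.trans (hB r)
  refine ⟨R, 1 + ∑ r ∈ R, B r, le_add_of_nonneg_right (Finset.sum_nonneg hB0), fun y => ?_⟩
  obtain ⟨g, hg⟩ := QuotientGroup.mk_surjective y.2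
  obtain ⟨β, hβ, r, hr, hβg⟩ := hR g
  have hd : β.val 0 0 * β.val 1 1 ≠ 0 := by
    have := ((Matrix.isUnit_iff_isUnit_det _).mp β.isUnit).ne_zero
    rwa [Matrix.det_fin_two, show β.val 1 0 = 0 from hβ, mul_zero, sub_zero] at this
  set α : Fˣ := (Units.mk0 (β.val 1 1) (right_ne_zero_of_mul hd))⁻¹
  set a := β.val 0 0 / β.val 1 1
  set b := β.val 0 1 / β.val 1 1
  have ha : a ≠ 0 := div_ne_zero (left_ne_zero_of_mul hd) (right_ne_zero_of_mul hd)
  have hsc : scalarGlobal F α * β = upAffine a b ha := by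
    ext i j
    rw [Reduction.scalarGlobal_mul_apply, upAffine_val]
    fin_cases i <;> fin_cases j <;>
      simp [α, a, b, div_eq_inv_mul, show β.val 1 0 = 0 from hβ, right_ne_zero_of_mul hd]
  have hy1 : (upAffine a b ha • y).2 = QuotientGroup.mk r := by
    rw [← hsc, mul_smul, scalarGlobal_smul, smul_snd, ← hg]
    exact hβg
  obtain ⟨e, he, he2, hee⟩ := hbal r _ hy1
  rw [← mul_smul, upAffine_mul] at he2 hee
  refine ⟨_, _, _, ⟨r, hr, he2⟩, fun w w' => (hee w w').trans ?_⟩
  exact mul_le_mul_of_nonneg_right (le_add_of_nonneg_of_le zero_le_one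
    (Finset.single_le_sum hB0 hr)) (H3.tc_pos _).le

omit [NumberField.IsTotallyComplex F]

variable {ι : K →+* F} {σ : F ≃+* F}

omit [NumberField K] in
/-- A bounded denominator for `σ η - η + ι ξ / 3` bounds that of `η` modulo `K`. -/
theorem exists_sub_boundedDen (hc : IsCubic ι σ) {L : ℕ} {η : F} {ξ : K}
    (h : Kernel.BoundedDen L ((σ : F →+* F) η - η + ι ξ / 3)) :
    ∃ κ : K, Kernel.BoundedDen (9 * L) (η + ι κ) := by
  obtain ⟨o, ho⟩ := h
  have h3 : σ (σ (σ η)) = η := cubic_apply_three hc η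
  have hξ : σ (ι ξ) = ι ξ := (hc.fixed _).mpr ⟨ξ, rfl⟩
  obtain ⟨t, ht⟩ : η + σ η + σ (σ η) ∈ Set.range ι := by
    rw [← hc.fixed, map_add, map_add, h3]
    ring
  refine ⟨-t / 3, ?_⟩
  let so : 𝓞 F := NumberField.RingOfIntegers.mapRingHom (σ : F →+* F) o
  have hso : (so : F) = σ (o : F) := rfl
  have hsso : ((NumberField.RingOfIntegers.mapRingHom (σ : F →+* F) so : 𝓞 F) : F) = σ (σ (o : F))
      := rfl
  refine ⟨-(3 * o + 3 * o + 3 * so) +
    3 * (o + so + NumberField.RingOfIntegers.mapRingHom (σ : F →+* F) so), ?_⟩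
  simp only [map_add, map_neg, map_mul, map_ofNat, hso, hsso, ho, RingHom.coe_coe, map_natCast,
    map_sub, map_div₀, hξ, h3, ht]
  push_cast
  ring

variable (hU : ∀ g ∈ U.toSubgroup, glFinMap (σ : F →+* F) g ∈ U.toSubgroup)

omit [NumberField K] in
/-- The affine form of a twisted translate of `n(ξ/3)`. -/
theorem twisted_upAffine {a b : F} (ha : a ≠ 0) (ξ : K) :
    (QuotientGroup.mk (upAffine a b ha) : PGLIndex F) • unipDelta ι σ ξ =
      Twisted.mk (pglAut σ) (QuotientGroup.mk (upAffine (a / σ a)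
        (a * (σ (-b / a) - -b / a + ι ξ / 3)) (div_ne_zero ha ((map_ne_zero σ).mpr ha)))) := by
  refine Twisted.ext ?_
  rw [Twisted.val_smul, pglAut_mk]
  show (QuotientGroup.mk (upAffine a b ha) : PGLIndex F) * QuotientGroup.mk (unip (ι ξ / 3)) *
    (QuotientGroup.mk (CubicDescent.glMap σ (upAffine a b ha)))⁻¹ = _
  rw [← QuotientGroup.mk_mul, ← QuotientGroup.mk_inv, ← QuotientGroup.mk_mul]
  congr 1
  have hsa : σ a ≠ 0 := (map_ne_zero σ).mpr ha
  have hu : (unip (ι ξ / 3) : GL (Fin 2) F) = upAffine 1 (ι ξ / 3) one_ne_zero := by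
    ext i j
    fin_cases i <;> fin_cases j <;> simp [upAffine_val]
  have hm : CubicDescent.glMap σ (upAffine a b ha) = upAffine (σ a) (σ b) hsa := by
    ext i j
    show σ ((upAffine a b ha).val i j) = _
    fin_cases i <;> fin_cases j <;> simp [upAffine_val]
  rw [mul_inv_eq_iff_eq_mul, hm, hu, upAffine_mul, upAffine_mul]
  refine upAffine_congr (by field_simp) ?_
  simp only [map_div₀, map_neg]
  field_simp
  ring

variable [NumberField.IsTotallyComplex F] (k : Kernel.PointKer F) (h : HeckeFn U)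

omit [NumberField K] in
/-- **Finitely many cosets carry the unipotent bundle up to the upper triangular group of `K`.** -/
theorem exists_unipotent_cosets (hc : IsCubic ι σ) :
    ∃ Cset : Finset (GLFin F ⧸ U.toSubgroup), ∀ (x : Y U) (ξ : K),
      term σ hU k h (unipDelta ι σ ξ) x ≠ 0 →
        ∃ g : GL (Fin 2) K, g.val 1 0 = 0 ∧ glIncl F (Matching.baseUnit ι g) • x.2 ∈ Cset := by
  classical
  obtain ⟨R, B, hB, haff⟩ := exists_affine_reps U
  set S := h.finite_support.toFinset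
  choose M hM hden using fun p : GLFin F × (GLFin F ⧸ U.toSubgroup) =>
    Kernel.exists_adjVec_den U (glFinMap (σ : F →+* F) p.1) (p.1 * p.2.out)
  set Mt := ∏ p ∈ R ×ˢ S, M p with hMt
  have hMt0 : 0 < Mt := Finset.prod_pos fun p _ => hM p
  set bd := 2 * k.radius * B
  set Sρ := (Kernel.finite_boundedDen F hMt0 bd).toFinset
  let sol : F → F := fun ρ => if hρ : ∃ a : F, a ≠ 0 ∧ a / σ a = ρ then hρ.choose else 1
  have hsol0 : ∀ ρ, sol ρ ≠ 0 := fun ρ => by
    simp only [sol]
    split_ifs with hρ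
    · exact hρ.choose_spec.1
    · exact one_ne_zero
  choose N hN o ho using fun ρ : F => Reduction.exists_natCast_mul_eq (sol ρ)⁻¹
  let D : F → GLFin F → GLFin F := fun ρ r =>
    glIncl F (upAffine (sol ρ)⁻¹ 0 (inv_ne_zero (hsol0 ρ))) * r
  let T : GLFin F × F → Set (GLFin F ⧸ U.toSubgroup) := fun p =>
    {c | ∃ x : FinAdele F, 0 < 9 * (N p.2 * Mt) ∧
      ((9 * (N p.2 * Mt) : ℕ) : FinAdele F) * x ∈ integralAdele F ∧
        c = unip x • QuotientGroup.mk (D p.2 p.1)}
  have hT : (⋃ p ∈ R ×ˢ Sρ, T p).Finite :=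
    (R ×ˢ Sρ).finite_toSet.biUnion fun p _ => finite_translates (U := U) (D p.2 p.1) _
  refine ⟨hT.toFinset, fun x ξ hne => ?_⟩
  obtain ⟨a, b, ha, ⟨r, hr, hxr⟩, hbal⟩ := haff x
  set η := -b / a with hη
  set τ := a * (σ η - η + ι ξ / 3) with hτ
  set ρ := a / σ a with hρdef
  have hρ0 : ρ ≠ 0 := div_ne_zero ha ((map_ne_zero σ).mpr ha)
  set G := upAffine ρ τ hρ0
  set y := upAffine a b ha • x
  have hne' : term σ hU k h (Twisted.mk (pglAut σ) (QuotientGroup.mk G)) y ≠ 0 := by
    rw [← twisted_upAffine ha ξ, show y = (QuotientGroup.mk (upAffine a b ha) : PGLIndex F) • x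
      from (pgl_mk_smul U _ _).symm, term_smul]
    exact hne
  rw [term, show (Twisted.mk (pglAut σ) (QuotientGroup.mk G : PGLIndex F)).val •
    galY σ U hU y = G • galY σ U hU y from pgl_mk_smul U G _] at hne'
  obtain ⟨hk, hh⟩ := mul_ne_zero_iff.mp hne'
  have hker : h.toFun (r⁻¹ * (glIncl F G * glFinMap (σ : F →+* F) r)) ≠ 0 := by
    rw [show (G • galY σ U hU y).2 = glIncl F G • galFin σ U hU y.2 from rfl, hxr, galFin_mk,
      MulAction.Quotient.smul_mk, smul_eq_mul, HeckeFn.kernel_mk] at hh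
    exact hh
  set c : GLFin F ⧸ U.toSubgroup :=
    QuotientGroup.mk (r⁻¹ * (glIncl F G * glFinMap (σ : F →+* F) r)) with hcdef
  have hcS : c ∈ S := (Set.Finite.mem_toFinset _).mpr ⟨_, hker, rfl⟩
  have hmk : (QuotientGroup.mk (glIncl F G * glFinMap (σ : F →+* F) r) :
      GLFin F ⧸ U.toSubgroup) = QuotientGroup.mk (r * c.out) := by
    rw [show (QuotientGroup.mk (r * c.out) : GLFin F ⧸ U.toSubgroup) = r • c by
      rw [← smul_eq_mul, ← MulAction.Quotient.smul_mk, QuotientGroup.out_eq'], hcdef,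
      MulAction.Quotient.smul_mk, smul_eq_mul, mul_inv_cancel_left]
  have hdG : ∀ p, Kernel.BoundedDen Mt (Kernel.adjEntry G p) := fun p => by
    obtain ⟨m, hm⟩ := Finset.dvd_prod_of_mem M (Finset.mk_mem_product hr hcS)
    obtain ⟨u, hu⟩ := hden (r, c) G hmk p
    refine ⟨(m : 𝓞 F) * u, ?_⟩
    rw [hMt, hm]
    push_cast [hu]
    ring
  have hρden : Kernel.BoundedDen Mt ρ := by
    have := hdG ((0, 0), (0, 0))
    rwa [show Kernel.adjEntry G ((0, 0), (0, 0)) = ρ by
      simp [Kernel.adjEntry, G, upAffine_val, Matrix.det_fin_two, hρ0]] at this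
  have hτden : Kernel.BoundedDen Mt τ := by
    have := hdG ((0, 0), (0, 1))
    rwa [show Kernel.adjEntry G ((0, 0), (0, 1)) = τ by
      simp [Kernel.adjEntry, G, upAffine_val, Matrix.det_fin_two, hρ0]] at this
  have hρw : ∀ w : InfinitePlace F, w ρ ≤ bd := fun w => by
    obtain ⟨h1, -, -⟩ := Kernel.tc_le_of_cdist_le (k.cdist_le hk w)
    rw [show (G • galY σ U hU y).1 w = glEmb F w G • galInf σ y.1 w from rfl, tc_glEmb_upAffine,
      tc_galInf_comap] at h1
    refine le_of_mul_le_mul_right (h1.trans ?_) (H3.tc_pos (y.1 (w.comap (σ : F →+* F))))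
    refine (mul_le_mul_of_nonneg_left (hbal w (w.comap (σ : F →+* F)))
        (by linarith [k.one_le_radius])).trans_eq ?_
    ring
  have hρS : ρ ∈ Sρ := (Set.Finite.mem_toFinset _).mpr ⟨hρden, hρw⟩
  obtain ⟨κ, hκ⟩ : a / sol ρ ∈ Set.range ι := by
    have hex : ∃ a' : F, a' ≠ 0 ∧ a' / σ a' = ρ := ⟨a, ha, hρdef.symm⟩
    have h1 : sol ρ / σ (sol ρ) = ρ := by
      simp only [sol, dif_pos hex]; exact hex.choose_spec.2
    rw [← hc.fixed, map_div₀, div_eq_div_iff ((map_ne_zero σ).mpr (hsol0 ρ)) (hsol0 ρ)]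
    rw [hρdef, div_eq_div_iff ((map_ne_zero σ).mpr (hsol0 ρ)) ((map_ne_zero σ).mpr ha)] at h1
    linear_combination h1
  have hκ0 : κ ≠ 0 := by
    rintro rfl
    rw [map_zero, eq_comm, div_eq_zero_iff] at hκ
    exact hκ.elim ha (hsol0 ρ)
  -- the translation
  obtain ⟨κ', hκ'⟩ := exists_sub_boundedDen hc (L := N ρ * Mt) (η := ι κ * η) (ξ := κ * ξ) (by
    obtain ⟨u, hu⟩ := hτden
    refine ⟨o ρ * u, ?_⟩
    rw [show ((o ρ * u : 𝓞 F) : F) = (o ρ : F) * (u : F) from map_mul (algebraMap (𝓞 F) F) _ _, hu,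
      ← ho, hτ, show a = ι κ * sol ρ by rw [hκ, div_mul_cancel₀ _ (hsol0 ρ)],
      RingHom.coe_coe, map_mul, map_mul, (hc.fixed (ι κ)).mpr ⟨κ, rfl⟩]
    have := hsol0 ρ
    push_cast
    field_simp)
  have hxc : x.2 = glIncl F (upAffine a b ha)⁻¹ • (QuotientGroup.mk r : GLFin F ⧸ U.toSubgroup) :=
      by
    rw [← hxr, smul_snd, map_inv, inv_smul_smul]
  refine ⟨upAffine κ κ' hκ0, by simp [upAffine_val], (Set.Finite.mem_toFinset _).mpr ?_⟩
  refine Set.mem_biUnion (x := (r, ρ)) (Finset.mk_mem_product hr hρS)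
    ⟨finIncl F (ι κ * η + ι κ'), ?_, ?_, ?_⟩
  · have := hN ρ; positivity
  · obtain ⟨u, hu⟩ := hκ'
    rw [← map_natCast (finIncl F), ← map_mul, ← hu]
    exact Reduction.finIncl_mem_of_isIntegral u
  · rw [hxc, smul_smul, MulAction.Quotient.smul_mk, MulAction.Quotient.smul_mk, smul_eq_mul,
      smul_eq_mul]
    congr 1
    simp only [D]
    rw [← Kernel.glIncl_unip, ← map_mul, ← mul_assoc, ← map_mul]
    congr 2
    have hb : Matching.baseUnit ι (upAffine κ κ' hκ0) =
        upAffine (ι κ) (ι κ') ((map_ne_zero ι).mpr hκ0) := by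
      ext i j
      fin_cases i <;> fin_cases j <;> simp [upAffine_val]
    have hu : ∀ z : F, (unip z : GL (Fin 2) F) = upAffine 1 z one_ne_zero := fun z => by
      ext i j
      fin_cases i <;> fin_cases j <;> simp [upAffine_val]
    rw [hb, mul_inv_eq_iff_eq_mul, hu, upAffine_mul, upAffine_mul]
    refine upAffine_congr ?_ ?_
    · rw [hκ, one_mul, inv_mul_eq_div]
    · rw [hη, hκ]
      have := hsol0 ρ
      field_simp
      ring

end Fermat.Agent.LT.Geometric

end
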