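import Fermat.Agent.LT.Geometric.Main
import Fermat.Agent.LT.Geometric.CutoffFinite
import Fermat.Agent.LT.Geometric.NormalForm
import Fermat.Agent.LT.Kernel.Diagonal
import Fermat.Agent.LT.PlaceMatching.NoNorm
import Fermat.Agent.LT.Descent.TraceEq

/-!
# The geometric totals from the comparison class by class

A conjugacy class of `PGL₂(K)` carries the twisted classes over `L` whose norm lies in it. The
totals agree as soon as the integrals of the classes of norms agree: exactly without an eigenvalue,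
in the limit of the cutoffs with one.
-/

set_option autoImplicit false

noncomputable section

open MeasureTheory Filter Topology
open scoped ENNReal NNReal NumberField
open NumberField (InfinitePlace IsTotallyComplex)

namespace Fermat.Agent.LT.Geometric

variable {K L : Type*} [Field K] [NumberField K] [Field L] [NumberField L] (ι : K →+* L)
  (σ : L ≃+* L)

/-- The twisted indices with norm in a rational class. -/
def normClass (i : ConjClasses (PGLIndex K)) : Set (Twisted (pglAut σ)) :=
  {δ | ∃ γ, ConjClasses.mk γ = i ∧ ∃ g : PGLIndex L, g * δ.norm * g⁻¹ = pglBase ι γ}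

/-- The untwisted indices in a class. -/
def baseClass (i : ConjClasses (PGLIndex K)) : Set (Twisted (pglAut (RingEquiv.refl K))) :=
  {c | ConjClasses.mk c.val = i}

variable {ι σ}

omit [NumberField K] [NumberField L] in
/-- An index with norm `γ` lies in the norm class of `γ`. -/
theorem mem_normClass_self {δ : Twisted (pglAut σ)} {γ : PGLIndex K}
    (h : δ.norm = pglBase ι γ) : δ ∈ normClass ι σ (ConjClasses.mk γ) :=
  ⟨γ, rfl, 1, by simp [h]⟩

/-- Norm classes of distinct rational classes are disjoint. -/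
theorem normClass_disjoint (hc : IsCubic ι σ) :
    Pairwise fun i k => Disjoint (normClass ι σ i) (normClass ι σ k) := by
  intro i k hik
  refine Set.disjoint_left.mpr ?_
  rintro δ ⟨γ, rfl, g, hg⟩ ⟨γ', rfl, g', hg'⟩
  refine hik (ConjClasses.mk_eq_mk_iff_isConj.mpr ?_)
  obtain ⟨g₀, h₀⟩ := hc.exists_base_conj (γ := γ) (γ' := γ') (g := g' * g⁻¹) (by
    rw [← hg', ← hg]; group)
  exact isConj_iff.mpr ⟨g₀, h₀⟩

theorem exists_mem_normClass (hc : IsCubic ι σ) (δ : Twisted (pglAut σ)) :
    ∃ i, δ ∈ normClass ι σ i := by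
  obtain ⟨g, γ, hn⟩ := hc.exists_normalised δ
  exact ⟨_, γ, rfl, g, by rw [← Twisted.norm_smul (pglAut_iterate hc.pow), hn.norm_eq]⟩

omit [NumberField L] [NumberField K] in
/-- The members of a class with a twisted index are norms. -/
theorem exists_norm_of_mem_normClass (hc : IsCubic ι σ) {γ : PGLIndex K}
    {δ : Twisted (pglAut σ)} (h : δ ∈ normClass ι σ (ConjClasses.mk γ)) :
    ∃ δ' : Twisted (pglAut σ), δ'.norm = pglBase ι γ := by
  obtain ⟨γ', hγ, g, hg⟩ := h
  obtain ⟨a, rfl⟩ := isConj_iff.mp (ConjClasses.mk_eq_mk_iff_isConj.mp hγ)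
  refine ⟨(pglBase ι a * g) • δ, ?_⟩
  rw [Twisted.norm_smul (pglAut_iterate hc.pow), map_mul, map_mul, map_inv, ← hg]
  group

/-- Having an eigenvalue is a property of the conjugacy class. -/
theorem hasEigenvalue_conj_iff {F : Type*} [Field F] [NumberField F] {c c' : PGLIndex F}
    (h : IsConj c c') : HasEigenvalue c ↔ HasEigenvalue c' := by
  obtain ⟨g, rfl⟩ := isConj_iff.mp h
  refine ⟨fun h => h.conj g, fun h => ?_⟩
  have := h.conj g⁻¹
  simpa [mul_assoc] using this

/-- In a norm class the norm has an eigenvalue exactly when the rational class has one. -/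
theorem hasEigenvalue_norm_iff (hc : IsCubic ι σ) {γ : PGLIndex K} {δ : Twisted (pglAut σ)}
    (h : δ ∈ normClass ι σ (ConjClasses.mk γ)) : HasEigenvalue δ.norm ↔ HasEigenvalue γ := by
  obtain ⟨γ', hγ, g, hg⟩ := h
  rw [← hasEigenvalue_conj_iff (ConjClasses.mk_eq_mk_iff_isConj.mp hγ),
    ← hc.hasEigenvalue_base_iff, ← hg]
  exact hasEigenvalue_conj_iff (isConj_iff.mpr ⟨g, rfl⟩)

variable (ι) {UL : Level L} {UK : Level K}

/-- The comparison of one pair of matched tests, class by class, for the classes of norms. -/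
structure ClasswiseTotals (hU : ∀ g ∈ UL.toSubgroup, glFinMap (σ : L →+* L) g ∈ UL.toSubgroup)
    (wL : PartitionOfUnity UL) (wK : PartitionOfUnity UK) (k : Kernel.PointKer L) (h : HeckeFn UL)
    (k' : Kernel.PointKer K) (h' : HeckeFn UK) : Prop where
  elliptic : ∀ (γ : PGLIndex K) (δ : Twisted (pglAut σ)), δ.norm = pglBase ι γ →
    ¬ HasEigenvalue γ →
      ∫ x, wL.weight x • ∑' d : normClass ι σ (ConjClasses.mk γ), term σ hU k h d x ∂yVol UL =
        ∫ y, wK.weight y • ∑' c : baseClass (ConjClasses.mk γ),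
          term (RingEquiv.refl K) (refl_stable UK) k' h' c y ∂yVol UK
  cusp : ∃ (RL : Finset (GLFin L)) (RK : Finset (GLFin K)), ∀ R R', RL ⊆ R → RK ⊆ R' →
    ∀ (γ : PGLIndex K) (δ : Twisted (pglAut σ)), δ.norm = pglBase ι γ → HasEigenvalue γ →
      Tendsto (fun T : ℕ =>
        ∫ x, (wL.weight x * cutoff UL R (T : ℝ) x) •
            ∑' d : normClass ι σ (ConjClasses.mk γ), term σ hU k h d x ∂yVol UL -
          ∫ y, (wK.weight y * cutoff UK R' (T : ℝ) y) •
            ∑' c : baseClass (ConjClasses.mk γ),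
              term (RingEquiv.refl K) (refl_stable UK) k' h' c y ∂yVol UK) atTop (𝓝 0)

variable {ι}

variable [IsTotallyComplex K] [IsTotallyComplex L]

/-- **The totals agree when the classes agree.** -/
theorem totals_eq_of_classwise (hc : IsCubic ι σ)
    {hU : ∀ g ∈ UL.toSubgroup, glFinMap (σ : L →+* L) g ∈ UL.toSubgroup}
    {wL : PartitionOfUnity UL} (hwL : Measurable wL.weight)
    {wK : PartitionOfUnity UK} (hwK : Measurable wK.weight)
    {k : Kernel.PointKer L} {h : HeckeFn UL} {k' : Kernel.PointKer K} {h' : HeckeFn UK}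
    (hh : Kernel.HasCuspCondition h) (hh' : Kernel.HasCuspCondition h')
    (hnorm : ∀ (γ : PGLIndex K) (y : Y UK), Kernel.pairKer k' h' y (γ • y) ≠ 0 →
      ∃ δ : Twisted (pglAut σ), δ.norm = pglBase ι γ)
    (H : ClasswiseTotals ι hU wL wK k h k' h') :
    ∫ x, wL.weight x • ∑' δ, term σ hU k h δ x ∂yVol UL =
      ∫ y, wK.weight y • ∑' c, term (RingEquiv.refl K) (refl_stable UK) k' h' c y ∂yVol UK := by
  classical
  have : Countable (Twisted (pglAut σ)) := Reduction.countable_pglIndex (F := L)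
  have : Countable (Twisted (pglAut (RingEquiv.refl K))) := Reduction.countable_pglIndex (F := K)
  have : Countable (ConjClasses (PGLIndex K)) :=
    have : Countable (PGLIndex K) := Reduction.countable_pglIndex
    ConjClasses.mk_surjective.countable
  obtain ⟨RL₀, hRL₀, hfinL⟩ := exists_reps_cutoff_finite UL
  obtain ⟨RK₀, hRK₀, hfinK⟩ := exists_reps_cutoff_finite UK
  obtain ⟨RL₁, RK₁, hcusp⟩ := H.cusp
  set RL := RL₀ ∪ RL₁
  set RK := RK₀ ∪ RK₁
  have hRL : CoversReps UL RL := fun y => by
    obtain ⟨g, r, hr, e⟩ := hRL₀ y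
    exact ⟨g, r, Finset.mem_union_left _ hr, e⟩
  have hRK : CoversReps UK RK := fun y => by
    obtain ⟨g, r, hr, e⟩ := hRK₀ y
    exact ⟨g, r, Finset.mem_union_left _ hr, e⟩
  obtain ⟨TL, hTL⟩ := exists_cutoff_elliptic σ hU k h hc.pow RL
  obtain ⟨TK, hTK⟩ := exists_pairKer_eq_zero_of_elliptic k' h' RK
  have hσ3 : ∀ a, σ (σ (σ a)) = a := fun a => RingEquiv.congr_fun hc.pow a
  -- the finitely many classes with an eigenvalue meeting the supports
  set S : Finset (ConjClasses (PGLIndex K)) :=
    ((finite_classes_meeting k' h').union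
      (finite_classes_meeting_twisted (ι := ι) σ hσ3 hU k h)).toFinset.filter
        fun i => ∃ γ, ConjClasses.mk γ = i ∧ HasEigenvalue γ ∧
          ∃ δ : Twisted (pglAut σ), δ.norm = pglBase ι γ with hS
  have hzeroK : ∀ γ : PGLIndex K, (∀ δ : Twisted (pglAut σ), δ.norm ≠ pglBase ι γ) →
      ∀ (c : baseClass (ConjClasses.mk γ)) (y : Y UK),
        term (RingEquiv.refl K) (refl_stable UK) k' h' c y = 0 := fun γ hγ c y => by
    by_contra hne
    rw [← show Twisted.mk _ c.1.val = c.1 from rfl, term_refl] at hne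
    obtain ⟨δ, hδ⟩ := hnorm _ y hne
    obtain ⟨a, ha⟩ := isConj_iff.mp (ConjClasses.mk_eq_mk_iff_isConj.mp c.2)
    refine hγ (pglBase ι a • δ) ?_
    rw [Twisted.norm_smul (pglAut_iterate hc.pow), hδ, ← map_inv, ← map_mul, ← map_mul, ha]
  have hzeroL : ∀ γ : PGLIndex K, (∀ δ : Twisted (pglAut σ), δ.norm ≠ pglBase ι γ) →
      ∀ (d : normClass ι σ (ConjClasses.mk γ)) (x : Y UL), term σ hU k h d x = 0 := fun γ hγ d x =>
        by
    obtain ⟨δ, hδ⟩ := exists_norm_of_mem_normClass hc d.2
    exact absurd hδ (hγ δ)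
  have hsplitL : ∀ γ : PGLIndex K, HasEigenvalue γ → ConjClasses.mk γ ∉ S →
      ∀ (d : normClass ι σ (ConjClasses.mk γ)) (x : Y UL), term σ hU k h d x = 0 := fun γ hγ hS' d x
        => by
    by_contra hne
    obtain ⟨g, γ', hn⟩ := hc.exists_normalised d.1
    refine hS' (Finset.mem_filter.mpr ⟨Set.Finite.mem_toFinset _ |>.mpr (Or.inr ?_),
      γ, rfl, hγ, exists_norm_of_mem_normClass hc d.2⟩)
    have hmem : d.1 ∈ normClass ι σ (ConjClasses.mk γ') :=
      ⟨γ', rfl, g, by rw [← Twisted.norm_smul (pglAut_iterate hc.pow), hn.norm_eq]⟩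
    have e : ConjClasses.mk γ' = ConjClasses.mk γ := by_contra fun e =>
      Set.disjoint_left.mp (normClass_disjoint hc e) hmem d.2
    refine ⟨γ', ⟨Or.inr ((hasEigenvalue_conj_iff (ConjClasses.mk_eq_mk_iff_isConj.mp e)).mpr hγ),
      g • d.1, hn, g • x, ?_⟩, e⟩
    show term σ hU k h (g • d.1) (g • x) ≠ 0
    rwa [term_smul]
  have hsplitK : ∀ γ : PGLIndex K, HasEigenvalue γ → ConjClasses.mk γ ∉ S →
      ∀ (c : baseClass (ConjClasses.mk γ)) (y : Y UK),
        term (RingEquiv.refl K) (refl_stable UK) k' h' c y = 0 := fun γ hγ hS' c y => by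
    by_cases hn : ∃ δ : Twisted (pglAut σ), δ.norm = pglBase ι γ
    · by_contra hne
      refine hS' (Finset.mem_filter.mpr
        ⟨Set.Finite.mem_toFinset _ |>.mpr (Or.inl ?_), γ, rfl, hγ, hn⟩)
      rw [← show Twisted.mk _ c.1.val = c.1 from rfl, term_refl] at hne
      exact ⟨c.1.val,
        ⟨Or.inr ((hasEigenvalue_conj_iff (ConjClasses.mk_eq_mk_iff_isConj.mp c.2)).mpr hγ),
          y, hne⟩, c.2⟩
    · exact hzeroK γ (fun δ hδ => hn ⟨δ, hδ⟩) c y
  -- integrability
  have hωL : ∀ x, (((wL.weight x).toNNReal : ℝ≥0) : ℝ) = wL.weight x := fun x =>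
    Real.coe_toNNReal _ (wL.nonneg x)
  have hωK : ∀ y, (((wK.weight y).toNNReal : ℝ≥0) : ℝ) = wK.weight y := fun y =>
    Real.coe_toNNReal _ (wK.nonneg y)
  have hintL : Integrable (fun x => wL.weight x • ∑' δ, term σ hU k h δ x) (yVol UL) :=
    Kernel.integrable_twisted_diag k h hh wL hwL (measurable_galY σ hU)
      fun γ y => ⟨_, galY_smul σ UL hU γ y⟩
  have hintK : Integrable (fun y => wK.weight y • ∑' c, term (RingEquiv.refl K) (refl_stable UK)
      k' h' c y) (yVol UK) :=
    Kernel.integrable_twisted_diag k' h' hh' wK hwK (measurable_galY _ (refl_stable UK))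
      fun γ y => ⟨_, galY_smul _ UK (refl_stable UK) γ y⟩
  have key := geometric_totals_eq (μ := yVol UL) (ν := yVol UK)
    (ω := fun x => (wL.weight x).toNNReal) hwL.real_toNNReal
    (ω' := fun y => (wK.weight y).toNNReal) hwK.real_toNNReal
    (F := fun δ x => term σ hU k h δ x)
    (F' := fun c y => term (RingEquiv.refl K) (refl_stable UK) k' h' c y)
    (fun δ => measurable_term σ hU k h δ) (fun c => measurable_term _ _ k' h' c)
    (fun x => summable_of_hasFiniteSupport (finite_support_term σ hU k h x))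
    (fun y => summable_of_hasFiniteSupport (finite_support_term _ _ k' h' y))
    (normClass ι σ) baseClass (normClass_disjoint hc)
    (fun i j hij => Set.disjoint_left.mpr fun c h1 h2 => hij (h1.symm.trans h2))
    (fun δ hδ => ((exists_mem_normClass hc δ).elim fun i hi => absurd hi (hδ i)))
    (fun c hc' => absurd rfl (hc' _))
    (by simpa only [hωL] using hintL) (by simpa only [hωK] using hintK)
    (χ := fun T : ℕ => cutoff UL RL (T : ℝ)) (χ' := fun T : ℕ => cutoff UK RK (T : ℝ))
    (fun T => measurable_cutoff) (fun T => measurable_cutoff)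
    (fun T => cutoff_le_one _ _ _) (fun T => cutoff_le_one _ _ _)
    (tendsto_cutoff_one hRL) (tendsto_cutoff_one hRK)
    (fun T => by
      simpa [ENNReal.coe_mul, mul_assoc, ENNReal.ofReal] using
        hfinL RL Finset.subset_union_left σ hU k h wL hwL T)
    (fun T => by
      simpa [ENNReal.coe_mul, mul_assoc, ENNReal.ofReal] using
        hfinK RK Finset.subset_union_left _ (refl_stable UK) k' h' wK hwK T)
    S ?_ ?_
  · simpa only [hωL, hωK] using key
  · -- outside the finite set
    filter_upwards [eventually_ge_atTop ⌈TL⌉₊, eventually_ge_atTop ⌈TK⌉₊] with T hT hT'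
    intro i hi
    obtain ⟨γ, rfl⟩ := ConjClasses.mk_surjective i
    by_cases hn : ∃ δ : Twisted (pglAut σ), δ.norm = pglBase ι γ
    swap
    · have hn' : ∀ δ : Twisted (pglAut σ), δ.norm ≠ pglBase ι γ := fun δ hδ => hn ⟨δ, hδ⟩
      simp [hzeroL γ hn', hzeroK γ hn']
    by_cases hγ : HasEigenvalue γ
    · simp [hsplitL γ hγ hi, hsplitK γ hγ hi]
    obtain ⟨δ, hδ⟩ := hn
    refine Eq.trans ?_ ((H.elliptic γ δ hδ hγ).trans ?_)
    · refine integral_congr_ae (Eventually.of_forall fun x => ?_)
      simp only [NNReal.coe_mul, hωL, mul_smul, ← tsum_const_smul'' (cutoff UL RL (T : ℝ) x : ℝ)]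
      congr 1
      exact tsum_congr fun d => hTL T ((Nat.le_ceil _).trans (Nat.cast_le.mpr hT)) d.1
        (fun he => hγ ((hasEigenvalue_norm_iff hc d.2).mp he)) x
    · refine integral_congr_ae (Eventually.of_forall fun y => ?_)
      simp only [NNReal.coe_mul, hωK, mul_smul, ← tsum_const_smul'' (cutoff UK RK (T : ℝ) y : ℝ)]
      congr 1
      refine tsum_congr fun c => ?_
      by_cases hy : IsHigh RK (T : ℝ) y
      · rw [← show Twisted.mk _ c.1.val = c.1 from rfl, term_refl,
          hTK T ((Nat.le_ceil _).trans (Nat.cast_le.mpr hT')) c.1.val (fun he => hγ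
            ((hasEigenvalue_conj_iff (ConjClasses.mk_eq_mk_iff_isConj.mp c.2)).mp he)) y hy,
          smul_zero]
      · simp [cutoff, hy]
  · intro i hi
    obtain ⟨γ, rfl, hγ, δ, hδ⟩ := (Finset.mem_filter.mp hi).2
    simpa only [NNReal.coe_mul, hωL, hωK] using
      hcusp RL RK Finset.subset_union_right Finset.subset_union_right γ δ hδ hγ

end Fermat.Agent.LT.Geometric

namespace Fermat.Agent.LT.Descent

open PlaceMatching Spectral

universe u u'

variable {K : Type u} {L : Type u'} [Field K] [NumberField K] [Field L] [NumberField L]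
  [IsTotallyComplex K] [IsTotallyComplex L] {ι : K →+* L} {σ : L ≃+* L} {I : Ideal (𝓞 L)}
  {J : Ideal (𝓞 K)} {hI : ∃ N : ℕ, 0 < N ∧ (N : 𝓞 L) ∈ I} {hJ : ∃ N : ℕ, 0 < N ∧ (N : 𝓞 K) ∈ J}
  (hm : LevelsMatch ι σ I J) (hc : Geometric.IsCubic ι σ) (s : PlaceSection ι)
  {ιL ιK : Type*} (HL : HeckeFamily (Level.ofIdeal L I hI) ιL)
  (HK : HeckeFamily (Level.ofIdeal K J hJ) ιK)

/-- Members with cuspidal Hecke functions given by compatible families of local kernels. -/
def TestMatch (x : ιL) (y : ιK) : Prop :=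
  ∃ (k : Fin 3 → KerFam J) (kL : KerFam I), Compatible hm hc s k kL ∧
    kL.hecke hI = HL.fn x ∧ (k 0).hecke hJ * (k 1).hecke hJ * (k 2).hecke hJ = HK.fn y ∧
    Kernel.HasCuspCondition (HL.fn x) ∧ Kernel.HasCuspCondition (HK.fn y)

/-- **The geometric totals of matched tests agree when the classes of norms agree.** -/
theorem geometricTotals_of_classwise (hσ : IsStable (Level.ofIdeal L I hI) σ)
    (wL : Weight (Level.ofIdeal L I hI)) (wK : Weight (Level.ofIdeal K J hJ))
    (p : Fin 3 → InfinitePlace L) (v : InfinitePlace K) {M : ιL → ιK → Prop}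
    (hMT : ∀ x y, M x y → TestMatch hm hc s HL HK x y)
    (H : ∀ (l : LipKernel L) (m : LipKernel K) x y, RadialMatch p v l m → M x y →
        Geometric.ClasswiseTotals ι hσ wL.toPartitionOfUnity wK.toPartitionOfUnity l.pointKer
          (HL.fn x) m.pointKer (HK.fn y)) :
    GeometricTotals HL HK hσ wL wK p v M := by
  intro l m x y hr hM
  have hC := H l m x y hr hM
  obtain ⟨k, kL, hk, -, hy, hcx, hcy⟩ := hMT x y hM
  refine Geometric.totals_eq_of_classwise hc wL.measurable wK.measurable hcx hcy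
    (fun γ z hne => ?_) hC
  revert hne
  induction γ using QuotientGroup.induction_on with | H g => ?_
  intro hne
  rw [Kernel.pairKer, mul_ne_zero_iff, ← hy] at hne
  exact exists_norm_of_ne_zero hI hk hne.2

end Fermat.Agent.LT.Descent

end
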