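import Fermat.Agent.LT.Geometric.UnipotentHigh
import Fermat.Agent.LT.Geometric.Assembly

/-!
# The class of the unipotents

The twisted indices with norm conjugate to a nontrivial unipotent are the translates of the
`n(ξ/3)`, `ξ ∈ K^×`, over the upper triangular group of the base field; untwisted, of the `n(ξ)`.
-/

set_option autoImplicit false

noncomputable section

open NumberField (InfinitePlace)

namespace Fermat.Agent.LT.Geometric

open CubicDescent

section General


variable {F : Type*} [Field F] [NumberField F]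

omit [NumberField F] in
theorem eq_of_mk_unip_eq {a b : F}
    (h : (QuotientGroup.mk (unip a) : PGLIndex F) = QuotientGroup.mk (unip b)) : a = b := by
  obtain ⟨c, hc⟩ := pgl_mk_eq_iff.mp h
  have h00 := congrArg (fun g : GL (Fin 2) F => g.val 0 0) hc
  have h01 := congrArg (fun g : GL (Fin 2) F => g.val 0 1) hc
  simp [scalarUnit, Matrix.mul_apply, Fin.sum_univ_two,
    Matrix.GeneralLinearGroup.upperRightHom_apply] at h00 h01
  rw [← h00, one_mul] at h01
  exact h01.symm

omit [NumberField F] in
/-- Conjugation of a unipotent by an upper triangular element. -/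
theorem mk_upper_conj_unip {g : GL (Fin 2) F} (hg : Reduction.IsUpper g) (a : F) :
    (QuotientGroup.mk g : PGLIndex F) * QuotientGroup.mk (unip a) * (QuotientGroup.mk g)⁻¹ =
      QuotientGroup.mk (unip (upperRatio g * a)) := by
  rw [← QuotientGroup.mk_mul, ← QuotientGroup.mk_inv, ← QuotientGroup.mk_mul]
  congr 1
  have h := upper_mul_unip (RingHom.id F) hg a
  rw [show Matrix.GeneralLinearGroup.map (RingHom.id F) g = g from Units.ext (by ext i j; rfl),
    RingHom.id_apply] at h
  rw [h, mul_inv_cancel_right]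

omit [NumberField F] in
/-- Elements conjugating one nontrivial unipotent to a unipotent are upper triangular. -/
theorem upper_of_conj_unip {g : GL (Fin 2) F} {a b : F} (ha : a ≠ 0)
    (h : (QuotientGroup.mk g : PGLIndex F) * QuotientGroup.mk (unip a) * (QuotientGroup.mk g)⁻¹ =
      QuotientGroup.mk (unip b)) : Reduction.IsUpper g := by
  rw [← QuotientGroup.mk_mul, ← QuotientGroup.mk_inv, ← QuotientGroup.mk_mul] at h
  obtain ⟨c, hc⟩ := pgl_mk_eq_iff.mp h.symm
  refine upper_of_mk_unip (N := unip a) rfl ha ?_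
  have h10 := congrArg (fun g : GL (Fin 2) F => g.val 1 0) hc
  simp [scalarUnit, Matrix.mul_apply, Fin.sum_univ_two,
    Matrix.GeneralLinearGroup.upperRightHom_apply, -Matrix.coe_units_inv] at h10
  simp [Reduction.IsUpper, Matrix.mul_apply, Fin.sum_univ_two,
    Matrix.GeneralLinearGroup.upperRightHom_apply, -Matrix.coe_units_inv]
  exact h10

omit [NumberField F] in
theorem exists_upper_scale (r : F) (hr : r ≠ 0) :
    ∃ g : GL (Fin 2) F, Reduction.IsUpper g ∧ upperRatio g = r :=
  ⟨dia (Units.mk0 r hr), by simp [Reduction.IsUpper, dia], by simp [upperRatio, dia]⟩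

omit [NumberField F] in
/-- A nonzero translation is nontrivial in `PGL₂`. -/
theorem mk_unip_ne_one {a : F} (ha : a ≠ 0) : (QuotientGroup.mk (unip a) : PGLIndex F) ≠ 1 :=
  fun h => ha (eq_of_mk_unip_eq (h.trans ((QuotientGroup.mk_one _).symm.trans
    (congrArg QuotientGroup.mk (AddChar.map_zero_eq_one _).symm))))

omit [NumberField F] in
theorem isConj_unip {a b : F} (ha : a ≠ 0) (hb : b ≠ 0) :
    IsConj (QuotientGroup.mk (unip a) : PGLIndex F) (QuotientGroup.mk (unip b)) := by
  obtain ⟨g, hg, hr⟩ := exists_upper_scale (b / a) (div_ne_zero hb ha)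
  exact isConj_iff.mpr ⟨QuotientGroup.mk g, by rw [mk_upper_conj_unip hg, hr, div_mul_cancel₀ _ ha]⟩

variable (F) in
/-- The upper triangular elements of `PGL₂(F)`. -/
def upperImage : Subgroup (PGLIndex F) where
  carrier := {z | ∃ g : GL (Fin 2) F, Reduction.IsUpper g ∧ QuotientGroup.mk g = z}
  one_mem' := ⟨1, by simp [Reduction.IsUpper], QuotientGroup.mk_one _⟩
  mul_mem' := by
    rintro _ _ ⟨g, hg, rfl⟩ ⟨g', hg', rfl⟩
    exact ⟨g * g', hg.mul hg', QuotientGroup.mk_mul _ _ _⟩
  inv_mem' := by
    rintro _ ⟨g, hg, rfl⟩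
    exact ⟨g⁻¹, hg.inv, QuotientGroup.mk_inv _ _⟩

omit [NumberField F] in
/-- Membership in the upper triangular subgroup of `PGL₂`. -/
theorem mem_upperImage {z : PGLIndex F} :
    z ∈ upperImage F ↔ ∃ g : GL (Fin 2) F, Reduction.IsUpper g ∧ QuotientGroup.mk g = z :=
  Iff.rfl

variable (F) in
/-- The untwisted index `n(ξ)`. -/
def unipIdx (ξ : F) : Twisted (pglAut (RingEquiv.refl F)) :=
  Twisted.mk _ (QuotientGroup.mk (unip ξ))

omit [NumberField F] in
/-- For the identity automorphism twisted conjugation is conjugation. -/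
theorem smul_refl_val (g : PGLIndex F) (c : Twisted (pglAut (RingEquiv.refl F))) :
    (g • c).val = g * c.val * g⁻¹ := by
  have hid : pglAut (RingEquiv.refl F) g = g := by
    induction g using QuotientGroup.induction_on with | H y => rfl
  rw [Twisted.val_smul, hid]

end General

variable {F K : Type*} [Field F] [NumberField F] [Field K] [NumberField K] {ι : K →+* F}
  {σ : F ≃+* F}

omit [NumberField F] [NumberField K] in
/-- A member of a norm class has a twisted conjugate with norm `γ`. -/
theorem exists_smul_norm_of_mem_normClass (hc : IsCubic ι σ) {γ : PGLIndex K}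
    {δ : Twisted (pglAut σ)} (h : δ ∈ normClass ι σ (ConjClasses.mk γ)) :
    ∃ g : PGLIndex F, (g • δ).norm = pglBase ι γ := by
  obtain ⟨γ', hγ, g, hg⟩ := h
  obtain ⟨a, rfl⟩ := isConj_iff.mp (ConjClasses.mk_eq_mk_iff_isConj.mp hγ)
  refine ⟨pglBase ι a * g, ?_⟩
  rw [Twisted.norm_smul (pglAut_iterate hc.pow), map_mul, map_mul, map_inv, ← hg]
  group

omit [NumberField K] in
/-- The norm of `n(ξ/3)` comes from `n(ξ)` over `K`. -/
theorem norm_unipDelta_base (hc : IsCubic ι σ) (ξ : K) :
    (unipDelta ι σ ξ).norm = pglBase ι (QuotientGroup.mk (unip ξ)) := by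
  rw [norm_unipDelta hc, pglBase_mk]
  congr 1
  ext i j
  fin_cases i <;> fin_cases j <;> simp [Matching.baseUnit]

omit [NumberField F] [NumberField K] in
theorem pglBase_smul_unipDelta (hc : IsCubic ι σ) {g : GL (Fin 2) K} (hg : Reduction.IsUpper g)
    (ξ : K) :
    pglBase ι (QuotientGroup.mk g) • unipDelta ι σ ξ = unipDelta ι σ (upperRatio g * ξ) := by
  rw [pglBase_mk]
  exact smul_unipDelta hc.fixed hg ξ

omit [NumberField K] in
theorem isNormalised_unipDelta (hc : IsCubic ι σ) {ξ : K} (hξ : ξ ≠ 0) :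
    IsNormalised ι (unipDelta ι σ ξ) (QuotientGroup.mk (unip ξ)) where
  norm_eq := norm_unipDelta_base hc ξ
  commute g hg := by
    induction g using QuotientGroup.induction_on with | H G => ?_
    rw [← norm_unipDelta_base hc, norm_unipDelta hc] at hg
    have h0 : ι ξ ≠ 0 := (map_ne_zero ι).mpr hξ
    have hu : Reduction.IsUpper G := upper_of_conj_unip h0 (mul_inv_eq_iff_eq_mul.mpr hg)
    have hr : upperRatio G * ι ξ = ι ξ :=
      eq_of_mk_unip_eq ((mk_upper_conj_unip hu _).symm.trans (mul_inv_eq_iff_eq_mul.mpr hg))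
    refine mul_inv_eq_iff_eq_mul.mp ((mk_upper_conj_unip hu _).trans ?_)
    rw [(mul_eq_right₀ h0).mp hr, one_mul]
    rfl

variable (ι σ) in
/-- **The twisted piece of the unipotent class.** -/
def unipPieceL (hc : IsCubic ι σ) (X : Type*) [MulAction (PGLIndex F) X] :
    Piece (PGLIndex F) X (Twisted (pglAut σ)) Kˣ where
  Z := (upperImage K).map (pglBase ι)
  j ξ := unipDelta ι σ (ξ : K)
  inj ξ ξ' h := by
    have e := congrArg Twisted.norm h
    simp only [norm_unipDelta hc] at e
    exact Units.ext (ι.injective (eq_of_mk_unip_eq e))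
  C := normClass ι σ (ConjClasses.mk (QuotientGroup.mk (unip (1 : K))))
  isClass :=
    { mem_iff := fun δ => by
        constructor
        · intro h
          obtain ⟨g, hg⟩ := exists_smul_norm_of_mem_normClass hc h
          obtain ⟨g', hg'⟩ := hc.exists_smul_eq hg (norm_unipDelta_base hc 1)
          exact ⟨(g' * g)⁻¹, 1, by rw [inv_inv, mul_smul, hg']; rfl⟩
        · rintro ⟨g, ξ, hξ⟩
          refine ⟨QuotientGroup.mk (unip (ξ : K)), ConjClasses.mk_eq_mk_iff_isConj.mpr
            (isConj_unip ξ.ne_zero one_ne_zero), g⁻¹, ?_⟩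
          rw [← norm_unipDelta_base hc, ← Twisted.norm_smul (pglAut_iterate hc.pow), ← hξ]
      stable := by
        rintro _ ⟨z, ⟨g, hg, rfl⟩, rfl⟩ _ ⟨ξ, rfl⟩
        exact ⟨Units.mk0 _ (upperRatio_ne_zero hg) * ξ, (pglBase_smul_unipDelta hc hg _).symm⟩
      mem_of_smul := by
        rintro g _ ⟨ξ, rfl⟩ ⟨ξ', hg⟩
        obtain ⟨z, hz, hzr⟩ := exists_upper_scale ((ξ' : K) / ξ)
          (div_ne_zero ξ'.ne_zero ξ.ne_zero)
        have h1 : (pglBase ι (QuotientGroup.mk z))⁻¹ * g ∈
            MulAction.stabilizer (PGLIndex F) (unipDelta ι σ (ξ : K)) := by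
          rw [MulAction.mem_stabilizer_iff, mul_smul, ← hg, inv_smul_eq_iff,
            pglBase_smul_unipDelta hc hz, hzr, div_mul_cancel₀ _ ξ.ne_zero]
        rw [hc.stabilizer_eq (isNormalised_unipDelta hc ξ.ne_zero)] at h1
        obtain ⟨c, hcc, hce⟩ := h1
        rw [SetLike.mem_coe, Subgroup.mem_centralizer_singleton_iff] at hcc
        obtain ⟨C, rfl⟩ := QuotientGroup.mk_surjective c
        refine ⟨QuotientGroup.mk z * QuotientGroup.mk C, ?_, ?_⟩
        · exact ⟨z * C, hz.mul (upper_of_conj_unip ξ.ne_zero (mul_inv_eq_iff_eq_mul.mpr hcc)),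
            QuotientGroup.mk_mul _ _ _⟩
        · rw [map_mul, hce, mul_inv_cancel_left] }

variable (K) in
/-- **The untwisted piece of the unipotent class.** -/
def unipPieceK (X : Type*) [MulAction (PGLIndex K) X] :
    Piece (PGLIndex K) X (Twisted (pglAut (RingEquiv.refl K))) Kˣ where
  Z := upperImage K
  j ξ := unipIdx K (ξ : K)
  inj ξ ξ' h := Units.ext (eq_of_mk_unip_eq (congrArg Twisted.val h))
  C := baseClass (ConjClasses.mk (QuotientGroup.mk (unip (1 : K))))
  isClass :=
    { mem_iff := fun c => by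
        constructor
        · intro h
          obtain ⟨g, hg⟩ := isConj_iff.mp (ConjClasses.mk_eq_mk_iff_isConj.mp h)
          refine ⟨g⁻¹, 1, ?_⟩
          rw [inv_inv]
          refine Twisted.ext ?_
          rw [smul_refl_val, hg]
          rfl
        · rintro ⟨g, ξ, hξ⟩
          refine ConjClasses.mk_eq_mk_iff_isConj.mpr
            (IsConj.trans (isConj_iff.mpr ⟨g⁻¹, ?_⟩) (isConj_unip ξ.ne_zero one_ne_zero))
          rw [← smul_refl_val, ← hξ]
          rfl
      stable := by
        rintro _ ⟨g, hg, rfl⟩ _ ⟨ξ, rfl⟩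
        refine ⟨Units.mk0 _ (upperRatio_ne_zero hg) * ξ, Twisted.ext ?_⟩
        rw [smul_refl_val]
        exact (mk_upper_conj_unip hg _).symm
      mem_of_smul := by
        rintro g _ ⟨ξ, rfl⟩ ⟨ξ', hg⟩
        obtain ⟨G, rfl⟩ := QuotientGroup.mk_surjective g
        refine ⟨G, upper_of_conj_unip (b := (ξ' : K)) ξ.ne_zero ?_, rfl⟩
        have e := congrArg Twisted.val hg
        rw [smul_refl_val] at e
        exact e.symm }

/-- The identification of the stabilisers. -/
def unipZEquiv (hc : IsCubic ι σ) : (upperImage K).map (pglBase ι) ≃* upperImage K :=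
  ((upperImage K).equivMapOfInjective _ hc.pglBase_injective).symm

omit [NumberField F] [NumberField K] in
/-- The identification of the stabilisers inverts base change. -/
theorem pglBase_unipZEquiv (hc : IsCubic ι σ) (z : (upperImage K).map (pglBase ι)) :
    pglBase ι (unipZEquiv hc z : PGLIndex K) = (z : PGLIndex F) := by
  obtain ⟨w, rfl⟩ := (unipZEquiv hc).symm.surjective z
  rw [MulEquiv.apply_symm_apply]
  rfl

end Fermat.Agent.LT.Geometric

end
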