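import Fermat.Agent.LT.Geometric.PieceBand
import Fermat.Agent.LT.Geometric.TermMatch
import Fermat.Agent.LT.Geometric.TestFacts
import Fermat.Agent.LT.Geometric.UnipotentPiece
import Fermat.Agent.LT.Geometric.UnipotentBand
import Fermat.Agent.LT.Geometric.UnipotentOrbits
import Fermat.Agent.LT.PlaceMatching.UnipotentTransfer

/-!
# The unipotent and identity classes

For compatible tests, cuspidal over a moved place, the difference of the cut-off integrals of the
class of a nontrivial unipotent, and of the identity, tends to zero.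
-/

set_option autoImplicit false

noncomputable section

open MeasureTheory Filter Topology
open scoped ENNReal NNReal NumberField
open NumberField (InfinitePlace IsTotallyComplex)

namespace Fermat.Agent.LT.Geometric

open CubicDescent PlaceMatching
open Places

theorem coversReps_mono {F : Type*} [Field F] [NumberField F] {U : Level F}
    {R R' : Finset (GLFin F)} (h : CoversReps U R) (hR : R ⊆ R') : CoversReps U R' := fun y => by
  obtain ⟨g, r, hr, e⟩ := h y
  exact ⟨g, r, hR hr, e⟩

universe u u'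

variable {K : Type u} {L : Type u'} [Field K] [NumberField K] [Field L] [NumberField L]
  [IsTotallyComplex K] [IsTotallyComplex L] [Unique (InfinitePlace K)]
  {ι : K →+* L} {σ : L ≃+* L} {φ₀ : L →+* ℂ} {I : Ideal (𝓞 L)} {J : Ideal (𝓞 K)}
  {hI : ∃ N : ℕ, 0 < N ∧ (N : 𝓞 L) ∈ I} {hJ : ∃ N : ℕ, 0 < N ∧ (N : 𝓞 K) ∈ J}
  {hm : LevelsMatch ι σ I J} {hc : IsCubic ι σ} {s : PlaceSection ι}
  {k : Fin 3 → KerFam J} {kL : KerFam I} {q : Kernel.PointKer L} {qK : Kernel.PointKer K}
  {κ : Fin 3 → H3 → H3 → ℂ}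

/-- **The unipotent class.** -/
theorem exists_reps_unipotentClass
    (hemb : ∀ v : InfinitePlace K, v.embedding = φ₀.comp ι)
    (hcomplex : ¬ NumberField.ComplexEmbedding.IsReal (φ₀.comp ι))
    {v₀ : FinPlace K} (hv₀ : s.Moved σ v₀)
    (hcusp : HasCuspConditionAt (kL.hecke hI) (finExtend ι (idem v₀)))
    (hinv : ∀ i (g : GL (Fin 2) ℂ) P Q, κ i (g • P) (g • Q) = κ i P Q)
    (hq : ∀ P Q, q.toFun P Q = coordKernel φ₀ σ κ P Q)
    (hqK : ∀ P Q, qK.toFun P Q = tripleKernel H3.vol κ (P default) (Q default))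
    (hk : Compatible hm hc s k kL)
    (wL : PartitionOfUnity (Level.ofIdeal L I hI)) (hwL : Measurable wL.weight)
    (wK : PartitionOfUnity (Level.ofIdeal K J hJ)) (hwK : Measurable wK.weight) :
    ∃ (RL : Finset (GLFin L)) (RK : Finset (GLFin K)), ∀ R R', RL ⊆ R → RK ⊆ R' →
      Tendsto (fun T : ℕ =>
        ∫ x, (wL.weight x * cutoff (Level.ofIdeal L I hI) R (T : ℝ) x) •
            ∑' d : normClass ι σ (ConjClasses.mk (QuotientGroup.mk (unip (1 : K)))),
              term σ (hm.stable hc) q (kL.hecke hI) d x ∂yVol (Level.ofIdeal L I hI) -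
          ∫ y, (wK.weight y * cutoff (Level.ofIdeal K J hJ) R' (T : ℝ) y) •
            ∑' c : baseClass (ConjClasses.mk (QuotientGroup.mk (unip (1 : K)))),
              term (RingEquiv.refl K) (refl_stable _) qK
                ((k 0).hecke hJ * (k 1).hecke hJ * (k 2).hecke hJ) c y
              ∂yVol (Level.ofIdeal K J hJ)) atTop (𝓝 0) := by
  classical
  obtain ⟨RL, RK, hRL, hRK, hband⟩ :=
    exists_reps_pieceBand.{u} (Level.ofIdeal L I hI) (Level.ofIdeal K J hJ)
  refine ⟨RL, RK, fun R R' hR hR' => ?_⟩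
  have : Countable K := (Module.finBasis ℚ K).equivFun.injective.countable
  have : Countable Kˣ := Units.val_injective.countable
  have : Countable (PGLIndex K) := Reduction.countable_pglIndex
  have : MeasurableConstSMul (PGLIndex K) (Y (Level.ofIdeal K J hJ)) := ⟨measurable_pglSmul⟩
  choose T hT using fun ξ : K => exists_transfer_unip hm hc s ξ
  set pif : KerFam.Cst hI → KerFam.Cst hJ := fun c => (T 1).proj hJ c with hpifdef
  have hpT : ∀ ξ c, (T ξ).proj hJ c = pif c := fun ξ c =>
    Transfer.proj_eq_of_y (T ξ) (T 1) ((hT ξ).trans (hT 1).symm) c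
  have hπT : ∀ ξ, (T ξ).piY φ₀ hI hJ = pairProj φ₀ pif := fun ξ =>
    funext fun z => Prod.ext rfl (hpT ξ z.2)
  have hNξ : ∀ ξ : K, twistedNorm (glMap σ) (unip (ι ξ / 3)) 3 =
      Matching.baseUnit ι (unip ξ) := twistedNorm_unip_third hc
  have hequiv : ∀ (ξ : Kˣ) (x : Y (Level.ofIdeal L I hI)),
      term σ (hm.stable hc) q (kL.hecke hI) (unipDelta ι σ (ξ : K)) x ≠ 0 →
      ∀ g : GL (Fin 2) K,
        pif (glIncl L (Matching.baseUnit ι g) • x.2) = glIncl K g • pif x.2 := fun ξ x hx g => by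
    rw [← hpT (ξ : K), ← hpT (ξ : K)]
    exact Transfer.proj_smul_of_y_one (T (ξ : K)) (hT _) g
      (Transfer.onSupport_of_term_ne_zero hk hx)
  have hw := (isPartition_weight wK hwK).isPartition_subPartition (upperImage K)
    fun _ _ _ _ => Set.mem_univ _
  let PM : PieceMatch (yVol (Level.ofIdeal L I hI)) (yVol (Level.ofIdeal K J hJ))
      (unipPieceL ι σ hc (Y (Level.ofIdeal L I hI))) (unipPieceK K (Y (Level.ofIdeal K J hJ)))
      (term σ (hm.stable hc) q (kL.hecke hI))
      (term (RingEquiv.refl K) (refl_stable _) qK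
        ((k 0).hecke hJ * (k 1).hecke hJ * (k 2).hecke hJ))
      (term (RingEquiv.refl K) (refl_stable _) (archMajorant K q)
        ((k 0).abs.hecke hJ * (k 1).abs.hecke hJ * (k 2).abs.hecke hJ)) :=
    { s := {x | ∃ ξ : Kˣ, term σ (hm.stable hc) q (kL.hecke hI) (unipDelta ι σ (ξ : K)) x ≠ 0}
      supp := fun x hx ξ => by
        by_contra h
        exact hx ⟨ξ, h⟩
      π := pairProj φ₀ pif
      measurable_π := measurable_pairProj pif
      e := unipZEquiv hc
      equivariant := fun z x hx => by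
        obtain ⟨ξ, hξ⟩ := hx
        obtain ⟨g, hg⟩ := QuotientGroup.mk_surjective (unipZEquiv hc z : PGLIndex K)
        show pairProj φ₀ pif ((z : PGLIndex L) • x) =
          (unipZEquiv hc z : PGLIndex K) • pairProj φ₀ pif x
        rw [← pglBase_unipZEquiv hc z, ← hg, pglBase_mk, pgl_mk_smul, pgl_mk_smul]
        exact Prod.ext (archProj_smul hemb g x.1) (hequiv ξ x hξ g)
      w := subPartition (upperImage K) fun y => (wK.weight y).toNNReal
      isPartition := hw
      isMatch := fun ξ => by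
        rw [← hπT (ξ : K)]
        exact (T (ξ : K)).match_term hemb (hNξ _) hcomplex hinv hq hqK hk
      majorant := fun ξ => by
        rw [← hπT (ξ : K)]
        exact (T (ξ : K)).matchLe_term hemb (hNξ _) hcomplex q hk }
  have hb := fun S : ℕ => hband R R' hR hR' σ (hm.stable hc) wL hwL wK hwK q (kL.hecke hI) qK
    ((k 0).hecke hJ * (k 1).hecke hJ * (k 2).hecke hJ) (archMajorant K q)
    ((k 0).abs.hecke hJ * (k 1).abs.hecke hJ * (k 2).abs.hecke hJ) _ _ PM (S : ℝ)
  refine Tendsto.congr (fun S : ℕ => (hb S).2.symm) ?_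
  refine tendsto_unipotentBand (hm.stable hc) q (kL.hecke hI) (archMajorant K q)
    ((k 0).abs.hecke hJ * (k 1).abs.hecke hJ * (k 2).abs.hecke hJ) pif hc hemb hcomplex
    (cuspIdem_of_moved hc hv₀) hcusp (fun c u hu => proj_unip_sub (T 1) hv₀ hu c)
    (fun ξ x hx g _ => hequiv ξ x hx g) ?_ ((exists_unipotent_cosets (hm.stable hc) q (kL.hecke hI)
      hc).imp fun _ hC ξ x h => hC x _ h)
    (fun z => mem_upperImage) hw (coversReps_mono hRL hR) (coversReps_mono hRK hR') fun S =>
      (hb S).1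
  intro ξ x hx
  have h := Transfer.majorant_term_ne_zero (hJ := hJ) (T (ξ : K)) hemb (hNξ _) q hk hx
  rwa [hπT] at h

/-- **The identity class.** -/
theorem exists_reps_identityClass
    (hemb : ∀ v : InfinitePlace K, v.embedding = φ₀.comp ι)
    (hcomplex : ¬ NumberField.ComplexEmbedding.IsReal (φ₀.comp ι))
    (hinv : ∀ i (g : GL (Fin 2) ℂ) P Q, κ i (g • P) (g • Q) = κ i P Q)
    (hq : ∀ P Q, q.toFun P Q = coordKernel φ₀ σ κ P Q)
    (hqK : ∀ P Q, qK.toFun P Q = tripleKernel H3.vol κ (P default) (Q default))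
    (hk : Compatible hm hc s k kL)
    (wL : PartitionOfUnity (Level.ofIdeal L I hI)) (hwL : Measurable wL.weight)
    (wK : PartitionOfUnity (Level.ofIdeal K J hJ)) (hwK : Measurable wK.weight) :
    ∃ (RL : Finset (GLFin L)) (RK : Finset (GLFin K)), ∀ R R', RL ⊆ R → RK ⊆ R' →
      Tendsto (fun T : ℕ =>
        ∫ x, (wL.weight x * cutoff (Level.ofIdeal L I hI) R (T : ℝ) x) •
            ∑' d : normClass ι σ (ConjClasses.mk (1 : PGLIndex K)),
              term σ (hm.stable hc) q (kL.hecke hI) d x ∂yVol (Level.ofIdeal L I hI) -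
          ∫ y, (wK.weight y * cutoff (Level.ofIdeal K J hJ) R' (T : ℝ) y) •
            ∑' c : baseClass (ConjClasses.mk (1 : PGLIndex K)),
              term (RingEquiv.refl K) (refl_stable _) qK
                ((k 0).hecke hJ * (k 1).hecke hJ * (k 2).hecke hJ) c y
              ∂yVol (Level.ofIdeal K J hJ)) atTop (𝓝 0) := by
  classical
  obtain ⟨RL, RK, hRL, hRK, hband⟩ :=
    exists_reps_pieceBand.{0} (Level.ofIdeal L I hI) (Level.ofIdeal K J hJ)
  refine ⟨RL, RK, fun R R' hR hR' => ?_⟩
  obtain ⟨P, hPm, hPi, -⟩ := Reduction.exists_partitionOfUnity (Level.ofIdeal K J hJ)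
  obtain ⟨T, -⟩ := exists_transfer_unip hm hc s (0 : K)
  have hz : unip (ι (0 : K) / 3) = (1 : GL (Fin 2) L) := by
    rw [map_zero, zero_div]; exact AddChar.map_zero_eq_one _
  have hz' : (QuotientGroup.mk (unip (0 : K)) : PGLIndex K) = 1 :=
    (congrArg QuotientGroup.mk (AddChar.map_zero_eq_one _)).trans (QuotientGroup.mk_one _)
  set δ : Twisted (pglAut σ) := Twisted.mk _ (QuotientGroup.mk (unip (ι (0 : K) / 3))) with hδ
  set c₀ : Twisted (pglAut (RingEquiv.refl K)) :=
    Twisted.mk _ (QuotientGroup.mk (unip (0 : K))) with hc₀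
  have hn : IsNormalised ι δ (QuotientGroup.mk (unip (0 : K))) := by
    refine ⟨norm_unipDelta_base hc 0, fun g _ => ?_⟩
    show Commute g (QuotientGroup.mk (unip (ι (0 : K) / 3)))
    rw [hz, QuotientGroup.mk_one]
    exact Commute.one_right g
  have hstab : ∀ g : PGLIndex K, g ∈ MulAction.stabilizer (PGLIndex K) c₀ := fun g => by
    rw [hc₀, stabilizer_refl, hz', Subgroup.mem_centralizer_singleton_iff]
    simp
  have hP := isPartition_weight P hPm
  have hw : IsPartition (MulAction.stabilizer (PGLIndex K) c₀) Set.univ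
      fun y => (P.weight y).toNNReal :=
    ⟨hP.measurable, fun y hy => (HasSum.congr_fun
      ((Equiv.subtypeUnivEquiv hstab).hasSum_iff.mpr (hP.hasSum y hy)) fun _ => rfl)⟩
  let PM := T.pieceMatch (hI := hI) (hJ := hJ) hemb (twistedNorm_unip_third hc 0) hcomplex q hinv hq
      hqK hk hn hw
  have hC : MulAction.orbit (PGLIndex L) δ = normClass ι σ (ConjClasses.mk (1 : PGLIndex K)) := by
    ext d
    constructor
    · rintro ⟨g, rfl⟩
      refine ⟨1, rfl, g⁻¹, ?_⟩
      rw [Twisted.norm_smul (pglAut_iterate hc.pow), hn.norm_eq, hz']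
      simp
    · intro hd
      obtain ⟨g, hg⟩ := exists_smul_norm_of_mem_normClass hc hd
      obtain ⟨g', hg'⟩ := hc.exists_smul_eq (hn.norm_eq.trans (congrArg _ hz')) hg
      exact ⟨g⁻¹ * g', by simp [mul_smul, hg']⟩
  have hC' : MulAction.orbit (PGLIndex K) c₀ = baseClass (ConjClasses.mk (1 : PGLIndex K)) := by
    have hv : c₀.val = 1 := hz'
    ext c
    constructor
    · rintro ⟨g, rfl⟩
      show ConjClasses.mk (g • c₀).val = _
      rw [smul_refl_val, hv, mul_one, mul_inv_cancel]
    · intro h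
      refine ⟨1, Twisted.ext ?_⟩
      simp only [one_smul]
      rw [hv]
      exact (isConj_one_right.mp (ConjClasses.mk_eq_mk_iff_isConj.mp h).symm).symm
  have hb := fun S : ℕ => hband R R' hR hR' σ (hm.stable hc) wL hwL wK hwK q (kL.hecke hI) qK
    ((k 0).hecke hJ * (k 1).hecke hJ * (k 2).hecke hJ) (archMajorant K q)
    ((k 0).abs.hecke hJ * (k 1).abs.hecke hJ * (k 2).abs.hecke hJ) _ _ PM (S : ℝ)
  rw [← hC, ← hC']
  refine Tendsto.congr (fun S : ℕ => (hb S).2.symm) ?_
  simp only [orbitPiece, tsum_fintype, Finset.univ_unique, Finset.sum_singleton]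
  refine tendsto_band (w := fun y => (P.weight y).toNNReal) T.measurable_piY ?_
    (fun S => measurable_cutoff) (fun S => measurable_cutoff) (fun S => cutoff_le_one _ _ _)
    (fun S => cutoff_le_one _ _ _) (tendsto_cutoff_one (coversReps_mono hRL hR))
    (tendsto_cutoff_one (coversReps_mono hRK hR'))
  -- the term of the identity is integrable against the partition of finite mass
  set Mt := term (RingEquiv.refl K) (refl_stable (Level.ofIdeal K J hJ)) (archMajorant K q)
    ((k 0).abs.hecke hJ * (k 1).abs.hecke hJ * (k 2).abs.hecke hJ) c₀ with hMt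
  obtain ⟨C, hC0, hCb⟩ := exists_kernel_bound
    ((k 0).abs.hecke hJ * (k 1).abs.hecke hJ * (k 2).abs.hecke hJ)
  have hMb : ∀ y, ‖Mt y‖ₑ ≤ ENNReal.ofReal ((archMajorant K q).bound * C) := fun y => by
    rw [← ofReal_norm]
    refine ENNReal.ofReal_le_ofReal ?_
    rw [hMt, term, norm_mul]
    exact mul_le_mul ((archMajorant K q).norm_le _ _) (hCb _ _) (norm_nonneg _)
      (archMajorant K q).bound_nonneg
  have hπm : Measurable (T.piY φ₀ hI hJ) := T.measurable_piY
  refine ⟨((hPm.real_toNNReal.comp hπm).coe_nnreal_real.smul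
    (measurable_term σ (hm.stable hc) q (kL.hecke hI) δ)).aestronglyMeasurable, ?_⟩
  rw [hasFiniteIntegral_iff_enorm]
  simp only [enorm_smul_nnreal]
  refine lt_of_le_of_lt ((lintegral_mono fun z => le_of_eq (mul_comm _ _)).trans
    (T.matchLe_term (hI := hI) hemb (twistedNorm_unip_third hc 0) hcomplex q hk
      (fun y => ((P.weight y).toNNReal : ℝ≥0∞)) hPm.real_toNNReal.coe_nnreal_ennreal)) ?_
  refine lt_of_le_of_lt (lintegral_mono fun y => mul_le_mul_left (hMb y) _) ?_
  rw [lintegral_const_mul' _ _ ENNReal.ofReal_ne_top]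
  exact ENNReal.mul_lt_top ENNReal.ofReal_lt_top hPi.lintegral_lt_top

end Fermat.Agent.LT.Geometric

end
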