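import Fermat.Agent.LT.Setup.Level
import Fermat.Agent.LT.Matching.Rational
import Mathlib.GroupTheory.GroupAction.Defs

/-!
# Twisted classes of `PGL₂` over a cyclic cubic extension

Twisted classes of `PGL₂(L)` inject by the norm into the conjugacy classes of `PGL₂(K)`, and every
class has a representative commuting with the centraliser of its norm; its twisted stabiliser is
that centraliser over `K`.
-/

set_option autoImplicit false

noncomputable section

open scoped Matrix

namespace Fermat.Agent.LT.Geometric

open CubicDescent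

/-- `G` acting on itself by `g * δ = g δ f(g)⁻¹`. -/
def Twisted {G : Type*} [Group G] (_f : G →* G) : Type _ := G

variable {G : Type*} [Group G] {f : G →* G}

/-- An element as an index. -/
def Twisted.mk (f : G →* G) (δ : G) : Twisted f := δ

/-- An index as an element. -/
def Twisted.val (δ : Twisted f) : G := δ

instance twistedMulAction (f : G →* G) : MulAction G (Twisted f) where
  smul g δ := Twisted.mk f (g * δ.val * (f g)⁻¹)
  one_smul δ := show (1 * δ.val * (f 1)⁻¹ : G) = δ.val by simp
  mul_smul g h δ := show (g * h * δ.val * (f (g * h))⁻¹ : G) =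
      g * (h * δ.val * (f h)⁻¹) * (f g)⁻¹ by simp [mul_assoc]

/-- The twisted conjugation `g δ f(g)⁻¹`. -/
theorem Twisted.val_smul (g : G) (δ : Twisted f) : (g • δ).val = g * δ.val * (f g)⁻¹ := rfl

/-- A twisted index is determined by its value. -/
theorem Twisted.ext {δ δ' : Twisted f} (h : δ.val = δ'.val) : δ = δ' := h

/-- The norm of a twisted index for an endomorphism of order three. -/
def Twisted.norm (δ : Twisted f) : G := twistedNorm f δ.val 3

/-- The norm of a twisted index is `δ f(δ) f(f(δ))`. -/
theorem Twisted.norm_eq (δ : Twisted f) : δ.norm = δ.val * (f δ.val * f (f δ.val)) := by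
  simp [Twisted.norm, twistedNorm, map_mul]

/-- The norm takes twisted conjugation to conjugation. -/
theorem Twisted.norm_smul (hf : ∀ g, f (f (f g)) = g) (g : G) (δ : Twisted f) :
    (g • δ).norm = g * δ.norm * g⁻¹ := by
  rw [Twisted.norm_eq, Twisted.norm_eq, Twisted.val_smul]
  simp only [map_mul, map_inv, hf]
  group

section Field

variable {L : Type*} [Field L] [NumberField L]

/-- The automorphism of `PGL₂` induced by a field automorphism. -/
def pglAut (σ : L ≃+* L) : PGLIndex L →* PGLIndex L :=
  QuotientGroup.map _ _ (glMap σ) (by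
    rintro _ ⟨a, rfl⟩
    exact ⟨Units.map σ.toRingHom.toMonoidHom a, (glMap_scalarUnit σ a).symm⟩)

omit [NumberField L] in
/-- The automorphism of `PGL₂` on the class of a matrix. -/
theorem pglAut_mk (σ : L ≃+* L) (x : GL (Fin 2) L) :
    pglAut σ (QuotientGroup.mk x) = QuotientGroup.mk (glMap σ x) := rfl

omit [NumberField L] in
/-- Two matrices agree in `PGL₂` exactly when they differ by a scalar. -/
theorem pgl_mk_eq_iff {x y : GL (Fin 2) L} :
    (QuotientGroup.mk x : PGLIndex L) = QuotientGroup.mk y ↔
      ∃ a : Lˣ, y = scalarUnit a * x := by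
  rw [QuotientGroup.eq]
  constructor
  · rintro ⟨a, ha⟩
    exact ⟨a, by rw [scalarUnit_comm, show scalarUnit a = scalarGlobal L a from rfl, ha,
      mul_inv_cancel_left]⟩
  · rintro ⟨a, rfl⟩
    exact ⟨a, by rw [scalarUnit_comm, inv_mul_cancel_left]; rfl⟩

omit [NumberField L] in
/-- The automorphism of `PGL₂` induced by `σ` has cube the identity. -/
theorem pglAut_iterate {σ : L ≃+* L} (hσ : σ ^ 3 = 1) (g : PGLIndex L) :
    pglAut σ (pglAut σ (pglAut σ g)) = g := by
  induction g using QuotientGroup.induction_on with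
  | H x =>
    simp only [pglAut_mk]
    congr 1
    ext : 1
    have h := glMap_iterate σ x 3
    simp only [Function.iterate_succ, Function.iterate_zero, Function.comp_apply, id_eq] at h
    rw [h, hσ]
    ext; simp

omit [NumberField L] in
/-- The norm of the class of a matrix is the class of its twisted norm. -/
theorem norm_mk (σ : L ≃+* L) (x : GL (Fin 2) L) :
    (Twisted.mk (pglAut σ) (QuotientGroup.mk x)).norm =
      QuotientGroup.mk (twistedNorm (glMap σ) x 3) := by
  rw [Twisted.norm_eq]
  simp [twistedNorm, Twisted.val, Twisted.mk, pglAut_mk, map_mul]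

omit [NumberField L] in
theorem scalarUnit_apply_zero (a : Lˣ) : ((scalarUnit a : GL (Fin 2) L)).val 0 0 = (a : L) := by
  simp [scalarUnit]

omit [NumberField L] in
theorem scalarUnit_injective : Function.Injective (scalarUnit : Lˣ → GL (Fin 2) L) := fun a b h =>
  Units.ext (by rw [← scalarUnit_apply_zero a, ← scalarUnit_apply_zero b, h])

omit [NumberField L] in
/-- In a cubic extension a scalar with fixed square is fixed. -/
theorem fixed_of_sq_fixed [CharZero L] {σ : L ≃+* L} (hσ : σ ^ 3 = 1) {c : L}
    (hc : σ c ^ 2 = c ^ 2) : σ c = c := by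
  rcases sq_eq_sq_iff_eq_or_eq_neg.mp hc with h4 | h4
  · exact h4
  · have h5 : (σ ^ 3) c = -c := by
      simp [pow_succ', RingAut.mul_apply, h4]
    rw [hσ] at h5
    simp only [RingAut.one_apply] at h5
    rw [h4, ← h5]

/-- A scalar in front of a rational norm is rational. -/
theorem scalar_fixed_of_norm {σ : L ≃+* L} (hσ : σ ^ 3 = 1) {z m : GL (Fin 2) L}
    (hm : glMap σ m = m) {c : Lˣ} (hz : twistedNorm (glMap σ) z 3 = scalarUnit c * m) :
    σ (c : L) = c := by
  have hper : (⇑(glMap σ))^[3] z = z := by
    ext : 1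
    rw [glMap_iterate, hσ]
    ext; simp
  have h1 := twistedNorm_succ' (glMap σ) z 3
  rw [twistedNorm_succ, hper, hz, map_mul, glMap_scalarUnit, hm] at h1
  have h2 := congrArg (fun M : GL (Fin 2) L => M.val.det) h1
  simp only [Units.val_mul, Matrix.det_mul, det_scalarUnit, Units.coe_map] at h2
  have hd : m.val.det ≠ 0 := ((Matrix.isUnit_iff_isUnit_det _).mp m.isUnit).ne_zero
  have hd' : z.val.det ≠ 0 := ((Matrix.isUnit_iff_isUnit_det _).mp z.isUnit).ne_zero
  have h3 : σ (c : L) ^ 2 = (c : L) ^ 2 :=
    mul_right_cancel₀ hd (mul_left_cancel₀ hd' (h2.trans (mul_comm _ _)))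
  exact fixed_of_sq_fixed hσ h3

/-- A matrix is scalar. -/
def IsScalarMat (A : Matrix (Fin 2) (Fin 2) L) : Prop := ∃ a : L, A = a • 1

omit [NumberField L] in
/-- The commutant of a nonscalar two by two matrix is commutative. -/
theorem commute_of_commute_nonscalar {A X Y : Matrix (Fin 2) (Fin 2) L} (hA : ¬ IsScalarMat A)
    (hX : A * X = X * A) (hY : A * Y = Y * A) : X * Y = Y * X := by
  obtain ⟨P, hP, hPe⟩ := exists_conj_companionTwo A fun a h => hA ⟨a, h⟩
  set C := companionTwo A.trace A.det with hC
  have hPu : IsUnit P := (Matrix.isUnit_iff_isUnit_det P).mpr (isUnit_iff_ne_zero.mpr hP)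
  obtain ⟨u, rfl⟩ := hPu
  have key : ∀ Z : Matrix (Fin 2) (Fin 2) L, A * Z = Z * A →
      C * ((u⁻¹).val * Z * u) = (u⁻¹).val * Z * u * C := fun Z hZ => by
    have hC' : C = (u⁻¹).val * A * u := by rw [mul_assoc, hPe, ← mul_assoc, Units.inv_mul, one_mul]
    rw [hC']
    simp only [mul_assoc, Units.mul_inv_cancel_left]
    rw [← mul_assoc A, hZ, mul_assoc]
  have hcomm : ∀ U V : Matrix (Fin 2) (Fin 2) L, C * U = U * C → C * V = V * C → U * V = V * U := by
    intro U V hU hV
    have h1 := congrFun (congrFun hU 0) 0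
    have h2 := congrFun (congrFun hU 1) 0
    have h3 := congrFun (congrFun hV 0) 0
    have h4 := congrFun (congrFun hV 1) 0
    simp [hC, companionTwo, Matrix.mul_apply, Fin.sum_univ_two] at h1 h2 h3 h4
    ext i j
    fin_cases i <;> fin_cases j <;> simp [Matrix.mul_apply, Fin.sum_univ_two] <;> grind
  have h := hcomm _ _ (key X hX) (key Y hY)
  simp only [mul_assoc, Units.mul_inv_cancel_left] at h
  have h' := (Units.isUnit u⁻¹).mul_left_cancel h
  simp only [← mul_assoc] at h'
  exact (Units.isUnit u).mul_right_cancel h'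

variable {K : Type*} [Field K] [NumberField K] (ι : K →+* L)

/-- Extension of scalars on `PGL₂`. -/
def pglBase : PGLIndex K →* PGLIndex L :=
  QuotientGroup.map _ _ (Matching.baseUnit ι) (by
    rintro _ ⟨a, rfl⟩
    exact ⟨Units.map ι.toMonoidHom a, Units.ext (by
      ext i j
      by_cases h : i = j
      · subst h; simp [scalarGlobal]
      · simp [scalarGlobal, h])⟩)

omit [NumberField L] [NumberField K] in
/-- Base change on the class of a matrix. -/
theorem pglBase_mk (x : GL (Fin 2) K) :
    pglBase ι (QuotientGroup.mk x) = QuotientGroup.mk (Matching.baseUnit ι x) := rfl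

/-- The hypotheses on the cubic extension. -/
structure IsCubic (σ : L ≃+* L) : Prop where
  fixed : ∀ x : L, σ x = x ↔ x ∈ Set.range ι
  pow : σ ^ 3 = 1
  ne_one : σ ≠ 1

variable {ι} {σ : L ≃+* L} (h : IsCubic ι σ)
include h

omit [NumberField L] [NumberField K] in
/-- The powers `1, σ, σ²` are distinct. -/
theorem IsCubic.injective : Function.Injective fun i : Fin (2 * 1 + 1) => σ ^ (i : ℕ) := by
  have ho : orderOf σ = 3 := orderOf_eq_prime h.pow h.ne_one
  intro i j hij
  exact Fin.ext (pow_injOn_Iio_orderOf (x := σ)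
    (by rw [Set.mem_Iio, ho]; exact i.2) (by rw [Set.mem_Iio, ho]; exact j.2) hij)

omit [Field K] [NumberField K] h in
theorem infinite_fixedSubfield : Infinite (fixedSubfield σ) :=
  Infinite.of_injective (fun n : ℕ => (n : fixedSubfield σ)) Nat.cast_injective

omit [NumberField L] [NumberField K] in
/-- `PGL₂(K) → PGL₂(F)` is injective. -/
theorem IsCubic.pglBase_injective : Function.Injective (pglBase ι) := by
  refine (injective_iff_map_eq_one _).mpr fun g => ?_
  induction g using QuotientGroup.induction_on with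
  | H x =>
    intro hx
    rw [pglBase_mk, ← QuotientGroup.mk_one, eq_comm, pgl_mk_eq_iff] at hx
    obtain ⟨a, ha⟩ := hx
    rw [mul_one] at ha
    have hfix := Matching.glMap_baseUnit h.fixed x
    rw [ha] at hfix
    rw [glMap_scalarUnit] at hfix
    have hσa : σ (a : L) = a := congrArg Units.val (scalarUnit_injective hfix)
    obtain ⟨c, hc⟩ := (h.fixed _).mp hσa
    have hc0 : c ≠ 0 := by
      rintro rfl
      exact a.ne_zero (by rw [← hc, map_zero])
    rw [← QuotientGroup.mk_one, eq_comm, pgl_mk_eq_iff]
    refine ⟨Units.mk0 c hc0, Matching.baseUnit_injective ι (Units.ext ?_)⟩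
    rw [ha, mul_one]
    ext i j
    by_cases hij : i = j
    · subst hij; simp [scalarUnit, hc]
    · simp [scalarUnit, hij]

omit [NumberField L] [NumberField K] in
/-- The image of `PGL₂(K)` is fixed by `σ`. -/
theorem IsCubic.pglAut_base (g : PGLIndex K) : pglAut σ (pglBase ι g) = pglBase ι g := by
  induction g using QuotientGroup.induction_on with
  | H x => rw [pglBase_mk, pglAut_mk, Matching.glMap_baseUnit h.fixed]

omit [NumberField K] in
/-- The fixed points of `σ` on `PGL₂(L)` are rational. -/
theorem IsCubic.exists_base_of_fixed {g : PGLIndex L} (hg : pglAut σ g = g) :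
    ∃ g₀, pglBase ι g₀ = g := by
  induction g using QuotientGroup.induction_on with
  | H x =>
    rw [pglAut_mk, eq_comm, pgl_mk_eq_iff] at hg
    obtain ⟨c, hc⟩ := hg
    have : Infinite (fixedSubfield σ) := infinite_fixedSubfield
    -- the cocycle `c` has norm one
    have hc3 : twistedNorm (Units.map σ.toRingHom.toMonoidHom) c 3 = 1 := by
      have hit := glMap_iterate σ x 3
      simp only [Function.iterate_succ, Function.iterate_zero, Function.comp_apply, id_eq] at hit
      rw [h.pow] at hit
      simp only [hc, map_mul, glMap_scalarUnit] at hit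
      have h3 : scalarUnit (twistedNorm (Units.map σ.toRingHom.toMonoidHom) c 3) * x = x := by
        refine Units.ext (Eq.trans ?_ (hit.trans (by ext; simp)))
        congr 1
        simp only [← mul_assoc, ← map_mul, twistedNorm]
        congr 2
        simp only [map_mul, map_one, mul_one]
        ac_rfl
      exact scalarUnit_injective (by rw [map_one]; exact mul_eq_right.mp h3)
    -- Hilbert 90 for scalars through `exists_twistedConj`
    obtain ⟨b, -, hb⟩ := exists_twistedConj (ι := Fin 1) σ (by norm_num) h.injective h.pow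
      (scalarUnit c) 1 1 (map_one _) (by
        ext i j
        fin_cases i; fin_cases j
        simpa [twistedNorm, scalarUnit, coe_glMap] using congrArg Units.val hc3)
      (by simp [twistedNorm])
    set β : L := (b : Matrix (Fin 1) (Fin 1) L) 0 0 with hβ
    have hβ0 : β ≠ 0 := by
      intro h0
      have := (Matrix.isUnit_iff_isUnit_det _).mp b.isUnit
      simp [Matrix.det_unique, hβ] at this h0
      exact this h0
    have hbe : (c : L) * σ β = β := by
      simpa [scalarUnit, coe_glMap, Matrix.mul_apply, hβ] using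
        congrArg (fun M : GL (Fin 1) L => M.val 0 0) hb
    have hfix : glMap σ (scalarUnit (Units.mk0 β hβ0) * x) = scalarUnit (Units.mk0 β hβ0) * x := by
      rw [map_mul, glMap_scalarUnit, hc, ← mul_assoc, ← map_mul]
      congr 2
      ext
      simp [mul_comm, hbe]
    obtain ⟨g₀, hg₀⟩ := Matching.exists_baseUnit_eq h.fixed hfix
    refine ⟨QuotientGroup.mk g₀, ?_⟩
    rw [pglBase_mk, hg₀, eq_comm, pgl_mk_eq_iff]
    exact ⟨_, rfl⟩

omit [NumberField K] in
/-- Norms equal to one rational element: one twisted class. -/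
theorem IsCubic.exists_smul_eq {δ δ' : Twisted (pglAut σ)} {γ : PGLIndex K}
    (hδ : δ.norm = pglBase ι γ) (hδ' : δ'.norm = pglBase ι γ) : ∃ g : PGLIndex L, g • δ = δ' := by
  revert hδ hδ'
  induction γ using QuotientGroup.induction_on with | H m => ?_
  obtain ⟨x, rfl⟩ := QuotientGroup.mk_surjective (δ : PGLIndex L)
  obtain ⟨x', rfl⟩ := QuotientGroup.mk_surjective (δ' : PGLIndex L)
  intro hδ hδ'
  rw [show (QuotientGroup.mk x : Twisted (pglAut σ)) = Twisted.mk _ (QuotientGroup.mk x) from rfl,
    norm_mk, pglBase_mk, eq_comm, pgl_mk_eq_iff] at hδ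
  rw [show (QuotientGroup.mk x' : Twisted (pglAut σ)) = Twisted.mk _ (QuotientGroup.mk x') from rfl,
    norm_mk, pglBase_mk, eq_comm, pgl_mk_eq_iff] at hδ'
  obtain ⟨c, hc⟩ := hδ
  obtain ⟨c', hc'⟩ := hδ'
  have : Infinite (fixedSubfield σ) := infinite_fixedSubfield
  have hm : glMap σ (Matching.baseUnit ι m) = Matching.baseUnit ι m :=
    Matching.glMap_baseUnit h.fixed m
  have hfixed : ∀ (c : Lˣ) (z : GL (Fin 2) L),
      twistedNorm (glMap σ) z 3 = scalarUnit c * Matching.baseUnit ι m → σ (c : L) = c :=
    fun c z hz => scalar_fixed_of_norm h.pow hm hz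
  have hγ : glMap σ (scalarUnit c * Matching.baseUnit ι m) = scalarUnit c * Matching.baseUnit ι m :=
      by
    rw [map_mul, glMap_scalarUnit, hm,
      show Units.map σ.toRingHom.toMonoidHom c = c from Units.ext (hfixed c x hc)]
  obtain ⟨y, a, -, hy⟩ := exists_twistedConj_pgl σ (k := 1) h.injective h.pow x x'
    (scalarUnit c * Matching.baseUnit ι m) hγ (c' / c)
    (by simp [map_div₀, hfixed c x hc, hfixed c' x' hc']) hc
    (by rw [hc', ← mul_assoc, ← map_mul, div_mul_cancel])
  refine ⟨(QuotientGroup.mk y)⁻¹, Twisted.ext ?_⟩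
  show (QuotientGroup.mk y)⁻¹ * (QuotientGroup.mk x : PGLIndex L) *
    (pglAut σ (QuotientGroup.mk y)⁻¹)⁻¹ = QuotientGroup.mk x'
  rw [map_inv, inv_inv, pglAut_mk, mul_assoc, inv_mul_eq_iff_eq_mul, ← QuotientGroup.mk_mul,
    ← QuotientGroup.mk_mul, pgl_mk_eq_iff]
  exact ⟨a, hy.symm⟩

end Field

end Fermat.Agent.LT.Geometric
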