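import Fermat.Agent.LT.Geometric.ArchPlace

/-!
# Matching at infinity

For test kernels that are products over the three coordinates above the place, the twisted
integrand of `d` pushes forward to the threefold convolution evaluated at the norm of `d`.
-/

set_option autoImplicit false

noncomputable section

open MeasureTheory
open NumberField (InfinitePlace)

namespace Fermat.Agent.LT.Geometric

open CubicDescent

theorem map_scalarUnit_smul {F : Type*} [Field F] (φ : F →+* ℂ) (a : Fˣ) (P : H3) :
    Matrix.GeneralLinearGroup.map φ (scalarUnit a : GL (Fin 2) F) • P = P := by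
  ext1
  have hne : φ (a : F) ≠ 0 := fun h => a.ne_zero (φ.injective (by simpa only [map_zero] using h))
  have hm : ((Matrix.GeneralLinearGroup.map φ (scalarUnit a : GL (Fin 2) F)).val : Matrix (Fin 2)
      (Fin 2) ℂ) =
      φ (a : F) • (1 : Matrix (Fin 2) (Fin 2) ℂ) := by
    ext i j
    fin_cases i <;> fin_cases j <;> simp [scalarUnit]
  rw [H3.smul_mat, hm]
  have hs : (((‖φ (a : F)‖ ^ 2)⁻¹ : ℝ) : ℂ) * (φ (a : F) * star (φ (a : F))) = 1 := by
    rw [Complex.star_def, Complex.mul_conj']
    push_cast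
    rw [inv_mul_cancel₀]
    exact pow_ne_zero _ (Complex.ofReal_ne_zero.mpr (norm_ne_zero_iff.mpr hne))
  simp only [Matrix.conjTranspose_smul, Matrix.conjTranspose_one, Matrix.smul_mul,
    Matrix.mul_smul, Matrix.one_mul, smul_smul, Matrix.det_smul, Matrix.det_one,
    Fintype.card_fin, mul_one, norm_pow]
  simp [mul_comm, mul_left_comm] at hs ⊢
  rw [hs, one_smul]

section Mixed

variable {G H : Type*} [Group G] [MeasurableSpace H] [MulAction G H] [MeasurableConstSMul G H]
  {ν : Measure H} [SMulInvariantMeasure G H ν]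

/-- The convolution of three kernels. -/
def tripleKernel (ν : Measure H) (k : Fin 3 → H → H → ℂ) (P Q : H) : ℂ :=
  ∫ R, k 0 P R * ∫ S, k 1 R S * k 2 S Q ∂ν ∂ν

/-- The matching for three invariant kernels. -/
theorem match_triple [SFinite ν] {k : Fin 3 → H → H → ℂ}
    (hinv : ∀ i (g : G) P Q, k i (g • P) (g • Q) = k i P Q) (a b c : G) :
    Match (ν.prod (ν.prod ν)) ν Prod.fst
      (fun x : H × H × H => k 0 x.1 (a • x.2.1) * (k 1 x.2.1 (b • x.2.2) * k 2 x.2.2 (c • x.1)))
      (fun P => tripleKernel ν k P ((a * b * c) • P)) := by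
  intro Φ _ h₁ _
  rw [integral_prod _ h₁]
  refine integral_congr_ae ?_
  filter_upwards [h₁.prod_right_ae] with P hP
  by_cases hΦ : Φ P = 0
  · simp [hΦ]
  have hint : Integrable (fun y : H × H => k 0 P (a • y.1) * (k 1 y.1 (b • y.2) * k 2 y.2 (c • P)))
      (ν.prod ν) := by
    refine (hP.mul_const (Φ P)⁻¹).congr (Filter.Eventually.of_forall fun y => ?_)
    field_simp
  rw [integral_mul_const, integral_prod _ hint]
  congr 1
  simp only [integral_const_mul]
  rw [tripleKernel, ← integral_smul_eq' (μ := ν) a fun R => k 0 P R * _]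
  refine integral_congr_ae (Filter.Eventually.of_forall fun R => ?_)
  simp only
  congr 1
  rw [← integral_smul_eq' (μ := ν) (a * b) fun S => k 1 (a • R) S * k 2 S ((a * b * c) • P)]
  refine integral_congr_ae (Filter.Eventually.of_forall fun S => ?_)
  simp only
  rw [mul_smul (a * b) c P, hinv, mul_smul a b S, hinv]

end Mixed

variable {F K : Type*} [Field F] [NumberField F] [Field K] [NumberField K] {ι : K →+* F}
  {σ : F ≃+* F} {φ₀ : F →+* ℂ}

/-- The projection at infinity. -/
def archProj (K : Type*) [Field K] [NumberField K] (φ₀ : F →+* ℂ) (P : InfinitePlace F → H3) :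
    InfinitePlace K → H3 :=
  fun _ => atEmb φ₀ P

omit [NumberField F] in
/-- The projection to the archimedean space of `K` is measurable. -/
theorem measurable_archProj : Measurable (archProj K φ₀) :=
  measurable_pi_lambda _ fun _ => measurable_atEmb φ₀

omit [NumberField F] in
/-- The projection commutes with the action of `GL₂(K)`. -/
theorem archProj_smul (hemb : ∀ v : InfinitePlace K, v.embedding = φ₀.comp ι) (g : GL (Fin 2) K)
    (P : InfinitePlace F → H3) :
    archProj K φ₀ (fun w => glEmb F w (Matching.baseUnit ι g) • P w) =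
      fun v => glEmb K v g • archProj K φ₀ P v := by
  funext v
  show atEmb φ₀ _ = glEmb K v g • atEmb φ₀ P
  rw [atEmb_smul]
  congr 1
  ext i j
  show φ₀ (ι (g.val i j)) = v.embedding (g.val i j)
  rw [hemb]; rfl

omit [NumberField F] in
/-- The projection keeps the height at the place of `φ₀`. -/
theorem tc_archProj (P : InfinitePlace F → H3) (v : InfinitePlace K) :
    H3.tc (archProj K φ₀ P v) = H3.tc (P (InfinitePlace.mk φ₀)) :=
  tc_atEmb φ₀ P

/-- A kernel on `H3^places` read off in the three coordinates. -/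
def coordKernel (φ₀ : F →+* ℂ) (σ : F ≃+* F) (κ : Fin 3 → H3 → H3 → ℂ)
    (P Q : InfinitePlace F → H3) : ℂ :=
  ∏ i, κ i (atEmb (embOver σ φ₀ i) P) (atEmb (embOver σ φ₀ i) Q)

/-- **Matching at infinity.** -/
theorem match_arch (h : IsCubic ι σ) (hemb : ∀ v : InfinitePlace K, v.embedding = φ₀.comp ι)
    [Unique (InfinitePlace K)]
    {κ : Fin 3 → H3 → H3 → ℂ}
    (hinv : ∀ i (g : GL (Fin 2) ℂ) P Q, κ i (g • P) (g • Q) = κ i P Q)
    {d : GL (Fin 2) F} {g : GL (Fin 2) K} {a : Fˣ}
    (hn : Matching.baseUnit ι g = scalarUnit a * (d * (glMap σ d * glMap σ (glMap σ d))))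
    (hcomplex : ¬ NumberField.ComplexEmbedding.IsReal (φ₀.comp ι)) :
    Match (infVol F) (infVol K) (archProj K φ₀)
      (fun P => coordKernel φ₀ σ κ P fun w => glEmb F w d • galInf σ P w)
      (fun Q => tripleKernel H3.vol κ (Q default) (glEmb K default g • Q default)) := by
  have hone : ∀ v : InfinitePlace K, v = InfinitePlace.mk (φ₀.comp ι) := fun v => by
    rw [← hemb v, InfinitePlace.mk_embedding]
  obtain ⟨e, he, hep⟩ := exists_archEquiv h hcomplex hone
  let u := MeasurableEquiv.funUnique (InfinitePlace K) H3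
  have hu : MeasurePreserving u (infVol K) H3.vol :=
    by unfold infVol; convert measurePreserving_funUnique H3.vol (InfinitePlace K)
  set A : Fin 3 → GL (Fin 2) ℂ := fun i => Matrix.GeneralLinearGroup.map (embOver σ φ₀ i) d
    with hA
  intro Φ hΦ h₁ h₂
  have hpi : ∀ P, Φ (archProj K φ₀ P) = Φ (u.symm (e P).1) := fun P => by
    rw [he]
    rfl
  have hσ3 := cubic_apply_three h
  have hF : ∀ P, coordKernel φ₀ σ κ P (fun w => glEmb F w d • galInf σ P w) =
      κ 0 (e P).1 (A 0 • (e P).2.1) *
        (κ 1 (e P).2.1 (A 1 • (e P).2.2) * κ 2 (e P).2.2 (A 2 • (e P).1)) := fun P => by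
    have e0 : (embOver σ φ₀ 0).comp (σ : F →+* F) = embOver σ φ₀ 1 := rfl
    have e1 : (embOver σ φ₀ 1).comp (σ : F →+* F) = embOver σ φ₀ 2 := rfl
    have e2 : (embOver σ φ₀ 2).comp (σ : F →+* F) = embOver σ φ₀ 0 :=
      RingHom.ext fun x => congrArg φ₀ (hσ3 x)
    rw [he, coordKernel, Fin.prod_univ_three, mul_assoc]
    simp only [atEmb_smul, atEmb_galInf, e0, e1, e2]
    rfl
  have habc : ∀ Q : H3, (A 0 * A 1 * A 2) • Q = glEmb K default g • Q := fun Q => by
    have e1 : A 0 * A 1 * A 2 =
        Matrix.GeneralLinearGroup.map φ₀ (d * (glMap σ d * glMap σ (glMap σ d))) := by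
      rw [map_mul, map_mul, mul_assoc]
      rfl
    rw [e1, ← map_scalarUnit_smul φ₀ a (Matrix.GeneralLinearGroup.map φ₀ _ • Q), ← mul_smul,
      ← map_mul, ← hn]
    congr 1
    ext i j
    show φ₀ (ι (g.val i j)) = (default : InfinitePlace K).embedding (g.val i j)
    rw [hemb]; rfl
  have h₁' : Integrable (fun x : H3 × H3 × H3 => κ 0 x.1 (A 0 • x.2.1) *
      (κ 1 x.2.1 (A 1 • x.2.2) * κ 2 x.2.2 (A 2 • x.1)) * Φ (u.symm x.1))
      (H3.vol.prod (H3.vol.prod H3.vol)) := by
    refine (hep.integrable_comp_emb e.measurableEmbedding).mp ?_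
    simpa only [Function.comp_def, ← hpi, ← hF] using h₁
  have h₂' : Integrable (fun Q : H3 => tripleKernel H3.vol κ Q ((A 0 * A 1 * A 2) • Q) *
      Φ (u.symm Q)) H3.vol := by
    refine (hu.integrable_comp_emb u.measurableEmbedding).mp ?_
    simp only [Function.comp_def, habc, MeasurableEquiv.symm_apply_apply]
    exact h₂
  simp only [hpi, hF]
  rw [hep.integral_comp e.measurableEmbedding (fun x : H3 × H3 × H3 => κ 0 x.1 (A 0 • x.2.1) *
      (κ 1 x.2.1 (A 1 • x.2.2) * κ 2 x.2.2 (A 2 • x.1)) * Φ (u.symm x.1))]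
  rw [match_triple hinv (A 0) (A 1) (A 2) (fun Q => Φ (u.symm Q))
      (hΦ.comp u.symm.measurable) h₁' h₂',
    ← hu.integral_comp u.measurableEmbedding]
  simp only [habc, MeasurableEquiv.symm_apply_apply]
  rfl

end Fermat.Agent.LT.Geometric

end
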