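import Fermat.Agent.LT.Geometric.Total

/-!
# The geometric comparison, class by class

`piece_difference`: for matched classes the difference of two cutoff class integrals is a band
integral. `tendsto_band`: it tends to zero when the bundle is integrable. `geometric_totals_eq`:
the totals agree.
-/

set_option autoImplicit false

noncomputable section

open MeasureTheory Filter Topology
open scoped ENNReal NNReal

namespace Fermat.Agent.LT.Geometric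

/-- `∫⁻ F (Φ ∘ π) ≤ ∫⁻ B Φ` for nonnegative test functions. -/
def MatchLe {X Y : Type*} [MeasurableSpace X] [MeasurableSpace Y] (μ : Measure X) (ν : Measure Y)
    (π : X → Y) (F : X → ℝ≥0∞) (B : Y → ℝ≥0∞) : Prop :=
  ∀ Φ : Y → ℝ≥0∞, Measurable Φ → ∫⁻ x, F x * Φ (π x) ∂μ ≤ ∫⁻ y, B y * Φ y ∂ν

section Piece

variable {G X Δ H Y Δ' D : Type*} [Group G] [Countable G] [MeasurableSpace X] [MulAction G X]
  [MeasurableConstSMul G X] {μ : Measure X} [SMulInvariantMeasure G X μ] [MulAction G Δ]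
  [Group H] [Countable H] [MeasurableSpace Y] [MulAction H Y] [MeasurableConstSMul H Y]
  {ν : Measure Y} [SMulInvariantMeasure H Y ν] [MulAction H Δ'] [Countable D]

/-- The matching data of one class. -/
structure PieceMatch (μ : Measure X) (ν : Measure Y) (PL : Piece G X Δ D) (PK : Piece H Y Δ' D)
    (F : Δ → X → ℂ) (F' : Δ' → Y → ℂ) (M : Δ' → Y → ℂ) where
  /-- The region carrying the class. -/
  s : Set X
  supp : ∀ x, x ∉ s → ∀ d, F (PL.j d) x = 0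
  /-- The projection. -/
  π : X → Y
  measurable_π : Measurable π
  /-- The identification of the stabilisers. -/
  e : PL.Z ≃* PK.Z
  equivariant : ∀ z : PL.Z, ∀ x ∈ s, π (z • x) = e z • π x
  /-- A partition for the stabiliser downstairs. -/
  w : Y → ℝ≥0
  isPartition : IsPartition PK.Z Set.univ w
  isMatch : ∀ d, Match μ ν π (F (PL.j d)) (F' (PK.j d))
  majorant : ∀ d, MatchLe μ ν π (fun x => ‖F (PL.j d) x‖ₑ) fun y => ‖M (PK.j d) y‖ₑ

variable {PL : Piece G X Δ D} {PK : Piece H Y Δ' D} {F : Δ → X → ℂ} {F' M : Δ' → Y → ℂ}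
  (hF : ∀ (g : G) δ x, F (g • δ) (g • x) = F δ x)
  (hF' : ∀ (g : H) δ y, F' (g • δ) (g • y) = F' δ y)
  (hM : ∀ (g : H) δ y, M (g • δ) (g • y) = M δ y)
  (hFm : ∀ δ, Measurable (F δ)) (hFm' : ∀ δ, Measurable (F' δ)) (hMm : ∀ δ, Measurable (M δ))
  {ω : X → ℝ≥0} (hω : IsPartition G Set.univ ω) {ω' : Y → ℝ≥0} (hω' : IsPartition H Set.univ ω')
  {χ : X → ℝ≥0} (hχ : Measurable χ) (hχi : ∀ (g : G) x, χ (g • x) = χ x)
  {χ' : Y → ℝ≥0} (hχ' : Measurable χ') (hχi' : ∀ (g : H) y, χ' (g • y) = χ' y)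
  (hsum : ∀ x, Summable fun δ : PL.C => F δ x) (hsum' : ∀ y, Summable fun δ : PK.C => F' δ y)
  (hfin : ∫⁻ x, (ω x : ℝ≥0∞) * ((χ x : ℝ≥0∞) * ∑' δ : PL.C, ‖F δ x‖ₑ) ∂μ ≠ ∞)
  (hfin' : ∫⁻ y, (ω' y : ℝ≥0∞) * ((χ' y : ℝ≥0∞) * ∑' δ : PK.C, ‖F' δ y‖ₑ) ∂ν ≠ ∞)
  (hfinM : ∫⁻ y, (ω' y : ℝ≥0∞) * ((χ' y : ℝ≥0∞) * ∑' δ : PK.C, ‖M δ y‖ₑ) ∂ν ≠ ∞)
  (m : PieceMatch μ ν PL PK F F' M)

include hF hF' hM hFm hFm' hMm hω hω' hχ hχi hχ' hχi' hsum hsum' hfin hfin' hfinM in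
/-- The difference of the two class integrals is a band integral. -/
theorem piece_difference :
    Integrable (fun x => ((m.w (m.π x) * χ x : ℝ≥0) : ℝ) • ∑' d, F (PL.j d) x) μ ∧
    Integrable (fun x => ((m.w (m.π x) * χ' (m.π x) : ℝ≥0) : ℝ) • ∑' d, F (PL.j d) x) μ ∧
    ∫ x, ((ω x * χ x : ℝ≥0) : ℝ) • ∑' δ : PL.C, F δ x ∂μ -
        ∫ y, ((ω' y * χ' y : ℝ≥0) : ℝ) • ∑' δ : PK.C, F' δ y ∂ν =
      ∫ x, ((m.w (m.π x) : ℝ) * ((χ x : ℝ) - χ' (m.π x))) • ∑' d, F (PL.j d) x ∂μ := by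
  have hwL : IsPartition PL.Z m.s (m.w ∘ m.π) :=
    m.isPartition.comp m.measurable_π m.e m.equivariant
  obtain ⟨hiL, heL⟩ := PL.integral_eq hF hχi hω hwL m.supp (fun d => hFm _) hχ hsum hfin
  obtain ⟨-, heK⟩ := PK.integral_eq hF' hχi' hω' m.isPartition (fun y h => absurd trivial h)
    (fun d => hFm' _) hχ' hsum' hfin'
  have hK := PK.lintegral_eq (μ := ν) hF' hχi' hω' m.isPartition (fun y h => absurd trivial h)
    (fun d => hFm' _) hχ'
  have hB := PK.lintegral_eq (μ := ν) hM hχi' hω' m.isPartition (fun y h => absurd trivial h)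
    (fun d => hMm _) hχ'
  rw [hK] at hfin'
  rw [hB] at hfinM
  set u : Y → ℝ≥0 := fun y => m.w y * χ' y with hu
  have hum : Measurable u := m.isPartition.measurable.mul hχ'
  have hfu : ∑' d, ∫⁻ x, ‖(u (m.π x) : ℝ) • F (PL.j d) x‖ₑ ∂μ ≠ ∞ := by
    refine ne_top_of_le_ne_top hfinM (ENNReal.tsum_le_tsum fun d => ?_)
    simp only [enorm_smul_nnreal, mul_comm ((u _ : ℝ≥0∞))]
    refine (m.majorant d (fun y => (u y : ℝ≥0∞)) hum.coe_nnreal_ennreal).trans (le_of_eq ?_)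
    simp only [hu, mul_comm]
  have hid := band_identity m.measurable_π m.isMatch (fun d => hFm _) (fun d => hFm' _)
    (v := fun x => m.w (m.π x) * χ x) hum hiL hfu hfin'
  refine ⟨hiL, ?_, ?_⟩
  · refine ⟨((hum.comp m.measurable_π).coe_nnreal_real.smul
      (Measurable.tsum fun d => hFm (PL.j d))).aestronglyMeasurable, ?_⟩
    rw [← lintegral_tsum (f := fun d x => ‖(u (m.π x) : ℝ) • F (PL.j d) x‖ₑ) fun d =>
      (((hum.comp m.measurable_π).coe_nnreal_real.smul (hFm _)).enorm).aemeasurable] at hfu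
    rw [hasFiniteIntegral_iff_enorm]
    refine lt_of_le_of_lt (lintegral_mono fun x => ?_) hfu.lt_top
    simp only [enorm_smul_nnreal, ENNReal.tsum_mul_left]
    exact mul_le_mul_right enorm_tsum_le_tsum_enorm _
  · rw [heL, heK]
    simp only [Function.comp_apply] at hid ⊢
    rw [hid]
    simp [hu, mul_sub]

end Piece

section Tendsto

variable {X Y : Type*} [MeasurableSpace X] [MeasurableSpace Y] {μ : Measure X}

/-- A band integral of an integrable bundle tends to zero. -/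
theorem tendsto_band {π : X → Y} (hπ : Measurable π) {w : Y → ℝ≥0} {ψ : X → ℂ}
    (hint : Integrable (fun x => (w (π x) : ℝ) • ψ x) μ) {ι : Type*} {l : Filter ι}
    [l.IsCountablyGenerated] {χ : ι → X → ℝ≥0} {χ' : ι → Y → ℝ≥0}
    (hχm : ∀ T, Measurable (χ T)) (hχm' : ∀ T, Measurable (χ' T))
    (hχ1 : ∀ T x, χ T x ≤ 1) (hχ1' : ∀ T y, χ' T y ≤ 1)
    (hlim : ∀ x, Tendsto (fun T => (χ T x : ℝ)) l (𝓝 1))
    (hlim' : ∀ y, Tendsto (fun T => (χ' T y : ℝ)) l (𝓝 1)) :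
    Tendsto (fun T => ∫ x, ((w (π x) : ℝ) * ((χ T x : ℝ) - χ' T (π x))) • ψ x ∂μ) l (𝓝 0) := by
  have h := tendsto_integral_filter_of_dominated_convergence
    (F := fun T x => ((w (π x) : ℝ) * ((χ T x : ℝ) - χ' T (π x))) • ψ x)
    (f := fun _ => (0 : ℂ)) (fun x => ‖(w (π x) : ℝ) • ψ x‖) ?_ ?_ hint.norm ?_ (l := l) (μ := μ)
  · simpa using h
  · refine Eventually.of_forall fun T => ?_
    refine ((((hχm T).coe_nnreal_real).sub
      ((hχm' T).comp hπ).coe_nnreal_real).aestronglyMeasurable.smul hint.1).congr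
      (Eventually.of_forall fun x => ?_)
    simp only [Pi.smul_apply', Function.comp_apply, Pi.sub_apply, smul_smul]
    rw [mul_comm]
  · refine Eventually.of_forall fun T => Eventually.of_forall fun x => ?_
    rw [norm_smul, norm_smul, norm_mul]
    refine mul_le_mul_of_nonneg_right (mul_le_of_le_one_right (norm_nonneg _) ?_) (norm_nonneg _)
    rw [Real.norm_eq_abs, abs_sub_le_iff]
    have h1 : (χ T x : ℝ) ≤ 1 := NNReal.coe_le_one.mpr (hχ1 T x)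
    have h2 : (χ' T (π x) : ℝ) ≤ 1 := NNReal.coe_le_one.mpr (hχ1' T (π x))
    have h3 := (χ T x).coe_nonneg
    have h4 := (χ' T (π x)).coe_nonneg
    constructor <;> linarith
  · refine Eventually.of_forall fun x => ?_
    have := (((hlim x).sub (hlim' (π x))).const_mul (w (π x) : ℝ)).smul_const (ψ x)
    simpa using this

variable {ν : Measure Y}

/-- The two geometric totals agree. -/
theorem geometric_totals_eq {ΔL ΔK I : Type*} [Countable ΔL] [Countable ΔK] [Countable I]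
    {ω : X → ℝ≥0} (hω : Measurable ω) {ω' : Y → ℝ≥0} (hω' : Measurable ω')
    {F : ΔL → X → ℂ} {F' : ΔK → Y → ℂ} (hFm : ∀ δ, Measurable (F δ))
    (hFm' : ∀ δ, Measurable (F' δ)) (hs : ∀ x, Summable fun δ => F δ x)
    (hs' : ∀ y, Summable fun δ => F' δ y)
    (C : I → Set ΔL) (C' : I → Set ΔK) (hd : Pairwise fun i k => Disjoint (C i) (C k))
    (hd' : Pairwise fun i k => Disjoint (C' i) (C' k))
    (hcov : ∀ δ, (∀ i, δ ∉ C i) → ∀ x, F δ x = 0)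
    (hcov' : ∀ δ, (∀ i, δ ∉ C' i) → ∀ y, F' δ y = 0)
    (hint : Integrable (fun x => (ω x : ℝ) • ∑' δ, F δ x) μ)
    (hint' : Integrable (fun y => (ω' y : ℝ) • ∑' δ, F' δ y) ν)
    {χ : ℕ → X → ℝ≥0} {χ' : ℕ → Y → ℝ≥0}
    (hχm : ∀ T, Measurable (χ T)) (hχm' : ∀ T, Measurable (χ' T))
    (hχ1 : ∀ T x, χ T x ≤ 1) (hχ1' : ∀ T y, χ' T y ≤ 1)
    (hlim : ∀ x, Tendsto (fun T => (χ T x : ℝ)) atTop (𝓝 1))
    (hlim' : ∀ y, Tendsto (fun T => (χ' T y : ℝ)) atTop (𝓝 1))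
    (hfin : ∀ T, ∫⁻ x, ((ω x * χ T x : ℝ≥0) : ℝ≥0∞) * ∑' δ, ‖F δ x‖ₑ ∂μ ≠ ∞)
    (hfin' : ∀ T, ∫⁻ y, ((ω' y * χ' T y : ℝ≥0) : ℝ≥0∞) * ∑' δ, ‖F' δ y‖ₑ ∂ν ≠ ∞)
    (S : Finset I)
    (hout : ∀ᶠ T in atTop, ∀ i ∉ S,
      ∫ x, ((ω x * χ T x : ℝ≥0) : ℝ) • ∑' δ : C i, F δ x ∂μ =
        ∫ y, ((ω' y * χ' T y : ℝ≥0) : ℝ) • ∑' δ : C' i, F' δ y ∂ν)
    (hin : ∀ i ∈ S, Tendsto (fun T =>
      ∫ x, ((ω x * χ T x : ℝ≥0) : ℝ) • ∑' δ : C i, F δ x ∂μ -
        ∫ y, ((ω' y * χ' T y : ℝ≥0) : ℝ) • ∑' δ : C' i, F' δ y ∂ν) atTop (𝓝 0)) :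
    ∫ x, (ω x : ℝ) • ∑' δ, F δ x ∂μ = ∫ y, (ω' y : ℝ) • ∑' δ, F' δ y ∂ν :=
  eq_of_classwise
    (Eventually.of_forall fun T => hasSum_classes (hω.mul (hχm T)) hFm hs C hd hcov (hfin T))
    (Eventually.of_forall fun T => hasSum_classes (hω'.mul (hχm' T)) hFm' hs' C' hd' hcov'
      (hfin' T))
    (tendsto_cutoff hχm hχ1 (Eventually.of_forall hlim) hint)
    (tendsto_cutoff hχm' hχ1' (Eventually.of_forall hlim') hint') S hout hin

end Tendsto

end Fermat.Agent.LT.Geometric
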