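import Fermat.Agent.LT.Geometric.Arch
import Fermat.Agent.LT.Geometric.UnipotentArch
import Fermat.Agent.LT.Geometric.Main
import Fermat.Agent.LT.Kernel.Compose

/-!
# The majorant at infinity

A twisted term supported within distance `r` at the three places over the place of `K` forces the
norm to move the projected point by at most `4 r ^ 3`; its integral along the projection is bounded
by a constant times a tent kernel of `K`.
-/

set_option autoImplicit false

noncomputable section

open MeasureTheory
open scoped ENNReal NNReal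
open NumberField (InfinitePlace)

namespace Fermat.Agent.LT.Geometric

open CubicDescent

variable {F K : Type*} [Field F] [NumberField F] [Field K] [NumberField K] {ι : K →+* F}
  {σ : F ≃+* F} {φ₀ : F →+* ℂ}

omit [NumberField F] [NumberField K] in
theorem embOver_comp_sigma (h : IsCubic ι σ) (i : Fin 3) :
    (embOver σ φ₀ i).comp (σ : F →+* F) = embOver σ φ₀ (i + 1) := by
  fin_cases i
  · rfl
  · rfl
  · exact RingHom.ext fun x => congrArg φ₀ (cubic_apply_three h x)

omit [NumberField F] [NumberField K] in
/-- The twisted point in coordinates. -/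
theorem atEmb_twisted (h : IsCubic ι σ) (x : GL (Fin 2) F) (P : InfinitePlace F → H3) (i : Fin 3) :
    atEmb (embOver σ φ₀ i) (fun w => glEmb F w x • galInf σ P w) =
      Matrix.GeneralLinearGroup.map (embOver σ φ₀ i) x • atEmb (embOver σ φ₀ (i + 1)) P := by
  rw [atEmb_smul, atEmb_galInf, embOver_comp_sigma h]

omit [NumberField F] [NumberField K] in
/-- The three coordinates of `x` compose to the norm. -/
theorem map_embOver_prod_smul (hemb : ∀ v : InfinitePlace K, v.embedding = φ₀.comp ι)
    {x : GL (Fin 2) F} {m : GL (Fin 2) K}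
    (hN : twistedNorm (glMap σ) x 3 = Matching.baseUnit ι m) (v : InfinitePlace K) (Q : H3) :
    (Matrix.GeneralLinearGroup.map (embOver σ φ₀ 0) x *
      Matrix.GeneralLinearGroup.map (embOver σ φ₀ 1) x *
      Matrix.GeneralLinearGroup.map (embOver σ φ₀ 2) x) • Q = glEmb K v m • Q := by
  congr 1
  calc _ = Matrix.GeneralLinearGroup.map φ₀ (twistedNorm (glMap σ) x 3) := by
        simp only [twistedNorm, map_mul, map_one, mul_one, mul_assoc]
        rfl
    _ = glEmb K v m := by
        rw [hN]
        ext i j
        show φ₀ (ι (m.val i j)) = v.embedding (m.val i j)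
        rw [hemb]; rfl

omit [NumberField K] in
/-- The steps between the coordinates, where a test kernel is nonzero. -/
theorem cdist_step_le (h : IsCubic ι σ) (q : Kernel.PointKer F) (x : GL (Fin 2) F)
    {P : InfinitePlace F → H3} (hP : q.toFun P (fun w => glEmb F w x • galInf σ P w) ≠ 0)
    (i : Fin 3) :
    H3.cdist (atEmb (embOver σ φ₀ i) P)
      (Matrix.GeneralLinearGroup.map (embOver σ φ₀ i) x • atEmb (embOver σ φ₀ (i + 1)) P) ≤
        q.radius := by
  rw [← atEmb_twisted h, cdist_atEmb]
  exact q.cdist_le hP _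

/-- The norm moves the projected point by at most `4 r ^ 3`. -/
theorem cdist_norm_le (h : IsCubic ι σ) (hemb : ∀ v : InfinitePlace K, v.embedding = φ₀.comp ι)
    {x : GL (Fin 2) F} {m : GL (Fin 2) K}
    (hN : twistedNorm (glMap σ) x 3 = Matching.baseUnit ι m) (q : Kernel.PointKer F)
    {P : InfinitePlace F → H3} (hP : q.toFun P (fun w => glEmb F w x • galInf σ P w) ≠ 0)
    (v : InfinitePlace K) :
    H3.cdist (archProj K φ₀ P v) (glEmb K v m • archProj K φ₀ P v) ≤ 4 * q.radius ^ 3 := by
  have d : ∀ i, H3.cdist (atEmb (embOver σ φ₀ i) P)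
      (Matrix.GeneralLinearGroup.map (embOver σ φ₀ i) x • atEmb (embOver σ φ₀ (i + 1)) P) ≤
        q.radius := cdist_step_le h q x hP
  have d0 := d 0
  have d1 := d 1
  have d2 := d 2
  rw [show (0 : Fin 3) + 1 = 1 from rfl] at d0
  rw [show (1 : Fin 3) + 1 = 2 from rfl] at d1
  rw [show (2 : Fin 3) + 1 = 0 from rfl] at d2
  show H3.cdist (atEmb (embOver σ φ₀ 0) P) (glEmb K v m • atEmb (embOver σ φ₀ 0) P) ≤ _
  rw [← map_embOver_prod_smul hemb hN]
  set A := Matrix.GeneralLinearGroup.map (embOver σ φ₀ 0) x
  set B := Matrix.GeneralLinearGroup.map (embOver σ φ₀ 1) x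
  set C := Matrix.GeneralLinearGroup.map (embOver σ φ₀ 2) x
  set P0 := atEmb (embOver σ φ₀ 0) P
  set P1 := atEmb (embOver σ φ₀ 1) P
  set P2 := atEmb (embOver σ φ₀ 2) P
  have e12 : H3.cdist P1 ((B * C) • P0) ≤ 2 * q.radius * q.radius := by
    refine (Kernel.cdist_le_two_mul P1 (B • P2) _).trans ?_
    rw [mul_smul, H3.cdist_smul]
    exact mul_le_mul (mul_le_mul_of_nonneg_left d1 zero_le_two) d2
      (zero_le_one.trans (H3.one_le_cdist _ _)) (mul_nonneg zero_le_two q.radius_pos.le)
  refine (Kernel.cdist_le_two_mul P0 (A • P1) _).trans ?_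
  rw [mul_assoc A, mul_smul A, H3.cdist_smul]
  calc 2 * H3.cdist P0 (A • P1) * H3.cdist P1 ((B * C) • P0)
      ≤ 2 * q.radius * (2 * q.radius * q.radius) :=
        mul_le_mul (mul_le_mul_of_nonneg_left d0 zero_le_two) e12
          (zero_le_one.trans (H3.one_le_cdist _ _)) (mul_nonneg zero_le_two q.radius_pos.le)
    _ = 4 * q.radius ^ 3 := by ring

/-! ### The tent kernel -/

/-- The volume of a ball. -/
def ballVol (r : ℝ) : ℝ≥0∞ := H3.vol {S : H3 | H3.cdist H3.origin S ≤ r}

theorem ballVol_ne_top (r : ℝ) : ballVol r ≠ ∞ :=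
  (H3.isCompact_cdist_le _ r).measure_lt_top.ne

theorem vol_cdist_le (Q : H3) (r : ℝ) : H3.vol {S : H3 | H3.cdist Q S ≤ r} = ballVol r := by
  obtain ⟨g, hg⟩ := H3.exists_smul_eq H3.origin Q
  rw [ballVol, ← (H3.measurePreserving_smul g).measure_preimage
    (H3.isCompact_cdist_le Q r).isClosed.measurableSet.nullMeasurableSet]
  congr 1
  ext S
  show H3.cdist Q (g • S) ≤ r ↔ _
  rw [← hg, H3.cdist_smul]
  rfl

/-- The height of the tent. -/
def tentHeight (q : Kernel.PointKer F) : ℝ :=
  q.bound * (ballVol q.radius * ballVol q.radius).toReal + 1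

theorem tentHeight_pos (q : Kernel.PointKer F) : 0 < tentHeight q :=
  add_pos_of_nonneg_of_pos (mul_nonneg q.bound_nonneg ENNReal.toReal_nonneg) one_pos

/-- The profile equal to `1` up to `b` and to `0` from `b + 1` on. -/
def tent (b r : ℝ) : ℝ := max 0 (min 1 (b + 1 - |r|))

theorem lipschitzWith_tent (b : ℝ) : LipschitzWith 1 (tent b) := by
  refine (LipschitzWith.const_min ?_ 1).const_max 0
  refine LipschitzWith.of_dist_le_mul fun r s => ?_
  rw [NNReal.coe_one, one_mul, Real.dist_eq, Real.dist_eq,
    show b + 1 - |r| - (b + 1 - |s|) = -(|r| - |s|) by ring, abs_neg]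
  exact abs_abs_sub_abs_le_abs_sub r s

theorem hasCompactSupport_tent (b : ℝ) : HasCompactSupport (tent b) := by
  refine HasCompactSupport.intro (isCompact_Icc (a := -(|b| + 1)) (b := |b| + 1)) fun r hr => ?_
  have : |b| + 1 < |r| := by
    by_contra hle
    exact hr ⟨by linarith [neg_abs_le r], by linarith [le_abs_self r]⟩
  unfold tent
  exact max_eq_left ((min_le_right _ _).trans (by linarith [le_abs_self b]))

theorem tent_eq_one {b r : ℝ} (h0 : 0 ≤ r) (h : r ≤ b) : tent b r = 1 := by
  unfold tent
  rw [abs_of_nonneg h0, min_eq_left (by linarith), max_eq_right zero_le_one]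

variable (K) in
/-- The profile of the majorant. -/
def majRadial (q : Kernel.PointKer F) : RadialKernel K where
  profile _ := fun r => tentHeight q * tent (4 * q.radius ^ 3) r
  continuous _ := (lipschitzWith_tent _).continuous.const_smul (tentHeight q)
  hasCompactSupport _ := (hasCompactSupport_tent _).mul_left

variable (K) in
/-- **The majorant at infinity.** -/
def archMajorant (q : Kernel.PointKer F) : Kernel.PointKer K :=
  Kernel.PointKer.ofRadial (majRadial K q) fun _ => by
    refine ⟨‖tentHeight q‖₊ * 1, LipschitzWith.of_dist_le_mul fun r s => ?_⟩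
    show dist (tentHeight q * _) (tentHeight q * _) ≤ _
    rw [Real.dist_eq, ← mul_sub, abs_mul, NNReal.coe_mul, coe_nnnorm, Real.norm_eq_abs,
      mul_assoc]
    exact mul_le_mul_of_nonneg_left ((lipschitzWith_tent _).dist_le_mul r s) (abs_nonneg _)

variable [Unique (InfinitePlace K)]

theorem archMajorant_eq (q : Kernel.PointKer F) {P Q : InfinitePlace K → H3}
    (hd : H3.cdist (P default) (Q default) ≤ 4 * q.radius ^ 3) :
    (archMajorant K q).toFun P Q = (tentHeight q : ℂ) := by
  rw [archMajorant, Kernel.PointKer.ofRadial_apply, RadialKernel.weight, Fintype.prod_unique]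
  show ((tentHeight q * tent _ _ : ℝ) : ℂ) = _
  rw [tent_eq_one (zero_le_one.trans (H3.one_le_cdist _ _)) hd, mul_one]

/-- The majorant is nonzero where the twisted kernel is. -/
theorem archMajorant_ne_zero (h : IsCubic ι σ)
    (hemb : ∀ v : InfinitePlace K, v.embedding = φ₀.comp ι) {x : GL (Fin 2) F} {m : GL (Fin 2) K}
    (hN : twistedNorm (glMap σ) x 3 = Matching.baseUnit ι m) (q : Kernel.PointKer F)
    {P : InfinitePlace F → H3} (hP : q.toFun P (fun w => glEmb F w x • galInf σ P w) ≠ 0) :
    (archMajorant K q).toFun (archProj K φ₀ P) (fun v => glEmb K v m • archProj K φ₀ P v) ≠ 0 := by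
  have hd : H3.cdist (archProj K φ₀ P default)
      ((fun v => glEmb K v m • archProj K φ₀ P v) default) ≤ 4 * q.radius ^ 3 :=
    cdist_norm_le h hemb hN q hP default
  rw [archMajorant_eq (P := archProj K φ₀ P) (Q := fun v => glEmb K v m • archProj K φ₀ P v) q hd]
  exact Complex.ofReal_ne_zero.mpr (tentHeight_pos q).ne'

/-- **The bound along the projection.** -/
theorem lintegral_arch_le (h : IsCubic ι σ)
    (hemb : ∀ v : InfinitePlace K, v.embedding = φ₀.comp ι)
    (hcomplex : ¬ NumberField.ComplexEmbedding.IsReal (φ₀.comp ι))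
    {x : GL (Fin 2) F} {m : GL (Fin 2) K}
    (hN : twistedNorm (glMap σ) x 3 = Matching.baseUnit ι m) (q : Kernel.PointKer F) :
    MatchLe (infVol F) (infVol K) (archProj K φ₀)
      (fun P => ‖q.toFun P (fun w => glEmb F w x • galInf σ P w)‖ₑ)
      (fun Q => ‖(archMajorant K q).toFun Q (fun v => glEmb K v m • Q v)‖ₑ) := by
  classical
  have hone : ∀ v : InfinitePlace K, v = InfinitePlace.mk (φ₀.comp ι) := fun v => by
    rw [← hemb v, InfinitePlace.mk_embedding]
  obtain ⟨e, he, hep⟩ := exists_archEquiv h hcomplex hone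
  let u := MeasurableEquiv.funUnique (InfinitePlace K) H3
  have hu : MeasurePreserving u (infVol K) H3.vol := by
    unfold infVol; convert measurePreserving_funUnique H3.vol (InfinitePlace K)
  intro Φ hΦ
  set r := q.radius
  set A : Fin 3 → GL (Fin 2) ℂ := fun i => Matrix.GeneralLinearGroup.map (embOver σ φ₀ i) x with hA
  set B : H3 → Set H3 := fun Q => {S | H3.cdist Q S ≤ r} with hB
  have hBm : ∀ Q, MeasurableSet (B Q) := fun Q =>
    (H3.isCompact_cdist_le Q r).isClosed.measurableSet
  set near : Set (InfinitePlace K → H3) :=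
    {Q | H3.cdist (Q default) (glEmb K default m • Q default) ≤ 4 * r ^ 3} with hnear
  set g : H3 → ℝ≥0∞ := fun Q0 =>
    ENNReal.ofReal q.bound * near.indicator Φ (u.symm Q0) with hg
  set S : Set (H3 × H3 × H3) :=
    {p | p.2.1 ∈ B ((A 0)⁻¹ • p.1) ∧ p.2.2 ∈ B (A 2 • p.1)} with hS
  have hnm : MeasurableSet near := by
    have m1 : Measurable fun Q : InfinitePlace K → H3 => Q default := measurable_pi_apply default
    have m2 : Measurable fun Q : InfinitePlace K → H3 =>
        (Q default, glEmb K default m • Q default) := m1.prodMk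
          ((measurable_const_smul (glEmb K default m)).comp m1)
    have m3 : Measurable fun Q : InfinitePlace K → H3 =>
        H3.cdist (Q default) (glEmb K default m • Q default) :=
      Measurable.comp (g := fun p : H3 × H3 => H3.cdist p.1 p.2)
        (f := fun Q : InfinitePlace K → H3 => (Q default, glEmb K default m • Q default))
        measurable_cdist m2
    exact measurableSet_le m3 measurable_const
  have hgm : Measurable g :=
    ((hΦ.indicator hnm).comp u.symm.measurable).const_mul _
  have hSm : MeasurableSet S := by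
    have n1 : Measurable fun p : H3 × H3 × H3 => ((A 0)⁻¹ • p.1, p.2.1) :=
      ((measurable_const_smul (A 0)⁻¹).comp measurable_fst).prodMk
        (measurable_fst.comp measurable_snd)
    have n2 : Measurable fun p : H3 × H3 × H3 => (A 2 • p.1, p.2.2) :=
      ((measurable_const_smul (A 2)).comp measurable_fst).prodMk
        (measurable_snd.comp measurable_snd)
    have n3 : Measurable fun p : H3 × H3 × H3 => H3.cdist ((A 0)⁻¹ • p.1) p.2.1 :=
      Measurable.comp (g := fun p : H3 × H3 => H3.cdist p.1 p.2)
        (f := fun p : H3 × H3 × H3 => ((A 0)⁻¹ • p.1, p.2.1)) measurable_cdist n1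
    have n4 : Measurable fun p : H3 × H3 × H3 => H3.cdist (A 2 • p.1) p.2.2 :=
      Measurable.comp (g := fun p : H3 × H3 => H3.cdist p.1 p.2)
        (f := fun p : H3 × H3 × H3 => (A 2 • p.1, p.2.2)) measurable_cdist n2
    exact (measurableSet_le n3 measurable_const).inter (measurableSet_le n4 measurable_const)
  calc ∫⁻ P, ‖q.toFun P (fun w => glEmb F w x • galInf σ P w)‖ₑ * Φ (archProj K φ₀ P) ∂infVol F
      ≤ ∫⁻ P, S.indicator (fun p => g p.1) (e P) ∂infVol F := by
        refine lintegral_mono fun P => ?_
        by_cases hP : q.toFun P (fun w => glEmb F w x • galInf σ P w) = 0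
        · simp [hP]
        have hpi : u.symm (e P).1 = archProj K φ₀ P := by rw [he]; rfl
        have hmem : e P ∈ S := by
          rw [he]
          refine ⟨?_, ?_⟩
          · show H3.cdist ((A 0)⁻¹ • atEmb (embOver σ φ₀ 0) P) (atEmb (embOver σ φ₀ 1) P) ≤ r
            rw [← H3.cdist_smul (A 0), smul_inv_smul]
            exact cdist_step_le h q x hP 0
          · show H3.cdist (A 2 • atEmb (embOver σ φ₀ 0) P) (atEmb (embOver σ φ₀ 2) P) ≤ r
            rw [H3.cdist_comm]
            exact cdist_step_le h q x hP 2
        rw [Set.indicator_of_mem hmem]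
        simp only [hg, hpi]
        rw [Set.indicator_of_mem (show archProj K φ₀ P ∈ near from
          cdist_norm_le h hemb hN q hP default)]
        refine mul_le_mul' ?_ le_rfl
        rw [← ofReal_norm]
        exact ENNReal.ofReal_le_ofReal (q.norm_le _ _)
    _ = ∫⁻ p, S.indicator (fun p => g p.1) p ∂H3.vol.prod (H3.vol.prod H3.vol) :=
        hep.lintegral_comp ((hgm.comp measurable_fst).indicator hSm)
    _ = ∫⁻ Q0, ballVol r * ballVol r * g Q0 ∂H3.vol := by
        refine (lintegral_prod _ (Measurable.aemeasurable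
          ((hgm.comp measurable_fst).indicator hSm))).trans (lintegral_congr fun Q0 => ?_)
        have : (fun s : H3 × H3 => S.indicator (fun p => g p.1) (Q0, s)) =
            (B ((A 0)⁻¹ • Q0) ×ˢ B (A 2 • Q0)).indicator fun _ => g Q0 := by
          funext s
          by_cases hs : s ∈ B ((A 0)⁻¹ • Q0) ×ˢ B (A 2 • Q0)
          · rw [Set.indicator_of_mem hs, Set.indicator_of_mem]
            exact hs
          · rw [Set.indicator_of_notMem hs, Set.indicator_of_notMem]
            exact hs
        simp only [Function.comp_def]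
        rw [this, lintegral_indicator ((hBm _).prod (hBm _)), setLIntegral_const,
          Measure.prod_prod, hB, vol_cdist_le, vol_cdist_le, mul_comm]
    _ = ∫⁻ Q, ballVol r * ballVol r * g (u Q) ∂infVol K :=
        (hu.lintegral_comp (hgm.const_mul _)).symm
    _ ≤ _ := by
        refine lintegral_mono fun Q => ?_
        simp only [hg, MeasurableEquiv.symm_apply_apply]
        by_cases hQ : Q ∈ near
        · rw [Set.indicator_of_mem hQ, ← mul_assoc, 
            archMajorant_eq (P := Q) (Q := fun v => glEmb K v m • Q v) q hQ,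
            ← ofReal_norm, Complex.norm_real, Real.norm_of_nonneg (tentHeight_pos q).le]
          refine mul_le_mul' ?_ le_rfl
          rw [← ENNReal.ofReal_toReal (a := ballVol r * ballVol r)
            (ENNReal.mul_ne_top (ballVol_ne_top r) (ballVol_ne_top r)),
            ← ENNReal.ofReal_mul ENNReal.toReal_nonneg]
          refine ENNReal.ofReal_le_ofReal ?_
          rw [mul_comm]
          exact le_add_of_nonneg_right zero_le_one
        · rw [Set.indicator_of_notMem hQ, mul_zero, mul_zero]
          exact zero_le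

end Fermat.Agent.LT.Geometric

end
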