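import Fermat.Agent.LT.Geometric.Pullback
import Fermat.Agent.LT.Geometric.Term
import Fermat.Agent.LT.Geometric.NormalForm
import Mathlib.FieldTheory.PrimitiveElement
import Mathlib.MeasureTheory.Measure.Haar.InnerProductSpace

/-!
# The projection at infinity for a cyclic cubic extension

`atEmb φ P` reads a point of `H3^places` in the coordinate of a complex embedding, transposed when
the embedding is the conjugate of the chosen one. For `K` with one complex place and `L/K` cyclic
cubic the three coordinates over that place identify `H3^places` of `L` with `H3³`.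
-/

set_option autoImplicit false

noncomputable section

open MeasureTheory
open scoped ComplexConjugate Matrix
open NumberField (InfinitePlace)

namespace Fermat.Agent.LT.Geometric

/-! ### Transposition -/

theorem measurable_conjPoint : Measurable H3.conjPoint := continuous_conjPoint.measurable

/-- Transposition as a measurable equivalence. -/
def conjH3 : H3 ≃ᵐ H3 where
  toFun := H3.conjPoint
  invFun := H3.conjPoint
  left_inv := H3.conjPoint_conjPoint
  right_inv := H3.conjPoint_conjPoint
  measurable_toFun := measurable_conjPoint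
  measurable_invFun := measurable_conjPoint

theorem conjPoint_pt (z : ℂ) {t : ℝ} (ht : 0 < t) :
    H3.conjPoint (H3.pt z t) = H3.pt (conj z) t := by
  ext1
  show (H3.pt z t).matᵀ = _
  rw [H3.transpose_mat, H3.mat_pt z ht, H3.mat_pt _ ht]
  ext i j
  fin_cases i <;> fin_cases j <;> simp [map_div₀, Complex.normSq_conj]

/-- Complex conjugation preserves the hyperbolic volume. -/
theorem measurePreserving_conjPoint : MeasurePreserving H3.conjPoint H3.vol H3.vol := by
  refine ⟨measurable_conjPoint, Measure.ext_of_lintegral _ fun f hf => ?_⟩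
  rw [lintegral_map hf measurable_conjPoint,
    H3.lintegral_vol (f := fun P => f (H3.conjPoint P)) (hf.comp measurable_conjPoint),
    H3.lintegral_vol hf]
  have hg : MeasurePreserving (fun p : ℂ × ℝ => (conj p.1, p.2)) volume volume :=
    (Complex.conjLIE.measurePreserving).prod (MeasurePreserving.id (volume : Measure ℝ))
  have hpre : (fun p : ℂ × ℝ => (conj p.1, p.2)) ⁻¹' H3.upper = H3.upper := rfl
  calc ∫⁻ p in H3.upper, H3.density p * f (H3.conjPoint (H3.pt p.1 p.2))
      = ∫⁻ p in H3.upper, (fun q : ℂ × ℝ => H3.density q * f (H3.pt q.1 q.2)) (conj p.1, p.2) :=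
        setLIntegral_congr_fun H3.measurableSet_upper fun p hp => by
          simp only [conjPoint_pt p.1 hp]
          rfl
    _ = ∫⁻ p in H3.upper, H3.density p * f (H3.pt p.1 p.2) := by
        have := hg.setLIntegral_comp_preimage H3.measurableSet_upper
          (f := fun q : ℂ × ℝ => H3.density q * f (H3.pt q.1 q.2))
          (H3.measurable_density.mul (hf.comp H3.measurable_pt))
        rw [hpre] at this
        exact this

/-! ### Coordinates at embeddings -/

variable {F : Type*} [Field F]

open Classical in
/-- The coordinate of a point at the embedding `φ`. -/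
def atEmb (φ : F →+* ℂ) (P : InfinitePlace F → H3) : H3 :=
  if φ = (InfinitePlace.mk φ).embedding then P (InfinitePlace.mk φ)
  else H3.conjPoint (P (InfinitePlace.mk φ))

open Classical in
theorem conj_comp_of_ne {φ : F →+* ℂ} (h : φ ≠ (InfinitePlace.mk φ).embedding) :
    φ = (starRingEnd ℂ).comp (InfinitePlace.mk φ).embedding := by
  have hm : InfinitePlace.mk φ = InfinitePlace.mk (InfinitePlace.mk φ).embedding := by
    rw [InfinitePlace.mk_embedding]
  rcases InfinitePlace.mk_eq_iff.mp hm with h' | h'
  · exact absurd h' h
  · rw [← h']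
    ext x
    simp [NumberField.ComplexEmbedding.conjugate]

variable [NumberField F]

omit [NumberField F] in
open Classical in
/-- Reading a point in an embedding commutes with the action of `GL₂(F)`. -/
theorem atEmb_smul (φ : F →+* ℂ) (γ : GL (Fin 2) F) (P : InfinitePlace F → H3) :
    atEmb φ (fun w => glEmb F w γ • P w) =
      Matrix.GeneralLinearGroup.map φ γ • atEmb φ P := by
  unfold atEmb
  split_ifs with h
  · show glEmb F _ γ • P (InfinitePlace.mk φ) = _
    congr 1
    exact congrArg (fun e : F →+* ℂ => Matrix.GeneralLinearGroup.map e γ) h.symm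
  · rw [H3.conjPoint_smul]
    congr 1
    exact congrArg (fun e : F →+* ℂ => Matrix.GeneralLinearGroup.map e γ) (conj_comp_of_ne h).symm

omit [NumberField F] in
open Classical in
/-- Reading a Galois translate in `φ` is reading the point in `φ ∘ σ`. -/
theorem atEmb_galInf (φ : F →+* ℂ) (σ : F ≃+* F) (P : InfinitePlace F → H3) :
    atEmb φ (galInf σ P) = atEmb (φ.comp (σ : F →+* F)) P := by
  set w := InfinitePlace.mk φ with hw
  have hmk : InfinitePlace.mk (φ.comp (σ : F →+* F)) = w.comap (σ : F →+* F) :=
    (InfinitePlace.comap_mk φ _).symm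
  unfold atEmb galInf
  rw [hmk, ← hw]
  set u := w.comap (σ : F →+* F) with hu
  by_cases h1 : φ = w.embedding
  · rw [if_pos h1, h1]
  · rw [if_neg h1]
    by_cases h2 : w.embedding.comp (σ : F →+* F) = u.embedding
    · rw [if_pos h2]
      split_ifs with h3
      · -- `φσ` is the chosen embedding and so is `w σ`: then `φ = w`
        refine absurd (RingHom.ext fun x => ?_) h1
        have := RingHom.congr_fun (h3.trans h2.symm) (σ.symm x)
        simpa using this
      · rfl
    · rw [if_neg h2, H3.conjPoint_conjPoint]
      have h4 := embedding_comap_of_ne σ w h2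
      rw [if_pos]
      refine RingHom.ext fun x => ?_
      rw [conj_comp_of_ne h1, RingHom.comp_apply, RingHom.comp_apply]
      have := RingHom.congr_fun h4 x
      simp only [RingHom.comp_apply] at this
      show conj (w.embedding (σ x)) = _
      rw [show w.embedding (σ x) = conj (u.embedding x) from this, Complex.conj_conj]

omit [NumberField F] in
/-- Reading a point in an embedding is measurable. -/
theorem measurable_atEmb (φ : F →+* ℂ) : Measurable (atEmb φ) := by
  unfold atEmb
  by_cases h : φ = (InfinitePlace.mk φ).embedding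
  · simp only [if_pos h]; exact measurable_pi_apply _
  · simp only [if_neg h]; exact measurable_conjPoint.comp (measurable_pi_apply _)

omit [NumberField F] in
/-- The height read in an embedding is the height at its place. -/
theorem tc_atEmb (φ : F →+* ℂ) (P : InfinitePlace F → H3) :
    H3.tc (atEmb φ P) = H3.tc (P (InfinitePlace.mk φ)) := by
  unfold atEmb
  split_ifs
  · rfl
  · exact tc_conjPoint _

/-! ### The places over one complex place -/

variable {K : Type*} [Field K] [NumberField K] {ι : K →+* F} {σ : F ≃+* F}

omit [NumberField F] [NumberField K] in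
/-- The automorphism of a cubic extension has cube the identity. -/
theorem cubic_apply_three (h : IsCubic ι σ) (x : F) : σ (σ (σ x)) = x := by
  have := congrArg (fun e : F ≃+* F => e x) h.pow
  rwa [pow_three] at this

omit [NumberField F] [NumberField K] in
theorem cubic_exists_ne (h : IsCubic ι σ) : ∃ x, σ x ≠ x := by
  by_contra hall
  push Not at hall
  exact h.ne_one (RingEquiv.ext hall)

/-- The three embeddings over `φ₀ ∘ ι`. -/
def embOver (σ : F ≃+* F) (φ₀ : F →+* ℂ) : Fin 3 → (F →+* ℂ) :=
  ![φ₀, φ₀.comp (σ : F →+* F), φ₀.comp ((σ : F →+* F).comp (σ : F →+* F))]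

variable (h : IsCubic ι σ) {φ₀ : F →+* ℂ}
  (hcomplex : ¬ NumberField.ComplexEmbedding.IsReal (φ₀.comp ι))

include h

omit [NumberField F] [NumberField K] in
/-- The three embeddings restrict to `φ₀ ∘ ι` on `K`. -/
theorem embOver_comp (i : Fin 3) : (embOver σ φ₀ i).comp ι = φ₀.comp ι := by
  have e : ∀ x, σ (ι x) = ι x := fun x => (h.fixed _).mpr ⟨x, rfl⟩
  fin_cases i <;> ext x <;> simp [embOver, e]

omit [NumberField K] in
/-- An embedding restricting to `φ₀ ∘ ι` is one of the three. -/
theorem exists_embOver {φ : F →+* ℂ} (hφ : φ.comp ι = φ₀.comp ι) :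
    ∃ i, embOver σ φ₀ i = φ := by
  obtain ⟨θ, hθ⟩ := Field.exists_primitive_element ℚ F
  obtain ⟨s1, hs1⟩ : ∃ a, ι a = θ + σ θ + σ (σ θ) := by
    refine (h.fixed _).mp ?_
    rw [map_add, map_add, cubic_apply_three h]
    abel
  obtain ⟨s2, hs2⟩ : ∃ a, ι a = θ * σ θ + σ θ * σ (σ θ) + σ (σ θ) * θ := by
    refine (h.fixed _).mp ?_
    simp only [map_add, map_mul, cubic_apply_three h]
    ring
  obtain ⟨s3, hs3⟩ : ∃ a, ι a = θ * σ θ * σ (σ θ) := by
    refine (h.fixed _).mp ?_
    simp only [map_mul, cubic_apply_three h]
    ring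
  have key : (φ θ - φ₀ θ) * (φ θ - φ₀ (σ θ)) * (φ θ - φ₀ (σ (σ θ))) = 0 := by
    have e : ∀ a, φ₀ (ι a) = φ (ι a) := fun a => (RingHom.congr_fun hφ a).symm
    have e1 := e s1
    have e2 := e s2
    have e3 := e s3
    rw [hs1] at e1; rw [hs2] at e2; rw [hs3] at e3
    simp only [map_add, map_mul] at e1 e2 e3 ⊢
    linear_combination (φ θ ^ 2) * (-1 : ℂ) * e1 + φ θ * e2 - e3
  have hext : ∀ ψ : F →+* ℂ, ψ θ = φ θ → ψ = φ := fun ψ he => by
    have : ψ.toRatAlgHom = φ.toRatAlgHom := by
      refine AlgHom.ext_of_adjoin_eq_top (s := ({θ} : Set F)) ?_ fun x hx => ?_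
      · rw [← IntermediateField.adjoin_simple_toSubalgebra_of_isAlgebraic
          (Algebra.IsAlgebraic.isAlgebraic θ), hθ]
        rfl
      · rw [Set.mem_singleton_iff] at hx
        subst hx
        exact he
    exact RingHom.ext fun x => AlgHom.congr_fun this x
  rcases mul_eq_zero.mp key with h' | h'
  · rcases mul_eq_zero.mp h' with h'' | h''
    · exact ⟨0, hext _ (sub_eq_zero.mp h'').symm⟩
    · exact ⟨1, hext _ (by simpa [embOver] using (sub_eq_zero.mp h'').symm)⟩
  · exact ⟨2, hext _ (by simpa [embOver] using (sub_eq_zero.mp h').symm)⟩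

omit [NumberField K] [NumberField F] in
theorem embOver_injective : Function.Injective (embOver σ φ₀) := by
  have hne : ∃ x, σ x ≠ x := cubic_exists_ne h
  obtain ⟨x, hx⟩ := hne
  have h1 : σ (σ x) ≠ x := fun e => hx (by
    have := congrArg σ e
    rw [cubic_apply_three h] at this
    exact this.symm)
  have h2 : σ (σ x) ≠ σ x := fun e => hx (σ.injective e)
  intro i j he
  have := RingHom.congr_fun he x
  fin_cases i <;> fin_cases j <;>
    first
      | rfl
      | (exfalso
         simp [embOver] at this
         first
           | exact hx (φ₀.injective this)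
           | exact hx (φ₀.injective this).symm
           | exact h1 (φ₀.injective this)
           | exact h1 (φ₀.injective this).symm
           | exact h2 (φ₀.injective this)
           | exact h2 (φ₀.injective this).symm)

variable (φ₀) in
/-- The three places over the place of `φ₀ ∘ ι`. -/
def placeOver (σ : F ≃+* F) (i : Fin 3) : InfinitePlace F := InfinitePlace.mk (embOver σ φ₀ i)

variable (hone : ∀ v : InfinitePlace K, v = InfinitePlace.mk (φ₀.comp ι))

include hcomplex hone

omit [NumberField K] in
/-- The three embeddings give every infinite place of `F` exactly once. -/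
theorem bijective_placeOver : Function.Bijective (placeOver φ₀ σ) := by
  constructor
  · intro i j he
    rcases InfinitePlace.mk_eq_iff.mp he with h' | h'
    · exact embOver_injective h h'
    · exfalso
      refine hcomplex (RingHom.ext fun x => ?_)
      have h1 := RingHom.congr_fun h' (ι x)
      have h2 : ∀ k, embOver σ φ₀ k (ι x) = φ₀ (ι x) := fun k =>
        RingHom.congr_fun (embOver_comp h k) x
      rw [NumberField.ComplexEmbedding.conjugate_coe_eq, h2, h2] at h1
      simpa [NumberField.ComplexEmbedding.conjugate] using h1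
  · intro w
    have hv := hone (w.comap ι)
    rw [← InfinitePlace.mk_embedding w, InfinitePlace.comap_mk, InfinitePlace.mk_eq_iff] at hv
    rcases hv with h' | h'
    · obtain ⟨i, hi⟩ := exists_embOver h h'
      exact ⟨i, by rw [placeOver, hi, InfinitePlace.mk_embedding]⟩
    · obtain ⟨i, hi⟩ := exists_embOver h
        (φ := NumberField.ComplexEmbedding.conjugate w.embedding) (φ₀ := φ₀) (by
          ext x
          exact RingHom.congr_fun h' x)
      exact ⟨i, by rw [placeOver, hi, InfinitePlace.mk_conjugate_eq, InfinitePlace.mk_embedding]⟩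

/-- The three coordinates over the place. -/
def archTriple (φ₀ : F →+* ℂ) (σ : F ≃+* F) : (InfinitePlace F → H3) → H3 × H3 × H3 := fun P =>
  (atEmb (embOver σ φ₀ 0) P, atEmb (embOver σ φ₀ 1) P, atEmb (embOver σ φ₀ 2) P)

open Classical in
omit [NumberField K] in
/-- The measurable equivalence of the three coordinates. -/
theorem exists_archEquiv : ∃ e : (InfinitePlace F → H3) ≃ᵐ H3 × H3 × H3,
    (∀ P, e P = archTriple φ₀ σ P) ∧
      MeasurePreserving e (infVol F) (H3.vol.prod (H3.vol.prod H3.vol)) := by
  let p : Fin 3 ≃ InfinitePlace F := Equiv.ofBijective _ (bijective_placeOver h hcomplex hone)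
  let t : ∀ i : Fin 3, H3 ≃ᵐ H3 := fun i =>
    if embOver σ φ₀ i = (InfinitePlace.mk (embOver σ φ₀ i)).embedding then MeasurableEquiv.refl H3
    else conjH3
  have ht : ∀ i, MeasurePreserving (t i) H3.vol H3.vol := fun i => by
    simp only [t]
    split_ifs
    · exact MeasurePreserving.id _
    · exact measurePreserving_conjPoint
  let e1 := (MeasurableEquiv.piCongrLeft (fun _ : InfinitePlace F => H3) p).symm
  have h1 : MeasurePreserving e1 (infVol F) (Measure.pi fun _ : Fin 3 => H3.vol) :=
    (measurePreserving_piCongrLeft (fun _ : InfinitePlace F => H3.vol) p).symm _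
  let e2 := MeasurableEquiv.piCongrRight t
  have h2 : MeasurePreserving e2 (Measure.pi fun _ : Fin 3 => H3.vol)
      (Measure.pi fun _ : Fin 3 => H3.vol) :=
    measurePreserving_pi _ _ fun i => ht i
  let e3 := MeasurableEquiv.piFinSuccAbove (fun _ : Fin 3 => H3) 0
  have h3 := measurePreserving_piFinSuccAbove (fun _ : Fin 3 => H3.vol) 0
  let e4 := (MeasurableEquiv.refl H3).prodCongr (MeasurableEquiv.piFinTwo fun _ : Fin 2 => H3)
  have h4 : MeasurePreserving e4 (H3.vol.prod (Measure.pi fun _ : Fin 2 => H3.vol))
      (H3.vol.prod (H3.vol.prod H3.vol)) :=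
    (MeasurePreserving.id _).prod (measurePreserving_piFinTwo fun _ : Fin 2 => H3.vol)
  refine ⟨((e1.trans e2).trans e3).trans e4, fun P => ?_, h4.comp (h3.comp (h2.comp h1))⟩
  have he : ∀ i, e2 (e1 P) i = atEmb (embOver σ φ₀ i) P := fun i => by
    show t i (P (p i)) = _
    simp only [t, atEmb]
    split_ifs <;> rfl
  exact Prod.ext (he 0) (Prod.ext (he 1) (he 2))

end Fermat.Agent.LT.Geometric

end
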