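import Fermat.Agent.LT.Geometric.Unfold

/-!
# The part of a geometric sum carried by one class

A class is parametrised by a countable family `j : D → Δ` stable under `Z`; the integral of its
sum against a partition for `G` is the integral of the family against any partition for `Z`.
-/

set_option autoImplicit false

noncomputable section

open MeasureTheory
open scoped ENNReal NNReal

namespace Fermat.Agent.LT.Geometric

variable {G X : Type*} [Group G] [Countable G] [MeasurableSpace X] [MulAction G X]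
  [MeasurableConstSMul G X] {μ : Measure X} [SMulInvariantMeasure G X μ]
  {Δ : Type*} [MulAction G Δ]

omit [Countable G] [MeasurableConstSMul G X] in
/-- A partition of unity restricts to smaller sets. -/
theorem IsPartition.mono {s t : Set X} {w : X → ℝ≥0} (h : IsPartition G t w) (hst : s ⊆ t) :
    IsPartition G s w :=
  ⟨h.measurable, fun x hx => h.hasSum x (hst hx)⟩

/-- The data of one class. -/
structure Piece (G X Δ D : Type*) [Group G] [MulAction G X] [MulAction G Δ] where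
  /-- The subgroup preserving the family. -/
  Z : Subgroup G
  /-- The family. -/
  j : D → Δ
  inj : Function.Injective j
  /-- The class. -/
  C : Set Δ
  isClass : IsClass Z (Set.range j) C

variable {D : Type*} [Countable D]

omit [Countable G] [MeasurableSpace X] [MeasurableConstSMul G X] [Countable D] in
theorem Piece.tsum_range (P : Piece G X Δ D) {M : Type*} [AddCommMonoid M] [TopologicalSpace M]
    (f : Δ → M) : ∑' δ : Set.range P.j, f δ = ∑' d, f (P.j d) :=
  ((Equiv.ofInjective P.j P.inj).tsum_eq fun δ : Set.range P.j => f δ).symm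

section

variable (P : Piece G X Δ D) {F : Δ → X → ℂ} (hF : ∀ (g : G) δ x, F (g • δ) (g • x) = F δ x)
  {χ : X → ℝ≥0} (hχi : ∀ (g : G) x, χ (g • x) = χ x)
  {ω : X → ℝ≥0} (hω : IsPartition G Set.univ ω)
  {s : Set X} {w : X → ℝ≥0} (hw : IsPartition P.Z s w) (hsupp : ∀ x, x ∉ s → ∀ d, F (P.j d) x = 0)
  (hFm : ∀ d, Measurable (F (P.j d))) (hχ : Measurable χ)

include hF hχi hω hw hsupp hFm hχ

/-- The absolute form of the class identity. -/
theorem Piece.lintegral_eq :
    ∫⁻ x, (ω x : ℝ≥0∞) * ((χ x : ℝ≥0∞) * ∑' δ : P.C, ‖F δ x‖ₑ) ∂μ =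
      ∑' d, ∫⁻ x, ‖((w x * χ x : ℝ≥0) : ℝ) • F (P.j d) x‖ₑ ∂μ := by
  set Ψ : X → ℝ≥0∞ := fun x => (χ x : ℝ≥0∞) * ∑' d, ‖F (P.j d) x‖ₑ with hΨ
  have hΨm : Measurable Ψ :=
    hχ.coe_nnreal_ennreal.mul (Measurable.tsum fun d => (hFm d).enorm)
  have hclass : ∀ x, (χ x : ℝ≥0∞) * ∑' δ : P.C, ‖F δ x‖ₑ = cosetSum P.Z Ψ x := fun x => by
    rw [P.isClass.tsum_eq_ennreal (F := fun δ y => ‖F δ y‖ₑ) (fun g δ y => by rw [hF]) x,
      cosetSum, cosetSum, ← ENNReal.tsum_mul_left]
    refine tsum_congr fun c => ?_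
    simp only [hΨ, hχi, P.tsum_range (fun δ => ‖F δ (c.out⁻¹ • x)‖ₑ)]
  simp only [hclass]
  rw [lintegral_cosetSum P.Z hω hΨm (by simp),
    lintegral_partition_eq (μ := μ)
      ((hω.isPartition_subPartition P.Z (by simp)).mono (Set.subset_univ s)) hw hΨm
      (fun z x => ?_) fun x hx => by simp [hΨ, hsupp x hx]]
  · rw [← lintegral_tsum (f := fun d x => ‖((w x * χ x : ℝ≥0) : ℝ) • F (P.j d) x‖ₑ) fun d =>
      (((hw.measurable.mul hχ).coe_nnreal_real.smul (hFm d)).enorm).aemeasurable]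
    refine lintegral_congr fun x => ?_
    simp only [enorm_smul_nnreal, ENNReal.coe_mul, hΨ, mul_assoc, ENNReal.tsum_mul_left]
  · show Ψ ((z : G) • x) = Ψ x
    simp only [hΨ, hχi]
    rw [← P.tsum_range fun δ => ‖F δ ((z : G) • x)‖ₑ, ← P.tsum_range fun δ => ‖F δ x‖ₑ,
      P.isClass.tsum_smul (F := fun δ y => ‖F δ y‖ₑ) (fun g δ y => by rw [hF]) (z : G) z.2 x]

/-- The class identity, with absolute integrability of the family. -/
theorem Piece.integral_eq (hsum : ∀ x, Summable fun δ : P.C => F δ x)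
    (hfin : ∫⁻ x, (ω x : ℝ≥0∞) * ((χ x : ℝ≥0∞) * ∑' δ : P.C, ‖F δ x‖ₑ) ∂μ ≠ ∞) :
    Integrable (fun x => ((w x * χ x : ℝ≥0) : ℝ) • ∑' d, F (P.j d) x) μ ∧
    ∫ x, ((ω x * χ x : ℝ≥0) : ℝ) • ∑' δ : P.C, F δ x ∂μ =
      ∫ x, ((w x * χ x : ℝ≥0) : ℝ) • ∑' d, F (P.j d) x ∂μ := by
  set ψ : X → ℂ := fun x => (χ x : ℝ) • ∑' d, F (P.j d) x with hψ
  have hψm : StronglyMeasurable ψ :=
    (hχ.coe_nnreal_real.smul (Measurable.tsum hFm)).stronglyMeasurable
  have hψs : ∀ x, x ∉ s → ψ x = 0 := fun x hx => by simp [hψ, hsupp x hx]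
  have hψi : ∀ (z : P.Z) x, ψ (z • x) = ψ x := fun z x => by
    show ψ ((z : G) • x) = ψ x
    simp only [hψ, hχi]
    rw [← P.tsum_range fun δ => F δ ((z : G) • x), ← P.tsum_range fun δ => F δ x,
      P.isClass.tsum_smul hF (z : G) z.2 x]
  have hint : Integrable (fun x => (w x : ℝ) • ψ x) μ := by
    refine ⟨(hw.measurable.coe_nnreal_real.stronglyMeasurable.smul hψm).aestronglyMeasurable, ?_⟩
    rw [P.lintegral_eq hF hχi hω hw hsupp hFm hχ,
      ← lintegral_tsum (f := fun d x => ‖((w x * χ x : ℝ≥0) : ℝ) • F (P.j d) x‖ₑ) fun d =>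
      (((hw.measurable.mul hχ).coe_nnreal_real.smul (hFm d)).enorm).aemeasurable] at hfin
    rw [hasFiniteIntegral_iff_enorm]
    refine lt_of_le_of_lt (lintegral_mono fun x => ?_) hfin.lt_top
    simp only [hψ, enorm_smul_nnreal, ENNReal.coe_mul, ENNReal.tsum_mul_left, ← mul_assoc]
    exact mul_le_mul_right (enorm_tsum_le_tsum_enorm) _
  have heq : (fun x => ((w x * χ x : ℝ≥0) : ℝ) • ∑' d, F (P.j d) x) =
      fun x => (w x : ℝ) • ψ x := funext fun x => by simp [hψ, mul_smul]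
  rw [heq]
  refine ⟨hint, ?_⟩
  have hp := (hω.isPartition_subPartition P.Z (by simp)).mono (Set.subset_univ s)
  have hint' := (integrable_partition_iff hp hw hψm hψi hψs).mpr hint
  rw [← integral_partition_eq hp hw hψm hψi hψs hint', ← integral_cosetSum P.Z hω hψm (by simp)
      hint']
  refine integral_congr_ae (Filter.Eventually.of_forall fun x => ?_)
  simp only [NNReal.coe_mul, mul_smul]
  congr 1
  rw [P.isClass.tsum_eq hF x (hsum x), cosetSum, cosetSum]
  have h := tsum_const_smul'' (L := SummationFilter.unconditional _) (χ x : ℝ)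
    (f := fun c : G ⧸ P.Z => ∑' δ : Set.range P.j, F δ (c.out⁻¹ • x))
  rw [← h]
  refine tsum_congr fun c => ?_
  simp only [hψ, hχi, P.tsum_range fun δ => F δ (c.out⁻¹ • x)]

end

end Fermat.Agent.LT.Geometric
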