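import Fermat.Agent.LT.Geometric.Term
import Fermat.Agent.LT.Reduction.Finite
import Fermat.Agent.LT.Reduction.Partition

/-!
# The height cutoff and the cusps of a term

`cutoff U R T` is the indicator of the points no translate of which with finite part in `R` has
height above `T`. A term is nonzero high in a cusp only if the cusp is fixed by its norm.
-/

set_option autoImplicit false

noncomputable section

open MeasureTheory Filter Topology
open scoped NNReal
open NumberField (InfinitePlace)

namespace Fermat.Agent.LT.Geometric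

variable {F : Type*} [Field F] [NumberField F]

/-- The finite part lies in `R`. -/
def InReps {U : Level F} (R : Finset (GLFin F)) (y : Y U) : Prop :=
  ∃ r ∈ R, y.2 = QuotientGroup.mk r

/-- Some translate in `R` has height above `T`. -/
def IsHigh {U : Level F} (R : Finset (GLFin F)) (T : ℝ) (y : Y U) : Prop :=
  ∃ γ : GL (Fin 2) F, InReps R (γ • y) ∧ T < Reduction.height (γ • y)

/-- Some translate by an upper triangular element, in `R`, has height above `T`. -/
def IsHighTop {U : Level F} (R : Finset (GLFin F)) (T : ℝ) (y : Y U) : Prop :=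
  ∃ γ : GL (Fin 2) F, Reduction.IsUpper γ ∧ InReps R (γ • y) ∧ T < Reduction.height (γ • y)

open Classical in
/-- The cutoff. -/
def cutoff (U : Level F) (R : Finset (GLFin F)) (T : ℝ) (y : Y U) : ℝ≥0 :=
  if IsHigh R T y then 0 else 1

/-- The cutoff is at most one. -/
theorem cutoff_le_one (U : Level F) (R : Finset (GLFin F)) (T : ℝ) (y : Y U) :
    cutoff U R T y ≤ 1 := by
  unfold cutoff
  split_ifs <;> simp

variable {U : Level F} {R : Finset (GLFin F)} {T : ℝ}

theorem isHigh_smul_iff (g : GL (Fin 2) F) (y : Y U) : IsHigh R T (g • y) ↔ IsHigh R T y := by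
  constructor
  · rintro ⟨γ, h⟩
    exact ⟨γ * g, by rwa [mul_smul]⟩
  · rintro ⟨γ, h⟩
    exact ⟨γ * g⁻¹, by rwa [mul_smul, inv_smul_smul]⟩

/-- A high top is invariant under upper triangular elements. -/
theorem isHighTop_smul_iff {g : GL (Fin 2) F} (hg : Reduction.IsUpper g) (y : Y U) :
    IsHighTop R T (g • y) ↔ IsHighTop R T y := by
  constructor
  · rintro ⟨γ, hγ, h⟩
    exact ⟨γ * g, hγ.mul hg, by rwa [mul_smul]⟩
  · rintro ⟨γ, hγ, h⟩
    exact ⟨γ * g⁻¹, hγ.mul hg.inv, by rwa [mul_smul, inv_smul_smul]⟩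

theorem cutoff_smul (g : GL (Fin 2) F) (y : Y U) : cutoff U R T (g • y) = cutoff U R T y := by
  by_cases h : IsHigh R T y <;> simp [cutoff, h, isHigh_smul_iff]

/-- The cutoff is invariant under `PGL₂(F)`. -/
theorem cutoff_pgl_smul (g : PGLIndex F) (y : Y U) : cutoff U R T (g • y) = cutoff U R T y := by
  induction g using QuotientGroup.induction_on with
  | H x => exact cutoff_smul x y

theorem measurable_height : Measurable (Reduction.height : Y U → ℝ) :=
  Finset.measurable_prod _ fun w _ =>
    H3.continuous_tc.measurable.comp ((measurable_pi_apply w).comp measurable_fst)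

/-- The points whose translate by `γ` is in `R` and above `T` form a measurable set. -/
theorem measurableSet_inReps (γ : GL (Fin 2) F) :
    MeasurableSet {y : Y U | InReps R (γ • y) ∧ T < Reduction.height (γ • y)} := by
  refine MeasurableSet.inter ?_ (measurableSet_lt measurable_const
    (measurable_height.comp (measurePreserving_ySmul U γ).measurable))
  exact ((measurePreserving_ySmul U γ).measurable.snd)
    (MeasurableSet.of_discrete (s := {c | ∃ r ∈ R, c = QuotientGroup.mk r}))

theorem measurableSet_isHigh : MeasurableSet {y : Y U | IsHigh R T y} := by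
  have : Countable (GL (Fin 2) F) := by
    have : Countable F := (Module.finBasis ℚ F).equivFun.injective.countable
    have : Countable (Matrix (Fin 2) (Fin 2) F) := inferInstanceAs (Countable (Fin 2 → Fin 2 → F))
    exact Units.val_injective.countable
  rw [show {y : Y U | IsHigh R T y} = ⋃ γ : GL (Fin 2) F,
    {y | InReps R (γ • y) ∧ T < Reduction.height (γ • y)} by ext; simp [IsHigh]]
  exact MeasurableSet.iUnion fun γ => measurableSet_inReps γ

/-- The cutoff is measurable. -/
theorem measurable_cutoff : Measurable (cutoff U R T) :=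
  Measurable.ite measurableSet_isHigh measurable_const measurable_const

/-- Representatives cover. -/
def CoversReps (U : Level F) (R : Finset (GLFin F)) : Prop :=
  ∀ y : Y U, ∃ γ : GL (Fin 2) F, InReps R (γ • y)

variable [NumberField.IsTotallyComplex F]

/-- The cutoffs increase to one. -/
theorem tendsto_cutoff_one (hR : CoversReps U R) (y : Y U) :
    Tendsto (fun T : ℕ => (cutoff U R (T : ℝ) y : ℝ)) atTop (𝓝 1) := by
  obtain ⟨C, hC, hb⟩ := Reduction.exists_height_smul_le U R
  obtain ⟨γ₀, h₀⟩ := hR y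
  set a := Reduction.height (γ₀ • y)
  have ha : 0 < a := Reduction.height_pos _
  refine tendsto_const_nhds.congr' ?_
  filter_upwards [eventually_ge_atTop ⌈C * a + C / a⌉₊] with T hT
  have hnot : ¬ IsHigh R (T : ℝ) y := by
    rintro ⟨γ, hγ, hlt⟩
    have hT' : C * a + C / a ≤ (T : ℝ) := (Nat.le_ceil _).trans (Nat.cast_le.mpr hT)
    have hsm : γ • y = (γ * γ₀⁻¹) • γ₀ • y := by rw [mul_smul, inv_smul_smul]
    obtain ⟨h1, h2⟩ := hb (γ * γ₀⁻¹) (γ₀ • y) h₀ (hsm ▸ hγ)
    rw [← hsm] at h1 h2
    have hpos : 0 < C * a := by positivity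
    have hpos' : 0 < C / a := by positivity
    by_cases h10 : (γ * γ₀⁻¹).val 1 0 = 0
    · linarith [h2 h10]
    · have : Reduction.height (γ • y) ≤ C / a := by
        rw [le_div_iff₀ ha, mul_comm]
        exact h1 h10
      linarith
  simp [cutoff, hnot]

variable (U) (σ : F ≃+* F)
  (hU : ∀ g ∈ U.toSubgroup, glFinMap (σ : F →+* F) g ∈ U.toSubgroup)
  (k : Kernel.PointKer F) (h : HeckeFn U)

omit [NumberField.IsTotallyComplex F] in
theorem height_galY (y : Y U) : Reduction.height (galY σ U hU y) = Reduction.height y := by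
  unfold Reduction.height
  let e : InfinitePlace F ≃ InfinitePlace F :=
    { toFun := fun w => w.comap (σ : F →+* F)
      invFun := fun w => w.comap (σ.symm : F →+* F)
      left_inv := fun w => by
        show (w.comap (σ : F →+* F)).comap (σ.symm : F →+* F) = w
        rw [← InfinitePlace.comap_comp]
        simp
        rfl
      right_inv := fun w => by
        show (w.comap (σ.symm : F →+* F)).comap (σ : F →+* F) = w
        rw [← InfinitePlace.comap_comp]
        simp
        rfl }
  refine Eq.trans (Finset.prod_congr rfl fun w _ => ?_) (e.prod_comp fun w => H3.tc (y.1 w))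
  show H3.tc (galInf σ y.1 w) = _
  unfold galInf
  split_ifs
  · rfl
  · rw [tc_conjPoint]; rfl

/-- A cusp that is high for a point where a term does not vanish is fixed by `δ ∘ σ`. -/
theorem exists_twistedUpper_of_high (R : Finset (GLFin F)) :
    ∃ T₀ : ℝ, ∀ (δ : Twisted (pglAut σ)) (x : Y U) (γ : GL (Fin 2) F),
      term σ hU k h δ x ≠ 0 → InReps R (γ • x) → T₀ < Reduction.height (γ • x) →
      ∃ dm : GL (Fin 2) F, (QuotientGroup.mk dm : PGLIndex F) = δ.val ∧
        Reduction.IsUpper (γ * dm * (CubicDescent.glMap σ γ)⁻¹) := by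
  classical
  set S : Finset (GLFin F) := h.finite_support.toFinset.image Quotient.out
  set R' := R ∪ R.image (glFinMap (σ : F →+* F)) ∪ (R ×ˢ S).image fun p => p.1 * p.2
  obtain ⟨C, hC, hup⟩ := Reduction.exists_upper_of_height U R'
  set D := (2 * k.radius) ^ Fintype.card (InfinitePlace F)
  have hD : 1 ≤ D := one_le_pow₀ (by linarith [k.one_le_radius])
  refine ⟨C * D, fun δ x γ hne hγ hlt => ?_⟩
  obtain ⟨hk, hh⟩ := mul_ne_zero_iff.mp hne
  obtain ⟨dm, hdm⟩ := QuotientGroup.mk_surjective δ.val
  set y := δ.val • galY σ U hU x with hy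
  have hnear : Reduction.height (γ • x) ≤ D * Reduction.height (γ • y) := by
    simp only [Reduction.height, D, ← Finset.card_univ, ← Finset.prod_const,
      ← Finset.prod_mul_distrib]
    refine Finset.prod_le_prod (fun w _ => (H3.tc_pos _).le) fun w _ => ?_
    have hc : H3.cdist ((γ • x).1 w) ((γ • y).1 w) ≤ k.radius := by
      rw [smul_fst, smul_fst, H3.cdist_smul]
      exact k.cdist_le hk w
    have hp := H3.tc_pos ((γ • x).1 w)
    have hq := H3.tc_pos ((γ • y).1 w)
    rw [H3.cdist_eq, div_le_iff₀ (by positivity)] at hc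
    have := Complex.normSq_nonneg (H3.zc ((γ • x).1 w) - H3.zc ((γ • y).1 w))
    nlinarith
  have hy' : InReps R' (γ • y) := by
    obtain ⟨r, hr, hx2⟩ := hγ
    obtain ⟨b, hb⟩ := QuotientGroup.mk_surjective (γ • y).2
    have hker : h.kernel (γ • x).2 (γ • y).2 ≠ 0 := by
      rwa [smul_snd, smul_snd, h.kernel_smul]
    rw [hx2, ← hb, HeckeFn.kernel_mk] at hker
    set q : GLFin F ⧸ U.toSubgroup := QuotientGroup.mk (r⁻¹ * b)
    have hq : q.out ∈ S :=
      Finset.mem_image.mpr ⟨q, h.finite_support.mem_toFinset.mpr ⟨_, hker, rfl⟩, rfl⟩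
    refine ⟨r * q.out, Finset.mem_union_right _
      (Finset.mem_image.mpr ⟨(r, q.out), Finset.mem_product.mpr ⟨hr, hq⟩, rfl⟩), ?_⟩
    rw [← hb]
    calc (QuotientGroup.mk b : GLFin F ⧸ U.toSubgroup) = r • q := by
          show _ = (QuotientGroup.mk (r * (r⁻¹ * b)) : GLFin F ⧸ U.toSubgroup)
          rw [mul_inv_cancel_left]
      _ = r • QuotientGroup.mk q.out := by rw [QuotientGroup.out_eq']
      _ = _ := rfl
  set γ' := Matrix.GeneralLinearGroup.map (σ : F →+* F) γ with hγ'
  have hgal : galY σ U hU (γ • x) = (γ' * dm⁻¹) • y := by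
    rw [galY_smul, hy, ← hdm, pgl_mk_smul, mul_smul, inv_smul_smul]
  have hz : InReps R' (galY σ U hU (γ • x)) := by
    obtain ⟨r, hr, hx2⟩ := hγ
    refine ⟨glFinMap (σ : F →+* F) r, Finset.mem_union_left _
      (Finset.mem_union_right _ (Finset.mem_image_of_mem _ hr)), ?_⟩
    show galFin σ U hU (γ • x).2 = _
    rw [hx2, galFin_mk]
  set E := γ' * dm⁻¹ * γ⁻¹ with hE
  have hEy : E • γ • y = galY σ U hU (γ • x) := by
    rw [hgal, ← mul_smul, hE, inv_mul_cancel_right]
  have hD0 : 0 < D := zero_lt_one.trans_le hD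
  have hup' : Reduction.IsUpper E := by
    refine hup E (γ • y) hy' (hEy ▸ hz) ?_ ?_
    · by_contra hle
      push Not at hle
      nlinarith
    · rw [hEy, height_galY]
      nlinarith
  refine ⟨dm, hdm, ?_⟩
  have : γ * dm * (CubicDescent.glMap σ γ)⁻¹ = E⁻¹ := by
    rw [hE, _root_.mul_inv_rev, _root_.mul_inv_rev, inv_inv, inv_inv, ← mul_assoc]
    rfl
  rw [this]
  exact hup'.inv

/-- A cusp that is high for a point where a term does not vanish is fixed by the norm. -/
theorem exists_fixed_of_high (hσ : σ ^ 3 = 1) (R : Finset (GLFin F)) :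
    ∃ T₀ : ℝ, ∀ (δ : Twisted (pglAut σ)) (x : Y U) (γ : GL (Fin 2) F),
      term σ hU k h δ x ≠ 0 → InReps R (γ • x) → T₀ < Reduction.height (γ • x) →
      ∃ N : GL (Fin 2) F, (QuotientGroup.mk N : PGLIndex F) = δ.norm ∧
        Reduction.IsUpper (γ * N * γ⁻¹) := by
  obtain ⟨T₀, h₀⟩ := exists_twistedUpper_of_high U σ hU k h R
  refine ⟨T₀, fun δ x γ hne hγ hlt => ?_⟩
  obtain ⟨dm, hdm, hd⟩ := h₀ δ x γ hne hγ hlt
  refine ⟨CubicDescent.twistedNorm (CubicDescent.glMap σ) dm 3, ?_, ?_⟩
  · rw [← norm_mk]
    exact congrArg Twisted.norm (Twisted.ext hdm)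
  have hmap : ∀ g : GL (Fin 2) F, Reduction.IsUpper g →
      Reduction.IsUpper (CubicDescent.glMap σ g) := fun g hg => by
    show σ (g.val 1 0) = 0
    rw [hg, map_zero]
  set d' := γ * dm * (CubicDescent.glMap σ γ)⁻¹ with hd'
  have h3 : CubicDescent.glMap σ (CubicDescent.glMap σ (CubicDescent.glMap σ γ)) = γ := by
    have e := CubicDescent.glMap_iterate σ γ 3
    simp only [Function.iterate_succ, Function.iterate_zero, Function.comp_apply, id_eq] at e
    ext : 1
    rw [e, hσ]
    ext; simp
  have hN : γ * CubicDescent.twistedNorm (CubicDescent.glMap σ) dm 3 * γ⁻¹ =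
      CubicDescent.twistedNorm (CubicDescent.glMap σ) d' 3 := by
    simp only [CubicDescent.twistedNorm, hd', map_mul, map_inv, map_one, mul_one, h3]
    group
  rw [hN]
  simp only [CubicDescent.twistedNorm, map_mul, map_one, mul_one]
  exact hd.mul ((hmap _ hd).mul (hmap _ (hmap _ hd)))

end Fermat.Agent.LT.Geometric
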