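import Fermat.Agent.LT.Geometric.UnipotentFibre
import Fermat.Agent.LT.Geometric.Band
import Fermat.Agent.LT.Kernel.Cusp
import Fermat.Agent.LT.Geometric.Partition
import Fermat.Agent.LT.Whittaker.Adele

/-!
# The rational torus on finite cosets

Its orbits on the lines `lineClass 1` have finite stabilisers when there is one archimedean place,
so it has a partition constant on lines; the support of a hyperbolic element meets a line finitely
and has finitely many torus orbits.
-/

set_option autoImplicit false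

noncomputable section

open scoped Matrix NNReal NumberField
open NumberField (InfinitePlace)

namespace Fermat.Agent.LT.Geometric

variable {F : Type*} [Field F]

/-- The diagonal torus in `PGL₂`. -/
def torus (F : Type*) [Field F] : Fˣ →* PGLIndex F where
  toFun t := QuotientGroup.mk (dia t)
  map_one' := by rw [Whittaker.dia_one, QuotientGroup.mk_one]
  map_mul' a b := by rw [Whittaker.dia_mul, QuotientGroup.mk_mul]

/-- The torus element of `t` is the class of `diag(t, 1)`. -/
theorem torus_apply (t : Fˣ) : torus F t = QuotientGroup.mk (dia t) := rfl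

/-- The torus embeds `Fˣ` in `PGL₂(F)`. -/
theorem torus_injective : Function.Injective (torus F) := by
  intro s t h
  obtain ⟨a, ha⟩ := QuotientGroup.eq.mp h
  rw [eq_inv_mul_iff_mul_eq, ← scalarGlobal_comm] at ha
  have h00 := congrArg (fun g : GL (Fin 2) F => g.val 0 0) ha
  have h11 := congrArg (fun g : GL (Fin 2) F => g.val 1 1) ha
  simp [dia, Matrix.mul_apply, Fin.sum_univ_two, scalarGlobal] at h00 h11
  exact Units.ext (by rw [← h00, h11, Units.val_one, one_mul])

/-- Conjugating the torus by the Weyl element inverts it. -/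
theorem weyl_mul_dia (t : Fˣ) : weyl F * dia t = scalarGlobal F t * (dia t⁻¹ * weyl F) := by
  ext i j
  fin_cases i <;> fin_cases j <;>
    simp [weyl, dia, scalarGlobal, Matrix.mul_apply, Fin.sum_univ_two]

/-- The torus is upper triangular. -/
theorem isUpper_dia (t : Fˣ) : Reduction.IsUpper (dia t : GL (Fin 2) F) := by
  simp [Reduction.IsUpper, dia]

variable [NumberField F] {U : Level F}

theorem glIncl_scalarGlobal_mul_smul (a : Fˣ) (γ : GL (Fin 2) F) (c : GLFin F ⧸ U.toSubgroup) :
    glIncl F (scalarGlobal F a * γ) • c = glIncl F γ • c := by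
  have h : (scalarGlobal F a * γ) • ((fun _ => H3.origin, c) : Y U) =
      γ • ((fun _ => H3.origin, c) : Y U) := by rw [mul_smul, scalarGlobal_smul]
  have h2 := congrArg Prod.snd h
  rwa [smul_snd, smul_snd] at h2

/-- The Weyl element acts on cosets as an involution. -/
theorem glIncl_weyl_smul_smul (c : GLFin F ⧸ U.toSubgroup) :
    glIncl F (weyl F) • glIncl F (weyl F) • c = c := by
  rw [← mul_smul, ← map_mul, weyl_mul_weyl, map_one, one_smul]

/-- The Weyl element inverts the torus on cosets. -/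
theorem glIncl_weyl_dia_smul (t : Fˣ) (c : GLFin F ⧸ U.toSubgroup) :
    glIncl F (weyl F) • glIncl F (dia t) • c = glIncl F (dia t⁻¹) • glIncl F (weyl F) • c := by
  rw [← mul_smul, ← map_mul, weyl_mul_dia, glIncl_scalarGlobal_mul_smul, map_mul, mul_smul]

theorem glIncl_dia_smul_smul (s t : Fˣ) (c : GLFin F ⧸ U.toSubgroup) :
    glIncl F (dia s) • glIncl F (dia t) • c = glIncl F (dia (s * t)) • c := by
  rw [← mul_smul, ← map_mul, Whittaker.dia_mul]

theorem glIncl_dia_unip_smul (t : Fˣ) (u : FinAdele F) (c : GLFin F ⧸ U.toSubgroup) :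
    glIncl F (dia t) • unip u • c = unip (finIncl F (t : F) * u) • glIncl F (dia t) • c := by
  rw [← mul_smul, ← mul_smul, Whittaker.glIncl_dia, Whittaker.dia_mul_unip]
  rfl

/-- Two cosets with the same class differ by a translation in `e`. -/
theorem exists_of_lineClass {c c' : GLFin F ⧸ U.toSubgroup} {e : FinAdele F}
    (h : lineClass e c = lineClass e c') : ∃ u, e * u = u ∧ c = unip u • c' := by
  obtain ⟨⟨_, u, hu, rfl⟩, rfl⟩ := Quotient.exact h
  exact ⟨u, hu, rfl⟩

/-- The torus respects lines. -/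
theorem lineClass_dia_smul (t : Fˣ) {c c' : GLFin F ⧸ U.toSubgroup}
    (h : lineClass 1 c = lineClass 1 c') :
    lineClass 1 (glIncl F (dia t) • c) = lineClass 1 (glIncl F (dia t) • c') := by
  obtain ⟨u, -, rfl⟩ := exists_of_lineClass h
  rw [glIncl_dia_unip_smul, lineClass_smul 1 (one_mul _)]

/-! ### The support of a hyperbolic element -/

variable (h : HeckeFn U)

theorem kernel_dia_smul (a t : Fˣ) (c : GLFin F ⧸ U.toSubgroup) :
    h.kernel (glIncl F (dia t) • c) (glIncl F (dia a) • glIncl F (dia t) • c) =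
      h.kernel c (glIncl F (dia a) • c) := by
  rw [glIncl_dia_smul_smul, mul_comm a t, ← glIncl_dia_smul_smul, h.kernel_smul]

/-- The kernel at `a` on the reflected coset is the kernel at `a⁻¹`. -/
theorem kernel_weyl_smul (a : Fˣ) (c : GLFin F ⧸ U.toSubgroup) :
    h.kernel (glIncl F (weyl F) • c) (glIncl F (dia a⁻¹) • glIncl F (weyl F) • c) =
      h.kernel c (glIncl F (dia a) • c) := by
  rw [← glIncl_weyl_dia_smul, h.kernel_smul]

/-- The support meets a line in finitely many cosets. -/
theorem finite_line_support (a : Fˣ) (ha : (a : F) ≠ 1) (c₀ : GLFin F ⧸ U.toSubgroup) :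
    {c : GLFin F ⧸ U.toSubgroup | lineClass 1 c = lineClass 1 c₀ ∧
      h.kernel c (glIncl F (dia a) • c) ≠ 0}.Finite := by
  obtain ⟨g, rfl⟩ := QuotientGroup.mk_surjective c₀
  set A := glIncl F (dia a) with hA
  obtain ⟨L, hL, hsupp⟩ := Kernel.exists_den_support h g (A * g)
  obtain ⟨M, hM, hMi⟩ := Reduction.exists_natCast_mul_mem (finIncl F ((a : F) - 1)⁻¹)
  refine (finite_translates (U := U) g (M * L)).subset ?_
  rintro c ⟨hc, hne⟩
  obtain ⟨u, -, rfl⟩ := exists_of_lineClass hc
  refine ⟨u, Nat.mul_pos hM hL, ?_, rfl⟩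
  rw [MulAction.Quotient.smul_mk, smul_eq_mul, MulAction.Quotient.smul_mk, smul_eq_mul,
    HeckeFn.kernel_mk] at hne
  have hline : (unip u * g)⁻¹ * (glIncl F (dia a) * (unip u * g)) =
      g⁻¹ * unip ((finIncl F (a : F) - 1) * u) * (A * g) := by
    rw [_root_.mul_inv_rev, ← unip_neg, ← mul_assoc (glIncl F (dia a)), hA, Whittaker.glIncl_dia,
      Whittaker.dia_mul_unip, ← mul_assoc (g⁻¹ * unip (-u)), ← mul_assoc (g⁻¹ * unip (-u)),
      mul_assoc g⁻¹ (unip (-u)), ← unip_add]
    show g⁻¹ * unip (-u + finIncl F (a : F) * u) * _ * g = _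
    rw [mul_assoc _ _ g, show -u + finIncl F (a : F) * u = (finIncl F (a : F) - 1) * u by ring]
  rw [hline] at hne
  have h1 := hsupp _ hne
  have hI : finIncl F ((a : F) - 1)⁻¹ * (finIncl F (a : F) - 1) = 1 := by
    rw [← map_one (finIncl F), ← map_sub, ← map_mul, inv_mul_cancel₀ (sub_ne_zero.mpr ha)]
  have : ((M * L : ℕ) : FinAdele F) * u = ((M : FinAdele F) * finIncl F ((a : F) - 1)⁻¹) *
      ((L : FinAdele F) * ((finIncl F (a : F) - 1) * u)) := by
    push_cast
    linear_combination -((M : FinAdele F) * L * u) * hI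
  rw [this]
  exact mul_mem hMi h1

variable [NumberField.IsTotallyComplex F]

omit [NumberField.IsTotallyComplex F] in
/-- The support has finitely many torus orbits. -/
theorem exists_finite_orbits (a : Fˣ) (ha : (a : F) ≠ 1) :
    ∃ D : Finset (GLFin F ⧸ U.toSubgroup), ∀ c : GLFin F ⧸ U.toSubgroup,
      h.kernel c (glIncl F (dia a) • c) ≠ 0 → ∃ t : Fˣ, glIncl F (dia t) • c ∈ D := by
  classical
  obtain ⟨R, hR⟩ := Reduction.exists_finite_reps U
  refine ⟨R.biUnion fun r => (finite_line_support h a ha (QuotientGroup.mk r)).toFinset,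
    fun c hc => ?_⟩
  obtain ⟨g, rfl⟩ := QuotientGroup.mk_surjective c
  obtain ⟨β, hβ, r, hr, hβr⟩ := hR g
  obtain ⟨α, ξ, hαξ, -⟩ := Kernel.exists_upper_form hβ
  refine ⟨α, Finset.mem_biUnion.mpr ⟨r, hr, (Set.Finite.mem_toFinset _).mpr
    ⟨?_, by rwa [kernel_dia_smul]⟩⟩⟩
  obtain ⟨s, hs⟩ := pgl_mk_eq_iff.mp hαξ
  rw [show CubicDescent.scalarUnit s = scalarGlobal F s from rfl] at hs
  have : glIncl F β • (QuotientGroup.mk g : GLFin F ⧸ U.toSubgroup) =
      unip (finIncl F ξ) • glIncl F (dia α) • QuotientGroup.mk g := by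
    rw [← glIncl_scalarGlobal_mul_smul s, ← hs, map_mul, mul_smul, Whittaker.glIncl_unip]
  rw [← lineClass_smul 1 (one_mul (finIncl F ξ)), ← this, ← hβr]
  rfl

/-- With one archimedean place a line has a finite stabiliser in the torus. -/
theorem finite_line_stabilizer [Unique (InfinitePlace F)] (c : GLFin F ⧸ U.toSubgroup) :
    {t : Fˣ | lineClass 1 (glIncl F (dia t) • c) = lineClass 1 c}.Finite := by
  obtain ⟨g, rfl⟩ := QuotientGroup.mk_surjective c
  obtain ⟨M, hM, hMi⟩ := Reduction.exists_denominator (fun p : Bool × Fin 2 × Fin 2 =>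
    if p.1 then g.val p.2.1 p.2.2 else (g⁻¹).val p.2.1 p.2.2)
  set N := M * M * (M * M) with hN
  have hN0 : 0 < N := by positivity
  refine ((Kernel.finite_boundedDen F hN0 ((N : ℝ) ^ Fintype.card (InfinitePlace F))).preimage
    Units.val_injective.injOn).subset fun t ht => ?_
  obtain ⟨u, -, hu⟩ := exists_of_lineClass ht
  rw [MulAction.Quotient.smul_mk, smul_eq_mul, MulAction.Quotient.smul_mk, smul_eq_mul] at hu
  obtain ⟨a, k, hk, hak⟩ := U.le_maximal _ (QuotientGroup.eq.mp hu.symm)
  have hk' := Reduction.intGL_of_isPrincipal hk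
  set E := g * k * g⁻¹ with hE
  have hint : ∀ q : GLFin F, Reduction.IntGL q → ∀ i j,
      ((M * M : ℕ) : FinAdele F) * (g * q * g⁻¹).val i j ∈ integralAdele F := by
    intro q hq i j
    rw [Units.val_mul, Units.val_mul, Matrix.mul_apply, Finset.mul_sum]
    refine sum_mem fun l _ => ?_
    rw [Matrix.mul_apply, Finset.sum_mul, Finset.mul_sum]
    refine sum_mem fun l' _ => ?_
    rw [show ((M * M : ℕ) : FinAdele F) * (g.val i l' * q.val l' l * (g⁻¹).val l j) =
      ((M : FinAdele F) * g.val i l') * q.val l' l * ((M : FinAdele F) * (g⁻¹).val l j) by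
        push_cast; ring]
    exact mul_mem (mul_mem (by simpa using hMi (true, i, l')) (hq.1 l' l))
      (by simpa using hMi (false, l, j))
  have heq : glIncl F (dia t) = scalarFin F a * (unip u * E) := by
    have h1 : glIncl F (dia t) = unip u * g * (scalarFin F a * k) * g⁻¹ := by
      rw [← hak]; group
    rw [h1, ← mul_assoc (unip u * g), ← scalarFin_comm a (unip u * g), hE]
    simp only [mul_assoc]
  have heq' : glIncl F (dia t⁻¹) = scalarFin F a⁻¹ * (E⁻¹ * unip (-u)) := by
    rw [show glIncl F (dia t⁻¹) = (glIncl F (dia t))⁻¹ by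
        rw [← map_inv]
        rfl,
      heq, _root_.mul_inv_rev, _root_.mul_inv_rev, unip_neg u, ← map_inv (scalarFin F) a]
    exact (scalarFin_comm _ _).symm
  have e : ∀ i j, finIncl F ((dia t).val i j) = (a : FinAdele F) * (unip u * E).val i j :=
    fun i j => by rw [← Kernel.scalarFin_mul_val, ← heq]; rfl
  have e' : ∀ i j, finIncl F ((dia t⁻¹).val i j) =
      ((a⁻¹ : (FinAdele F)ˣ) : FinAdele F) * (E⁻¹ * unip (-u)).val i j :=
    fun i j => by rw [← Kernel.scalarFin_mul_val, ← heq']; rfl
  have e10 := e 1 0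
  have e11 := e 1 1
  have e00 := e 0 0
  have f00 := e' 0 0
  have f10 := e' 1 0
  have f11 := e' 1 1
  simp [dia, Units.val_mul, Matrix.mul_apply, Fin.sum_univ_two,
    Matrix.GeneralLinearGroup.upperRightHom_apply, -Matrix.coe_units_inv] at e10 e11 e00 f00 f10 f11
  replace e10 := (Units.mul_right_eq_zero _).mp e10.symm
  replace f10 := (Units.mul_right_eq_zero _).mp f10.symm
  rw [e10, mul_zero, add_zero] at e00
  simp only [f10, zero_mul, zero_add] at f11
  have ha1 : (a : FinAdele F) = (E⁻¹).val 1 1 := by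
    conv_lhs => rw [← mul_one (a : FinAdele F), f11, ← mul_assoc, Units.mul_inv, one_mul]
  have ha2 : ((a⁻¹ : (FinAdele F)ˣ) : FinAdele F) = E.val 1 1 := by
    conv_lhs => rw [← mul_one ((a⁻¹ : (FinAdele F)ˣ) : FinAdele F), e11, ← mul_assoc,
      Units.inv_mul, one_mul]
  have hEi : E⁻¹ = g * k⁻¹ * g⁻¹ := by rw [hE]; group
  have d1 : ∃ o : 𝓞 F, (o : F) = (N : F) * (t : F) := by
    refine Reduction.exists_integer_of_finIncl_mem ?_
    rw [map_mul, map_natCast, e00, ha1, hN, Nat.cast_mul (M * M),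
      show ((M * M : ℕ) : FinAdele F) * ((M * M : ℕ) : FinAdele F) *
          ((E⁻¹).val 1 1 * E.val 0 0) =
        (((M * M : ℕ) : FinAdele F) * (E⁻¹).val 1 1) *
          (((M * M : ℕ) : FinAdele F) * E.val 0 0) by ring]
    exact mul_mem (hEi ▸ hint _ hk'.inv 1 1) (hint _ hk' 0 0)
  have d2 : ∃ o : 𝓞 F, (o : F) = (N : F) * ((t⁻¹ : Fˣ) : F) := by
    refine Reduction.exists_integer_of_finIncl_mem ?_
    rw [map_mul, map_natCast, show finIncl F ((t⁻¹ : Fˣ) : F) = _ by simpa [-Matrix.coe_units_inv]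
        using f00, ha2, hN,
      Nat.cast_mul (M * M),
      show ((M * M : ℕ) : FinAdele F) * ((M * M : ℕ) : FinAdele F) *
          (E.val 1 1 * (E⁻¹).val 0 0) =
        (((M * M : ℕ) : FinAdele F) * E.val 1 1) *
          (((M * M : ℕ) : FinAdele F) * (E⁻¹).val 0 0) by ring]
    exact mul_mem (hint _ hk' 1 1) (hEi ▸ hint _ hk'.inv 0 0)
  obtain ⟨o, ho⟩ := d2
  refine ⟨d1, fun w => ?_⟩
  have h2 := Reduction.inv_pow_le_prod (Units.ne_zero t⁻¹) hN0 ho
  rw [Fintype.prod_unique, show default = w from (Unique.eq_default w).symm,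
      Units.val_inv_eq_inv_val,
    map_inv₀, inv_le_inv₀ (pow_pos (Nat.cast_pos.mpr hN0) _)
      (InfinitePlace.pos_iff.mpr t.ne_zero)] at h2
  exact h2

/-! ### A partition constant on lines -/

/-- Two cosets lie on torus translates of one line. -/
def torusLineSetoid (U : Level F) : Setoid (GLFin F ⧸ U.toSubgroup) where
  r c c' := ∃ t : Fˣ, lineClass 1 (glIncl F (dia t) • c) = lineClass 1 c'
  iseqv := by
    refine ⟨fun c => ⟨1, by rw [Whittaker.dia_one, map_one, one_smul]⟩, ?_, ?_⟩
    · rintro c c' ⟨t, ht⟩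
      refine ⟨t⁻¹, ?_⟩
      have := lineClass_dia_smul t⁻¹ ht
      rw [glIncl_dia_smul_smul, inv_mul_cancel, Whittaker.dia_one, map_one, one_smul] at this
      exact this.symm
    · rintro a b c ⟨s, hs⟩ ⟨t, ht⟩
      refine ⟨t * s, ?_⟩
      rw [← glIncl_dia_smul_smul]
      exact (lineClass_dia_smul t hs).trans ht

/-- The chosen line of a torus orbit. -/
def lineRep (c : GLFin F ⧸ U.toSubgroup) :
    MulAction.orbitRel.Quotient (lineGroup (1 : FinAdele F)) (GLFin F ⧸ U.toSubgroup) :=
  lineClass 1 (Quotient.mk (torusLineSetoid U) c).out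

/-- The stabiliser of a line. -/
def lineStab (c : GLFin F ⧸ U.toSubgroup) : Set Fˣ :=
  {t | lineClass 1 (glIncl F (dia t) • c) = lineClass 1 c}

open Classical in
/-- The weight of a coset. -/
def torusWeight (c : GLFin F ⧸ U.toSubgroup) : ℝ≥0 :=
  if lineClass 1 c = lineRep c then ((lineStab c).ncard : ℝ≥0)⁻¹ else 0

omit [NumberField.IsTotallyComplex F] in
theorem lineRep_eq {c c' : GLFin F ⧸ U.toSubgroup} (t : Fˣ)
    (h : lineClass 1 (glIncl F (dia t) • c) = lineClass 1 c') : lineRep c = lineRep c' :=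
  congrArg (fun q => lineClass 1 (Quotient.out q))
    (Quotient.sound (s := torusLineSetoid U) ⟨t, h⟩)

omit [NumberField.IsTotallyComplex F] in
theorem lineStab_eq {c c' : GLFin F ⧸ U.toSubgroup} (t : Fˣ)
    (h : lineClass 1 (glIncl F (dia t) • c) = lineClass 1 c') : lineStab c = lineStab c' := by
  ext s
  have hs := lineClass_dia_smul s h
  simp only [lineStab, Set.mem_ofPred_eq]
  rw [← hs, ← h, glIncl_dia_smul_smul, mul_comm s t, ← glIncl_dia_smul_smul]
  refine ⟨fun e => lineClass_dia_smul t e, fun e => ?_⟩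
  have := lineClass_dia_smul t⁻¹ e
  simpa [glIncl_dia_smul_smul] using this

omit [NumberField.IsTotallyComplex F] in
/-- The weight is constant on lines. -/
theorem torusWeight_congr {c c' : GLFin F ⧸ U.toSubgroup} (h : lineClass 1 c = lineClass 1 c') :
    torusWeight c = torusWeight c' := by
  have h' : lineClass 1 (glIncl F (dia (1 : Fˣ)) • c) = lineClass 1 c' := by
    rwa [Whittaker.dia_one, map_one, one_smul]
  rw [torusWeight, torusWeight, h, lineRep_eq 1 h', lineStab_eq 1 h']

/-- The weights sum to one along torus orbits. -/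
theorem hasSum_torusWeight [Unique (InfinitePlace F)] (c : GLFin F ⧸ U.toSubgroup) :
    HasSum (fun t : Fˣ => torusWeight (glIncl F (dia t) • c)) 1 := by
  classical
  obtain ⟨t₀, ht₀⟩ : ∃ t : Fˣ, lineClass 1 (glIncl F (dia t) • c) = lineRep c :=
    (torusLineSetoid U).symm (Quotient.mk_out (s := torusLineSetoid U) c)
  have hfin : (lineStab c).Finite := finite_line_stabilizer c
  set S := hfin.toFinset.image (t₀ * ·) with hS
  have hmem : ∀ t, lineClass 1 (glIncl F (dia t) • c) = lineRep c ↔ t ∈ S := fun t => by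
    rw [hS, Finset.mem_image, ← ht₀]
    constructor
    · intro e
      refine ⟨t₀⁻¹ * t, hfin.mem_toFinset.mpr ?_, mul_inv_cancel_left _ _⟩
      have := lineClass_dia_smul t₀⁻¹ e
      simpa [lineStab, glIncl_dia_smul_smul] using this
    · rintro ⟨s, hs, rfl⟩
      rw [← glIncl_dia_smul_smul]
      exact lineClass_dia_smul t₀ (hfin.mem_toFinset.mp hs)
  have hval : ∀ t, torusWeight (glIncl F (dia t) • c) =
      if t ∈ S then ((lineStab c).ncard : ℝ≥0)⁻¹ else 0 := fun t => by
    have e : lineClass 1 (glIncl F (dia t) • c) = lineClass 1 (glIncl F (dia t) • c) := rfl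
    rw [torusWeight, ← lineRep_eq t e, ← lineStab_eq t e]
    simp only [hmem]
  have hcard : S.card = (lineStab c).ncard := by
    rw [hS, Finset.card_image_of_injective _ (mul_right_injective t₀),
      Set.ncard_eq_toFinset_card _ hfin]
  have hne : ((lineStab c).ncard : ℝ≥0) ≠ 0 := by
    rw [Nat.cast_ne_zero, ← hcard]
    exact Finset.card_ne_zero.mpr ⟨t₀, (hmem t₀).mp ht₀⟩
  have : (∑ t ∈ S, torusWeight (glIncl F (dia t) • c)) = 1 := by
    rw [Finset.sum_congr rfl fun t ht => (hval t).trans (if_pos ht), Finset.sum_const, hcard,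
      nsmul_eq_mul, mul_inv_cancel₀ hne]
  rw [← this]
  exact hasSum_sum_of_ne_finset_zero fun t ht => (hval t).trans (if_neg ht)

omit [NumberField.IsTotallyComplex F] in
/-- A weight of the finite part alone is measurable. -/
theorem measurable_weight_snd (u : GLFin F ⧸ U.toSubgroup → ℝ≥0) :
    Measurable fun y : Y U => u y.2 :=
  (measurable_from_top (f := u)).comp measurable_snd

omit [NumberField.IsTotallyComplex F] in
/-- A function on cosets with torus sums one is a partition for the torus. -/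
theorem isPartition_of_hasSum {u : GLFin F ⧸ U.toSubgroup → ℝ≥0}
    (hu : ∀ c, HasSum (fun t : Fˣ => u (glIncl F (dia t) • c)) 1) :
    IsPartition (torus F).range Set.univ fun y : Y U => u y.2 := by
  refine ⟨measurable_weight_snd u, fun y _ => ?_⟩
  refine ((MonoidHom.ofInjective (torus_injective (F := F))).toEquiv.hasSum_iff).mp
    (HasSum.congr_fun (hu y.2) fun t => ?_)
  show u ((QuotientGroup.mk (dia t) : PGLIndex F) • y).2 = _
  rw [pgl_mk_smul, smul_snd]

omit [NumberField.IsTotallyComplex F] in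
/-- The reflected weight also has torus sums one. -/
theorem hasSum_weight_weyl {u : GLFin F ⧸ U.toSubgroup → ℝ≥0}
    (hu : ∀ c, HasSum (fun t : Fˣ => u (glIncl F (dia t) • c)) 1) (c : GLFin F ⧸ U.toSubgroup) :
    HasSum (fun t : Fˣ => u (glIncl F (weyl F) • glIncl F (dia t) • c)) 1 := by
  refine HasSum.congr_fun (((Equiv.inv Fˣ).hasSum_iff).mpr (hu (glIncl F (weyl F) • c))) fun t => ?_
  simp only [Function.comp_apply, Equiv.inv_apply, glIncl_weyl_dia_smul]

end Fermat.Agent.LT.Geometric
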