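import Fermat.Agent.LT.Geometric.Band
import Fermat.Agent.LT.Geometric.Arch
import Fermat.Agent.LT.Geometric.Torus

/-!
# Heights in the two diagonal cusps

On finitely many cosets a band forces a large height; the heights at a point and at its reflection
multiply to at most one; on the support of a twisted diagonal kernel over a cyclic cubic extension
the height is comparable to the cube of one coordinate.
-/

set_option autoImplicit false

noncomputable section

open MeasureTheory
open NumberField (InfinitePlace)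

namespace Fermat.Agent.LT.Geometric

variable {F : Type*} [Field F] [NumberField F] {U : Level F}

open Classical in
/-- The indicator of the top band. -/
def band (R : Finset (GLFin F)) (T : ℝ) (y : Y U) : ℝ := if IsHighTop R T y then 1 else 0

/-- The indicator of the reflected band. -/
def bandW (R : Finset (GLFin F)) (T : ℝ) (y : Y U) : ℝ := band R T (weyl F • y)

/-- The band is measurable. -/
theorem measurable_band (R : Finset (GLFin F)) (T : ℝ) : Measurable (band (U := U) R T) := by
  have : Countable (GL (Fin 2) F) := by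
    have : Countable F := (Module.finBasis ℚ F).equivFun.injective.countable
    have : Countable (Matrix (Fin 2) (Fin 2) F) := inferInstanceAs (Countable (Fin 2 → Fin 2 → F))
    exact Units.val_injective.countable
  refine Measurable.ite ?_ measurable_const measurable_const
  rw [show {y : Y U | IsHighTop R T y} = ⋃ γ ∈ {γ : GL (Fin 2) F | Reduction.IsUpper γ},
    {y | InReps R (γ • y) ∧ T < Reduction.height (γ • y)} by
      ext y; simp only [IsHighTop, Set.mem_iUnion, Set.mem_ofPred_eq, exists_prop]]
  exact MeasurableSet.biUnion (Set.to_countable _) fun γ _ => measurableSet_inReps γ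

/-- The reflected band is measurable. -/
theorem measurable_bandW (R : Finset (GLFin F)) (T : ℝ) : Measurable (bandW (U := U) R T) :=
  (measurable_band R T).comp (measurePreserving_ySmul U (weyl F)).measurable

/-- The Weyl element inverts the diagonal torus. -/
theorem weyl_dia_smul (t : Fˣ) (y : Y U) :
    weyl F • dia t • y = dia t⁻¹ • weyl F • y := by
  rw [← mul_smul, weyl_mul_dia, mul_smul, scalarGlobal_smul, mul_smul]

/-- The band is invariant under the diagonal torus. -/
theorem band_dia_smul (R : Finset (GLFin F)) (T : ℝ) (t : Fˣ) (y : Y U) :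
    band R T (dia t • y) = band R T y := by
  classical
  exact if_congr (isHighTop_smul_iff (isUpper_dia t) y) rfl rfl

/-- The reflected band is invariant under the diagonal torus. -/
theorem bandW_dia_smul (R : Finset (GLFin F)) (T : ℝ) (t : Fˣ) (y : Y U) :
    bandW R T (dia t • y) = bandW R T y := by
  rw [bandW, weyl_dia_smul, band_dia_smul, bandW]

/-- The band is constant along the lines of translations. -/
theorem band_congr (R : Finset (GLFin F)) (T : ℝ) (P : InfinitePlace F → H3)
    {c c' : GLFin F ⧸ U.toSubgroup} {u : FinAdele F} (h : c = unip u • c') :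
    band R T ((P, c) : Y U) = band R T ((P, c') : Y U) := by
  classical
  subst h
  exact if_congr (isHighTop_unip_iff P c' u) rfl rfl

/-- The reflected band is constant along the reflected lines of translations. -/
theorem bandW_congr (R : Finset (GLFin F)) (T : ℝ) (P : InfinitePlace F → H3)
    {c c' : GLFin F ⧸ U.toSubgroup} {u : FinAdele F}
    (h : glIncl F (weyl F) • c = unip u • glIncl F (weyl F) • c') :
    bandW R T ((P, c) : Y U) = bandW R T ((P, c') : Y U) := by
  have e : ∀ d : GLFin F ⧸ U.toSubgroup, weyl F • ((P, d) : Y U) =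
      ((weyl F • ((P, d) : Y U)).1, glIncl F (weyl F) • d) := fun d => by
    rw [← smul_snd U (weyl F) ((P, d) : Y U)]
  rw [bandW, bandW, e, e c']
  exact band_congr R T _ h

variable [NumberField.IsTotallyComplex F]

omit [NumberField.IsTotallyComplex F] in
/-- Reflection exchanges large and small heights. -/
theorem height_weyl_mul_le (y : Y U) :
    Reduction.height (weyl F • y) * Reduction.height y ≤ 1 := by
  rw [Reduction.height, Reduction.height, ← Finset.prod_mul_distrib]
  refine Finset.prod_le_one (fun w _ => mul_nonneg (H3.tc_pos _).le (H3.tc_pos _).le) fun w _ => ?_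
  rw [Reduction.tc_smul_fst]
  have h1 : (weyl F).val.det = -1 := by simp [weyl, Matrix.det_fin_two]
  have h2 : (weyl F).val 1 0 = 1 := by simp [weyl]
  have h3 : (weyl F).val 1 1 = 0 := by simp [weyl]
  rw [h1, h2, h3, map_one, map_zero, ← InfinitePlace.norm_embedding_eq w (-1 : F), map_neg,
    map_one, norm_neg, norm_one]
  have hb : 0 < Reduction.rowForm (y.1 w) 1 0 := by
    have := Reduction.rowForm_bottom_pos (glEmb F w (weyl F)) (y.1 w)
    simp [Reduction.glEmb_apply, h2, h3] at this
    exact this
  have hle := Reduction.normSq_mul_tc_le (y.1 w) 1 0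
  rw [map_one, one_mul] at hle
  rw [div_mul_eq_mul_div, one_mul, div_le_one hb]
  exact hle

/-- On finitely many cosets a band forces a large height. -/
theorem exists_band_height (R : Finset (GLFin F)) (C₀ : Finset (GLFin F ⧸ U.toSubgroup)) :
    ∃ K : ℝ, 1 ≤ K ∧ ∀ (T : ℝ) (y : Y U), y.2 ∈ C₀ → IsHighTop R T y →
      T < K * Reduction.height y := by
  classical
  obtain ⟨C, hC, hb⟩ := Reduction.exists_height_smul_le U (R ∪ C₀.image Quotient.out)
  refine ⟨C, hC, fun T y hy => ?_⟩
  rintro ⟨γ, hγ, ⟨r, hr, hγy⟩, hlt⟩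
  exact hlt.trans_le ((hb γ y ⟨y.2.out, Finset.mem_union_right _ (Finset.mem_image_of_mem _ hy),
    (QuotientGroup.out_eq' _).symm⟩ ⟨r, Finset.mem_union_left _ hr, hγy⟩).2 hγ)

/-- Where the high cusps are fixed by a regular diagonal matrix the cutoff is one minus two
disjoint bands. -/
theorem exists_cutoff_eq_bands (R : Finset (GLFin F)) :
    ∃ C : ℝ, ∀ T, C < T → ∀ (x : Y U) (t : Fˣ), (t : F) ≠ 1 →
      (∀ γ : GL (Fin 2) F, InReps R (γ • x) → T < Reduction.height (γ • x) →
        Reduction.IsUpper (γ * dia t * γ⁻¹)) →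
      (cutoff U R T x : ℝ) = 1 - band R T x - bandW R T x ∧ band R T x * bandW R T x = 0 := by
  obtain ⟨C, hC⟩ := exists_cutoff_diag (U := U) R
  refine ⟨C, fun T hT x t ht hfix => ?_⟩
  obtain ⟨h1, h2⟩ := hC T hT x (dia t) (by simp [dia]) (by simp [dia]) (by simpa [dia] using ht)
      hfix
  by_cases hp : IsHighTop R T x <;> by_cases hq : IsHighTop R T (weyl F • x) <;>
    simp_all [cutoff, band, bandW]

variable {K : Type*} [Field K] [NumberField K] [NumberField.IsTotallyComplex K]
  {ι : K →+* F} {σ : F ≃+* F} {φ₀ : F →+* ℂ}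

omit [NumberField F] [NumberField.IsTotallyComplex F] in
theorem tc_galInf (σ : F ≃+* F) (P : InfinitePlace F → H3) (w : InfinitePlace F) :
    H3.tc (galInf σ P w) = H3.tc (P (w.comap (σ : F →+* F))) := by
  unfold galInf
  split_ifs
  · rfl
  · rw [tc_conjPoint]

omit [NumberField K] [NumberField.IsTotallyComplex F] in
/-- The height is comparable to the cube of one coordinate. -/
theorem exists_height_compare (h : IsCubic ι σ)
    (hemb : ∀ v : InfinitePlace K, v.embedding = φ₀.comp ι) (k : Kernel.PointKer F) (b : Fˣ) :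
    ∃ C : ℝ, 1 ≤ C ∧ ∀ x : Y U,
      k.toFun x.1 (fun w => glEmb F w (dia b) • galInf σ x.1 w) ≠ 0 →
        Reduction.height x ≤ C * H3.tc (x.1 (InfinitePlace.mk φ₀)) ^ 3 ∧
          H3.tc (x.1 (InfinitePlace.mk φ₀)) ^ 3 ≤ C * Reduction.height x := by
  set w0 := InfinitePlace.mk φ₀ with hw0
  set w1 := w0.comap (σ : F →+* F) with hw1
  set w2 := w1.comap (σ : F →+* F) with hw2
  set ρ := 2 * k.radius
  have hρ : 1 ≤ ρ := by linarith [k.one_le_radius]
  have hb0 : 0 < w0 (b : F) := InfinitePlace.pos_iff.mpr b.ne_zero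
  have hb1 : 0 < w1 (b : F) := InfinitePlace.pos_iff.mpr b.ne_zero
  set B := 1 + ρ * (w0 (b : F) + (w0 (b : F))⁻¹ + w1 (b : F) + (w1 (b : F))⁻¹) with hB
  have hB1 : 1 ≤ B := le_add_of_nonneg_right (by positivity)
  refine ⟨B ^ 3, one_le_pow₀ hB1, fun x hx => ?_⟩
  have hone : ∀ v : InfinitePlace K, v = InfinitePlace.mk (φ₀.comp ι) := fun v => by
    rw [← hemb v, InfinitePlace.mk_embedding]
  have hheight : Reduction.height x = H3.tc (x.1 w0) * H3.tc (x.1 w1) * H3.tc (x.1 w2) := by
    rw [Reduction.height, ← (Equiv.ofBijective _ (bijective_placeOver h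
      (NumberField.IsTotallyComplex.complexEmbedding_not_isReal _) hone)).prod_comp,
      Fin.prod_univ_three]
    simp [placeOver, embOver, hw0, hw1, hw2, InfinitePlace.comap_mk, RingHom.comp_assoc]
  have hstep : ∀ w : InfinitePlace F, H3.tc (x.1 w) ≤ ρ * w (b : F) * H3.tc
      (x.1 (w.comap (σ : F →+* F))) ∧
      w (b : F) * H3.tc (x.1 (w.comap (σ : F →+* F))) ≤ ρ * H3.tc (x.1 w) := fun w => by
    have h1 := Kernel.tc_le_of_cdist_le (k.cdist_le hx w)
    have h2 : H3.tc (glEmb F w (dia b) • galInf σ x.1 w) =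
        w (b : F) * H3.tc (x.1 (w.comap (σ : F →+* F))) := by
      have := Kernel.tc_glEmb_upperForm w b 0 (galInf σ x.1 w)
      rwa [show (unip (0 : F) : GL (Fin 2) F) = 1 by
          ext i j; fin_cases i <;> fin_cases j <;> simp,
        one_mul, tc_galInf] at this
    rw [h2] at h1
    exact ⟨h1.2.1.trans_eq (by ring), h1.1⟩
  have key : ∀ (β p q : ℝ), 0 < β → 0 < p → 0 < q → p ≤ ρ * β * q → β * q ≤ ρ * p →
      ρ * β ≤ B → ρ * β⁻¹ ≤ B → p ≤ B * q ∧ q ≤ B * p := fun β p q hβ hp hq h1 h2 h3 h4 =>
    ⟨h1.trans (mul_le_mul_of_nonneg_right h3 hq.le), by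
      have : q ≤ ρ * β⁻¹ * p := by
        rw [mul_assoc, mul_comm β⁻¹, ← mul_assoc, ← div_eq_mul_inv, le_div_iff₀ hβ]
        linarith
      exact this.trans (mul_le_mul_of_nonneg_right h4 hp.le)⟩
  have i0 := inv_pos.mpr hb0
  have i1 := inv_pos.mpr hb1
  have hρ0 : (0 : ℝ) ≤ ρ := by linarith
  set t0 := H3.tc (x.1 w0)
  set t1 := H3.tc (x.1 w1)
  set t2 := H3.tc (x.1 w2)
  have p0 : 0 < t0 := H3.tc_pos _
  have p1 : 0 < t1 := H3.tc_pos _
  have p2 : 0 < t2 := H3.tc_pos _
  obtain ⟨a1, a2⟩ := key (w0 (b : F)) t0 t1 hb0 p0 p1 (hstep w0).1 (hstep w0).2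
    (by rw [hB]; nlinarith) (by rw [hB]; nlinarith)
  obtain ⟨a3, a4⟩ := key (w1 (b : F)) t1 t2 hb1 p1 p2 (hstep w1).1 (hstep w1).2
    (by rw [hB]; nlinarith) (by rw [hB]; nlinarith)
  have hB0 : 0 ≤ B := by linarith
  rw [hheight]
  constructor
  · calc t0 * t1 * t2 ≤ t0 * (B * t0) * (B * (B * t0)) := by
          refine mul_le_mul (mul_le_mul_of_nonneg_left a2 p0.le)
            (a4.trans (mul_le_mul_of_nonneg_left a2 hB0)) p2.le (by positivity)
      _ = B ^ 3 * t0 ^ 3 := by ring
  · calc t0 ^ 3 = t0 * t0 * t0 := by ring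
      _ ≤ t0 * (B * t1) * (B * (B * t2)) := by
          refine mul_le_mul (mul_le_mul_of_nonneg_left a1 p0.le)
            (a1.trans (mul_le_mul_of_nonneg_left a3 hB0)) p0.le (by positivity)
      _ = B ^ 3 * (t0 * t1 * t2) := by ring

omit [NumberField F] [NumberField.IsTotallyComplex F] [NumberField.IsTotallyComplex K] in
/-- The height downstairs is the coordinate over the place. -/
theorem height_archProj [Unique (InfinitePlace K)] {V : Level K} (P : InfinitePlace F → H3)
    (d : GLFin K ⧸ V.toSubgroup) :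
    Reduction.height ((archProj K φ₀ P, d) : Y V) = H3.tc (P (InfinitePlace.mk φ₀)) := by
  rw [Reduction.height, Fintype.prod_unique]
  exact tc_archProj (K := K) (φ₀ := φ₀) P default

end Fermat.Agent.LT.Geometric
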