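import Fermat.Agent.LT.Geometric.ClassInvariant
import Fermat.Agent.LT.Galois
import Fermat.Agent.LT.HeckeOp

/-!
# Denominators of adjoint coordinates on the support of a Hecke function

`g_ij g_kl / det g` has bounded denominators on finitely many cosets of a level, and the bound is
stable under products and field automorphisms.
-/

set_option autoImplicit false

noncomputable section

open Matrix
open scoped NumberField

namespace Fermat.Agent.LT.Geometric

variable {F : Type*} [Field F] [NumberField F]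

/-- `g_ij g_kl / det g`. -/
def adjFin (g : GLFin F) (p : Kernel.EntryPair) : FinAdele F :=
  g.val p.1.1 p.1.2 * g.val p.2.1 p.2.2 * (g⁻¹).val.det

/-- All adjoint coordinates become integral after multiplication by `M`. -/
def AdjDen (M : ℕ) (g : GLFin F) : Prop :=
  ∀ p, (M : FinAdele F) * adjFin g p ∈ integralAdele F

/-- A multiple of an adjoint denominator is one. -/
theorem AdjDen.mono {M M' : ℕ} {g : GLFin F} (h : AdjDen M g) (hd : M ∣ M') : AdjDen M' g := by
  obtain ⟨c, rfl⟩ := hd
  intro p
  rw [Nat.cast_mul, mul_comm (M : FinAdele F), mul_assoc]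
  exact mul_mem (natCast_mem _ _) (h p)

theorem adjDen_intGL {g : GLFin F} (hg : Reduction.IntGL g) : AdjDen 1 g := fun p => by
  rw [Nat.cast_one, one_mul, adjFin, Matrix.det_fin_two]
  exact mul_mem (mul_mem (hg.1 _ _) (hg.1 _ _))
    (sub_mem (mul_mem (hg.2 _ _) (hg.2 _ _)) (mul_mem (hg.2 _ _) (hg.2 _ _)))

/-- Adjoint denominators multiply along products. -/
theorem AdjDen.mul {M M' : ℕ} {g g' : GLFin F} (h : AdjDen M g) (h' : AdjDen M' g') :
    AdjDen (M * M') (g * g') := fun p => by
  have key : adjFin (g * g') p = ∑ a, ∑ b,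
      adjFin g ((p.1.1, a), (p.2.1, b)) * adjFin g' ((a, p.1.2), (b, p.2.2)) := by
    simp only [adjFin, _root_.mul_inv_rev, Units.val_mul, Matrix.det_mul, Matrix.mul_apply,
      Fin.sum_univ_two]
    ring
  rw [key, Finset.mul_sum]
  refine sum_mem fun a _ => ?_
  rw [Finset.mul_sum]
  refine sum_mem fun b _ => ?_
  rw [Nat.cast_mul, mul_mul_mul_comm]
  exact mul_mem (h _) (h' _)

omit [NumberField F] in
theorem adjFin_scalarFin (a : (FinAdele F)ˣ) (g : GLFin F) :
    adjFin (scalarFin F a * g) = adjFin g := by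
  funext p
  have hs : ∀ (u : (FinAdele F)ˣ) (g : GLFin F),
      (scalarFin F u * g).val = (u : FinAdele F) • g.val := fun u g => by
    ext i j
    fin_cases i <;> simp [scalarFin, Matrix.mul_apply, Fin.sum_univ_two]
  have hi : ((scalarFin F a * g)⁻¹).val = (↑a⁻¹ : FinAdele F) • (g⁻¹).val := by
    rw [_root_.mul_inv_rev, ← map_inv, ← scalarFin_comm, hs]
  simp only [adjFin, hi, hs, Matrix.smul_apply, smul_eq_mul, Matrix.det_smul, Fintype.card_fin]
  linear_combination (g.val p.1.1 p.1.2 * g.val p.2.1 p.2.2 * (g⁻¹).val.det) *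
    ((a : FinAdele F) * (↑a⁻¹ : FinAdele F) + 1) * a.mul_inv

theorem AdjDen.scalarFin_mul {M : ℕ} {g : GLFin F} (h : AdjDen M g) (a : (FinAdele F)ˣ) :
    AdjDen M (scalarFin F a * g) := by
  intro p
  rw [adjFin_scalarFin]
  exact h p

theorem exists_adjDen (g : GLFin F) : ∃ M : ℕ, 0 < M ∧ AdjDen M g :=
  Reduction.exists_denominator (adjFin g)

/-- Field automorphisms preserve integral adeles. -/
theorem finMap_mem_integralAdele (σ : F →+* F) {x : FinAdele F} (hx : x ∈ integralAdele F) :
    finMap σ x ∈ integralAdele F := by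
  obtain ⟨y, rfl⟩ := hx
  induction y using TensorProduct.induction_on with
  | zero => rw [map_zero, map_zero]; exact zero_mem _
  | tmul a z =>
    exact tmul_mem_integralAdele (⟨σ (a : F), a.isIntegral_coe.map σ.toIntAlgHom⟩ : 𝓞 F) z
  | add x y hx hy => rw [map_add, map_add]; exact add_mem hx hy

/-- Adjoint denominators are kept by field maps. -/
theorem AdjDen.glFinMap {M : ℕ} {g : GLFin F} (h : AdjDen M g) (σ : F →+* F) :
    AdjDen M (glFinMap σ g) := by
  intro p
  have hval : ∀ g : GLFin F, ∀ i j, (LT.glFinMap σ g).val i j = finMap σ (g.val i j) :=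
    fun _ _ _ => rfl
  have e : adjFin (LT.glFinMap σ g) p = finMap σ (adjFin g p) := by
    simp only [adjFin, ← map_inv, Matrix.det_fin_two, hval, map_mul, map_sub]
  rw [e, ← map_natCast (finMap σ), ← map_mul]
  exact finMap_mem_integralAdele σ (h p)

/-- Bounded denominators on the support of a Hecke function. -/
theorem exists_adjDen_support {U : Level F} (h : HeckeFn U) :
    ∃ M : ℕ, 0 < M ∧ ∀ g : GLFin F, h.toFun g ≠ 0 → AdjDen M g := by
  classical
  choose den hden hg using fun c : GLFin F ⧸ U.toSubgroup => exists_adjDen c.out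
  refine ⟨∏ c ∈ h.finite_support.toFinset, den c, Finset.prod_pos fun c _ => hden c,
    fun g hne => ?_⟩
  obtain ⟨u, hu⟩ := QuotientGroup.mk_out_eq_mul U.toSubgroup g
  obtain ⟨a, k, hk, hak⟩ := U.le_maximal _ (U.toSubgroup.inv_mem u.2)
  have e : g = scalarFin F a * ((QuotientGroup.mk g : GLFin F ⧸ U.toSubgroup).out * k) := by
    rw [← mul_assoc, scalarFin_comm, mul_assoc, ← hak, hu, mul_inv_cancel_right]
  rw [e]
  refine ((((hg _).mul (adjDen_intGL (Reduction.intGL_of_isPrincipal hk))).mono ?_)).scalarFin_mul a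
  rw [mul_one]
  exact Finset.dvd_prod_of_mem den ((Set.Finite.mem_toFinset _).mpr ⟨g, hne, rfl⟩)

/-- The invariant of a finite adelic matrix. -/
def classInvFin (g : GLFin F) : FinAdele F :=
  adjFin g ((0, 0), (0, 0)) + 2 * adjFin g ((0, 0), (1, 1)) + adjFin g ((1, 1), (1, 1))

omit [NumberField F] in
theorem classInvFin_eq (g : GLFin F) :
    classInvFin g = g.val.trace ^ 2 * (g⁻¹).val.det := by
  simp only [classInvFin, adjFin, Matrix.trace_fin_two]
  ring

omit [NumberField F] in
theorem classInvFin_conj (x g : GLFin F) : classInvFin (x * g * x⁻¹) = classInvFin g := by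
  rw [classInvFin_eq, classInvFin_eq, show (x * g * x⁻¹)⁻¹ = x * g⁻¹ * x⁻¹ by group]
  simp only [Units.val_mul, Matrix.det_units_conj, Matrix.trace_units_conj]

theorem AdjDen.classInvFin_mem {M : ℕ} {g : GLFin F} (h : AdjDen M g) :
    (M : FinAdele F) * classInvFin g ∈ integralAdele F := by
  rw [classInvFin, mul_add, mul_add, mul_left_comm]
  exact add_mem (add_mem (h _) (mul_mem (natCast_mem (integralAdele F) 2) (h _))) (h _)

theorem classInvFin_glIncl (γ : GL (Fin 2) F) :
    classInvFin (glIncl F γ) = finIncl F (classInv (QuotientGroup.mk γ : PGLIndex F)) := by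
  have hinv : (γ⁻¹).val.det = (γ.val.det)⁻¹ := by
    refine eq_inv_of_mul_eq_one_left ?_
    rw [← Matrix.det_mul, ← Units.val_mul, inv_mul_cancel, Units.val_one, Matrix.det_one]
  rw [classInvFin_eq, classInv_mk, ← map_inv, div_eq_mul_inv, ← hinv]
  have hv : ∀ g : GL (Fin 2) F, (glIncl F g).val = (finIncl F).mapMatrix g.val := fun _ => rfl
  rw [hv, hv, map_mul, map_pow, RingHom.map_det]
  congr 2
  exact (AddMonoidHom.map_trace (finIncl F).toAddMonoidHom γ.val).symm

/-- A conjugate with bounded denominators bounds the denominator of the invariant. -/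
theorem boundedDen_classInv {M : ℕ} {γ : GL (Fin 2) F} {x : GLFin F}
    (h : AdjDen M (x⁻¹ * glIncl F γ * x)) :
    Kernel.BoundedDen M (classInv (QuotientGroup.mk γ : PGLIndex F)) := by
  have := h.classInvFin_mem
  rw [show x⁻¹ * glIncl F γ * x = x⁻¹ * glIncl F γ * x⁻¹⁻¹ by rw [inv_inv], classInvFin_conj,
    classInvFin_glIncl, ← map_natCast (finIncl F), ← map_mul] at this
  exact Reduction.exists_integer_of_finIncl_mem this

end Fermat.Agent.LT.Geometric
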