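import Fermat.Agent.LT.Geometric.TermMatch
import Fermat.Agent.LT.Geometric.Assembly

/-!
# The comparison of one elliptic class

The twisted indices with norm in a class form one orbit, the elements of the class another; the
stabilisers agree, so for a class without an eigenvalue, whose sums converge without a cutoff, the
two integrals are equal.
-/

set_option autoImplicit false

noncomputable section

open MeasureTheory
open scoped ENNReal NNReal NumberField
open NumberField (InfinitePlace IsTotallyComplex)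

namespace Fermat.Agent.LT.Geometric

open CubicDescent PlaceMatching

variable {K L : Type*} [Field K] [NumberField K] [Field L] [NumberField L] {ι : K →+* L}
  {σ : L ≃+* L}

omit [NumberField K] in
/-- The twisted indices with norm in a class form one orbit. -/
theorem normClass_eq_orbit (hc : IsCubic ι σ) {δ : Twisted (pglAut σ)} {γ : PGLIndex K}
    (h : δ.norm = pglBase ι γ) :
    normClass ι σ (ConjClasses.mk γ) = MulAction.orbit (PGLIndex L) δ := by
  have hf := pglAut_iterate hc.pow
  ext d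
  constructor
  · rintro ⟨γ', hγ, g, hg⟩
    obtain ⟨a, ha⟩ := isConj_iff.mp (ConjClasses.mk_eq_mk_iff_isConj.mp hγ)
    have hd : ((pglBase ι a * g) • d).norm = pglBase ι γ := by
      rw [Twisted.norm_smul hf, ← ha, map_mul, map_mul, map_inv, ← hg]
      group
    obtain ⟨b, hb⟩ := hc.exists_smul_eq h hd
    exact ⟨(pglBase ι a * g)⁻¹ * b, show ((pglBase ι a * g)⁻¹ * b) • δ = d by
      rw [mul_smul, hb, inv_smul_smul]⟩
  · rintro ⟨g, rfl⟩
    refine ⟨γ, rfl, g⁻¹, ?_⟩
    show g⁻¹ * (g • δ).norm * g⁻¹⁻¹ = _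
    rw [Twisted.norm_smul hf, h]
    group

omit [NumberField K] in
/-- A class downstairs is an orbit. -/
theorem baseClass_eq_orbit (γ : PGLIndex K) :
    baseClass (ConjClasses.mk γ) =
      MulAction.orbit (PGLIndex K) (Twisted.mk (pglAut (RingEquiv.refl K)) γ) := by
  have hid : ∀ g : PGLIndex K, pglAut (RingEquiv.refl K) g = g := fun g => by
    induction g using QuotientGroup.induction_on with | H y => rfl
  ext c
  show ConjClasses.mk c.val = ConjClasses.mk γ ↔ _
  rw [eq_comm, ConjClasses.mk_eq_mk_iff_isConj, isConj_iff]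
  constructor
  · rintro ⟨g, hg⟩
    refine ⟨g, Twisted.ext ?_⟩
    show (g • Twisted.mk (pglAut (RingEquiv.refl K)) γ).val = _
    rw [Twisted.val_smul, hid]
    exact hg
  · rintro ⟨g, rfl⟩
    refine ⟨g, ?_⟩
    show _ = (g • Twisted.mk (pglAut (RingEquiv.refl K)) γ).val
    rw [Twisted.val_smul, hid]
    rfl

omit [NumberField K] in
theorem isPartition_toNNReal {F : Type*} [Field F] [NumberField F] {U : Level F}
    (w : PartitionOfUnity U) (hw : Measurable w.weight) :
    IsPartition (PGLIndex F) Set.univ fun y : Y U => (w.weight y).toNNReal :=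
  ⟨hw.real_toNNReal, fun x _ => NNReal.hasSum_coe.mp
    (by simpa [Real.coe_toNNReal _ (w.nonneg _)] using w.hasSum_pgl x)⟩

variable [IsTotallyComplex K] {V : Level K} {ω : Y V → ℝ≥0}

/-- A class without an eigenvalue is summable against a partition. -/
theorem lintegral_baseClass_ne_top (hω : IsPartition (PGLIndex K) Set.univ ω)
    (q : Kernel.PointKer K) (h : HeckeFn V) {γ : PGLIndex K} (hγ : ¬ HasEigenvalue γ) :
    ∫⁻ y, (ω y : ℝ≥0∞) * ∑' c : baseClass (ConjClasses.mk γ),
      ‖term (RingEquiv.refl K) (refl_stable V) q h c y‖ₑ ∂yVol V ≠ ∞ := by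
  refine ne_top_of_le_ne_top (lintegral_elliptic_pairKer_ne_top q h hω)
    (lintegral_mono fun y => mul_le_mul_right ?_ _)
  let f : baseClass (ConjClasses.mk γ) → {c : PGLIndex K // ¬HasEigenvalue c} := fun c =>
    ⟨c.1.val, fun he => hγ
      ((hasEigenvalue_conj_iff (ConjClasses.mk_eq_mk_iff_isConj.mp c.2)).mp he)⟩
  have hf : Function.Injective f := fun a b e =>
    Subtype.ext (Twisted.ext ((congrArg Subtype.val e : (f a).1 = (f b).1)))
  refine le_trans (le_of_eq (tsum_congr fun c => ?_)) (ENNReal.tsum_comp_le_tsum_of_injective hf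
    fun c : {c : PGLIndex K // ¬HasEigenvalue c} => ‖Kernel.pairKer q h y (c.1 • y)‖ₑ)
  rw [← show Twisted.mk _ c.1.val = c.1 from rfl, term_refl]

variable [IsTotallyComplex L] {U : Level L} {ν : Y U → ℝ≥0}

omit [IsTotallyComplex K] in
/-- The twisted indices with norm in such a class are summable against a partition. -/
theorem lintegral_normClass_ne_top (hc : IsCubic ι σ)
    (hU : ∀ g ∈ U.toSubgroup, glFinMap (σ : L →+* L) g ∈ U.toSubgroup)
    (hν : IsPartition (PGLIndex L) Set.univ ν)
    (q : Kernel.PointKer L) (h : HeckeFn U) {γ : PGLIndex K} (hγ : ¬ HasEigenvalue γ) :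
    ∫⁻ x, (ν x : ℝ≥0∞) * ∑' d : normClass ι σ (ConjClasses.mk γ),
      ‖term σ hU q h d x‖ₑ ∂yVol U ≠ ∞ := by
  refine ne_top_of_le_ne_top (lintegral_elliptic_ne_top σ hU q h hc.pow hν)
    (lintegral_mono fun x => mul_le_mul_right ?_ _)
  exact ENNReal.tsum_comp_le_tsum_of_injective
    (f := fun d : normClass ι σ (ConjClasses.mk γ) =>
      (⟨d.1, fun he => hγ ((hasEigenvalue_norm_iff hc d.2).mp he)⟩ :
        {δ : Twisted (pglAut σ) // ¬HasEigenvalue δ.norm}))
    (fun a b e => Subtype.ext (congrArg Subtype.val e :))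
    fun δ : {δ : Twisted (pglAut σ) // ¬HasEigenvalue δ.norm} => ‖term σ hU q h δ.1 x‖ₑ

variable {φ₀ : L →+* ℂ} {I : Ideal (𝓞 L)} {J : Ideal (𝓞 K)}
  {hI : ∃ N : ℕ, 0 < N ∧ (N : 𝓞 L) ∈ I} {hJ : ∃ N : ℕ, 0 < N ∧ (N : 𝓞 K) ∈ J}
  (hm : LevelsMatch ι σ I J) (hc : IsCubic ι σ) (s : PlaceSection ι)
  (hemb : ∀ v : InfinitePlace K, v.embedding = φ₀.comp ι) [Unique (InfinitePlace K)]
  (hcomplex : ¬ NumberField.ComplexEmbedding.IsReal (φ₀.comp ι))

include hemb hcomplex

/-- **An elliptic class.** -/
theorem elliptic_class_eq {k : Fin 3 → KerFam J} {kL : KerFam I}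
    (hk : Compatible hm hc s k kL) (wL : PartitionOfUnity (Level.ofIdeal L I hI))
    (hwL : Measurable wL.weight) (wK : PartitionOfUnity (Level.ofIdeal K J hJ))
    (hwK : Measurable wK.weight) {q : Kernel.PointKer L} {qK : Kernel.PointKer K}
    {κ : Fin 3 → H3 → H3 → ℂ} (hinv : ∀ i (g : GL (Fin 2) ℂ) P Q, κ i (g • P) (g • Q) = κ i P Q)
    (hq : ∀ P Q, q.toFun P Q = coordKernel φ₀ σ κ P Q)
    (hqK : ∀ P Q, qK.toFun P Q = tripleKernel H3.vol κ (P default) (Q default))
    {γ : PGLIndex K} {δ : Twisted (pglAut σ)} (hδ : δ.norm = pglBase ι γ)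
    (hγ : ¬ HasEigenvalue γ) :
    ∫ x, wL.weight x • ∑' d : normClass ι σ (ConjClasses.mk γ),
        term σ (hm.stable hc) q (kL.hecke hI) d x ∂yVol (Level.ofIdeal L I hI) =
      ∫ y, wK.weight y • ∑' c : baseClass (ConjClasses.mk γ),
        term (RingEquiv.refl K) (refl_stable _) qK
          ((k 0).hecke hJ * (k 1).hecke hJ * (k 2).hecke hJ) c y
        ∂yVol (Level.ofIdeal K J hJ) := by
  classical
  obtain ⟨g, γ', hn⟩ := hc.exists_normalised δ
  have hγγ : ConjClasses.mk γ' = ConjClasses.mk γ := by_contra fun e =>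
    Set.disjoint_left.mp (normClass_disjoint hc e)
      (show δ ∈ normClass ι σ (ConjClasses.mk γ') from
        ⟨γ', rfl, g, by rw [← Twisted.norm_smul (pglAut_iterate hc.pow), hn.norm_eq]⟩)
      (mem_normClass_self hδ)
  have hγ' : ¬ HasEigenvalue γ' := fun he =>
    hγ ((hasEigenvalue_conj_iff (ConjClasses.mk_eq_mk_iff_isConj.mp hγγ)).mp he)
  rw [← hγγ]
  obtain ⟨x, m, hN, hx, hmγ⟩ := exists_rep hc hn.norm_eq
  obtain ⟨T⟩ := exists_transferData hm hc s hI hN hn hx hmγ
  subst hmγ
  have hn' : IsNormalised ι (Twisted.mk (pglAut σ) (QuotientGroup.mk x : PGLIndex L))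
      (QuotientGroup.mk m) := (Twisted.ext hx : Twisted.mk _ _ = g • δ) ▸ hn
  have : Countable (Twisted (pglAut σ)) := Reduction.countable_pglIndex (F := L)
  have : Countable (Twisted (pglAut (RingEquiv.refl K))) := Reduction.countable_pglIndex (F := K)
  have : MeasurableConstSMul (PGLIndex L) (Y (Level.ofIdeal L I hI)) :=
    ⟨fun c => (measurePreserving_pglSmul _ c).measurable⟩
  have : SMulInvariantMeasure (PGLIndex L) (Y (Level.ofIdeal L I hI)) (yVol _) :=
    ⟨fun c _ hs => (measurePreserving_pglSmul _ c).measure_preimage hs.nullMeasurableSet⟩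
  have : MeasurableConstSMul (PGLIndex K) (Y (Level.ofIdeal K J hJ)) :=
    ⟨fun c => (measurePreserving_pglSmul _ c).measurable⟩
  have : SMulInvariantMeasure (PGLIndex K) (Y (Level.ofIdeal K J hJ)) (yVol _) :=
    ⟨fun c _ hs => (measurePreserving_pglSmul _ c).measure_preimage hs.nullMeasurableSet⟩
  have hωL := isPartition_toNNReal wL hwL
  have hωK := isPartition_toNNReal wK hwK
  let M := T.pieceMatch (hI := hI) (hJ := hJ) hemb hN hcomplex q hinv hq hqK hk hn'
    (hωK.isPartition_subPartition _ fun _ _ _ _ => trivial)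
  have hCL : normClass ι σ (ConjClasses.mk (QuotientGroup.mk m)) =
      MulAction.orbit (PGLIndex L) (Twisted.mk (pglAut σ) (QuotientGroup.mk x)) :=
    normClass_eq_orbit hc hn'.norm_eq
  have hCK := baseClass_eq_orbit (QuotientGroup.mk m : PGLIndex K)
  have fL := lintegral_normClass_ne_top hc (hm.stable hc) hωL q (kL.hecke hI) hγ'
  have fK := lintegral_baseClass_ne_top hωK qK
    ((k 0).hecke hJ * (k 1).hecke hJ * (k 2).hecke hJ) hγ'
  have fM := lintegral_baseClass_ne_top hωK (archMajorant K q)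
    ((k 0).abs.hecke hJ * (k 1).abs.hecke hJ * (k 2).abs.hecke hJ) hγ'
  rw [hCL] at fL
  rw [hCK] at fK fM
  obtain ⟨-, -, hdiff⟩ := piece_difference
    (fun g d y => term_smul σ _ q (kL.hecke hI) g d y)
    (fun g d y => term_smul _ _ qK _ g d y)
    (fun g d y => term_smul _ _ (archMajorant K q) _ g d y)
    (fun d => measurable_term _ _ _ _ d) (fun d => measurable_term _ _ _ _ d)
    (fun d => measurable_term _ _ _ _ d) hωL hωK
    (χ := fun _ => 1) measurable_const (fun _ _ => rfl)
    (χ' := fun _ => 1) measurable_const (fun _ _ => rfl)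
    (fun y => (summable_of_hasFiniteSupport (finite_support_term σ (hm.stable hc) q
      (kL.hecke hI) y)).subtype _)
    (fun y => (summable_of_hasFiniteSupport (finite_support_term (RingEquiv.refl K)
      (refl_stable _) qK _ y)).subtype _)
    (by simpa [orbitPiece] using fL) (by simpa [orbitPiece] using fK)
    (by simpa [orbitPiece] using fM) M
  rw [hCL, hCK]
  simp only [mul_one, Real.coe_toNNReal _ (wL.nonneg _), Real.coe_toNNReal _ (wK.nonneg _),
    NNReal.coe_one, sub_self, mul_zero, zero_smul, integral_zero, sub_eq_zero] at hdiff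
  exact hdiff

end Fermat.Agent.LT.Geometric

end
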