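import Fermat.Agent.LT.Geometric.Total

/-!
# Band integrals after summing along fibres

Weights and bands that factor through a projection `p` see only the fibre sums of the integrand;
the band integrals tend to zero as soon as the fibre sums are integrable where the bands live.
-/

set_option autoImplicit false

noncomputable section

open MeasureTheory Filter Topology
open scoped ENNReal NNReal

namespace Fermat.Agent.LT.Geometric

variable {A C D : Type*} [MeasurableSpace A] [MeasurableSpace C] [MeasurableSingletonClass C]
  [Countable C] [MeasurableSpace D] [MeasurableSingletonClass D] [Countable D]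
  {μ : Measure A} [SFinite μ]

/-- The sums along fibres. -/
def fibreSum (p : C → D) (ψ : A × C → ℂ) (q : A × D) : ℂ :=
  ∑' c : {c // p c = q.2}, ψ (q.1, c.1)

omit [MeasurableSingletonClass C] in
/-- Fibre sums of a measurable function are measurable. -/
theorem measurable_fibreSum {p : C → D} {ψ : A × C → ℂ} (hψ : Measurable ψ) :
    Measurable (fibreSum p ψ) :=
  measurable_from_prod_countable_left fun d => by
    show Measurable fun a => ∑' c : {c // p c = d}, ψ (a, c.1)
    exact Measurable.tsum (f := fun (c : {c // p c = d}) a => ψ (a, c.1)) fun c =>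
      hψ.comp (measurable_id.prodMk measurable_const)

/-- An integral against a weight through `p` is an integral of fibre sums. -/
theorem integral_eq_fibreSum {p : C → D} {ψ : A × C → ℂ} {g : A × D → ℝ}
    (hint : Integrable (fun x => g (x.1, p x.2) • ψ x) (μ.prod Measure.count)) :
    Integrable (fun q => g q • fibreSum p ψ q) (μ.prod Measure.count) →
    ∫ x, g (x.1, p x.2) • ψ x ∂(μ.prod Measure.count) =
      ∫ q, g q • fibreSum p ψ q ∂(μ.prod Measure.count) := by
  intro hint'
  rw [integral_prod _ hint, integral_prod _ hint']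
  refine integral_congr_ae ?_
  filter_upwards [hint.prod_right_ae, hint'.prod_right_ae] with a ha ha'
  rw [integral_countable ha, integral_countable ha']
  simp only [measureReal_def, Measure.count_singleton, ENNReal.toReal_one, one_smul]
  have hs : Summable fun c => g (a, p c) • ψ (a, c) :=
    summable_norm_iff.mp (integrable_count_iff.mp ha)
  have hsig : Summable fun q : (d : D) × {c // p c = d} => g (a, p q.2.1) • ψ (a, q.2.1) :=
    (Equiv.sigmaFiberEquiv p).summable_iff.mpr hs
  rw [← (Equiv.sigmaFiberEquiv p).tsum_eq]
  refine hsig.tsum_sigma.trans (tsum_congr fun d => ?_)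
  simp only [fun c : {c // p c = d} => show g (a, p c.1) = g (a, d) by rw [c.2], fibreSum]
  exact tsum_const_smul'' _

/-- **Bands through the projection tend to zero.** -/
theorem tendsto_band_fibre {p : C → D} {ψ : A × C → ℂ} (hψ : Measurable ψ)
    {w : A × D → ℝ} (hwm : Measurable w) {S : Set (A × D)}
    {ι : Type*} {l : Filter ι} [l.IsCountablyGenerated] {b : ι → A × D → ℝ}
    (hbm : ∀ T, Measurable (b T)) (hb1 : ∀ T q, |b T q| ≤ 1)
    (hbS : ∀ᶠ T in l, ∀ q, q ∉ S → b T q = 0) (hlim : ∀ q, Tendsto (fun T => b T q) l (𝓝 0))
    (hint : ∀ T, Integrable (fun x => (w (x.1, p x.2) * b T (x.1, p x.2)) • ψ x)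
      (μ.prod Measure.count))
    (hG : Integrable (S.indicator fun q => w q • fibreSum p ψ q) (μ.prod Measure.count)) :
    Tendsto (fun T => ∫ x, (w (x.1, p x.2) * b T (x.1, p x.2)) • ψ x ∂(μ.prod Measure.count)) l
      (𝓝 0) := by
  have hdom : ∀ᶠ T in l, ∀ q, ‖(w q * b T q) • fibreSum p ψ q‖ ≤
      ‖S.indicator (fun q => w q • fibreSum p ψ q) q‖ := by
    filter_upwards [hbS] with T hT q
    by_cases hq : q ∈ S
    · rw [Set.indicator_of_mem hq, norm_smul, norm_smul, norm_mul]
      refine mul_le_mul_of_nonneg_right (mul_le_of_le_one_right (norm_nonneg _) ?_) (norm_nonneg _)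
      simpa using hb1 T q
    · simp [hT q hq]
  have hm : ∀ T, AEStronglyMeasurable (fun q => (w q * b T q) • fibreSum p ψ q)
      (μ.prod Measure.count) := fun T =>
    ((hwm.mul (hbm T)).smul (measurable_fibreSum hψ)).aestronglyMeasurable
  have heq : ∀ᶠ T in l, ∫ q, (w q * b T q) • fibreSum p ψ q ∂(μ.prod Measure.count) =
      ∫ x, (w (x.1, p x.2) * b T (x.1, p x.2)) • ψ x ∂(μ.prod Measure.count) := by
    filter_upwards [hdom] with T hT
    exact (integral_eq_fibreSum (g := fun q => w q * b T q) (hint T)
      (hG.norm.mono' (hm T) (Eventually.of_forall hT))).symm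
  refine Tendsto.congr' heq ?_
  have h := tendsto_integral_filter_of_dominated_convergence
    (F := fun T q => (w q * b T q) • fibreSum p ψ q) (f := fun _ => (0 : ℂ))
    (fun q => ‖S.indicator (fun q => w q • fibreSum p ψ q) q‖) (Eventually.of_forall hm)
    (hdom.mono fun T h => Eventually.of_forall h) hG.norm ?_ (l := l) (μ := μ.prod Measure.count)
  · simpa using h
  · refine Eventually.of_forall fun q => ?_
    have := ((hlim q).const_mul (w q)).smul_const (fibreSum p ψ q)
    simpa using this

end Fermat.Agent.LT.Geometric
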