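import Fermat.Agent.LT.Geometric.Pullback
import Fermat.Agent.LT.Geometric.Classes

/-!
# Assembling the geometric comparison

A total is the limit of its cutoffs; a cutoff total is the sum over classes; two totals agree when
classwise differences vanish eventually outside a finite set and tend to zero on it. The
difference for one class is a band integral, which vanishes when the integrand has zero sums
along fibres of a projection through which the band factors.
-/

set_option autoImplicit false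

noncomputable section

open MeasureTheory Filter Topology
open scoped ENNReal NNReal

namespace Fermat.Agent.LT.Geometric

section Limits

/-- Totals agree when classwise differences vanish or tend to zero. -/
theorem eq_of_classwise {ι I : Type*} {l : Filter ι} [l.NeBot] {A B : ι → I → ℂ} {tA tB : ι → ℂ}
    {LA LB : ℂ} (hA : ∀ᶠ T in l, HasSum (A T) (tA T)) (hB : ∀ᶠ T in l, HasSum (B T) (tB T))
    (htA : Tendsto tA l (𝓝 LA)) (htB : Tendsto tB l (𝓝 LB)) (S : Finset I)
    (hout : ∀ᶠ T in l, ∀ i ∉ S, A T i = B T i)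
    (hin : ∀ i ∈ S, Tendsto (fun T => A T i - B T i) l (𝓝 0)) : LA = LB := by
  have h1 : Tendsto (fun T => ∑ i ∈ S, (A T i - B T i)) l (𝓝 0) := by
    simpa using tendsto_finsetSum S hin
  have h2 : (fun T => tA T - tB T) =ᶠ[l] fun T => ∑ i ∈ S, (A T i - B T i) := by
    filter_upwards [hA, hB, hout] with T a b o
    exact (a.sub b).unique (hasSum_sum_of_ne_finset_zero fun i hi => by rw [o i hi, sub_self])
  exact sub_eq_zero.mp (tendsto_nhds_unique (htA.sub htB) (h1.congr' h2.symm))

variable {X : Type*} [MeasurableSpace X] {μ : Measure X} {E : Type*} [NormedAddCommGroup E]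
  [NormedSpace ℝ E]

/-- Removing a cutoff by dominated convergence. -/
theorem tendsto_cutoff {ι : Type*} {l : Filter ι} [l.IsCountablyGenerated]
    {w : X → ℝ≥0} {f : X → E} {χ : ι → X → ℝ≥0} (hχm : ∀ T, Measurable (χ T))
    (hχ1 : ∀ T x, χ T x ≤ 1) (hlim : ∀ᵐ x ∂μ, Tendsto (fun T => (χ T x : ℝ)) l (𝓝 1))
    (hint : Integrable (fun x => (w x : ℝ) • f x) μ) :
    Tendsto (fun T => ∫ x, ((w x * χ T x : ℝ≥0) : ℝ) • f x ∂μ) l
      (𝓝 (∫ x, (w x : ℝ) • f x ∂μ)) := by
  refine tendsto_integral_filter_of_dominated_convergence (fun x => ‖(w x : ℝ) • f x‖) ?_ ?_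
    hint.norm ?_
  · refine Eventually.of_forall fun T => ?_
    refine ((hχm T).coe_nnreal_real.aestronglyMeasurable.smul hint.1).congr
      (Eventually.of_forall fun x => ?_)
    simp [mul_smul, smul_comm (χ T x : ℝ) (w x : ℝ)]
  · refine Eventually.of_forall fun T => Eventually.of_forall fun x => ?_
    rw [norm_smul, norm_smul, Real.norm_of_nonneg (NNReal.coe_nonneg _),
      Real.norm_of_nonneg (NNReal.coe_nonneg _), NNReal.coe_mul]
    exact mul_le_mul_of_nonneg_right
      (mul_le_of_le_one_right (w x).coe_nonneg (NNReal.coe_le_one.mpr (hχ1 T x))) (norm_nonneg _)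
  · filter_upwards [hlim] with x hx
    have := (hx.const_mul (w x : ℝ)).smul_const (f x)
    simpa using this

end Limits

section Classwise

variable {X : Type*} [MeasurableSpace X] {μ : Measure X}

/-- An absolutely convergent sum over all indices splits into classes. -/
theorem hasSum_classes {Δ I : Type*} [Countable Δ] [Countable I] {u : X → ℝ≥0} (hu : Measurable u)
    {F : Δ → X → ℂ} (hFm : ∀ δ, Measurable (F δ)) (hsum : ∀ x, Summable fun δ => F δ x)
    (C : I → Set Δ) (hdisj : Pairwise fun i k => Disjoint (C i) (C k))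
    (hcov : ∀ δ, (∀ i, δ ∉ C i) → ∀ x, F δ x = 0)
    (hfin : ∫⁻ x, (u x : ℝ≥0∞) * ∑' δ, ‖F δ x‖ₑ ∂μ ≠ ∞) :
    HasSum (fun i => ∫ x, (u x : ℝ) • ∑' δ : C i, F δ x ∂μ)
      (∫ x, (u x : ℝ) • ∑' δ, F δ x ∂μ) := by
  let emb : (Σ i, C i) → Δ := fun q => q.2.1
  have hinj : Function.Injective emb := by
    rintro ⟨i, a, ha⟩ ⟨k, b, hb⟩ (h : a = b)
    subst h
    have hik : i = k := by
      by_contra hne
      exact Set.disjoint_left.mp (hdisj hne) ha hb
    subst hik
    rfl
  have hrange : ∀ x δ, δ ∉ Set.range emb → F δ x = 0 := fun x δ h =>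
    hcov δ (fun i hi => h ⟨⟨i, δ, hi⟩, rfl⟩) x
  have hcls : ∀ x, HasSum (fun i => ∑' δ : C i, F δ x) (∑' δ, F δ x) := fun x => by
    have h := (hinj.hasSum_iff (hrange x)).mpr (hsum x).hasSum
    exact h.sigma fun i => (h.summable.sigma_factor i).hasSum
  have hm : ∀ i, AEStronglyMeasurable (fun x => (u x : ℝ) • ∑' δ : C i, F δ x) μ := fun i =>
    (hu.coe_nnreal_real.smul (Measurable.tsum fun δ : C i => hFm δ)).aestronglyMeasurable
  have hne : ∑' i, ∫⁻ x, ‖(u x : ℝ) • ∑' δ : C i, F δ x‖ₑ ∂μ ≠ ∞ := by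
    rw [← lintegral_tsum fun i => (hm i).enorm]
    refine ne_top_of_le_ne_top hfin (lintegral_mono fun x => ?_)
    simp only [enorm_smul_nnreal, ENNReal.tsum_mul_left]
    refine mul_le_mul_right ?_ _
    calc ∑' i, ‖∑' δ : C i, F δ x‖ₑ ≤ ∑' (i) (δ : C i), ‖F δ x‖ₑ :=
          ENNReal.tsum_le_tsum fun i => enorm_tsum_le_tsum_enorm
      _ = ∑' q : Σ i, C i, ‖F (emb q) x‖ₑ := (ENNReal.tsum_sigma' fun q : Σ i, C i => ‖F (emb q)
        x‖ₑ).symm
      _ ≤ _ := ENNReal.tsum_comp_le_tsum_of_injective hinj fun δ => ‖F δ x‖ₑ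
  have h1 : ∫ x, (u x : ℝ) • ∑' δ, F δ x ∂μ =
      ∑' i, ∫ x, (u x : ℝ) • ∑' δ : C i, F δ x ∂μ := by
    rw [← integral_tsum hm hne]
    exact integral_congr_ae (Eventually.of_forall fun x =>
      (((hcls x).const_smul (u x : ℝ)).tsum_eq).symm)
  rw [h1]
  refine Summable.hasSum (Summable.of_norm_bounded (ENNReal.summable_toReal hne) fun i => ?_)
  rw [← toReal_enorm]
  exact ENNReal.toReal_mono (ENNReal.ne_top_of_tsum_ne_top hne i)
      (enorm_integral_le_lintegral_enorm _)

variable {Y : Type*} [MeasurableSpace Y] {ν : Measure Y}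

/-- The difference of two matched class integrals is a band integral. -/
theorem band_identity {D : Type*} [Countable D] {π : X → Y} (hπ : Measurable π)
    {F : D → X → ℂ} {F' : D → Y → ℂ} (hmatch : ∀ d, Match μ ν π (F d) (F' d))
    (hFm : ∀ d, Measurable (F d)) (hFm' : ∀ d, Measurable (F' d))
    {v : X → ℝ≥0} {u : Y → ℝ≥0} (hu : Measurable u)
    (hv : Integrable (fun x => (v x : ℝ) • ∑' d, F d x) μ)
    (hfin : ∑' d, ∫⁻ x, ‖(u (π x) : ℝ) • F d x‖ₑ ∂μ ≠ ∞)
    (hfin' : ∑' d, ∫⁻ y, ‖(u y : ℝ) • F' d y‖ₑ ∂ν ≠ ∞) :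
    ∫ x, (v x : ℝ) • ∑' d, F d x ∂μ - ∫ y, (u y : ℝ) • ∑' d, F' d y ∂ν =
      ∫ x, ((v x : ℝ) - u (π x)) • ∑' d, F d x ∂μ := by
  have hΦ : Measurable fun y => ((u y : ℝ) : ℂ) := Complex.measurable_ofReal.comp hu.coe_nnreal_real
  have h := Match.integral_tsum_eq hmatch hπ hFm hFm' hΦ
    (by simpa [Complex.real_smul, mul_comm] using hfin)
    (by simpa [Complex.real_smul, mul_comm] using hfin')
  simp only [mul_comm (∑' d, F' d _), mul_comm (∑' d, F d _), ← Complex.real_smul] at h
  rw [← h, ← integral_sub hv]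
  · simp only [sub_smul]
  refine ⟨((hu.comp hπ).coe_nnreal_real.smul (Measurable.tsum hFm)).aestronglyMeasurable, ?_⟩
  rw [hasFiniteIntegral_iff_enorm]
  rw [← lintegral_tsum (f := fun d x => ‖(u (π x) : ℝ) • F d x‖ₑ) fun d =>
    (((hu.comp hπ).coe_nnreal_real.smul (hFm d)).enorm).aemeasurable] at hfin
  refine lt_of_le_of_lt (lintegral_mono fun x => ?_) hfin.lt_top
  simp only [enorm_smul_nnreal, ENNReal.tsum_mul_left]
  exact mul_le_mul_right enorm_tsum_le_tsum_enorm _

/-- A partition pulls back along a map equivariant on an invariant set. -/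
theorem IsPartition.comp {G H : Type*} [Group G] [Group H] [MulAction G X] [MulAction H Y]
    {w : Y → ℝ≥0} (hw : IsPartition H Set.univ w) {π : X → Y} (hπ : Measurable π) {s : Set X}
    (e : G ≃* H) (heq : ∀ (g : G), ∀ x ∈ s, π (g • x) = e g • π x) :
    IsPartition G s (w ∘ π) := by
  refine ⟨hw.measurable.comp hπ, fun x hx => ?_⟩
  refine HasSum.congr_fun (e.toEquiv.hasSum_iff.mpr (hw.hasSum (π x) trivial)) fun g => ?_
  simp [heq g x hx]

end Classwise

section Band

variable {A C D : Type*} [MeasurableSpace A] [MeasurableSpace C] [MeasurableSingletonClass C]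
  [Countable C] {μ : Measure A} [SFinite μ] {Z : Type*} [Group Z] [Countable Z]
  [MulAction Z (A × C)] [MeasurableConstSMul Z (A × C)]
  [SMulInvariantMeasure Z (A × C) (μ.prod Measure.count)]

/-- A band integral vanishes: it may be computed against a partition `w'` that, like the band,
is constant on the fibres along which the integrand sums to zero. -/
theorem band_eq_zero {s : Set (A × C)} {w w' : A × C → ℝ≥0} (hw : IsPartition Z s w)
    (hw' : IsPartition Z s w') {ψ : A × C → ℂ} (hψm : Measurable ψ) {b : A × C → ℝ}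
    (hbm : Measurable b) (hψ : ∀ (z : Z) x, ψ (z • x) = ψ x)
      (hb : ∀ (z : Z), ∀ x ∈ s, b (z • x) = b x)
    (hsupp : ∀ x, x ∉ s → ψ x = 0) {p : C → D}
    (hfib : ∀ a d, HasSum (fun c : {c // p c = d} => ψ (a, c.1)) 0)
    (hw'p : ∀ a c c', p c = p c' → w' (a, c) = w' (a, c'))
    (hbp : ∀ a c c', p c = p c' → b (a, c) = b (a, c'))
    (hint : Integrable (fun x => ((w x : ℝ) * b x) • ψ x) (μ.prod Measure.count)) :
    ∫ x, ((w x : ℝ) * b x) • ψ x ∂(μ.prod Measure.count) = 0 := by
  set Φ : A × C → ℂ := fun x => b x • ψ x with hΦ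
  have hm : StronglyMeasurable Φ := (hbm.smul hψm).stronglyMeasurable
  have hΦi : ∀ (z : Z) x, Φ (z • x) = Φ x := fun z x => by
    by_cases hx : x ∈ s
    · simp [hΦ, hψ, hb z x hx]
    · simp [hΦ, hψ, hsupp x hx]
  have hΦs : ∀ x, x ∉ s → Φ x = 0 := fun x hx => by simp [hΦ, hsupp x hx]
  have hint' : Integrable (fun x => (w x : ℝ) • Φ x) (μ.prod Measure.count) := by
    simpa [hΦ, mul_smul] using hint
  simp only [mul_smul]
  rw [integral_partition_eq hw hw' hm hΦi hΦs hint']
  have hre : (fun x => (w' x : ℝ) • Φ x) = fun x => ψ x * ((w' x : ℝ) * b x : ℝ) :=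
    funext fun x => by simp [hΦ, Complex.real_smul]; ring
  have hi : Integrable (fun x => ψ x * ((w' x : ℝ) * b x : ℝ)) (μ.prod Measure.count) :=
    hre ▸ (integrable_partition_iff hw hw' hm hΦi hΦs).mp hint'
  rw [hre]
  exact integral_eq_zero_of_fibre (G := fun x => (((w' x : ℝ) * b x : ℝ) : ℂ)) hfib
    (fun a c c' h => by rw [hw'p a c c' h, hbp a c c' h]) hi

end Band

end Fermat.Agent.LT.Geometric
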