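import Fermat.Agent.LT.Geometric.CuspHeights
import Fermat.Agent.LT.Geometric.CutoffFinite
import Fermat.Agent.LT.Geometric.Total

/-!
# The band of a split regular class vanishes

For `δ = diag(b, 1)` over `γ = diag(a, 1)`, `a ≠ 1`, the difference of the two cutoffs is a sum of
two bands with disjoint supports, each constant along lines on which the twisted term sums to zero;
so the band integral is zero for large heights.
-/

set_option autoImplicit false

noncomputable section

open MeasureTheory Filter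
open scoped NNReal
open NumberField (InfinitePlace)

namespace Fermat.Agent.LT.Geometric

variable {F K : Type*} [Field F] [NumberField F] [Field K] [NumberField K]
  {U : Level F} {V : Level K}

/-- The projection of `Y` upstairs to `Y` downstairs. -/
def projY (K : Type*) [Field K] [NumberField K] {V : Level K} (φ₀ : F →+* ℂ)
    (pif : GLFin F ⧸ U.toSubgroup → GLFin K ⧸ V.toSubgroup) (x : Y U) : Y V :=
  (archProj K φ₀ x.1, pif x.2)

/-- What a split regular class needs from the finite and the infinite places. -/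
structure DiagBandHyp (ι : K →+* F) (σ : F ≃+* F)
    (hU : ∀ g ∈ U.toSubgroup, glFinMap (σ : F →+* F) g ∈ U.toSubgroup) (φ₀ : F →+* ℂ)
    (k : Kernel.PointKer F) (hL : HeckeFn U) (kM : Kernel.PointKer K) (hM : HeckeFn V)
    (pif : GLFin F ⧸ U.toSubgroup → GLFin K ⧸ V.toSubgroup) (e : FinAdele F) (a : Kˣ) (b : Fˣ) :
    Prop where
  norm : ι (a : K) = (b : F) * σ b * σ (σ b)
  ne_one : (a : K) ≠ 1
  fixed : finMap (σ : F →+* F) e = e
  cusp : HasCuspConditionAt hL e
  line : ∀ x : FinAdele F, e * x = x → ∀ c, ∃ u : FinAdele K, pif (unip x • c) = unip u • pif c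
  line' : ∀ x : FinAdele F, e * x = x → ∀ c, ∃ u : FinAdele K,
    glIncl K (weyl K) • pif (glIncl F (weyl F) • unip x • c) =
      unip u • glIncl K (weyl K) • pif (glIncl F (weyl F) • c)
  torusEquiv : ∀ (t : Kˣ) (c : GLFin F ⧸ U.toSubgroup),
    hL.kernel c (glIncl F (dia b) • galFin σ U hU c) ≠ 0 →
      pif (glIncl F (dia (Units.map ι.toMonoidHom t)) • c) = glIncl K (dia t) • pif c
  supp : ∀ c, hL.kernel c (glIncl F (dia b) • galFin σ U hU c) ≠ 0 →
    hM.kernel (pif c) (glIncl K (dia a) • pif c) ≠ 0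
  fibre : ∀ d, {c | pif c = d ∧ hL.kernel c (glIncl F (dia b) • galFin σ U hU c) ≠ 0}.Finite
  arch : ∀ P : InfinitePlace F → H3,
    k.toFun P (fun w => glEmb F w (dia b) • galInf σ P w) ≠ 0 →
      kM.toFun (archProj K φ₀ P) (fun v => glEmb K v (dia a) • archProj K φ₀ P v) ≠ 0

theorem galFin_smul (σ : F ≃+* F) (hU : ∀ g ∈ U.toSubgroup, glFinMap (σ : F →+* F) g ∈ U.toSubgroup)
    (γ : GL (Fin 2) F) (c : GLFin F ⧸ U.toSubgroup) :
    galFin σ U hU (glIncl F γ • c) =
      glIncl F (Matrix.GeneralLinearGroup.map (σ : F →+* F) γ) • galFin σ U hU c := by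
  induction c using QuotientGroup.induction_on with | H g => ?_
  rw [MulAction.Quotient.smul_mk, smul_eq_mul, galFin_mk, galFin_mk, map_mul, glFinMap_glIncl]
  rfl

omit [NumberField F] in
theorem map_weyl {R : Type*} [Field R] (f : F →+* R) :
    Matrix.GeneralLinearGroup.map f (weyl F) = weyl R := by
  ext i j; fin_cases i <;> fin_cases j <;> simp [weyl]

theorem projY_dia_smul {ι : K →+* F} {φ₀ : F →+* ℂ}
    (hemb : ∀ v : InfinitePlace K, v.embedding = φ₀.comp ι)
    (pif : GLFin F ⧸ U.toSubgroup → GLFin K ⧸ V.toSubgroup) (t : Kˣ) (x : Y U)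
    (ht : pif (glIncl F (dia (Units.map ι.toMonoidHom t)) • x.2) = glIncl K (dia t) • pif x.2) :
    projY K φ₀ pif (dia (Units.map ι.toMonoidHom t) • x) = dia t • projY K φ₀ pif x := by
  refine Prod.ext ?_ ?_
  · show archProj K φ₀ (dia (Units.map ι.toMonoidHom t) • x).1 = _
    have e : dia (Units.map ι.toMonoidHom t) = Matching.baseUnit ι (dia t) := by
      ext i j; fin_cases i <;> fin_cases j <;> simp [dia]
    have h1 : (dia (Units.map ι.toMonoidHom t) • x).1 =
        fun w => glEmb F w (dia (Units.map ι.toMonoidHom t)) • x.1 w :=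
      funext fun w => smul_fst U _ x w
    rw [h1, e, archProj_smul hemb]
    exact funext fun v => (smul_fst V (dia t) (projY K φ₀ pif x) v).symm
  · show pif (dia (Units.map ι.toMonoidHom t) • x).2 = _
    rw [smul_snd, ht, smul_snd]
    rfl

namespace DiagBandHyp

variable {ι : K →+* F} {σ : F ≃+* F}
  {hU : ∀ g ∈ U.toSubgroup, glFinMap (σ : F →+* F) g ∈ U.toSubgroup} {φ₀ : F →+* ℂ}
  {k : Kernel.PointKer F} {hL : HeckeFn U} {kM : Kernel.PointKer K} {hM : HeckeFn V}
  {pif : GLFin F ⧸ U.toSubgroup → GLFin K ⧸ V.toSubgroup} {e : FinAdele F} {a : Kˣ} {b : Fˣ}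
  (H : DiagBandHyp ι σ hU φ₀ k hL kM hM pif e a b) (h : IsCubic ι σ)

omit [NumberField F] [NumberField K] in
include h in
theorem fixed_unit (t : Kˣ) : Units.map (σ : F →+* F).toMonoidHom (Units.map ι.toMonoidHom t) =
    Units.map ι.toMonoidHom t :=
  Units.ext ((h.fixed _).mpr ⟨t, rfl⟩)

omit [NumberField F] [NumberField K] in
include h in
theorem torus_smul_delta (t : Kˣ) :
    torus F (Units.map ι.toMonoidHom t) • Twisted.mk (pglAut σ) (torus F b) =
      Twisted.mk (pglAut σ) (torus F b) := by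
  refine Twisted.ext ?_
  rw [Twisted.val_smul]
  show _ * torus F b * _ = torus F b
  rw [show pglAut σ (torus F (Units.map ι.toMonoidHom t)) = torus F (Units.map ι.toMonoidHom t) by
    rw [torus_apply, pglAut_mk]
    refine congrArg QuotientGroup.mk ((Whittaker.map_dia (σ : F →+* F) _).trans ?_)
    rw [fixed_unit h], ← map_inv, ← map_mul, ← map_mul, mul_inv_cancel_comm]

include H in
theorem norm_delta : (Twisted.mk (pglAut σ) (torus F b)).norm =
    torus F (Units.map ι.toMonoidHom a) := by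
  have e : ∀ s : Fˣ, pglAut σ (torus F s) = torus F (Units.map (σ : F →+* F).toMonoidHom s) :=
    fun s => by
      rw [torus_apply, pglAut_mk]
      exact congrArg QuotientGroup.mk (Whittaker.map_dia (σ : F →+* F) _)
  rw [Twisted.norm_eq]
  show torus F b * (pglAut σ (torus F b) * pglAut σ (pglAut σ (torus F b))) = _
  rw [e, e, ← map_mul, ← map_mul]
  congr 1
  refine Units.ext ?_
  simpa [mul_assoc] using H.norm.symm

include H in
theorem ne_one' : ((Units.map ι.toMonoidHom a : Fˣ) : F) ≠ 1 := fun e1 =>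
  H.ne_one (ι.injective (by rw [map_one]; exact e1))

theorem term_eq (x : Y U) : term σ hU k hL (Twisted.mk (pglAut σ) (torus F b)) x =
    k.toFun x.1 (fun w => glEmb F w (dia b) • galInf σ x.1 w) *
      hL.kernel x.2 (glIncl F (dia b) • galFin σ U hU x.2) := rfl

theorem supp_of_term {x : Y U}
    (hx : term σ hU k hL (Twisted.mk (pglAut σ) (torus F b)) x ≠ 0) :
    k.toFun x.1 (fun w => glEmb F w (dia b) • galInf σ x.1 w) ≠ 0 ∧
      hL.kernel x.2 (glIncl F (dia b) • galFin σ U hU x.2) ≠ 0 :=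
  mul_ne_zero_iff.mp (term_eq x ▸ hx)

omit [NumberField K] in
include h in
theorem term_dia_smul (t : Kˣ) (x : Y U) :
    term σ hU k hL (Twisted.mk (pglAut σ) (torus F b)) (dia (Units.map ι.toMonoidHom t) • x) =
      term σ hU k hL (Twisted.mk (pglAut σ) (torus F b)) x := by
  have := term_smul σ hU k hL (torus F (Units.map ι.toMonoidHom t))
    (Twisted.mk (pglAut σ) (torus F b)) x
  rw [torus_smul_delta h] at this
  exact this

theorem kernel_weyl (c : GLFin F ⧸ U.toSubgroup) :
    hL.kernel (glIncl F (weyl F) • c)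
        (glIncl F (dia b) • galFin σ U hU (glIncl F (weyl F) • c)) =
      hL.kernel c (glIncl F (dia b⁻¹) • galFin σ U hU c) := by
  have e1 : glIncl F (dia b) • glIncl F (weyl F) • galFin σ U hU c =
      glIncl F (weyl F) • glIncl F (dia b⁻¹) • galFin σ U hU c := by
    rw [glIncl_weyl_dia_smul, inv_inv]
  rw [galFin_smul, map_weyl, e1, hL.kernel_smul]

include H in
theorem finite_line_fibre (c₀ : GLFin F ⧸ U.toSubgroup) :
    {c | lineClass e c = lineClass e c₀ ∧
      hL.kernel c (glIncl F (dia b) • galFin σ U hU c) ≠ 0}.Finite := by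
  refine ((finite_line_support hM a H.ne_one (pif c₀)).biUnion fun d _ => H.fibre d).subset ?_
  rintro c ⟨hc, hne⟩
  obtain ⟨x, hx, rfl⟩ := exists_of_lineClass hc
  obtain ⟨u, hu⟩ := H.line x hx c₀
  exact Set.mem_biUnion
    ⟨by rw [hu, lineClass_smul 1 (one_mul u)], H.supp _ hne⟩ ⟨rfl, hne⟩

include H in
theorem finite_line_fibre' (c₀ : GLFin F ⧸ U.toSubgroup) :
    {c | lineClass e (glIncl F (weyl F) • c) = lineClass e (glIncl F (weyl F) • c₀) ∧
      hL.kernel c (glIncl F (dia b) • galFin σ U hU c) ≠ 0}.Finite := by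
  have ha' : ((a⁻¹ : Kˣ) : K) ≠ 1 := by simpa using H.ne_one
  refine ((finite_line_support hM a⁻¹ ha' (glIncl K (weyl K) • pif c₀)).biUnion fun d _ =>
    H.fibre (glIncl K (weyl K) • d)).subset ?_
  rintro c ⟨hc, hne⟩
  obtain ⟨x, hx, hxc⟩ := exists_of_lineClass hc
  obtain ⟨u, hu⟩ := H.line' x hx (glIncl F (weyl F) • c₀)
  rw [← hxc, glIncl_weyl_smul_smul, glIncl_weyl_smul_smul] at hu
  refine Set.mem_biUnion (x := glIncl K (weyl K) • pif c)
    ⟨by rw [hu, lineClass_smul 1 (one_mul u)], by rw [kernel_weyl_smul]; exact H.supp _ hne⟩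
    ⟨(glIncl_weyl_smul_smul _).symm, hne⟩

include H h in
theorem hasSum_fibre (D : MulAction.orbitRel.Quotient (lineGroup e) (GLFin F ⧸ U.toSubgroup)) :
    HasSum (fun c : {c // lineClass e c = D} =>
      hL.kernel c.1 (glIncl F (dia b) • galFin σ U hU c.1)) 0 := by
  refine term_fibre_zero σ h.pow hU hL H.cusp H.fixed b ?_ D (summable_of_hasFiniteSupport ?_)
  · rw [← H.norm]
    exact fun e1 => H.ne_one (ι.injective (by rw [map_one]; exact e1))
  · obtain ⟨c₀, rfl⟩ := Quotient.exists_rep D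
    exact ((H.finite_line_fibre c₀).preimage Subtype.val_injective.injOn).subset
      fun c hc => ⟨c.2, hc⟩

include H h in
theorem hasSum_fibre' (D : MulAction.orbitRel.Quotient (lineGroup e) (GLFin F ⧸ U.toSubgroup)) :
    HasSum (fun c : {c // lineClass e (glIncl F (weyl F) • c) = D} =>
      hL.kernel c.1 (glIncl F (dia b) • galFin σ U hU c.1)) 0 := by
  let ev : {c : GLFin F ⧸ U.toSubgroup // lineClass e c = D} ≃
      {c : GLFin F ⧸ U.toSubgroup // lineClass e (glIncl F (weyl F) • c) = D} :=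
    { toFun := fun c => ⟨glIncl F (weyl F) • c.1, by rw [glIncl_weyl_smul_smul]; exact c.2⟩
      invFun := fun c => ⟨glIncl F (weyl F) • c.1, c.2⟩
      left_inv := fun c => Subtype.ext (glIncl_weyl_smul_smul _)
      right_inv := fun c => Subtype.ext (glIncl_weyl_smul_smul _) }
  rw [← ev.hasSum_iff]
  have e1 : ((fun c : {c // lineClass e (glIncl F (weyl F) • c) = D} =>
      hL.kernel c.1 (glIncl F (dia b) • galFin σ U hU c.1)) ∘ ev) =
      fun c => hL.kernel c.1 (glIncl F (dia b⁻¹) • galFin σ U hU c.1) :=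
    funext fun c => kernel_weyl c.1
  rw [e1]
  refine term_fibre_zero σ h.pow hU hL H.cusp H.fixed b⁻¹ ?_ D (summable_of_hasFiniteSupport ?_)
  · intro e1
    apply H.ne_one
    apply ι.injective
    rw [map_one, H.norm]
    simp only [Units.val_inv_eq_inv_val, map_inv₀, ← _root_.mul_inv, inv_eq_one] at e1
    exact e1
  · obtain ⟨c₀, hc₀⟩ := Quotient.exists_rep D
    refine (((H.finite_line_fibre' (glIncl F (weyl F) • c₀)).preimage
      ((MulAction.injective (glIncl F (weyl F))).comp Subtype.val_injective).injOn)).subset fun c hc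
        => ?_
    refine ⟨?_, ?_⟩
    · show lineClass e (glIncl F (weyl F) • glIncl F (weyl F) • c.1) =
        lineClass e (glIncl F (weyl F) • glIncl F (weyl F) • c₀)
      rw [glIncl_weyl_smul_smul, glIncl_weyl_smul_smul]
      exact c.2.trans hc₀.symm
    · show hL.kernel (glIncl F (weyl F) • c.1)
        (glIncl F (dia b) • galFin σ U hU (glIncl F (weyl F) • c.1)) ≠ 0
      rw [kernel_weyl]
      exact hc

variable [NumberField.IsTotallyComplex F] [NumberField.IsTotallyComplex K]
  [Unique (InfinitePlace K)] (hemb : ∀ v : InfinitePlace K, v.embedding = φ₀.comp ι)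


include H h hemb in
/-- High up the two cutoffs are bands whose differences have disjoint supports. -/
theorem exists_bands (R : Finset (GLFin F)) (R' : Finset (GLFin K)) :
    ∃ T₁ : ℝ, ∀ T, T₁ < T → ∀ x : Y U,
      term σ hU k hL (Twisted.mk (pglAut σ) (torus F b)) x ≠ 0 →
      (cutoff U R T x : ℝ) - cutoff V R' T (projY K φ₀ pif x) =
          (band R' T (projY K φ₀ pif x) - band R T x) +
            (bandW R' T (projY K φ₀ pif x) - bandW R T x) ∧
        (band R' T (projY K φ₀ pif x) - band R T x) *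
            (bandW R' T (projY K φ₀ pif x) - bandW R T x) = 0 := by
  classical
  obtain ⟨CF, hCF⟩ := exists_cutoff_eq_bands (U := U) R
  obtain ⟨CK, hCK⟩ := exists_cutoff_eq_bands (U := V) R'
  obtain ⟨TF, hTF⟩ := exists_fixed_of_high U σ hU k hL h.pow R
  obtain ⟨TK, hTK⟩ :=
    exists_twistedUpper_of_high V (RingEquiv.refl K) (refl_stable V) kM hM R'
  obtain ⟨C, hC1, hC⟩ := exists_height_compare (U := U) h hemb k b
  obtain ⟨D, hD⟩ := exists_finite_orbits hM a H.ne_one
  set C₀ := (D.finite_toSet.biUnion fun d _ => H.fibre d).toFinset with hC₀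
  obtain ⟨K1, hK1, hb1⟩ := exists_band_height R C₀
  obtain ⟨K2, hK2, hb2⟩ := exists_band_height R' (D.image fun d => glIncl K (weyl K) • d)
  obtain ⟨K3, hK3, hb3⟩ := exists_band_height R (C₀.image fun c => glIncl F (weyl F) • c)
  obtain ⟨K4, hK4, hb4⟩ := exists_band_height R' D
  refine ⟨max (max CF CK) (max (max TF TK) (max 1 (max (K1 * C * K2 ^ 3) (K3 * C * K4 ^ 3)))),
    fun T hT x hx => ?_⟩
  simp only [max_lt_iff] at hT
  obtain ⟨⟨hTCF, hTCK⟩, ⟨hTTF, hTTK⟩, hT1, hTA, hTB⟩ := hT
  obtain ⟨hk, hh⟩ := supp_of_term hx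
  obtain ⟨eF, dF⟩ := hCF T hTCF x (Units.map ι.toMonoidHom a) H.ne_one' fun γ hγ hlt => by
    obtain ⟨N, hN, hu⟩ := hTF _ x γ hx hγ (hTTF.trans hlt)
    rw [H.norm_delta, torus_apply] at hN
    exact upper_conj_of_mk_eq hN.symm hu
  obtain ⟨eK, dK⟩ := hCK T hTCK (projY K φ₀ pif x) a H.ne_one fun γ hγ hlt => by
    have hne : term (RingEquiv.refl K) (refl_stable V) kM hM (Twisted.mk _ (torus K a))
        (projY K φ₀ pif x) ≠ 0 := by
      rw [term_refl, torus_apply, pgl_mk_smul]
      exact mul_ne_zero (H.arch _ hk) (H.supp _ hh)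
    obtain ⟨dm, hdm, hu⟩ := hTK _ (projY K φ₀ pif x) γ hne hγ (hTTK.trans hlt)
    rw [show CubicDescent.glMap (RingEquiv.refl K) γ = γ from Units.ext (by ext i j; rfl)] at hu
    exact upper_conj_of_mk_eq hdm.symm hu
  obtain ⟨s, hs⟩ := hD _ (H.supp _ hh)
  set y := dia (Units.map ι.toMonoidHom s) • x with hy
  have hπ : projY K φ₀ pif y = dia s • projY K φ₀ pif x :=
    projY_dia_smul hemb pif s x (H.torusEquiv s x.2 hh)
  have hyk : k.toFun y.1 (fun w => glEmb F w (dia b) • galInf σ y.1 w) ≠ 0 ∧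
      hL.kernel y.2 (glIncl F (dia b) • galFin σ U hU y.2) ≠ 0 :=
    supp_of_term (by rwa [hy, term_dia_smul h])
  have hπ2 : pif y.2 = glIncl K (dia s) • pif x.2 :=
    (congrArg Prod.snd hπ).trans (smul_snd V _ _)
  have hyC : y.2 ∈ C₀ := by
    rw [hC₀, Set.Finite.mem_toFinset]
    exact Set.mem_biUnion (x := pif y.2) (Finset.mem_coe.mpr (hπ2 ▸ hs)) ⟨rfl, hyk.2⟩
  have hyD : (projY K φ₀ pif y).2 ∈ D := show pif y.2 ∈ D by rw [hπ2]; exact hs
  obtain ⟨hc1, hc2⟩ := hC y hyk.1
  set t0 := H3.tc (y.1 (InfinitePlace.mk φ₀)) with ht0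
  have ht0p : 0 < t0 := H3.tc_pos _
  have hhK : Reduction.height (projY K φ₀ pif y) = t0 := height_archProj y.1 (pif y.2)
  have hA : ¬ (IsHighTop R T x ∧ IsHighTop R' T (weyl K • projY K φ₀ pif x)) := by
    rintro ⟨h1, h2⟩
    rw [← isHighTop_smul_iff (isUpper_dia (Units.map ι.toMonoidHom s)) x] at h1
    rw [← isHighTop_smul_iff (isUpper_dia s⁻¹) (weyl K • projY K φ₀ pif x), ← weyl_dia_smul,
      ← hπ] at h2
    have u1 := hb1 T y hyC h1
    have u2 := hb2 T _ (Finset.mem_image.mpr ⟨_, hyD, (smul_snd V _ _).symm⟩) h2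
    have u3 := height_weyl_mul_le (projY K φ₀ pif y)
    rw [hhK] at u3
    have v1 : T * t0 ≤ K2 := by nlinarith
    have v2 : t0 ≤ K2 := by nlinarith
    have v3 : t0 ^ 3 ≤ K2 ^ 3 := pow_le_pow_left₀ ht0p.le v2 3
    nlinarith [mul_le_mul_of_nonneg_left v3 (by positivity : (0 : ℝ) ≤ K1 * C)]
  have hB : ¬ (IsHighTop R' T (projY K φ₀ pif x) ∧ IsHighTop R T (weyl F • x)) := by
    rintro ⟨h1, h2⟩
    rw [← isHighTop_smul_iff (isUpper_dia s) (projY K φ₀ pif x), ← hπ] at h1
    rw [← isHighTop_smul_iff (isUpper_dia (Units.map ι.toMonoidHom s)⁻¹) (weyl F • x),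
      ← weyl_dia_smul] at h2
    have u1 := hb4 T _ hyD h1
    rw [hhK] at u1
    have u2 := hb3 T _ (Finset.mem_image.mpr ⟨_, hyC, (smul_snd U _ _).symm⟩) h2
    have u3 := height_weyl_mul_le y
    have hp := Reduction.height_pos y
    have v1 : T * Reduction.height y ≤ K3 := by nlinarith
    have v2 : 1 ≤ K4 * t0 := by nlinarith
    have v3 : 1 ≤ (K4 * t0) ^ 3 := one_le_pow₀ v2
    have v4 : T * t0 ^ 3 ≤ C * K3 := by nlinarith
    nlinarith [mul_le_mul_of_nonneg_left v4 (by positivity : (0 : ℝ) ≤ K4 ^ 3)]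
  refine ⟨by rw [eF, eK]; ring, ?_⟩
  have z1 : band R T x * bandW R' T (projY K φ₀ pif x) = 0 := by
    unfold bandW band
    split_ifs with q1 q2 <;> simp
    exact hA ⟨q1, q2⟩
  have z2 : band R' T (projY K φ₀ pif x) * bandW R T x = 0 := by
    unfold bandW band
    split_ifs with q1 q2 <;> simp
    exact hB ⟨q1, q2⟩
  linear_combination dK + dF - z1 - z2

omit [NumberField.IsTotallyComplex K] [NumberField.IsTotallyComplex F]
  [Unique (InfinitePlace K)] in
include H h hemb in
/-- A band constant along lines, computed against a weight constant along them, gives zero. -/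
theorem band_part_eq_zero {Q : Type*} {p : GLFin F ⧸ U.toSubgroup → Q}
    (hp : ∀ D, HasSum (fun c : {c // p c = D} =>
      hL.kernel c.1 (glIncl F (dia b) • galFin σ U hU c.1)) 0)
    {u : GLFin K ⧸ V.toSubgroup → ℝ≥0}
    (hu : ∀ d, HasSum (fun t : Kˣ => u (glIncl K (dia t) • d)) 1)
    (hup : ∀ c c', p c = p c' → u (pif c) = u (pif c'))
    {β : Y U → ℝ} (hβm : Measurable β)
    (hβt : ∀ (t : Kˣ) (x : Y U), hL.kernel x.2 (glIncl F (dia b) • galFin σ U hU x.2) ≠ 0 →
      β (dia (Units.map ι.toMonoidHom t) • x) = β x)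
    (hβp : ∀ P c c', p c = p c' → β ((P, c) : Y U) = β ((P, c') : Y U))
    {w : Y V → ℝ≥0} (hw : IsPartition (torus K).range Set.univ w)
    (hint : Integrable (fun x => ((w (projY K φ₀ pif x) : ℝ) * β x) •
      term σ hU k hL (Twisted.mk (pglAut σ) (torus F b)) x) (yVol U)) :
    ∫ x, ((w (projY K φ₀ pif x) : ℝ) * β x) •
      term σ hU k hL (Twisted.mk (pglAut σ) (torus F b)) x ∂yVol U = 0 := by
  have : Countable (GLFin F ⧸ U.toSubgroup) := Reduction.countable_cosets U
  have : Countable (PGLIndex F) := Reduction.countable_pglIndex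
  set τ : Kˣ →* PGLIndex F := (torus F).comp (Units.map ι.toMonoidHom) with hτ
  have hτi : Function.Injective τ :=
    (torus_injective (F := F)).comp (Units.map_injective ι.injective)
  have : MeasurableConstSMul τ.range (Y U) :=
    ⟨fun c => (measurePreserving_pglSmul U c.1).measurable⟩
  have : SMulInvariantMeasure τ.range ((InfinitePlace F → H3) × (GLFin F ⧸ U.toSubgroup))
      ((infVol F).prod Measure.count) :=
    ⟨fun c _ hs => (measurePreserving_pglSmul U c.1).measure_preimage hs.nullMeasurableSet⟩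
  let eZ : τ.range ≃* (torus K).range :=
    (MonoidHom.ofInjective hτi).symm.trans (MonoidHom.ofInjective (torus_injective (F := K)))
  set s : Set (Y U) := {x | hL.kernel x.2 (glIncl F (dia b) • galFin σ U hU x.2) ≠ 0}
  have hπm : Measurable (projY K φ₀ pif) :=
    ((measurable_archProj (K := K) (φ₀ := φ₀)).comp measurable_fst).prodMk
      ((measurable_from_top (f := pif)).comp measurable_snd)
  have hequiv : ∀ (g : τ.range), ∀ x ∈ s, projY K φ₀ pif (g • x) = eZ g • projY K φ₀ pif x := by
    intro g x hx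
    obtain ⟨t, rfl⟩ := (MonoidHom.ofInjective hτi).surjective g
    have he : eZ (MonoidHom.ofInjective hτi t) =
        MonoidHom.ofInjective (torus_injective (F := K)) t := by
      simp [eZ]
    rw [he]
    exact projY_dia_smul hemb pif t x (H.torusEquiv t x.2 hx)
  have hFs : ∀ x, x ∉ s → term σ hU k hL (Twisted.mk (pglAut σ) (torus F b)) x = 0 := fun x hx => by
    rw [term_eq, not_not.mp hx, mul_zero]
  refine band_eq_zero (μ := infVol F) (Z := τ.range) (s := s)
    (hw.comp hπm eZ hequiv) ((isPartition_of_hasSum hu).comp hπm eZ hequiv)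
    (measurable_term σ hU k hL _) hβm ?_ ?_ hFs (p := p) ?_ ?_ hβp hint
  · rintro ⟨_, t, rfl⟩ x
    exact term_dia_smul h t x
  · rintro ⟨_, t, rfl⟩ x hx
    exact hβt t x hx
  · intro P D
    have := (hp D).mul_left (k.toFun P fun w => glEmb F w (dia b) • galInf σ P w)
    rw [mul_zero] at this
    exact this
  · intro P c c' hc
    exact hup c c' hc

include H h hemb in
/-- **The band integral of a split regular class vanishes high in the cusps.** -/
theorem eventually_band_eq_zero (R : Finset (GLFin F)) (R' : Finset (GLFin K)) {w : Y V → ℝ≥0}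
    (hw : IsPartition (torus K).range Set.univ w) :
    ∀ᶠ T : ℝ in atTop,
      Integrable (fun x => ((w (projY K φ₀ pif x) : ℝ) * ((cutoff U R T x : ℝ) -
          cutoff V R' T (projY K φ₀ pif x))) •
        term σ hU k hL (Twisted.mk (pglAut σ) (torus F b)) x) (yVol U) →
      ∫ x, ((w (projY K φ₀ pif x) : ℝ) * ((cutoff U R T x : ℝ) -
          cutoff V R' T (projY K φ₀ pif x))) •
        term σ hU k hL (Twisted.mk (pglAut σ) (torus F b)) x ∂yVol U = 0 := by
  obtain ⟨T₁, hT₁⟩ := H.exists_bands h hemb R R'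
  filter_upwards [eventually_gt_atTop T₁] with T hT hint
  set Fn : Y U → ℂ := term σ hU k hL (Twisted.mk (pglAut σ) (torus F b)) with hFn
  set W : Y U → ℝ := fun x => (w (projY K φ₀ pif x) : ℝ) with hW
  set b1 : Y U → ℝ := fun x => band R' T (projY K φ₀ pif x) - band R T x with hb1
  set b2 : Y U → ℝ := fun x => bandW R' T (projY K φ₀ pif x) - bandW R T x with hb2
  have hπm : Measurable (projY K φ₀ pif) :=
    ((measurable_archProj (K := K) (φ₀ := φ₀)).comp measurable_fst).prodMk
      ((measurable_from_top (f := pif)).comp measurable_snd)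
  have hb1m : Measurable b1 := ((measurable_band R' T).comp hπm).sub (measurable_band R T)
  have hb2m : Measurable b2 := ((measurable_bandW R' T).comp hπm).sub (measurable_bandW R T)
  have hFm : Measurable Fn := measurable_term σ hU k hL _
  have hWm : Measurable W := (hw.measurable.comp hπm).coe_nnreal_real
  have hsplit : ∀ x, (W x * ((cutoff U R T x : ℝ) - cutoff V R' T (projY K φ₀ pif x))) • Fn x =
      (W x * b1 x) • Fn x + (W x * b2 x) • Fn x ∧
      ((W x * b1 x) • Fn x = 0 ∨ (W x * b2 x) • Fn x = 0) := by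
    intro x
    by_cases hx : Fn x = 0
    · exact ⟨by simp only [hx, smul_zero, add_zero], Or.inl (by simp only [hx, smul_zero])⟩
    obtain ⟨e1, e2⟩ := hT₁ T hT x hx
    refine ⟨by rw [e1, ← add_smul, mul_add], ?_⟩
    rcases mul_eq_zero.mp e2 with q | q
    · exact Or.inl (by rw [show b1 x = 0 from q, mul_zero, zero_smul])
    · exact Or.inr (by rw [show b2 x = 0 from q, mul_zero, zero_smul])
  have hi : ∀ β : Y U → ℝ, Measurable β →
      (∀ x, ‖(W x * β x) • Fn x‖ ≤
        ‖(W x * ((cutoff U R T x : ℝ) - cutoff V R' T (projY K φ₀ pif x))) • Fn x‖) →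
      Integrable (fun x => (W x * β x) • Fn x) (yVol U) := fun β hβ hle =>
    hint.norm.mono' ((hWm.mul hβ).smul hFm).aestronglyMeasurable (Eventually.of_forall hle)
  have hi1 := hi b1 hb1m fun x => by
    rcases (hsplit x).2 with q | q
    · rw [q, norm_zero]; exact norm_nonneg _
    · rw [(hsplit x).1, q, add_zero]
  have hi2 := hi b2 hb2m fun x => by
    rcases (hsplit x).2 with q | q
    · rw [(hsplit x).1, q, zero_add]
    · rw [q, norm_zero]; exact norm_nonneg _
  rw [integral_congr_ae (Eventually.of_forall fun x => (hsplit x).1), integral_add hi1 hi2]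
  have z1 : ∫ x, (W x * b1 x) • Fn x ∂yVol U = 0 := by
    refine H.band_part_eq_zero h hemb (H.hasSum_fibre h) hasSum_torusWeight ?_ hb1m ?_ ?_ hw hi1
    · intro c c' hc
      obtain ⟨x, hx, rfl⟩ := exists_of_lineClass hc
      obtain ⟨u, hu⟩ := H.line x hx c'
      exact torusWeight_congr (by rw [hu, lineClass_smul 1 (one_mul u)])
    · intro t x hx
      simp only [hb1, projY_dia_smul hemb pif t x (H.torusEquiv t x.2 hx), band_dia_smul]
    · intro P c c' hc
      obtain ⟨x, hx, rfl⟩ := exists_of_lineClass hc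
      obtain ⟨u, hu⟩ := H.line x hx c'
      simp only [hb1, projY]
      rw [band_congr R' T _ hu, band_congr R T P (c := unip x • c') rfl]
  have z2 : ∫ x, (W x * b2 x) • Fn x ∂yVol U = 0 := by
    refine H.band_part_eq_zero h hemb (H.hasSum_fibre' h)
      (u := fun d => torusWeight (glIncl K (weyl K) • d))
      (fun d => hasSum_weight_weyl hasSum_torusWeight d) ?_ hb2m ?_ ?_ hw hi2
    · intro c c' hc
      obtain ⟨x, hx, hxc⟩ := exists_of_lineClass hc
      obtain ⟨u, hu⟩ := H.line' x hx (glIncl F (weyl F) • c')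
      rw [← hxc, glIncl_weyl_smul_smul, glIncl_weyl_smul_smul] at hu
      exact torusWeight_congr (by rw [hu, lineClass_smul 1 (one_mul u)])
    · intro t x hx
      simp only [hb2, projY_dia_smul hemb pif t x (H.torusEquiv t x.2 hx), bandW_dia_smul]
    · intro P c c' hc
      obtain ⟨x, hx, hxc⟩ := exists_of_lineClass hc
      obtain ⟨u, hu⟩ := H.line' x hx (glIncl F (weyl F) • c')
      rw [← hxc, glIncl_weyl_smul_smul, glIncl_weyl_smul_smul] at hu
      simp only [hb2, projY]
      rw [bandW_congr R' T _ hu, bandW_congr R T P hxc]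
  rw [z1, z2, add_zero]

end DiagBandHyp

end Fermat.Agent.LT.Geometric
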