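import Fermat.Agent.LT.Kernel.LineSum

/-!
# Sums along a line against a periodic function of total zero

If `Φ` on finite adeles is periodic, has bounded denominators and a vanishing finite average of
translates, then `∑_β f(β) Φ(β)` is `O(t ^ (n - 1))` for a bump `f` of width `t` with Lipschitz
constant `1 / t`, where `n` is the degree.
-/

set_option autoImplicit false

noncomputable section

open scoped NumberField
open NumberField (InfinitePlace)

namespace Fermat.Agent.LT.Geometric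

variable {F : Type*} [Field F] [NumberField F]

/-- A periodic function with bounded denominators and a vanishing average. -/
structure IsBalancedFn (Φ : FinAdele F → ℂ) : Prop where
  period : ∃ N : ℕ, 0 < N ∧ ∀ u z : FinAdele F, z ∈ integralAdele F →
    Φ (u + (N : FinAdele F) * z) = Φ u
  den : ∃ L : ℕ, 0 < L ∧ ∀ u : FinAdele F, Φ u ≠ 0 → (L : FinAdele F) * u ∈ integralAdele F
  average : ∃ (n : ℕ) (s : Fin (n + 1) → FinAdele F), ∀ u, ∑ i, Φ (u + s i) = 0

/-- The values on `F` live on finitely many classes and have total zero. -/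
theorem IsBalancedFn.exists_classes {Φ : FinAdele F → ℂ} (hΦ : IsBalancedFn Φ) :
    ∃ (L N m : ℕ) (j : Fin m → 𝓞 F) (v : Fin m → ℂ), 0 < L ∧ 0 < N ∧ ∑ q, v q = 0 ∧
      Function.Bijective (fun p : Fin m × 𝓞 F => j p.1 + ((L * N : ℕ) : 𝓞 F) * p.2) ∧
      (∀ q d, Φ (finIncl F (((j q + ((L * N : ℕ) : 𝓞 F) * d : 𝓞 F) : F) / (L : F))) = v q) ∧
      ∀ β : F, Φ (finIncl F β) ≠ 0 → ∃ o : 𝓞 F, β = (o : F) / (L : F) := by
  classical
  obtain ⟨N, hN, hper⟩ := hΦ.period
  obtain ⟨L₁, hL₁, hsupp⟩ := hΦ.den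
  obtain ⟨k, sh, hsum⟩ := hΦ.average
  obtain ⟨L₂, hL₂, hSden⟩ := Reduction.exists_denominator sh
  set L := L₁ * L₂ with hL
  have hL0 : 0 < L := Nat.mul_pos hL₁ hL₂
  have hLF : (L : F) ≠ 0 := Nat.cast_ne_zero.mpr hL0.ne'
  set I : Ideal (𝓞 F) := Ideal.span {((L * N : ℕ) : 𝓞 F)} with hI
  have hK : ((L * N : ℕ) : 𝓞 F) ≠ 0 := Nat.cast_ne_zero.mpr (Nat.mul_pos hL0 hN).ne'
  have hfin : Finite (𝓞 F ⧸ I) :=
    Ring.HasFiniteQuotients.finiteQuotient fun hb => hK (Ideal.span_singleton_eq_bot.mp hb)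
  have := Fintype.ofFinite (𝓞 F ⧸ I)
  let en := (Fintype.equivFin (𝓞 F ⧸ I)).symm
  set rep : 𝓞 F ⧸ I → 𝓞 F := Function.surjInv Ideal.Quotient.mk_surjective with hrepdef
  have hrep : ∀ q, Ideal.Quotient.mk I (rep q) = q :=
    Function.surjInv_eq Ideal.Quotient.mk_surjective
  set Ψ : 𝓞 F ⧸ I → ℂ := fun q => Φ (finIncl F ((rep q : F) / (L : F))) with hΨ
  have hcls : ∀ o : 𝓞 F, Φ (finIncl F ((o : F) / (L : F))) = Ψ (Ideal.Quotient.mk I o) := by
    intro o
    set o' : 𝓞 F := rep (Ideal.Quotient.mk I o) with ho'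
    have h1 : Ideal.Quotient.mk I o' = Ideal.Quotient.mk I o := hrep _
    obtain ⟨d, hd⟩ := Ideal.mem_span_singleton'.mp (Ideal.Quotient.eq.mp h1)
    have hd' : (o' : F) - (o : F) = (d : F) * ((L : F) * (N : F)) := by
      have := congrArg (algebraMap (𝓞 F) F) hd
      simpa using this.symm
    have h2 : finIncl F ((o' : F) / L) = finIncl F ((o : F) / L) +
        (N : FinAdele F) * finIncl F (d : F) := by
      rw [← map_natCast (finIncl F), ← map_mul, ← map_add]
      congr 1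
      field_simp
      linear_combination hd'
    rw [hΨ]
    simp only [← ho', h2, hper _ _ (Reduction.finIncl_mem_of_isIntegral d)]
  have hu : IsUnit (L : FinAdele F) := by
    rw [← map_natCast (finIncl F)]
    exact (isUnit_iff_ne_zero.mpr hLF).map _
  have e : ∀ x : F, (L : FinAdele F) * finIncl F (x / L) = finIncl F x := fun x => by
    rw [← map_natCast (finIncl F), ← map_mul, mul_div_cancel₀ _ hLF]
  have hs : ∀ i, ∃ o : 𝓞 F, ∀ q, Φ (finIncl F ((rep q : F) / L) + sh i) =
      Ψ (Ideal.Quotient.mk I o + q) := by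
    intro i
    have hLs : (L : FinAdele F) * sh i ∈ integralAdele F := by
      rw [hL, Nat.cast_mul, mul_assoc]
      exact mul_mem (natCast_mem _ _) (hSden i)
    obtain ⟨o, y, hy, hoy⟩ := Reduction.exists_integer_add (L * N) (Nat.mul_pos hL0 hN) hLs
    refine ⟨o, fun q => ?_⟩
    have h2 : finIncl F ((rep q : F) / L) + sh i =
        finIncl F (((o + rep q : 𝓞 F) : F) / L) + (N : FinAdele F) * y := by
      refine hu.mul_left_cancel ?_
      rw [mul_add, mul_add, e, e, hoy]
      push_cast [map_add]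
      ring
    rw [h2, hper _ _ hy, hcls, map_add]
    congr 2
    exact hrep q
  choose o ho using hs
  refine ⟨L, N, Fintype.card (𝓞 F ⧸ I), fun q => rep (en q), fun q => Ψ (en q), hL0, hN,
    ?_, ?_, ?_, ?_⟩
  · rw [en.sum_comp]
    have h1 : ∀ i, ∑ q, Ψ (Ideal.Quotient.mk I (o i) + q) = ∑ q, Ψ q := fun i =>
      Equiv.sum_comp (Equiv.addLeft (Ideal.Quotient.mk I (o i))) Ψ
    have h2 : ∑ i, ∑ q, Ψ (Ideal.Quotient.mk I (o i) + q) = 0 := by
      rw [Finset.sum_comm]
      refine Finset.sum_eq_zero fun q _ => ?_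
      simp only [← ho]
      exact hsum _
    simp only [h1, Finset.sum_const, Finset.card_univ, Fintype.card_fin, smul_eq_zero] at h2
    exact h2.resolve_left k.succ_ne_zero
  · have hb : Function.Bijective
        (fun p : (𝓞 F ⧸ I) × 𝓞 F => rep p.1 + ((L * N : ℕ) : 𝓞 F) * p.2) := by
      have hz : ∀ x : 𝓞 F, Ideal.Quotient.mk I (((L * N : ℕ) : 𝓞 F) * x) = 0 := fun x =>
        Ideal.Quotient.eq_zero_iff_mem.mpr (Ideal.mul_mem_right x I
          (Ideal.mem_span_singleton_self _))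
      constructor
      · rintro ⟨q, d⟩ ⟨q', d'⟩ hqq
        simp only at hqq
        have hq : q = q' := by
          have := congrArg (Ideal.Quotient.mk I) hqq
          rwa [map_add, map_add, hz, hz, hrep, hrep, add_zero, add_zero] at this
        subst hq
        rw [mul_left_cancel₀ hK (add_left_cancel hqq)]
      · intro x
        obtain ⟨d, hd⟩ := Ideal.mem_span_singleton'.mp
          (Ideal.Quotient.eq.mp (hrep (Ideal.Quotient.mk I x)).symm)
        exact ⟨(_, d), by simp only; rw [mul_comm, hd]; ring⟩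
    exact hb.comp (en.prodCongr (Equiv.refl (𝓞 F))).bijective
  · intro q d
    rw [hcls]
    congr 1
    rw [map_add, Ideal.Quotient.eq_zero_iff_mem.mpr (Ideal.mul_mem_right d I
      (Ideal.mem_span_singleton_self _)), add_zero]
    exact hrep _
  · intro β hβ
    have h1 : finIncl F ((L : F) * β) ∈ integralAdele F := by
      rw [map_mul, map_natCast, hL, Nat.cast_mul, mul_comm (L₁ : FinAdele F), mul_assoc]
      exact mul_mem (natCast_mem _ _) (hsupp _ hβ)
    obtain ⟨x, hx⟩ := Reduction.exists_integer_of_finIncl_mem h1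
    exact ⟨x, by rw [hx, mul_div_cancel_left₀ _ hLF]⟩

/-- **The line lemma for bumps.** -/
theorem IsBalancedFn.exists_bound {Φ : FinAdele F → ℂ} (hΦ : IsBalancedFn Φ) {c₀ A Lip : ℝ}
    (hc₀ : 0 < c₀) (hA : 0 ≤ A) (hLip : 0 ≤ Lip) :
    ∃ C : ℝ, 0 ≤ C ∧ ∀ (t : ℝ) (ζ : InfinitePlace F → ℂ) (f : F → ℂ), c₀ ≤ t →
      (∀ β, f β ≠ 0 → ∀ w, ‖w.embedding β - ζ w‖ ≤ A * t) →
      (∀ β β', ‖f β - f β'‖ ≤ Lip * (∑ w : InfinitePlace F, w (β - β')) / t) →
        ‖∑' β : F, f β * Φ (finIncl F β)‖ ≤ C * t ^ (Module.finrank ℚ F - 1) := by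
  classical
  obtain ⟨L, N, m, j, v, hL, hN, hv0, hbij, hval, hsup⟩ := hΦ.exists_classes
  obtain ⟨C₀, hC₀, hcount⟩ := Kernel.exists_count F
  have hLF : (L : F) ≠ 0 := Nat.cast_ne_zero.mpr hL.ne'
  set J := ∑ q, ∑ w : InfinitePlace F, w ((j q : F) / (L : F)) with hJdef
  have hJ0 : 0 ≤ J := Finset.sum_nonneg fun q _ => Finset.sum_nonneg fun w _ => apply_nonneg w _
  have hJ : ∀ q (w : InfinitePlace F), w ((j q : F) / (L : F)) ≤ J := fun q w =>
    (Finset.single_le_sum (f := fun u => u ((j q : F) / (L : F))) (fun u _ => apply_nonneg u _)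
      (Finset.mem_univ w)).trans
      (Finset.single_le_sum (f := fun p => ∑ u : InfinitePlace F, u ((j p : F) / (L : F)))
        (fun p _ => Finset.sum_nonneg fun u _ => apply_nonneg u _) (Finset.mem_univ q))
  set C₁ := ∑ q, ‖v q‖ * (Lip * J) with hC₁def
  have hC₁ : 0 ≤ C₁ := Finset.sum_nonneg fun q _ =>
    mul_nonneg (norm_nonneg _) (mul_nonneg hLip hJ0)
  set C₂ := (1 + 2 * J) / c₀ + 2 * A with hC₂def
  have hC₂ : 0 ≤ C₂ := by positivity
  obtain ⟨k, hk⟩ : ∃ k, Module.finrank ℚ F = k + 1 :=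
    ⟨Module.finrank ℚ F - 1, (Nat.succ_pred_eq_of_pos Module.finrank_pos).symm⟩
  refine ⟨C₀ * C₂ ^ (k + 1) * C₁, by positivity, fun t ζ f ht hnear hlip => ?_⟩
  have ht0 : 0 < t := hc₀.trans_le ht
  have hbase : ∀ q (d : 𝓞 F), ((j q + ((L * N : ℕ) : 𝓞 F) * d : 𝓞 F) : F) / (L : F) =
      (j q : F) / L + (N : F) * (d : F) := fun q d => by
    push_cast
    field_simp
  set D := (Kernel.finite_integers_near F ζ (fun _ => A * t + J) hN).toFinset with hD
  have hmem : ∀ q (d : 𝓞 F), f ((j q : F) / L + (N : F) * (d : F)) ≠ 0 → d ∈ D := fun q d hne => by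
    refine (Set.Finite.mem_toFinset _).mpr fun w => ?_
    have h1 := hnear _ hne w
    have h2 := hJ q w
    rw [← InfinitePlace.norm_embedding_eq] at h2
    rw [map_add] at h1
    calc ‖w.embedding ((N : F) * (d : F)) - ζ w‖
        = ‖(w.embedding ((j q : F) / L) + w.embedding ((N : F) * (d : F)) - ζ w) -
            w.embedding ((j q : F) / L)‖ := by congr 1; ring
      _ ≤ _ := (norm_sub_le _ _).trans (add_le_add h1 h2)
  let g : Fin m × 𝓞 F → F := fun p => (j p.1 : F) / L + (N : F) * (p.2 : F)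
  have hginj : Function.Injective g := fun p p' hp => by
    apply hbij.1
    apply NumberField.RingOfIntegers.coe_injective
    simp only [g, ← hbase] at hp
    exact (div_left_inj' hLF).mp hp
  have hgval : ∀ p : Fin m × 𝓞 F, Φ (finIncl F (g p)) = v p.1 := fun p => by
    rw [← hval p.1 p.2, hbase]
  have hrange : (Function.support fun β => f β * Φ (finIncl F β)) ⊆ Set.range g := by
    intro β hβ
    obtain ⟨o, rfl⟩ := hsup β (right_ne_zero_of_mul hβ)
    obtain ⟨p, rfl⟩ := hbij.2 o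
    exact ⟨p, (hbase p.1 p.2).symm⟩
  rw [← hginj.tsum_eq hrange,
    tsum_eq_sum (s := (Finset.univ : Finset (Fin m)) ×ˢ D) fun p hp => by
      by_contra hne
      exact hp (Finset.mem_product.mpr ⟨Finset.mem_univ _, hmem p.1 p.2 (left_ne_zero_of_mul hne)⟩),
    Finset.sum_product_right]
  simp only [hgval]
  simp only [g]
  have hterm : ∀ d : 𝓞 F, ‖∑ q, f ((j q : F) / L + (N : F) * (d : F)) * v q‖ ≤ C₁ / t := by
    intro d
    have h1 : ∑ q, f ((j q : F) / L + (N : F) * (d : F)) * v q =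
        ∑ q, (f ((j q : F) / L + (N : F) * (d : F)) - f ((N : F) * (d : F))) * v q := by
      simp only [sub_mul, Finset.sum_sub_distrib, ← Finset.mul_sum, hv0, mul_zero, sub_zero]
    rw [h1, hC₁def, Finset.sum_div]
    refine (norm_sum_le _ _).trans (Finset.sum_le_sum fun q _ => ?_)
    rw [norm_mul, mul_comm, mul_div_assoc]
    refine mul_le_mul_of_nonneg_left ((hlip _ _).trans ?_) (norm_nonneg _)
    rw [add_sub_cancel_right]
    refine div_le_div_of_nonneg_right (mul_le_mul_of_nonneg_left ?_ hLip) ht0.le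
    exact Finset.single_le_sum (f := fun p => ∑ u : InfinitePlace F, u ((j p : F) / (L : F)))
      (fun p _ => Finset.sum_nonneg fun u _ => apply_nonneg u _) (Finset.mem_univ q)
  have hdiam : ∀ x ∈ D, ∀ y ∈ D, ∀ w : InfinitePlace F, w ((x : F) - y) ≤ 2 * (A * t + J) := by
    intro x hx y hy w
    have hx' := (Set.Finite.mem_toFinset _).mp hx w
    have hy' := (Set.Finite.mem_toFinset _).mp hy w
    have h1 : ‖w.embedding ((N : F) * (x : F)) - w.embedding ((N : F) * (y : F))‖ ≤
        2 * (A * t + J) := by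
      have h2 := norm_sub_le_norm_sub_add_norm_sub (w.embedding ((N : F) * (x : F)))
        (ζ w) (w.embedding ((N : F) * (y : F)))
      rw [norm_sub_rev (ζ w)] at h2
      linarith
    rw [← map_sub, ← mul_sub, map_mul, norm_mul, map_natCast, Complex.norm_natCast,
      InfinitePlace.norm_embedding_eq] at h1
    exact le_trans (le_mul_of_one_le_left (apply_nonneg w _) (by exact_mod_cast hN)) h1
  have hcard : (D.card : ℝ) ≤ C₀ * (C₂ ^ (k + 1) * t ^ (k + 1)) := by
    refine (hcount _ (by positivity) D hdiam).trans (mul_le_mul_of_nonneg_left ?_ hC₀)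
    rw [hk, ← mul_pow]
    refine pow_le_pow_left₀ (by positivity) ?_ _
    have h3 : 1 + 2 * J ≤ (1 + 2 * J) / c₀ * t := by
      rw [div_mul_eq_mul_div, le_div_iff₀ hc₀]
      exact mul_le_mul_of_nonneg_left ht (by positivity)
    rw [hC₂def]
    nlinarith
  calc ‖∑ d ∈ D, ∑ q, f ((j q : F) / L + (N : F) * (d : F)) * v q‖
      ≤ ∑ _d ∈ D, C₁ / t := (norm_sum_le _ _).trans (Finset.sum_le_sum fun d _ => hterm d)
    _ = D.card * (C₁ / t) := by rw [Finset.sum_const, nsmul_eq_mul]
    _ ≤ C₀ * (C₂ ^ (k + 1) * t ^ (k + 1)) * (C₁ / t) :=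
        mul_le_mul_of_nonneg_right hcard (div_nonneg hC₁ ht0.le)
    _ = C₀ * C₂ ^ (k + 1) * C₁ * t ^ k := by
        rw [pow_succ t k, mul_div_assoc', div_eq_iff ht0.ne']
        ring
    _ = _ := by rw [hk, Nat.add_sub_cancel]

end Fermat.Agent.LT.Geometric

end
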