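import Fermat.Agent.LT.Geometric.Unfold
import Mathlib.MeasureTheory.Integral.Prod
import Mathlib.MeasureTheory.Integral.Bochner.SumMeasure
import Mathlib.Analysis.Complex.Basic

/-!
# Matched integrands

`Match μ μ' π F F'` says that integrals of `F` against functions pulled back along `π` are
integrals of `F'`. It is stable under products with discrete factors with matching fibre sums,
under countable sums and under measure-preserving changes of variables.
-/

set_option autoImplicit false

noncomputable section

open MeasureTheory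
open scoped ENNReal NNReal

namespace Fermat.Agent.LT.Geometric

variable {X X' : Type*} [MeasurableSpace X] [MeasurableSpace X']

/-- Integrals against pullbacks along `π` agree. -/
def Match (μ : Measure X) (μ' : Measure X') (π : X → X') (F : X → ℂ) (F' : X' → ℂ) : Prop :=
  ∀ Φ : X' → ℂ, Measurable Φ → Integrable (fun x => F x * Φ (π x)) μ →
    Integrable (fun y => F' y * Φ y) μ' →
      ∫ x, F x * Φ (π x) ∂μ = ∫ y, F' y * Φ y ∂μ'

variable {μ : Measure X} {μ' : Measure X'}

/-- Matching is linear over countable families that converge absolutely against the test. -/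
theorem Match.integral_tsum_eq {D : Type*} [Countable D] {π : X → X'} {F : D → X → ℂ}
    {F' : D → X' → ℂ} (h : ∀ d, Match μ μ' π (F d) (F' d)) (hπ : Measurable π)
    (hF : ∀ d, Measurable (F d)) (hF' : ∀ d, Measurable (F' d)) {Φ : X' → ℂ} (hΦ : Measurable Φ)
    (hfin : ∑' d, ∫⁻ x, ‖F d x * Φ (π x)‖ₑ ∂μ ≠ ∞)
    (hfin' : ∑' d, ∫⁻ y, ‖F' d y * Φ y‖ₑ ∂μ' ≠ ∞) :
    ∫ x, (∑' d, F d x) * Φ (π x) ∂μ = ∫ y, (∑' d, F' d y) * Φ y ∂μ' := by
  simp only [← tsum_mul_right]
  rw [integral_tsum (f := fun d x => F d x * Φ (π x))
      (fun d => ((hF d).mul (hΦ.comp hπ)).aestronglyMeasurable) hfin,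
    integral_tsum (f := fun d y => F' d y * Φ y)
      (fun d => ((hF' d).mul hΦ).aestronglyMeasurable) hfin']
  refine tsum_congr fun d => h d Φ hΦ ⟨((hF d).mul (hΦ.comp hπ)).aestronglyMeasurable, ?_⟩
    ⟨((hF' d).mul hΦ).aestronglyMeasurable, ?_⟩
  · exact (lt_of_le_of_lt (ENNReal.le_tsum d) hfin.lt_top)
  · exact (lt_of_le_of_lt (ENNReal.le_tsum d) hfin'.lt_top)

section Prod

variable {C C' : Type*} [MeasurableSpace C] [MeasurableSingletonClass C] [Countable C]
  [MeasurableSpace C'] [MeasurableSingletonClass C'] [Countable C'] [SFinite μ] [SFinite μ']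

omit [MeasurableSingletonClass C'] [Countable C'] [SFinite μ'] [MeasurableSingletonClass C] in
theorem integrable_slice {E : Type*} [NormedAddCommGroup E] {f : X × C → E}
    (hf : Integrable f (μ.prod Measure.count)) (c : C) : Integrable (fun a => f (a, c)) μ := by
  have h := hf.prod_left_ae
  rw [ae_iff, Measure.count_eq_zero_iff, Set.eq_empty_iff_forall_notMem] at h
  simpa using h c

/-- Matching of a product with a discrete factor with equal fibre sums. -/
theorem match_prod {πa : X → X'} {ka : X → ℂ} {ka' : X' → ℂ} (ha : Match μ μ' πa ka ka')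
    {πc : C → C'} {kc : C → ℂ} {kc' : C' → ℂ}
    (hc : ∀ d, HasSum (fun c : {c // πc c = d} => kc c.1) (kc' d)) :
    Match (μ.prod Measure.count) (μ'.prod Measure.count) (fun x : X × C => (πa x.1, πc x.2))
      (fun x => ka x.1 * kc x.2) (fun y => ka' y.1 * kc' y.2) := by
  intro Φ hΦ h₁ h₂
  set I : C' → ℂ := fun d => ∫ a, ka a * Φ (πa a, d) ∂μ with hI
  have hL : ∀ c, ∫ a, ka a * kc c * Φ (πa a, πc c) ∂μ = kc c * I (πc c) := fun c => by
    rw [hI, ← integral_const_mul]
    exact integral_congr_ae (Filter.Eventually.of_forall fun a => by ring)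
  have hsum : Summable fun c => kc c * I (πc c) := by
    have h := h₁.integral_prod_right
    simp only [hL] at h
    exact (summable_norm_iff.mp ((integrable_count_iff).mp h))
  rw [integral_prod_symm _ h₁, integral_prod_symm _ h₂,
    integral_countable h₁.integral_prod_right, integral_countable h₂.integral_prod_right]
  simp only [measureReal_def, Measure.count_singleton, ENNReal.toReal_one, one_smul, hL]
  have hsig : Summable fun q : (d : C') × {c // πc c = d} => kc q.2.1 * I (πc q.2.1) :=
    (Equiv.sigmaFiberEquiv πc).summable_iff.mpr hsum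
  rw [← (Equiv.sigmaFiberEquiv πc).tsum_eq]
  refine hsig.tsum_sigma.trans ?_
  refine tsum_congr fun d => ?_
  have e : ∀ c : {c // πc c = d}, kc c.1 * I (πc c.1) = kc c.1 * I d := fun c => by rw [c.2]
  simp only [e]
  rw [((hc d).mul_right (I d)).tsum_eq]
  by_cases hd : kc' d = 0
  · simp [hd]
  obtain ⟨⟨c, rfl⟩, hne⟩ : ∃ c : {c // πc c = d}, kc c.1 ≠ 0 := by
    by_contra hall
    push Not at hall
    exact hd ((hc d).unique (by simp [hall, hasSum_zero]))
  have hLi : Integrable (fun a => ka a * Φ (πa a, πc c)) μ := by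
    refine ((integrable_slice h₁ c).const_mul (kc c)⁻¹).congr
      (Filter.Eventually.of_forall fun a => ?_)
    field_simp
  have hRi : Integrable (fun a => ka' a * Φ (a, πc c)) μ' := by
    refine ((integrable_slice h₂ (πc c)).const_mul (kc' (πc c))⁻¹).congr
      (Filter.Eventually.of_forall fun a => ?_)
    field_simp
  simp only [hI]
  rw [ha (fun a => Φ (a, πc c)) (hΦ.comp (measurable_id.prodMk measurable_const)) hLi hRi,
    ← integral_const_mul]
  exact integral_congr_ae (Filter.Eventually.of_forall fun a => by ring)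

/-- An integrand with vanishing fibre sums kills every function constant on fibres. -/
theorem integral_eq_zero_of_fibre {D : Type*} {p : C → D} {F G : X × C → ℂ}
    (hF : ∀ a d, HasSum (fun c : {c // p c = d} => F (a, c.1)) 0)
    (hG : ∀ a c c', p c = p c' → G (a, c) = G (a, c'))
    (hint : Integrable (fun x => F x * G x) (μ.prod Measure.count)) :
    ∫ x, F x * G x ∂(μ.prod Measure.count) = 0 := by
  rw [integral_prod _ hint]
  refine integral_eq_zero_of_ae ?_
  filter_upwards [hint.prod_right_ae] with a ha
  rw [integral_countable ha]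
  simp only [measureReal_def, Measure.count_singleton, ENNReal.toReal_one, one_smul, Pi.zero_apply]
  have hs : Summable fun c => F (a, c) * G (a, c) :=
    summable_norm_iff.mp (integrable_count_iff.mp ha)
  have hsig : Summable fun q : (d : D) × {c // p c = d} => F (a, q.2.1) * G (a, q.2.1) :=
    (Equiv.sigmaFiberEquiv p).summable_iff.mpr hs
  rw [← (Equiv.sigmaFiberEquiv p).tsum_eq]
  refine hsig.tsum_sigma.trans ?_
  refine (tsum_congr fun d => ?_).trans tsum_zero
  by_cases h : ∃ c, p c = d
  · obtain ⟨c₀, hc₀⟩ := h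
    simp only [fun c : {c // p c = d} => hG a c.1 c₀ (c.2.trans hc₀.symm)]
    rw [((hF a d).mul_right (G (a, c₀))).tsum_eq, zero_mul]
  · have : IsEmpty {c // p c = d} := ⟨fun c => h ⟨c.1, c.2⟩⟩
    exact tsum_empty

end Prod

section Three

variable {G H : Type*} [Group G] [MeasurableSpace H] [MulAction G H] [MeasurableConstSMul G H]
  {ν : Measure H} [SMulInvariantMeasure G H ν]

end Three

end Fermat.Agent.LT.Geometric
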