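import Fermat.Agent.LT.Geometric.Partition
import Mathlib.GroupTheory.Coset.Basic
import Mathlib.GroupTheory.GroupAction.Quotient

/-!
# Unfolding a sum over a class

For a subgroup `Z` and a `Z`-invariant `ψ`, the integral of the translates of `ψ` over `G ⧸ Z`
against a partition for `G` is the integral of `ψ` against a partition for `Z`.
-/

set_option autoImplicit false

noncomputable section

open MeasureTheory
open scoped ENNReal NNReal

namespace Fermat.Agent.LT.Geometric

variable {G X : Type*} [Group G] [MeasurableSpace X] [MulAction G X]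

/-- A group is a product of coset representatives and the subgroup. -/
def cosetProdEquiv (Z : Subgroup G) : (G ⧸ Z) × Z ≃ G where
  toFun p := p.1.out * (p.2 : G)
  invFun g := ((g : G ⧸ Z), ⟨(g : G ⧸ Z).out⁻¹ * g,
    QuotientGroup.eq.mp (QuotientGroup.out_eq' _)⟩)
  left_inv p := by
    obtain ⟨c, z⟩ := p
    have h : ((c.out * (z : G) : G) : G ⧸ Z) = c := by
      rw [QuotientGroup.mk_mul_of_mem _ z.2, QuotientGroup.out_eq']
    refine Prod.ext h (Subtype.ext ?_)
    change ((c.out * (z : G) : G) : G ⧸ Z).out⁻¹ * (c.out * z) = z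
    rw [h, inv_mul_cancel_left]
  right_inv g := by simp

/-- The partition for a subgroup obtained from a partition for the group. -/
def subPartition (Z : Subgroup G) (w : X → ℝ≥0) (x : X) : ℝ≥0 :=
  (∑' c : G ⧸ Z, (w (c.out • x) : ℝ≥0∞)).toNNReal

/-- The sum of the translates of a function over `G ⧸ Z`. -/
def cosetSum {E : Type*} [AddCommMonoid E] [TopologicalSpace E] (Z : Subgroup G) (ψ : X → E)
    (x : X) : E :=
  ∑' c : G ⧸ Z, ψ (c.out⁻¹ • x)

omit [MeasurableSpace X] [MulAction G X] in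
theorem out_injective (Z : Subgroup G) : Function.Injective fun c : G ⧸ Z => c.out :=
  fun a b h => by
    rw [← QuotientGroup.out_eq' a, ← QuotientGroup.out_eq' b]
    exact congrArg (QuotientGroup.mk : G → G ⧸ Z) h

/-- Cosets in a countable group are countable. -/
theorem countable_coset [Countable G] (Z : Subgroup G) : Countable (G ⧸ Z) :=
  (QuotientGroup.mk_surjective (s := Z)).countable

variable {s : Set X} {w : X → ℝ≥0} (Z : Subgroup G)

theorem IsPartition.summable_coset (hw : IsPartition G s w) {x : X} (hx : x ∈ s) :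
    Summable fun c : G ⧸ Z => w (c.out • x) :=
  NNReal.summable_comp_injective (hw.hasSum x hx).summable (out_injective Z)

theorem IsPartition.coe_subPartition (hw : IsPartition G s w) {x : X} (hx : x ∈ s) :
    (subPartition Z w x : ℝ≥0∞) = ∑' c : G ⧸ Z, (w (c.out • x) : ℝ≥0∞) :=
  ENNReal.coe_toNNReal (ENNReal.tsum_coe_ne_top_iff_summable.mpr (hw.summable_coset Z hx))

variable [Countable G] [MeasurableConstSMul G X]

/-- The derived partition is a partition for the subgroup. -/
theorem IsPartition.isPartition_subPartition (hw : IsPartition G s w)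
    (hs : ∀ z ∈ Z, ∀ x ∈ s, z • x ∈ s) : IsPartition Z s (subPartition Z w) where
  measurable := by
    have := countable_coset Z
    exact (Measurable.tsum fun c : G ⧸ Z =>
      (hw.measurable.comp (measurable_const_smul c.out)).coe_nnreal_ennreal).ennreal_toNNReal
  hasSum x hx := by
    have key : ∑' z : Z, (subPartition Z w (z • x) : ℝ≥0∞) = 1 := by
      calc ∑' z : Z, (subPartition Z w (z • x) : ℝ≥0∞)
          = ∑' (z : Z) (c : G ⧸ Z), (w ((c.out * (z : G)) • x) : ℝ≥0∞) := by
            refine tsum_congr fun z => ?_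
            rw [show z • x = (z : G) • x from rfl, hw.coe_subPartition Z (hs z z.2 x hx)]
            exact tsum_congr fun c => by rw [mul_smul]
        _ = ∑' p : (G ⧸ Z) × Z, (w ((cosetProdEquiv Z p) • x) : ℝ≥0∞) := by
            rw [ENNReal.tsum_comm, ENNReal.tsum_prod']; rfl
        _ = 1 := by
            rw [(cosetProdEquiv Z).tsum_eq fun g => (w (g • x) : ℝ≥0∞), hw.enn_tsum hx]
    have hsum : Summable fun z : Z => subPartition Z w (z • x) :=
      ENNReal.tsum_coe_ne_top_iff_summable.mp (by rw [key]; exact ENNReal.one_ne_top)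
    rw [← ENNReal.coe_tsum hsum, ENNReal.coe_eq_one] at key
    exact key ▸ hsum.hasSum

variable {μ : Measure X} [SMulInvariantMeasure G X μ]
  {E : Type*} [NormedAddCommGroup E] [NormedSpace ℝ E]

omit [Countable G] in
theorem lintegral_translate (g : G) (f h : X → ℝ≥0∞) :
    ∫⁻ x, f x * h (g⁻¹ • x) ∂μ = ∫⁻ x, f (g • x) * h x ∂μ := by
  rw [← lintegral_smul_eq g fun x => f x * h (g⁻¹ • x)]
  simp

/-- The lower integral of the translates of a nonnegative function over `G ⧸ Z`. -/
theorem lintegral_cosetSum (hw : IsPartition G s w) {Ψ : X → ℝ≥0∞} (hΨ : Measurable Ψ)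
    (hsupp : ∀ x, x ∉ s → Ψ x = 0) :
    ∫⁻ x, (w x : ℝ≥0∞) * cosetSum Z Ψ x ∂μ = ∫⁻ x, (subPartition Z w x : ℝ≥0∞) * Ψ x ∂μ := by
  have := countable_coset Z
  simp only [cosetSum, ← ENNReal.tsum_mul_left]
  rw [lintegral_tsum (f := fun (c : G ⧸ Z) x => (w x : ℝ≥0∞) * Ψ (c.out⁻¹ • x)) fun c =>
    (hw.measurable.coe_nnreal_ennreal.mul (hΨ.comp (measurable_const_smul c.out⁻¹))).aemeasurable]
  simp only [lintegral_translate _ (fun x => (w x : ℝ≥0∞)) Ψ]
  rw [← lintegral_tsum (f := fun (c : G ⧸ Z) x => (w (c.out • x) : ℝ≥0∞) * Ψ x) fun c =>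
    ((hw.measurable.comp (measurable_const_smul c.out)).coe_nnreal_ennreal.mul hΨ).aemeasurable]
  refine lintegral_congr fun x => ?_
  by_cases hx : x ∈ s
  · rw [ENNReal.tsum_mul_right, hw.coe_subPartition Z hx]
  · simp [hsupp x hx]

/-- Unfolding: the translates of `ψ` are integrable against `w` when `ψ` is against the partition
of the subgroup. -/
theorem sum_lintegral_translates_ne_top (hw : IsPartition G s w) {ψ : X → E}
    (hψ : StronglyMeasurable ψ) (hsupp : ∀ x, x ∉ s → ψ x = 0)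
    (hint : Integrable (fun x => (subPartition Z w x : ℝ) • ψ x) μ) :
    ∑' c : G ⧸ Z, ∫⁻ x, ‖(w x : ℝ) • ψ (c.out⁻¹ • x)‖ₑ ∂μ ≠ ∞ := by
  have := countable_coset Z
  simp only [enorm_smul_nnreal]
  rw [← lintegral_tsum (f := fun (c : G ⧸ Z) x =>
      (w x : ℝ≥0∞) * ‖ψ (c.out⁻¹ • x)‖ₑ) fun c =>
    (hw.measurable.coe_nnreal_ennreal.mul
      ((hψ.comp_measurable (measurable_const_smul c.out⁻¹)).enorm)).aemeasurable]
  have h := lintegral_cosetSum Z (μ := μ) hw hψ.enorm fun x hx => by rw [hsupp x hx, enorm_zero]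
  simp only [cosetSum, ← ENNReal.tsum_mul_left] at h
  rw [h]
  simpa only [enorm_smul_nnreal] using hint.2.ne

/-- Unfolding a sum over `G ⧸ Z`. -/
theorem integral_cosetSum [CompleteSpace E] (hw : IsPartition G s w) {ψ : X → E}
    (hψ : StronglyMeasurable ψ) (hsupp : ∀ x, x ∉ s → ψ x = 0)
    (hint : Integrable (fun x => (subPartition Z w x : ℝ) • ψ x) μ) :
    ∫ x, (w x : ℝ) • cosetSum Z ψ x ∂μ = ∫ x, (subPartition Z w x : ℝ) • ψ x ∂μ := by
  have := countable_coset Z
  have hfin := sum_lintegral_translates_ne_top Z hw hψ hsupp hint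
  have hm : ∀ c : G ⧸ Z, AEStronglyMeasurable (fun x => (w x : ℝ) • ψ (c.out⁻¹ • x)) μ := fun c =>
    (hw.measurable.coe_nnreal_real.stronglyMeasurable.smul
      (hψ.comp_measurable (measurable_const_smul c.out⁻¹))).aestronglyMeasurable
  have htr : ∀ c : G ⧸ Z, ∫ x, (w x : ℝ) • ψ (c.out⁻¹ • x) ∂μ =
      ∫ x, (w (c.out • x) : ℝ) • ψ x ∂μ := fun c => by
    rw [← integral_smul_eq' c.out fun x => (w x : ℝ) • ψ (c.out⁻¹ • x)]
    simp
  have hm' : ∀ c : G ⧸ Z, AEStronglyMeasurable (fun x => (w (c.out • x) : ℝ) • ψ x) μ := fun c =>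
    ((hw.measurable.comp (measurable_const_smul c.out)).coe_nnreal_real.stronglyMeasurable.smul
      hψ).aestronglyMeasurable
  have hfin' : ∑' c : G ⧸ Z, ∫⁻ x, ‖(w (c.out • x) : ℝ) • ψ x‖ₑ ∂μ ≠ ∞ := by
    simp only [enorm_smul_nnreal] at hfin ⊢
    simpa only [lintegral_translate _ (fun x => (w x : ℝ≥0∞)) fun x => ‖ψ x‖ₑ] using hfin
  simp only [cosetSum, ← tsum_const_smul'']
  rw [integral_tsum hm hfin, tsum_congr htr, ← integral_tsum hm' hfin']
  refine integral_congr_ae (Filter.Eventually.of_forall fun x => ?_)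
  by_cases hx : x ∈ s
  · have h := (NNReal.hasSum_coe.mpr (hw.summable_coset Z hx).hasSum).smul_const (ψ x)
    simp only [h.tsum_eq]
    simp [subPartition, ← ENNReal.coe_tsum (hw.summable_coset Z hx)]
  · simp [hsupp x hx]

section Class

variable {Δ : Type*} [MulAction G Δ]

/-- Conditions for `C` to be the disjoint union of the translates of `D` over `G ⧸ Z`. -/
structure IsClass (Z : Subgroup G) (D C : Set Δ) : Prop where
  mem_iff : ∀ δ, δ ∈ C ↔ ∃ g : G, g⁻¹ • δ ∈ D
  stable : ∀ z ∈ Z, ∀ δ ∈ D, z • δ ∈ D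
  mem_of_smul : ∀ (g : G), ∀ δ ∈ D, g • δ ∈ D → g ∈ Z

/-- The parametrisation of a class. -/
def classMap {Z : Subgroup G} {D C : Set Δ} (h : IsClass Z D C) (p : (G ⧸ Z) × D) : C :=
  ⟨p.1.out • (p.2 : Δ), (h.mem_iff _).mpr ⟨p.1.out, by simp [p.2.2]⟩⟩

omit [MeasurableSpace X] [MulAction G X] [Countable G] [MeasurableConstSMul G X] in
theorem classMap_bijective {Z : Subgroup G} {D C : Set Δ} (h : IsClass Z D C) :
    Function.Bijective (classMap h) := by
  constructor
  · rintro ⟨c, δ⟩ ⟨c', δ'⟩ e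
    have h' : c.out • (δ : Δ) = c'.out • (δ' : Δ) := congrArg Subtype.val e
    have hz := h.mem_of_smul (c'.out⁻¹ * c.out) δ δ.2
      (by rw [mul_smul, h', inv_smul_smul]; exact δ'.2)
    have hc : c' = c := by
      rw [← QuotientGroup.out_eq' c, ← QuotientGroup.out_eq' c']
      exact QuotientGroup.eq.mpr hz
    subst hc
    simpa [Subtype.ext_iff] using h'
  · rintro ⟨δ, hδ⟩
    obtain ⟨g, hg⟩ := (h.mem_iff δ).mp hδ
    refine ⟨((g : G ⧸ Z), ⟨(g : G ⧸ Z).out⁻¹ • δ, ?_⟩), Subtype.ext (by simp [classMap])⟩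
    have hz : (g : G ⧸ Z).out⁻¹ * g ∈ Z := QuotientGroup.eq.mp (QuotientGroup.out_eq' _)
    simpa [mul_smul] using h.stable _ hz _ hg

omit [MeasurableSpace X] [Countable G] [MeasurableConstSMul G X] [NormedSpace ℝ E] in
/-- The sum over the translates of a `Z`-stable set of indices is a coset sum. -/
theorem IsClass.tsum_eq [CompleteSpace E] {Z : Subgroup G} {D C : Set Δ} (h : IsClass Z D C)
    {F : Δ → X → E} (hF : ∀ (g : G) δ x, F (g • δ) (g • x) = F δ x) (x : X)
    (hsum : Summable fun δ : C => F δ x) :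
    ∑' δ : C, F δ x = cosetSum Z (fun y => ∑' δ : D, F δ y) x := by
  let e : (G ⧸ Z) × D ≃ C := Equiv.ofBijective _ (classMap_bijective h)
  have hs : Summable fun p : (G ⧸ Z) × D => F (e p) x := e.summable_iff.mpr hsum
  rw [← e.tsum_eq fun δ : C => F δ x, cosetSum, hs.tsum_prod]
  refine tsum_congr fun c => tsum_congr fun δ => ?_
  show F (c.out • (δ : Δ)) x = _
  rw [← hF c.out δ (c.out⁻¹ • x), smul_inv_smul]

omit [MeasurableSpace X] [Countable G] [MeasurableConstSMul G X] in
/-- The same for nonnegative functions. -/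
theorem IsClass.tsum_eq_ennreal {Z : Subgroup G} {D C : Set Δ} (h : IsClass Z D C)
    {F : Δ → X → ℝ≥0∞} (hF : ∀ (g : G) δ x, F (g • δ) (g • x) = F δ x) (x : X) :
    ∑' δ : C, F δ x = cosetSum Z (fun y => ∑' δ : D, F δ y) x := by
  let e : (G ⧸ Z) × D ≃ C := Equiv.ofBijective _ (classMap_bijective h)
  rw [← e.tsum_eq fun δ : C => F δ x, cosetSum, ENNReal.tsum_prod']
  refine tsum_congr fun c => tsum_congr fun δ => ?_
  show F (c.out • (δ : Δ)) x = _
  rw [← hF c.out δ (c.out⁻¹ • x), smul_inv_smul]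

omit [MeasurableSpace X] [Countable G] [MeasurableConstSMul G X] in
/-- The bundle over a stable index set is invariant. -/
theorem IsClass.tsum_smul {M : Type*} [AddCommMonoid M] [TopologicalSpace M] {Z : Subgroup G}
    {D C : Set Δ} (h : IsClass Z D C) {F : Δ → X → M}
    (hF : ∀ (g : G) δ x, F (g • δ) (g • x) = F δ x) (z : G) (hz : z ∈ Z) (x : X) :
    ∑' δ : D, F δ (z • x) = ∑' δ : D, F δ x := by
  let e : D ≃ D :=
    { toFun := fun δ => ⟨z • (δ : Δ), h.stable z hz δ δ.2⟩
      invFun := fun δ => ⟨z⁻¹ • (δ : Δ), h.stable _ (inv_mem hz) δ δ.2⟩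
      left_inv := fun δ => Subtype.ext (inv_smul_smul z _)
      right_inv := fun δ => Subtype.ext (smul_inv_smul z _) }
  rw [← e.tsum_eq fun δ : D => F δ (z • x)]
  exact tsum_congr fun δ => hF z δ x

end Class

end Fermat.Agent.LT.Geometric
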