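import Fermat.Agent.LT.Geometric.UnipotentFibre
import Fermat.Agent.LT.Geometric.UnipotentArch
import Fermat.Agent.LT.Geometric.FibreBand
import Fermat.Agent.LT.Geometric.Term

/-!
# The unipotent bundle summed along fibres

`unipSum` is the sum of the terms of `n(ξ/3)`, `ξ ∈ K^×`. Its sums along the fibres of the
translations in `e - e₀` are invariant under the upper triangular group of `K` and are
`O(t)` at height `t` over the place of `K`.
-/

set_option autoImplicit false

noncomputable section

open MeasureTheory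
open NumberField (InfinitePlace)

namespace Fermat.Agent.LT.Geometric

variable {F K : Type*} [Field F] [NumberField F] [Field K] [NumberField K] {U : Level F}
  {ι : K →+* F} {σ : F ≃+* F} {e e₀ : FinAdele F}

variable (ι σ) in
/-- The representative `n(ξ/3)`. -/
def unipDelta (ξ : K) : Twisted (pglAut σ) :=
  Twisted.mk (pglAut σ) (QuotientGroup.mk (unip (ι ξ / 3)))

variable (hU : ∀ g ∈ U.toSubgroup, glFinMap (σ : F →+* F) g ∈ U.toSubgroup)
  (k : Kernel.PointKer F) (h : HeckeFn U)

variable (ι) in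
/-- The unipotent bundle. -/
def unipSum (x : Y U) : ℂ := ∑' ξ : Kˣ, term σ hU k h (unipDelta ι σ (ξ : K)) x

/-- The unipotent bundle is measurable. -/
theorem measurable_unipSum : Measurable (unipSum ι hU k h) := by
  have : Countable K := (Module.finBasis ℚ K).equivFun.injective.countable
  have : Countable Kˣ := Units.val_injective.countable
  exact Measurable.tsum fun ξ : Kˣ => measurable_term σ hU k h _

omit [NumberField K] in
theorem term_unipDelta (ξ : K) (P : InfinitePlace F → H3) (c : GLFin F ⧸ U.toSubgroup) :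
    term σ hU k h (unipDelta ι σ ξ) (P, c) = bump ι σ k P ξ *
      h.kernel c (unip (finIncl F (3 : F)⁻¹ * Places.finExtend ι (finIncl K ξ)) •
        galFin σ U hU c) := by
  rw [term, Places.finExtend_finIncl, ← map_mul, ← Kernel.glIncl_unip, inv_mul_eq_div]
  rfl

/-- The ratio of the diagonal entries of an upper triangular matrix. -/
def upperRatio {R : Type*} [Field R] (g : GL (Fin 2) R) : R := g.val 0 0 / g.val 1 1

omit [NumberField K] in
theorem upper_diag_ne_zero {g : GL (Fin 2) K} (hg : g.val 1 0 = 0) :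
    g.val 0 0 ≠ 0 ∧ g.val 1 1 ≠ 0 := by
  have := ((Matrix.isUnit_iff_isUnit_det _).mp g.isUnit).ne_zero
  rw [Matrix.det_fin_two, hg, mul_zero, sub_zero] at this
  exact ⟨left_ne_zero_of_mul this, right_ne_zero_of_mul this⟩

omit [NumberField K] in
/-- The ratio of the diagonal entries is nonzero. -/
theorem upperRatio_ne_zero {g : GL (Fin 2) K} (hg : g.val 1 0 = 0) : upperRatio g ≠ 0 :=
  div_ne_zero (upper_diag_ne_zero hg).1 (upper_diag_ne_zero hg).2

omit [NumberField K] in
/-- Conjugation of unipotents by an upper triangular matrix. -/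
theorem upper_mul_unip {R : Type*} [CommRing R] (f : K →+* R) {g : GL (Fin 2) K}
    (hg : g.val 1 0 = 0) (x : R) :
    Matrix.GeneralLinearGroup.map f g * unip x =
      unip (f (upperRatio g) * x) * Matrix.GeneralLinearGroup.map f g := by
  have h11 := (upper_diag_ne_zero hg).2
  have e : f (upperRatio g) * f (g.val 1 1) = f (g.val 0 0) := by
    rw [← map_mul, upperRatio, div_mul_cancel₀ _ h11]
  ext i j
  fin_cases i <;> fin_cases j <;>
    simp [Matrix.mul_apply, Fin.sum_univ_two, hg]
  linear_combination -x * e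

variable (hfix : ∀ x : F, σ x = x ↔ x ∈ Set.range ι)
include hfix

omit [NumberField F] [NumberField K] in
/-- An upper triangular `g` over `K` scales the parameter of `n(ξ/3)` by its diagonal ratio. -/
theorem smul_unipDelta {g : GL (Fin 2) K} (hg : g.val 1 0 = 0) (ξ : K) :
    (QuotientGroup.mk (Matching.baseUnit ι g) : PGLIndex F) • unipDelta ι σ ξ =
      unipDelta ι σ (upperRatio g * ξ) := by
  refine Twisted.ext ?_
  rw [Twisted.val_smul, pglAut_mk, Matching.glMap_baseUnit hfix]
  show (QuotientGroup.mk (Matching.baseUnit ι g) : PGLIndex F) *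
    QuotientGroup.mk (unip (ι ξ / 3)) * (QuotientGroup.mk (Matching.baseUnit ι g))⁻¹ =
      QuotientGroup.mk (unip (ι (upperRatio g * ξ) / 3))
  rw [← QuotientGroup.mk_mul, ← QuotientGroup.mk_inv, ← QuotientGroup.mk_mul]
  congr 1
  rw [show Matching.baseUnit ι g * unip (ι ξ / 3) =
    unip (ι (upperRatio g) * (ι ξ / 3)) * Matching.baseUnit ι g from upper_mul_unip ι hg _,
    mul_inv_cancel_right, map_mul, mul_div_assoc]

omit [NumberField K] in
/-- The bundle is invariant under the upper triangular group of `K`. -/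
theorem unipSum_smul {g : GL (Fin 2) K} (hg : g.val 1 0 = 0) (x : Y U) :
    unipSum ι hU k h (Matching.baseUnit ι g • x) = unipSum ι hU k h x := by
  have hr := upperRatio_ne_zero hg
  rw [unipSum, ← (Equiv.mulLeft (Units.mk0 _ hr)).tsum_eq]
  refine tsum_congr fun ξ => ?_
  rw [Equiv.coe_mulLeft, Units.val_mul, Units.val_mk0, ← smul_unipDelta hfix hg]
  exact term_smul σ hU k h _ _ x

omit [NumberField K] hfix in
theorem lineClass_baseUnit_smul {g : GL (Fin 2) K} (hg : g.val 1 0 = 0) {E : FinAdele F}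
    {c c' : GLFin F ⧸ U.toSubgroup} (hc : lineClass E c = lineClass E c') :
    lineClass E (glIncl F (Matching.baseUnit ι g) • c) =
      lineClass E (glIncl F (Matching.baseUnit ι g) • c') := by
  obtain ⟨g₀, rfl⟩ := QuotientGroup.mk_surjective c'
  obtain ⟨x, hx, rfl⟩ := exists_translate_of_fibre hc
  have h1 : glIncl F (Matching.baseUnit ι g) * unip x =
      unip (finIncl F (ι (upperRatio g)) * x) * glIncl F (Matching.baseUnit ι g) :=
    upper_mul_unip ((finIncl F).comp ι) hg x
  rw [← mul_smul, h1, mul_smul]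
  exact lineClass_smul E (by rw [← mul_assoc, mul_comm E, mul_assoc, hx]) _

omit [NumberField K] in
/-- The fibre sums are invariant under the upper triangular group of `K`. -/
theorem fibreSum_unipSum_smul {g : GL (Fin 2) K} (hg : g.val 1 0 = 0) (E : FinAdele F)
    (P : InfinitePlace F → H3) (c₀ : GLFin F ⧸ U.toSubgroup) :
    fibreSum (lineClass E) (unipSum ι hU k h)
        (fun w => glEmb F w (Matching.baseUnit ι g) • P w,
          lineClass E (glIncl F (Matching.baseUnit ι g) • c₀)) =
      fibreSum (lineClass E) (unipSum ι hU k h) (P, lineClass E c₀) := by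
  set G := glIncl F (Matching.baseUnit ι g) with hG
  have hinv : ∀ (c : GLFin F ⧸ U.toSubgroup), lineClass E c = lineClass E (G • c₀) →
      lineClass E (G⁻¹ • c) = lineClass E c₀ := fun c hc => by
    have hg' : (g⁻¹).val 1 0 = 0 := Reduction.IsUpper.inv hg
    have h1 := lineClass_baseUnit_smul (ι := ι) hg' hc
    rwa [map_inv, map_inv, ← hG, inv_smul_smul] at h1
  let perm : {c // lineClass E c = lineClass E c₀} ≃ {c // lineClass E c = lineClass E (G • c₀)} :=
    { toFun := fun c => ⟨G • c.1, lineClass_baseUnit_smul hg c.2⟩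
      invFun := fun c => ⟨G⁻¹ • c.1, hinv c.1 c.2⟩
      left_inv := fun c => Subtype.ext (inv_smul_smul G c.1)
      right_inv := fun c => Subtype.ext (smul_inv_smul G c.1) }
  rw [fibreSum, fibreSum, ← perm.tsum_eq]
  refine tsum_congr fun c => ?_
  exact unipSum_smul hU k h hfix hg (P, c.1)

variable (hσ : ∀ a, σ (σ (σ a)) = a) (ci : CuspIdem σ e e₀) (hpow : σ ^ 3 = 1)
include hσ ci hpow

/-- Denominators of the rational translations meeting a fibre. -/
theorem exists_den_fibre (c₀ : GLFin F ⧸ U.toSubgroup) :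
    ∃ L : ℕ, 0 < L ∧ ∀ (u : FinAdele K) (c : GLFin F ⧸ U.toSubgroup),
      lineClass (e - e₀) c = lineClass (e - e₀) c₀ →
      h.kernel c (unip (finIncl F (3 : F)⁻¹ * Places.finExtend ι u) • galFin σ U hU c) ≠ 0 →
        (L : FinAdele K) * u ∈ integralAdele K := by
  obtain ⟨g, rfl⟩ := QuotientGroup.mk_surjective c₀
  obtain ⟨L, L', hL, -, hden⟩ := exists_den_translate h hσ ci g
  refine ⟨3 * L, by positivity, fun u c hc hne => ?_⟩
  obtain ⟨x, hx, rfl⟩ := exists_translate_of_fibre hc
  rw [kernel_unip_line σ hU] at hne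
  exact natCast_mul_mem_integralAdele hσ hfix hpow (hden _ x hx hne).1

variable {φ₀ : F →+* ℂ} (hc : IsCubic ι σ)
  (hemb : ∀ v : InfinitePlace K, v.embedding = φ₀.comp ι)
  (hcomplex : ¬ NumberField.ComplexEmbedding.IsReal (φ₀.comp ι))
include hc hemb hcomplex

/-- **The bound on the fibre sums.** -/
theorem exists_fibreSum_bound (hcusp : HasCuspConditionAt h e) (c₀ : GLFin F ⧸ U.toSubgroup) :
    ∃ C R : ℝ, 0 ≤ C ∧ ∀ P : InfinitePlace F → H3,
      (fibreSum (lineClass (e - e₀)) (unipSum ι hU k h) (P, lineClass (e - e₀) c₀) ≠ 0 →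
        P ∈ nearDiag φ₀ σ R ∧
          ∃ c ξ, lineClass (e - e₀) c = lineClass (e - e₀) c₀ ∧
            term σ hU k h (unipDelta ι σ ((ξ : Kˣ) : K)) (P, c) ≠ 0) ∧
      (1 ≤ H3.tc (atEmb φ₀ P) →
        ‖fibreSum (lineClass (e - e₀)) (unipSum ι hU k h) (P, lineClass (e - e₀) c₀)‖ ≤
          C * H3.tc (atEmb φ₀ P) ^ (Module.finrank ℚ K - 1)) := by
  classical
  obtain ⟨L, hL, hden⟩ := exists_den_fibre hU h hfix hσ ci hpow c₀
  obtain ⟨A, Lip, R, hA, hLip, hdata⟩ := exists_bump_data hc hemb hcomplex k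
  have hbal := isBalancedFn_fibreFn hU h hσ ci hfix hpow hcusp c₀
  obtain ⟨C, hC, hline⟩ := hbal.exists_bound one_pos hA hLip
  set Φ : K → ℂ := fun β =>
    fibreFn σ hU h e e₀ c₀ (finIncl F (3 : F)⁻¹ * Places.finExtend ι (finIncl K β)) with hΦ
  refine ⟨C + k.bound * ‖Φ 0‖, R, add_nonneg hC (mul_nonneg k.bound_nonneg (norm_nonneg _)),
    fun P => ?_⟩
  obtain ⟨hreg, hnear, hlip⟩ := hdata P
  set p := lineClass (U := U) (e - e₀) with hp
  let T : {c // p c = p c₀} → K → ℂ := fun c β => term σ hU k h (unipDelta ι σ β) (P, c.1)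
  have hT : ∀ c β, T c β = bump ι σ k P β * h.kernel c.1
      (unip (finIncl F (3 : F)⁻¹ * Places.finExtend ι (finIncl K β)) • galFin σ U hU c.1) :=
    fun c β => term_unipDelta hU k h β P c.1
  set ζ := 3 * (H3.zc (atEmb φ₀ P) - H3.zc (atEmb (embOver σ φ₀ 1) P))
  set t := H3.tc (atEmb φ₀ P)
  -- finitely many translations
  set B : Set K := {β | bump ι σ k P β ≠ 0 ∧ ∃ c, T c β ≠ 0} with hBdef
  have hB : B.Finite := by
    refine (Kernel.finite_boundedDen K hL (‖ζ‖ + A * t)).subset ?_
    rintro β ⟨hβ, c, hcne⟩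
    rw [hT] at hcne
    refine ⟨?_, fun v => ?_⟩
    · have := hden _ _ c.2 (right_ne_zero_of_mul hcne)
      rw [← map_natCast (finIncl K), ← map_mul] at this
      exact Reduction.exists_integer_of_finIncl_mem this
    · rw [← InfinitePlace.norm_embedding_eq]
      have h1 := hnear β hβ v
      have h2 := norm_sub_norm_le (v.embedding β) ζ
      linarith
  have hTs : (Function.support fun q : Kˣ × {c // p c = p c₀} => T q.2 (q.1 : K)).Finite := by
    have hfin : ∀ β : K, (Function.support fun c => T c β).Finite := fun β => by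
      refine (finite_fibre_support hU h hσ ci c₀
        (finIncl F (3 : F)⁻¹ * Places.finExtend ι (finIncl K β))).subset fun c hc => ?_
      rw [Function.mem_support, hT] at hc
      exact right_ne_zero_of_mul hc
    refine (((hB.preimage Units.val_injective.injOn).prod
      (hB.biUnion fun β _ => hfin β))).subset fun q hq => ?_
    have hq' := hq
    rw [Function.mem_support, hT] at hq'
    have hb : (q.1 : K) ∈ B := ⟨left_ne_zero_of_mul hq', q.2, hq⟩
    exact ⟨hb, Set.mem_biUnion hb hq⟩
  have hsw : fibreSum p (unipSum ι hU k h) (P, p c₀) =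
      ∑' ξ : Kˣ, bump ι σ k P ξ * Φ ξ := by
    rw [fibreSum]
    simp only [unipSum]
    refine (Summable.tsum_comm (f := fun (ξ : Kˣ) (c : {c // p c = p c₀}) => T c ξ)
      (summable_of_hasFiniteSupport hTs)).trans (tsum_congr fun ξ => ?_)
    simp only [hT, hΦ, fibreFn, tsum_mul_left]
    rfl
  refine ⟨fun hne => ?_, fun ht => ?_⟩
  · rw [fibreSum] at hne
    obtain ⟨c, hcne⟩ : ∃ c : {c // p c = p c₀}, unipSum ι hU k h (P, c.1) ≠ 0 := by
      by_contra hall
      push Not at hall
      exact hne ((tsum_congr hall).trans tsum_zero)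
    obtain ⟨ξ, hξ⟩ : ∃ ξ : Kˣ, term σ hU k h (unipDelta ι σ (ξ : K)) (P, c.1) ≠ 0 := by
      by_contra hall
      push Not at hall
      exact hcne ((tsum_congr hall).trans tsum_zero)
    refine ⟨hreg ξ ?_, c.1, ξ, c.2, hξ⟩
    rw [term_unipDelta] at hξ
    exact left_ne_zero_of_mul hξ
  set g : K → ℂ := fun β => bump ι σ k P β * Φ β with hg
  have hgs : Summable g := by
    refine summable_of_hasFiniteSupport ((hB.insert 0).subset fun β hβ => ?_)
    rw [Function.mem_support, hg] at hβ
    refine Or.inr ⟨left_ne_zero_of_mul hβ, ?_⟩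
    by_contra hall
    push Not at hall
    refine right_ne_zero_of_mul hβ ((tsum_congr fun c => ?_).trans tsum_zero)
    have := hall c
    rw [hT] at this
    exact (mul_eq_zero.mp this).resolve_left (left_ne_zero_of_mul hβ)
  have hsplit : ∑' ξ : Kˣ, g ξ = (∑' β : K, g β) - g 0 := by
    rw [hgs.tsum_eq_add_tsum_ite 0, add_sub_cancel_left]
    refine Eq.trans (tsum_congr fun ξ : Kˣ => (if_neg ξ.ne_zero).symm)
      (Units.val_injective.tsum_eq (f := fun β : K => if β = 0 then 0 else g β) fun β hβ => ?_)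
    simp only [Function.mem_support, ne_eq, ite_eq_left_iff, Classical.not_imp] at hβ
    exact ⟨Units.mk0 β hβ.1, rfl⟩
  rw [hsw]
  refine (le_of_eq (congrArg norm hsplit)).trans ((norm_sub_le _ _).trans ?_)
  have ht1 : 1 ≤ t ^ (Module.finrank ℚ K - 1) := one_le_pow₀ ht
  rw [add_mul]
  refine add_le_add (hline t (fun _ => ζ) (bump ι σ k P) ht hnear hlip) ?_
  rw [hg, norm_mul]
  calc ‖bump ι σ k P 0‖ * ‖Φ 0‖ ≤ k.bound * ‖Φ 0‖ :=
        mul_le_mul_of_nonneg_right (k.norm_le _ _) (norm_nonneg _)
    _ ≤ k.bound * ‖Φ 0‖ * t ^ (Module.finrank ℚ K - 1) :=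
        le_mul_of_one_le_right (mul_nonneg k.bound_nonneg (norm_nonneg _)) ht1

end Fermat.Agent.LT.Geometric

end
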