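import Fermat.Agent.LT.Geometric.PeriodicLine
import Fermat.Agent.LT.Geometric.Fibre
import Fermat.Agent.LT.Geometric.DenBound
import Fermat.Agent.LT.PlaceMatching.Maps

/-!
# The unipotent kernel summed along a fibre

For an idempotent `e = e₀ + σ e₀ + σ² e₀` and the translations cut out by `e - e₀`, the sum over a
fibre of `u ↦ h(c⁻¹ n(u/3) σ c)`, `u` an adele of `K`, is periodic, has bounded denominators and
inherits the cusp condition at `e`.
-/

set_option autoImplicit false

noncomputable section

open scoped Matrix NumberField TensorProduct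

namespace Fermat.Agent.LT.Geometric

variable {F : Type*} [Field F] [NumberField F]

/-- An idempotent cut into three pieces permuted by `σ`. -/
structure CuspIdem (σ : F ≃+* F) (e e₀ : FinAdele F) : Prop where
  fixed : finMap (σ : F →+* F) e = e
  sum_eq : e = e₀ + finMap (σ : F →+* F) e₀ + finMap (σ : F →+* F) (finMap (σ : F →+* F) e₀)
  idem : e₀ * e₀ = e₀
  orth : e₀ * finMap (σ : F →+* F) e₀ = 0

variable {σ : F ≃+* F} {e e₀ : FinAdele F}

omit [NumberField F] in
theorem finMap_iterate (hσ : ∀ a, σ (σ (σ a)) = a) (x : FinAdele F) :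
    finMap (σ : F →+* F) (finMap (σ : F →+* F) (finMap (σ : F →+* F) x)) = x := by
  induction x using TensorProduct.induction_on with
  | zero => simp
  | tmul a z => simp [finMap_tmul, hσ]
  | add a b ha hb => simp only [map_add, ha, hb]

namespace CuspIdem

variable (ci : CuspIdem σ e e₀) (hσ : ∀ a, σ (σ (σ a)) = a)

include ci hσ

omit [NumberField F] hσ in
theorem orth' : finMap (σ : F →+* F) e₀ * finMap (σ : F →+* F) (finMap (σ : F →+* F) e₀) = 0 := by
  rw [← map_mul, ci.orth, map_zero]

omit [NumberField F] in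
theorem orth'' : e₀ * finMap (σ : F →+* F) (finMap (σ : F →+* F) e₀) = 0 := by
  have h := congrArg (finMap (σ : F →+* F)) (orth' ci)
  rw [map_mul, map_zero, finMap_iterate hσ, mul_comm] at h
  exact h

omit [NumberField F] in
theorem mul_e₀ : e * e₀ = e₀ := by
  have h1 := ci.orth
  have h2 := orth'' ci hσ
  rw [ci.sum_eq]
  linear_combination ci.idem + h1 + h2

omit [NumberField F] in
/-- The part `e - e₀` is an idempotent killing `e₀`. -/
theorem e₀_mul_of_mem {x : FinAdele F} (hx : (e - e₀) * x = x) : e₀ * x = 0 := by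
  rw [← hx, ← mul_assoc]
  linear_combination (x : FinAdele F) * (mul_e₀ ci hσ) - x * ci.idem

omit [NumberField F] in
/-- A translation in `e - e₀` is determined by `σ x - x`. -/
theorem recover {x : FinAdele F} (hx : (e - e₀) * x = x) :
    x = finMap (σ : F →+* F) (finMap (σ : F →+* F) (e₀ * (finMap (σ : F →+* F) x - x))) -
      finMap (σ : F →+* F) e₀ * (finMap (σ : F →+* F) x - x) := by
  set m := finMap (σ : F →+* F) with hm
  have h0 := e₀_mul_of_mem ci hσ hx
  have h1 : m e₀ * m x = 0 := by rw [← map_mul, h0, map_zero]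
  have h3 := finMap_iterate hσ x
  rw [← hm] at h3
  simp only [map_mul, map_sub, h3]
  have h2 : m (m e₀) * m (m x) = 0 := by rw [← map_mul, h1, map_zero]
  have e1 : e = e₀ + m e₀ + m (m e₀) := ci.sum_eq
  linear_combination -hx + x * e1 + h2 + h1

omit [NumberField F] in
/-- Every trace-free element of the part `e` is `σ x - x` with `x` in `e - e₀`. -/
theorem solve {y : FinAdele F} (hy : e * y = y)
    (htr : y + finMap (σ : F →+* F) y + finMap (σ : F →+* F) (finMap (σ : F →+* F) y) = 0) :
    ∃ x : FinAdele F, (e - e₀) * x = x ∧ finMap (σ : F →+* F) x - x = y := by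
  set m := finMap (σ : F →+* F) with hm
  refine ⟨m (m (e₀ * y)) - m e₀ * y, ?_, ?_⟩
  · have hi1 : m e₀ * m e₀ = m e₀ := by rw [← map_mul, ci.idem]
    have hi2 : m (m e₀) * m (m e₀) = m (m e₀) := by rw [← map_mul, hi1]
    have o1 := ci.orth
    have o2 := orth'' ci hσ
    have o3 := orth' ci
    rw [← hm] at o1 o2 o3
    rw [show e = e₀ + m e₀ + m (m e₀) from ci.sum_eq]
    simp only [map_mul]
    linear_combination (m (m y)) * hi2 - y * hi1 + (m (m y)) * o3 - y * o3
  · have h3 := finMap_iterate hσ (e₀ * y)
    rw [← hm] at h3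
    simp only [map_sub, h3]
    simp only [map_mul]
    have e1 : e = e₀ + m e₀ + m (m e₀) := ci.sum_eq
    linear_combination hy - y * e1 - m (m e₀) * htr

end CuspIdem

/-! ### Stabilisers of a coset -/

variable {U : Level F}

/-- A lattice of translations fixes a coset. -/
theorem exists_unip_stab (g : GLFin F) : ∃ N : ℕ, 0 < N ∧ ∀ z ∈ integralAdele F,
    unip ((N : FinAdele F) * z) • (QuotientGroup.mk g : GLFin F ⧸ U.toSubgroup) =
      QuotientGroup.mk g := by
  obtain ⟨N, hN, hU⟩ := U.exists_principal
  obtain ⟨M, hM, hMi⟩ := Reduction.exists_denominator (fun p : Bool × Fin 2 × Fin 2 =>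
    if p.1 then g.val p.2.1 p.2.2 else (g⁻¹).val p.2.1 p.2.2)
  refine ⟨M * M * N, by positivity, fun z hz => ?_⟩
  show (QuotientGroup.mk (unip _ * g) : GLFin F ⧸ U.toSubgroup) = QuotientGroup.mk g
  refine ((QuotientGroup.eq).mpr ?_).symm
  rw [← mul_assoc]
  refine hU _ fun i j => ?_
  set t := z * (((M : FinAdele F) * (g⁻¹).val i 0) * ((M : FinAdele F) * g.val 1 j))
  have ht : t ∈ integralAdele F :=
    mul_mem hz (mul_mem (by simpa using hMi (false, i, 0)) (by simpa using hMi (true, 1, j)))
  refine ⟨t, ht, -t, neg_mem ht, ?_, ?_⟩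
  · rw [Kernel.conj_unip_val]; simp only [t]; push_cast; ring
  · rw [show (g⁻¹ * unip (((M * M * N : ℕ) : FinAdele F) * z) * g)⁻¹ =
        g⁻¹ * unip (-(((M * M * N : ℕ) : FinAdele F) * z)) * g by
      rw [_root_.mul_inv_rev, _root_.mul_inv_rev, inv_inv, ← AddChar.map_neg_eq_inv, ← mul_assoc],
      Kernel.conj_unip_val]
    simp only [t]; push_cast; ring

/-- Translations with bounded denominators give finitely many translates. -/
theorem finite_translates (g : GLFin F) (L : ℕ) :
    {c : GLFin F ⧸ U.toSubgroup | ∃ x : FinAdele F, 0 < L ∧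
      (L : FinAdele F) * x ∈ integralAdele F ∧ c = unip x • QuotientGroup.mk g}.Finite := by
  classical
  rcases Nat.eq_zero_or_pos L with rfl | hL
  · simp
  obtain ⟨N, hN, hstab⟩ := exists_unip_stab (U := U) g
  obtain ⟨κ, hκ, cls, hcls⟩ := Reduction.exists_residue (F := F) (L * N) (Nat.mul_pos hL hN)
  let pick : κ → GLFin F ⧸ U.toSubgroup := fun k =>
    if h : ∃ x : FinAdele F, (L : FinAdele F) * x ∈ integralAdele F ∧
      cls ((L : FinAdele F) * x) = k then unip h.choose • QuotientGroup.mk g else QuotientGroup.mk g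
  refine (Set.finite_range pick).subset ?_
  rintro c ⟨x, -, hx, rfl⟩
  have hk : ∃ x' : FinAdele F, (L : FinAdele F) * x' ∈ integralAdele F ∧
      cls ((L : FinAdele F) * x') = cls ((L : FinAdele F) * x) := ⟨x, hx, rfl⟩
  refine ⟨cls ((L : FinAdele F) * x), ?_⟩
  simp only [pick, dif_pos hk]
  obtain ⟨z, hz, hxz⟩ := hcls _ _ hx hk.choose_spec.1 hk.choose_spec.2.symm
  have hu : IsUnit (L : FinAdele F) := by
    rw [← map_natCast (finIncl F)]
    exact (isUnit_iff_ne_zero.mpr (Nat.cast_ne_zero.mpr hL.ne')).map _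
  have he : x = hk.choose + (N : FinAdele F) * z := hu.mul_left_cancel (by
    refine hxz.trans ?_; push_cast; ring)
  conv_rhs => rw [he, unip_add, mul_smul, hstab z hz]

/-! ### The fibre sum -/

variable (σ) (hU : ∀ g ∈ U.toSubgroup, glFinMap (σ : F →+* F) g ∈ U.toSubgroup) (h : HeckeFn U)

/-- Translating `c` turns `(c, n(u) σ c)` into a line. -/
theorem kernel_unip_line (g : GLFin F) (u x : FinAdele F) :
    h.kernel (unip x • (QuotientGroup.mk g : GLFin F ⧸ U.toSubgroup))
        (unip u • galFin σ U hU (unip x • QuotientGroup.mk g)) =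
      Kernel.lineFn h g (glFinMap (σ : F →+* F) g) (u + (finMap (σ : F →+* F) x - x)) := by
  rw [MulAction.Quotient.smul_mk, smul_eq_mul, galFin_mk, MulAction.Quotient.smul_mk, smul_eq_mul,
    HeckeFn.kernel_mk, map_mul, glFinMap_unip, _root_.mul_inv_rev, Kernel.lineFn, ← unip_neg]
  congr 1
  simp only [← mul_assoc]
  congr 1
  rw [mul_assoc g⁻¹, mul_assoc g⁻¹, ← unip_add, ← unip_add]
  congr 2
  ring

/-- The sum over the fibre of `c₀`. -/
def fibreFn (e e₀ : FinAdele F) (c₀ : GLFin F ⧸ U.toSubgroup) (u : FinAdele F) : ℂ :=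
  ∑' c : {c // lineClass (e - e₀) c = lineClass (e - e₀) c₀},
    h.kernel c.1 (unip u • galFin σ U hU c.1)

variable {σ}

/-- A coset in the fibre of the class of `g` is a translate of it. -/
theorem exists_translate_of_fibre {g : GLFin F} {c : GLFin F ⧸ U.toSubgroup} {E : FinAdele F}
    (hc : lineClass E c = lineClass E (QuotientGroup.mk g : GLFin F ⧸ U.toSubgroup)) :
    ∃ x : FinAdele F, E * x = x ∧ c = unip x • QuotientGroup.mk g := by
  obtain ⟨⟨_, x, hx, rfl⟩, rfl⟩ := Quotient.exact hc
  exact ⟨x, hx, rfl⟩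

theorem unip_smul_neg (x : FinAdele F) (c : GLFin F ⧸ U.toSubgroup) :
    unip x • unip (-x) • c = c := by
  rw [unip_neg, smul_inv_smul]

omit [NumberField F] in
theorem mul_neg_eq {R : Type*} [CommRing R] {E x : R} (hx : E * x = x) : E * -x = -x := by
  rw [mul_neg, hx]

/-- A translation along a fibre as a permutation. -/
def fibrePerm {E x : FinAdele F} (hx : E * x = x) (c₀ : GLFin F ⧸ U.toSubgroup) :
    {c // lineClass E c = lineClass E c₀} ≃ {c // lineClass E c = lineClass E c₀} where
  toFun c := ⟨unip x • c.1, (lineClass_smul _ hx c.1).trans c.2⟩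
  invFun c := ⟨unip (-x) • c.1, (lineClass_smul _
    (mul_neg_eq hx) c.1).trans c.2⟩
  left_inv _ := Subtype.ext (unip_neg_smul _ _)
  right_inv c := Subtype.ext (unip_smul_neg x c.1)

theorem tsum_fibre_translate {E x : FinAdele F} (hx : E * x = x) (c₀ : GLFin F ⧸ U.toSubgroup)
    (f : GLFin F ⧸ U.toSubgroup → ℂ) :
    ∑' c : {c // lineClass E c = lineClass E c₀}, f c.1 =
      ∑' c : {c // lineClass E c = lineClass E c₀}, f (unip x • c.1) :=
  ((fibrePerm hx c₀).tsum_eq fun c => f c.1).symm

variable (hσ : ∀ a, σ (σ (σ a)) = a) (ci : CuspIdem σ e e₀)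
include hσ ci

/-- The denominators of a translation in the support. -/
theorem exists_den_translate (g : GLFin F) :
    ∃ L L' : ℕ, 0 < L ∧ 0 < L' ∧ ∀ u x : FinAdele F, (e - e₀) * x = x →
      Kernel.lineFn h g (glFinMap (σ : F →+* F) g) (u + (finMap (σ : F →+* F) x - x)) ≠ 0 →
      (L : FinAdele F) * (u + (finMap (σ : F →+* F) x - x)) ∈ integralAdele F ∧
      ∀ M : ℕ, (M : FinAdele F) * u ∈ integralAdele F →
        ((L' * M : ℕ) : FinAdele F) * x ∈ integralAdele F := by
  obtain ⟨L, hL, hsupp⟩ := Kernel.exists_den_support h g (glFinMap (σ : F →+* F) g)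
  obtain ⟨D, hD, hDi⟩ := Reduction.exists_denominator
    (fun b : Bool => if b then e₀ else finMap (σ : F →+* F) e₀)
  refine ⟨L, D * L, hL, Nat.mul_pos hD hL, fun u x hx hne => ?_⟩
  have h1 := hsupp _ hne
  refine ⟨h1, fun M hM => ?_⟩
  set v := finMap (σ : F →+* F) x - x
  have hv : ((L * M : ℕ) : FinAdele F) * v ∈ integralAdele F := by
    rw [show ((L * M : ℕ) : FinAdele F) * v = (M : FinAdele F) * ((L : FinAdele F) * (u + v)) -
      (L : FinAdele F) * ((M : FinAdele F) * u) by push_cast; ring]
    exact sub_mem (mul_mem (natCast_mem _ _) h1) (mul_mem (natCast_mem _ _) hM)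
  have e0m : (D : FinAdele F) * e₀ ∈ integralAdele F := by simpa using hDi true
  have e1m : (D : FinAdele F) * finMap (σ : F →+* F) e₀ ∈ integralAdele F := by
    simpa using hDi false
  have hrec := CuspIdem.recover ci hσ hx
  have : ((D * L * M : ℕ) : FinAdele F) * x =
      finMap (σ : F →+* F) (finMap (σ : F →+* F)
        (((D : FinAdele F) * e₀) * (((L * M : ℕ) : FinAdele F) * v))) -
        ((D : FinAdele F) * finMap (σ : F →+* F) e₀) * (((L * M : ℕ) : FinAdele F) * v) := by
    conv_lhs => rw [hrec]
    simp only [map_mul, map_natCast]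
    push_cast
    ring
  rw [this]
  exact sub_mem (finMap_mem_integralAdele _ (finMap_mem_integralAdele _ (mul_mem e0m hv)))
    (mul_mem e1m hv)

/-- Finitely many points of a fibre carry a given translation. -/
theorem finite_fibre_support (c₀ : GLFin F ⧸ U.toSubgroup) (u : FinAdele F) :
    (Function.support fun c : {c // lineClass (e - e₀) c = lineClass (e - e₀) c₀} =>
      h.kernel c.1 (unip u • galFin σ U hU c.1)).Finite := by
  obtain ⟨g, rfl⟩ := QuotientGroup.mk_surjective c₀
  obtain ⟨L, L', hL, hL', hden⟩ := exists_den_translate h hσ ci g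
  obtain ⟨M, hM, hMu⟩ := Reduction.exists_natCast_mul_mem u
  refine ((finite_translates (U := U) g (L' * M)).preimage Subtype.val_injective.injOn).subset
    fun c hc => ?_
  obtain ⟨x, hx, hcx⟩ := exists_translate_of_fibre c.2
  rw [Function.mem_support, hcx, kernel_unip_line σ hU] at hc
  exact ⟨x, Nat.mul_pos hL' hM, (hden u x hx hc).2 M hMu, hcx⟩

theorem summable_fibre (c₀ : GLFin F ⧸ U.toSubgroup) (u : FinAdele F) :
    Summable fun c : {c // lineClass (e - e₀) c = lineClass (e - e₀) c₀} =>
      h.kernel c.1 (unip u • galFin σ U hU c.1) :=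
  summable_of_hasFiniteSupport (finite_fibre_support hU h hσ ci c₀ u)

variable {K : Type*} [Field K] [NumberField K] {ι : K →+* F}
  (hfix : ∀ x : F, σ x = x ↔ x ∈ Set.range ι) (hpow : σ ^ 3 = 1)
include hfix hpow

omit ci hσ in
/-- Integrality descends up to the degree. -/
theorem natCast_three_mul_mem {y : FinAdele K}
    (hy : Places.finExtend ι y ∈ integralAdele F) : (3 : FinAdele K) * y ∈ integralAdele K := by
  choose tr htr using PlaceMatching.exists_trace hfix hpow
  let t : F →+ K :=
    { toFun := tr
      map_zero' := ι.injective (by simp [htr])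
      map_add' := fun a b => ι.injective (by simp only [map_add, htr]; abel) }
  let T : FinAdele F →ₗ[ℤ] FinAdele K := TensorProduct.map t.toIntLinearMap LinearMap.id
  have hT : ∀ z : FinAdele K, T (Places.finExtend ι z) = 3 * z := fun z => by
    induction z using TensorProduct.induction_on with
    | zero => simp
    | tmul a b =>
      show tr (ι a) ⊗ₜ b = 3 * (a ⊗ₜ[ℤ] b)
      have e3 : tr (ι a) = 3 * a := ι.injective (by
        rw [htr, map_mul, map_ofNat]
        have e : σ (ι a) = ι a := (hfix _).mpr ⟨a, rfl⟩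
        rw [e, e]; ring)
      rw [e3, show (3 : FinAdele K) = finIncl K 3 from (map_ofNat (finIncl K) 3).symm,
        Reduction.finIncl_apply, Algebra.TensorProduct.tmul_mul_tmul, one_mul]
    | add a b ha hb => rw [map_add, map_add, ha, hb, mul_add]
  have hTi : ∀ z ∈ integralAdele F, T z ∈ integralAdele K := fun z hz => by
    obtain ⟨w, rfl⟩ := hz
    induction w using TensorProduct.induction_on with
    | zero => simp [zero_mem]
    | tmul o z =>
      have hi : IsIntegral ℤ (tr (o : F)) := by
        refine (isIntegral_algHom_iff ι.toIntAlgHom ι.injective).mp ?_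
        show IsIntegral ℤ (ι (tr (o : F)))
        rw [htr]
        exact (o.isIntegral_coe.add (o.isIntegral_coe.map (σ : F →+* F).toIntAlgHom)).add
          ((o.isIntegral_coe.map (σ : F →+* F).toIntAlgHom).map (σ : F →+* F).toIntAlgHom)
      exact tmul_mem_integralAdele (⟨tr (o : F), hi⟩ : 𝓞 K) z
    | add a b ha hb => rw [map_add, map_add]; exact add_mem ha hb
  rw [← hT]
  exact hTi _ hy

omit ci hσ hfix hpow in
theorem third_mul_three : finIncl F (3 : F)⁻¹ * 3 = 1 := by
  rw [← map_ofNat (finIncl F) 3, ← map_mul, inv_mul_cancel₀ (by norm_num), map_one]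

omit [NumberField F] [NumberField K] ci hσ hpow in
/-- The adeles of `K` are fixed by `σ`. -/
theorem finMap_finExtend_fixed (u : FinAdele K) :
    finMap (σ : F →+* F) (Places.finExtend ι u) = Places.finExtend ι u := by
  rw [Places.finMap_eq_finExtend, PlaceMatching.finExtend_finExtend,
    show (σ : F →+* F).comp ι = ι from RingHom.ext fun x => (hfix _).mpr ⟨x, rfl⟩]

omit ci in
/-- A bound on the denominator of `u / 3 + (σ x - x)` gives one for `u`. -/
theorem natCast_mul_mem_integralAdele {L : ℕ} {u : FinAdele K} {x : FinAdele F}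
    (h1 : (L : FinAdele F) * (finIncl F (3 : F)⁻¹ * Places.finExtend ι u +
      (finMap (σ : F →+* F) x - x)) ∈ integralAdele F) :
    ((3 * L : ℕ) : FinAdele K) * u ∈ integralAdele K := by
  set third := finIncl F (3 : F)⁻¹ with hthird
  set m := finMap (σ : F →+* F) with hm
  have hm3 : m third = third := by rw [hm, hthird, finMap_finIncl]; simp [map_ofNat]
  have h3 : third * 3 = 1 := third_mul_three
  have hext : m (Places.finExtend ι u) = Places.finExtend ι u := finMap_finExtend_fixed hfix u
  set v := third * Places.finExtend ι u + (m x - x) with hv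
  have htr : v + m v + m (m v) = Places.finExtend ι u := by
    simp only [hv, map_add, map_mul, map_sub, hext, hm3]
    have := finMap_iterate hσ x
    rw [← hm] at this
    rw [this]
    linear_combination (Places.finExtend ι u) * h3
  have hLu : Places.finExtend ι ((L : FinAdele K) * u) ∈ integralAdele F := by
    rw [map_mul, map_natCast, ← htr, mul_add, mul_add,
      show (L : FinAdele F) * m v = m ((L : FinAdele F) * v) by rw [map_mul, map_natCast],
      show (L : FinAdele F) * m (m v) = m (m ((L : FinAdele F) * v)) by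
        simp only [map_mul, map_natCast]]
    exact add_mem (add_mem h1 (finMap_mem_integralAdele _ h1))
      (finMap_mem_integralAdele _ (finMap_mem_integralAdele _ h1))
  rw [Nat.cast_mul, mul_assoc]
  exact natCast_three_mul_mem hfix hpow hLu

/-- A translation in `e` is a rational third plus `σ x - x` with `x` in `e - e₀`. -/
theorem exists_decomposition {s : FinAdele F} (hs : e * s = s) :
    ∃ (t : FinAdele K) (x : FinAdele F), (e - e₀) * x = x ∧
      finIncl F (3 : F)⁻¹ * Places.finExtend ι t + (finMap (σ : F →+* F) x - x) = s := by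
  set m := finMap (σ : F →+* F) with hm
  set third := finIncl F (3 : F)⁻¹ with hthird
  have hm3 : m third = third := by rw [hm, hthird, finMap_finIncl]; simp [map_ofNat]
  have hfixed : m (s + m s + m (m s)) = s + m s + m (m s) := by
    rw [map_add, map_add, hm, finMap_iterate hσ]
    abel
  obtain ⟨t, ht⟩ := PlaceMatching.exists_finExtend_eq hfix hpow hfixed
  have hes : ∀ y : FinAdele F, e * y = y → e * m y = m y := fun y hy => by
    conv_lhs => rw [← ci.fixed]
    rw [← map_mul, hy]
  have e2 := hes _ hs
  have e3 := hes _ e2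
  have h3 : third * 3 = 1 := third_mul_three
  have hext := finMap_finExtend_fixed (σ := σ) hfix t
  rw [← hm] at hext
  obtain ⟨x, hx, hxy⟩ := CuspIdem.solve ci hσ (y := s - third * Places.finExtend ι t)
    (by rw [ht]; linear_combination (1 - third) * hs - third * e2 - third * e3)
    (by
      simp only [map_sub, map_mul, ← hm, hext, hm3]
      linear_combination -(Places.finExtend ι t) * h3 - ht)
  refine ⟨t, x, hx, ?_⟩
  rw [← hm] at hxy
  rw [hxy]
  ring

omit hfix hpow in
/-- The cusp condition averages the fibre sum to zero. -/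
theorem fibreFn_average (g : GLFin F) (S : Finset (FinAdele F))
    (hzero : ∀ c, ∑ s ∈ S, h.toFun (g⁻¹ * unip s * c) = 0) (us xs : S → FinAdele F)
    (hxs : ∀ s, (e - e₀) * xs s = xs s) (v : FinAdele F)
    (hus : ∀ s : S, us s + (finMap (σ : F →+* F) (xs s) - xs s) = (s : FinAdele F) + v) :
    ∑ s, fibreFn σ hU h e e₀ (QuotientGroup.mk g) (us s) = 0 := by
  have htr : ∀ s : S, fibreFn σ hU h e e₀ (QuotientGroup.mk g) (us s) =
      ∑' c : {c // lineClass (e - e₀) c =
          lineClass (e - e₀) (QuotientGroup.mk g : GLFin F ⧸ U.toSubgroup)},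
        h.kernel (unip (xs s) • c.1) (unip (us s) • galFin σ U hU (unip (xs s) • c.1)) := fun s =>
          by
    unfold fibreFn
    exact tsum_fibre_translate (U := U) (hxs s) (QuotientGroup.mk g)
      (fun c => h.kernel c (unip (us s) • galFin σ U hU c))
  simp only [htr]
  rw [← Summable.tsum_finsetSum fun s _ => ?_]
  · refine (tsum_congr fun c => ?_).trans tsum_zero
    obtain ⟨x, hx, hcx⟩ := exists_translate_of_fibre c.2
    have e1 : ∀ s : S, h.kernel (unip (xs s) • c.1)
        (unip (us s) • galFin σ U hU (unip (xs s) • c.1)) =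
        h.toFun (g⁻¹ * unip (s : FinAdele F) *
          (unip (v + (finMap (σ : F →+* F) x - x)) * glFinMap (σ : F →+* F) g)) := fun s => by
      rw [hcx, smul_smul (unip (xs s)) (unip x), ← unip_add, kernel_unip_line σ hU, Kernel.lineFn,
        map_add, show us s + (finMap (σ : F →+* F) (xs s) + finMap (σ : F →+* F) x - (xs s + x)) =
          (s : FinAdele F) + (v + (finMap (σ : F →+* F) x - x)) by linear_combination hus s]
      simp only [unip_add, mul_assoc]
    exact (Finset.sum_congr rfl fun s _ => e1 s).trans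
      ((Finset.sum_coe_sort S fun s => h.toFun (g⁻¹ * unip s *
        (unip (v + (finMap (σ : F →+* F) x - x)) * glFinMap (σ : F →+* F) g))).trans (hzero _))
  · have hs := (fibrePerm (U := U) (hxs s) (QuotientGroup.mk g)).summable_iff.mpr
      (summable_fibre hU h hσ ci (QuotientGroup.mk g : GLFin F ⧸ U.toSubgroup) (us s))
    exact hs

/-- **The fibre sum is balanced on the adeles of `K`.** -/
theorem isBalancedFn_fibreFn (hc : HasCuspConditionAt h e) (c₀ : GLFin F ⧸ U.toSubgroup) :
    IsBalancedFn fun u : FinAdele K =>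
      fibreFn σ hU h e e₀ c₀ (finIncl F (3 : F)⁻¹ * Places.finExtend ι u) := by
  obtain ⟨g, rfl⟩ := QuotientGroup.mk_surjective c₀
  set third := finIncl F (3 : F)⁻¹ with hthird
  have h3 : third * 3 = 1 := third_mul_three
  set m := finMap (σ : F →+* F) with hm
  refine ⟨?_, ?_, ?_⟩
  · obtain ⟨N, hN, hper⟩ := Kernel.exists_period h g (glFinMap (σ : F →+* F) g)
    refine ⟨3 * N, by positivity, fun u z hz => tsum_congr fun c => ?_⟩
    obtain ⟨x, hx, hcx⟩ := exists_translate_of_fibre c.2
    rw [hcx, kernel_unip_line σ hU, kernel_unip_line σ hU,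
      show third * Places.finExtend ι (u + ((3 * N : ℕ) : FinAdele K) * z) + (m x - x) =
        third * Places.finExtend ι u + (m x - x) + (N : FinAdele F) * Places.finExtend ι z by
        rw [map_add, map_mul, map_natCast]
        push_cast
        linear_combination ((N : FinAdele F) * Places.finExtend ι z) * h3]
    exact hper _ _ (Places.finExtend_mem_integralAdele ι hz)
  · obtain ⟨L, L', hL, -, hden⟩ := exists_den_translate h hσ ci g
    refine ⟨3 * L, by positivity, fun u hne => ?_⟩
    obtain ⟨c, hcne⟩ : ∃ c, h.kernel (c : {c // lineClass (e - e₀) c =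
        lineClass (e - e₀) (QuotientGroup.mk g : GLFin F ⧸ U.toSubgroup)}).1
        (unip (third * Places.finExtend ι u) • galFin σ U hU c.1) ≠ 0 := by
      by_contra hall
      push Not at hall
      exact hne ((tsum_congr hall).trans tsum_zero)
    obtain ⟨x, hx, hcx⟩ := exists_translate_of_fibre c.2
    rw [hcx, kernel_unip_line σ hU] at hcne
    exact natCast_mul_mem_integralAdele hσ hfix hpow (hden _ x hx hcne).1
  · obtain ⟨S, hS, hSe, hzero⟩ := hc g
    choose t xs hxs hts using fun s : S =>
      exists_decomposition hσ ci hfix hpow (hSe s.1 s.2)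
    obtain ⟨n, hn⟩ : ∃ n, S.card = n + 1 :=
      ⟨S.card - 1, (Nat.succ_pred_eq_of_pos hS.card_pos).symm⟩
    let ei : Fin (n + 1) ≃ S := (finCongr hn.symm).trans S.equivFin.symm
    refine ⟨n, fun i => t (ei i), fun u => ?_⟩
    rw [ei.sum_comp (fun s : S =>
      fibreFn σ hU h e e₀ (QuotientGroup.mk g) (third * Places.finExtend ι (u + t s)))]
    refine fibreFn_average hU h hσ ci g S hzero _ xs hxs (third * Places.finExtend ι u) fun s => ?_
    rw [← hts s, hthird, map_add]
    ring

end Fermat.Agent.LT.Geometric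

end
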