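import Fermat.Agent.LT.Geometric.UnipotentBundle
import Fermat.Agent.LT.Geometric.Band
import Fermat.Agent.LT.Geometric.CutoffFinite
import Fermat.Agent.LT.Geometric.Arch

/-!
# Unipotent classes high in a cusp

High in a cusp a nonzero unipotent term forces the upper triangular cusp; near the diagonal the
height upstairs is bounded by the cube of the height over the place of the base field.
-/

set_option autoImplicit false

noncomputable section

open MeasureTheory
open NumberField (InfinitePlace)

namespace Fermat.Agent.LT.Geometric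

section High

variable {F : Type*} [Field F] [NumberField F] {U : Level F}

/-- The high tops form a measurable set. -/
theorem measurableSet_isHighTop {R : Finset (GLFin F)} {T : ℝ} :
    MeasurableSet {y : Y U | IsHighTop R T y} := by
  have : Countable (GL (Fin 2) F) := by
    have : Countable F := (Module.finBasis ℚ F).equivFun.injective.countable
    have : Countable (Matrix (Fin 2) (Fin 2) F) := inferInstanceAs (Countable (Fin 2 → Fin 2 → F))
    exact Function.Injective.countable (f := fun g : GL (Fin 2) F => g.val) Units.val_injective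
  rw [show {y : Y U | IsHighTop R T y} = ⋃ (γ : GL (Fin 2) F) (_ : Reduction.IsUpper γ),
      {y | InReps R (γ • y) ∧ T < Reduction.height (γ • y)} by ext; simp [IsHighTop, and_left_comm]]
  exact MeasurableSet.iUnion fun γ => MeasurableSet.iUnion fun _ => measurableSet_inReps γ

/-- A high top is high. -/
theorem IsHighTop.isHigh {R : Finset (GLFin F)} {T : ℝ} {y : Y U} (h : IsHighTop R T y) :
    IsHigh R T y := by
  obtain ⟨γ, -, h⟩ := h
  exact ⟨γ, h⟩

omit [NumberField F] in
theorem glMap_unip (σ : F ≃+* F) (a : F) :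
    CubicDescent.glMap σ (unip a) = unip (σ a) := by
  ext i j
  fin_cases i <;> fin_cases j <;> simp [Matrix.GeneralLinearGroup.upperRightHom_apply]

theorem norm_mk_unip (σ : F ≃+* F) (a : F) :
    (Twisted.mk (pglAut σ) (QuotientGroup.mk (unip a))).norm =
      (QuotientGroup.mk (unip (a + (σ a + σ (σ a)))) : PGLIndex F) := by
  rw [norm_mk]
  congr 1
  simp only [CubicDescent.twistedNorm, map_one, mul_one, glMap_unip,
    ← AddChar.map_add_eq_mul, map_add]

omit [NumberField F] in
/-- A conjugator of a nontrivial unipotent into the upper triangular group is upper. -/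
theorem upper_of_mk_unip {γ N : GL (Fin 2) F} {b : F}
    (e : (QuotientGroup.mk N : PGLIndex F) = QuotientGroup.mk (unip b)) (hb : b ≠ 0)
    (hu : Reduction.IsUpper (γ * N * γ⁻¹)) : Reduction.IsUpper γ := by
  refine upper_of_unipotent (upper_conj_of_mk_eq e.symm hu) ?_ ?_ ?_ <;>
    simp [Matrix.GeneralLinearGroup.upperRightHom_apply, hb]

end High

variable {F K : Type*} [Field F] [NumberField F] [Field K] [NumberField K] {U : Level F}
  {ι : K →+* F} {σ : F ≃+* F}

omit [NumberField K] in
/-- The norm of `n(ξ/3)` is `n(ξ)`. -/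
theorem norm_unipDelta (hc : IsCubic ι σ) (ξ : K) :
    (unipDelta ι σ ξ).norm = (QuotientGroup.mk (unip (ι ξ)) : PGLIndex F) := by
  have h : σ (ι ξ / 3) = ι ξ / 3 := by rw [map_div₀, map_ofNat, (hc.fixed _).mpr ⟨ξ, rfl⟩]
  rw [unipDelta, norm_mk_unip, h, h]
  congr 2
  ring

omit [NumberField K] in
/-- High in a cusp a unipotent term forces the top cusp. -/
theorem exists_top_of_high_unip [NumberField.IsTotallyComplex F] (hc : IsCubic ι σ)
    (hU : ∀ g ∈ U.toSubgroup, glFinMap (σ : F →+* F) g ∈ U.toSubgroup)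
    (k : Kernel.PointKer F) (h : HeckeFn U) (R : Finset (GLFin F)) :
    ∃ T₀ : ℝ, ∀ T, T₀ ≤ T → ∀ (ξ : Kˣ) (x : Y U),
      term σ hU k h (unipDelta ι σ (ξ : K)) x ≠ 0 → (IsHigh R T x ↔ IsHighTop R T x) := by
  obtain ⟨T₀, h₀⟩ := exists_fixed_of_high U σ hU k h hc.pow R
  refine ⟨T₀, fun T hT ξ x hne => ⟨fun ⟨γ, hγ, hlt⟩ => ⟨γ, ?_, hγ, hlt⟩, IsHighTop.isHigh⟩⟩
  obtain ⟨N, hN, hu⟩ := h₀ _ x γ hne hγ (hT.trans_lt hlt)
  exact upper_of_mk_unip (hN.trans (norm_unipDelta hc _))
    (by simp) hu

/-- The untwisted counterpart. -/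
theorem exists_top_of_high_unip_refl [NumberField.IsTotallyComplex K] {V : Level K}
    (k : Kernel.PointKer K) (h : HeckeFn V) (R : Finset (GLFin K)) :
    ∃ T₀ : ℝ, ∀ T, T₀ ≤ T → ∀ (ξ : Kˣ) (x : Y V),
      term (RingEquiv.refl K) (refl_stable V) k h
        (Twisted.mk _ (QuotientGroup.mk (unip (ξ : K)))) x ≠ 0 →
      (IsHigh R T x ↔ IsHighTop R T x) := by
  obtain ⟨T₀, h₀⟩ := exists_fixed_of_high V (RingEquiv.refl K) (refl_stable V) k h
    (one_pow 3) R
  refine ⟨T₀, fun T hT ξ x hne => ⟨fun ⟨γ, hγ, hlt⟩ => ⟨γ, ?_, hγ, hlt⟩, IsHighTop.isHigh⟩⟩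
  obtain ⟨N, hN, hu⟩ := h₀ _ x γ hne hγ (hT.trans_lt hlt)
  refine upper_of_mk_unip (hN.trans (norm_mk_unip _ _)) ?_ hu
  have h3 : (3 : K) ≠ 0 := by norm_num
  intro h0
  exact mul_ne_zero h3 ξ.ne_zero (by
    rw [show (3 : K) * (ξ : K) = (ξ : K) + ((ξ : K) + (ξ : K)) by ring]
    simpa using h0)

variable {φ₀ : F →+* ℂ}

/-- Points within bounded distance have comparable heights. -/
theorem tc_le_of_cdist {P Q : H3} {R : ℝ} (h : H3.cdist P Q ≤ R) :
    H3.tc Q ≤ 2 * R * H3.tc P := by
  have hp := H3.tc_pos P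
  have hq := H3.tc_pos Q
  rw [H3.cdist_eq, div_le_iff₀ (by positivity)] at h
  have := Complex.normSq_nonneg (H3.zc P - H3.zc Q)
  by_contra hlt
  push Not at hlt
  nlinarith [mul_lt_mul_of_pos_right hlt hq, sq_nonneg (H3.tc P)]

omit [NumberField K] in
/-- Near the diagonal the height is bounded by a cube. -/
theorem height_le_of_nearDiag (hc : IsCubic ι σ)
    (hcomplex : ¬ NumberField.ComplexEmbedding.IsReal (φ₀.comp ι))
    (hone : ∀ v : InfinitePlace K, v = InfinitePlace.mk (φ₀.comp ι))
    {P : InfinitePlace F → H3} {R : ℝ} (hP : P ∈ nearDiag φ₀ σ R) (c : GLFin F ⧸ U.toSubgroup) :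
    Reduction.height ((P, c) : Y U) ≤ (2 * R * H3.tc (atEmb φ₀ P)) ^ 3 := by
  rw [Reduction.height,
    ← (Equiv.ofBijective _ (bijective_placeOver hc hcomplex hone)).prod_comp]
  calc ∏ i : Fin 3, H3.tc (P (placeOver φ₀ σ i))
      ≤ ∏ _i : Fin 3, 2 * R * H3.tc (atEmb φ₀ P) := by
        refine Finset.prod_le_prod (fun i _ => (H3.tc_pos _).le) fun i _ => ?_
        rw [placeOver, ← tc_atEmb]
        exact tc_le_of_cdist (hP i)
    _ = _ := by simp

/-- A totally complex field with one infinite place has degree two. -/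
theorem finrank_eq_two [NumberField.IsTotallyComplex K] [Unique (InfinitePlace K)] :
    Module.finrank ℚ K = 2 := by
  have h1 := InfinitePlace.card_eq_nrRealPlaces_add_nrComplexPlaces K
  have h2 := InfinitePlace.card_add_two_mul_card_eq_rank K
  rw [Fintype.card_unique, NumberField.IsTotallyComplex.nrRealPlaces_eq_zero] at h1
  rw [NumberField.IsTotallyComplex.nrRealPlaces_eq_zero] at h2
  omega

/-- With one infinite place the height is the height at that place. -/
theorem height_unique [Unique (InfinitePlace K)] {V : Level K} (y : Y V) :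
    Reduction.height y = H3.tc (y.1 default) :=
  Fintype.prod_unique _

end Fermat.Agent.LT.Geometric

end
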